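/-
TW-W, piece W-gr (helper65), part 4: INERTIA in the language of the norm of `ℚ̄_p`.

* `wgr_dense`      : `ι(ℚ̄)` is dense in `ℚ̄_p` (`ι = padicEmbedding p`);
* `wgr_inert_iff`  (Gr-inert) : `τ ∈ inertiaQ p ↔ ∀ z, ‖z‖ ≤ 1 → ‖τ z - z‖ < 1`;
* `wgr_inert_scale`: `τ` inertial, `‖x‖ ≤ ‖y‖`, `τ y = y` ⇒ `‖τ x - x‖ < ‖y‖` (`y ≠ 0`);
* `wgr_theta`      (Gr-theta) : `σ` inertial, `‖x‖ ≤ ‖π‖ ^ t` ⇒ `‖σ x - (σ π / π) ^ t * x‖ < ‖π‖ ^ t`.
-/
import Fermat.Agent.TW.W.GrNorm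
import Fermat.Agent.TW.L.Plan
import Fermat.Agent.PT.B.NormalClosure
import Fermat.Agent.PT.B.Krasner

set_option autoImplicit false
set_option linter.unusedSectionVars false
set_option linter.style.haveILetI false

namespace Fermat.Agent.TW.W

open Fermat.Agent.PT.L Fermat.Agent.PT.B Fermat.Agent.TW.L Polynomial

section Inert

variable (p : ℕ) [Fact p.Prime]

/-- `ι(ℚ̄)` is dense in `ℚ̄_p`. -/
theorem wgr_dense (a : PadicAlgCl p) {δ : ℝ} (δpos : 0 < δ) :
    ∃ b₀ : AlgebraicClosure ℚ, ‖a - padicEmbedding p b₀‖ < δ := by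
  have hint : IsIntegral ℚ_[p] a := (PadicAlgCl.isAlgebraic p).isAlgebraic a |>.isIntegral
  set f : Polynomial ℚ_[p] := minpoly ℚ_[p] a with hf
  have fmon : f.Monic := minpoly.monic hint
  have firr : Irreducible f := minpoly.irreducible hint
  have fa0 : Polynomial.aeval a f = 0 := minpoly.aeval _ _
  have fnatdeg0 : f.natDegree ≠ 0 := (Irreducible.natDegree_pos firr).ne'
  have hε : (δ / (max ‖a‖ 1)) ^ f.natDegree / (f.natDegree + 1) > 0 := by positivity
  have hi : DenseRange (algebraMap ℚ ℚ_[p]) := Padic.denseRange_ratCast p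
  obtain ⟨g, gmon, gdeg, gcoeff⟩ :=
    exists_monic_and_natDegree_eq_and_norm_map_algebraMap_coeff_sub_lt hi fmon hε
  obtain ⟨b, hb, hab⟩ := exists_aroots_norm_sub_lt_of_norm_coeff_sub_lt
      (L := PadicAlgCl p) hε fa0 fmon (gmon.map _) (gdeg ▸ (g.natDegree_map _)) gcoeff
      (IsAlgClosed.splits _)
  have hab : ‖a - b‖ < δ := by
    rw [← Real.rpow_natCast, ← mul_comm_div, div_self, one_mul,
        ← Real.rpow_mul (div_pos δpos (by positivity)).le, mul_inv_cancel₀] at hab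
    · simpa [mul_assoc, div_mul_cancel₀ _ (by positivity : (max ‖a‖ 1) > 0).ne'] using hab
    · simp [fnatdeg0]
    · positivity
  simp only [Polynomial.mem_roots', ne_eq, Polynomial.map_eq_zero, Polynomial.IsRoot.def,
    Polynomial.eval_map_algebraMap] at hb
  have hgb : Polynomial.aeval b g = 0 := by
    have := hb.2
    rwa [Polynomial.aeval_map_algebraMap] at this
  obtain ⟨b₀, -, hb₀⟩ := kras_root_mem_range p g gmon.ne_zero b hgb
  exact ⟨b₀, by rw [hb₀]; exact hab⟩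

/-- membership in the maximal ideal of `padicPlace p`, in terms of the norm -/
theorem wgr_mem_nonunits_iff (x : AlgebraicClosure ℚ) :
    x ∈ (padicPlace p).nonunits ↔ ‖padicEmbedding p x‖ < 1 := by
  rw [ValuationSubring.mem_nonunits_iff_or]
  constructor
  · rintro (rfl | h)
    · simp
    · rw [mem_padicPlace_iff, map_inv₀, nnnorm_inv, not_le] at h
      have hx : padicEmbedding p x ≠ 0 := by
        intro h0
        rw [h0, nnnorm_zero, inv_zero] at h
        exact absurd h (by simp)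
      have h2 : (1 : ℝ) < ‖padicEmbedding p x‖⁻¹ := by exact_mod_cast h
      have h3 : 0 < ‖padicEmbedding p x‖ := norm_pos_iff.2 hx
      rw [one_lt_inv₀ h3] at h2
      exact h2
  · intro h
    rcases eq_or_ne x 0 with rfl | hx
    · exact Or.inl rfl
    · right
      rw [mem_padicPlace_iff, map_inv₀, nnnorm_inv, not_le]
      have hx' : padicEmbedding p x ≠ 0 := by
        intro h0
        exact hx ((padicEmbedding p).toRingHom.injective (h0.trans (map_zero _).symm))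
      have h3 : 0 < ‖padicEmbedding p x‖ := norm_pos_iff.2 hx'
      have h2 : (1 : ℝ) < ‖padicEmbedding p x‖⁻¹ := by
        rw [one_lt_inv₀ h3]
        exact h
      exact_mod_cast h2

theorem wgr_mem_padicPlace_iff (x : AlgebraicClosure ℚ) :
    x ∈ padicPlace p ↔ ‖padicEmbedding p x‖ ≤ 1 := by
  rw [mem_padicPlace_iff]
  exact Iff.rfl

/-- `Gal(ℚ̄_p/ℚ_p)` acts by isometries -/
theorem wgr_norm_map (τ : GQq p) (y : PadicAlgCl p) : ‖τ y‖ = ‖y‖ :=
  congrArg (fun r : NNReal => (r : ℝ)) (nnnorm_padicAlgCl_algEquiv p τ y)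

/-- the ultrametric inequality in `ℚ̄_p`, in the form we use -/
theorem wgr_norm_add_le (x y : PadicAlgCl p) : ‖x + y‖ ≤ max ‖x‖ ‖y‖ :=
  PadicAlgCl.isNonarchimedean p x y

theorem wgr_norm_sub_le (x y : PadicAlgCl p) : ‖x - y‖ ≤ max ‖x‖ ‖y‖ := by
  have := wgr_norm_add_le p x (-y)
  rwa [← sub_eq_add_neg, norm_neg] at this

/-- **(Gr-inert)**: the inertia subgroup of `G_{ℚ_p}` (defined through the global place
`padicPlace p`) is the group of automorphisms acting trivially on the residue field of `ℚ̄_p`. -/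
theorem wgr_inert_iff (τ : GQq p) :
    τ ∈ inertiaQ p ↔ ∀ z : PadicAlgCl p, ‖z‖ ≤ 1 → ‖τ z - z‖ < 1 := by
  rw [mem_inertiaQ, mem_inertiaSubgroupIn_iff]
  constructor
  · rintro ⟨-, h⟩ z hz
    obtain ⟨b₀, hb₀⟩ := wgr_dense p z (δ := 1) one_pos
    have hb1 : ‖padicEmbedding p b₀‖ ≤ 1 := by
      have h1 : padicEmbedding p b₀ = z - (z - padicEmbedding p b₀) := by ring
      rw [h1]
      exact (wgr_norm_sub_le p _ _).trans (max_le hz hb₀.le)
    have h2 := h b₀ ((wgr_mem_padicPlace_iff p b₀).2 hb1)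
    rw [wgr_mem_nonunits_iff, map_sub, padicEmbedding_localGaloisToGlobal] at h2
    have h3 : τ z - z = (τ (z - padicEmbedding p b₀) - (z - padicEmbedding p b₀))
        + (τ (padicEmbedding p b₀) - padicEmbedding p b₀) := by
      rw [map_sub]; ring
    rw [h3]
    refine lt_of_le_of_lt (wgr_norm_add_le p _ _) (max_lt ?_ h2)
    refine lt_of_le_of_lt (wgr_norm_sub_le p _ _) (max_lt ?_ hb₀)
    rw [wgr_norm_map]
    exact hb₀
  · intro h
    refine ⟨localGaloisToGlobal_mem_decompositionSubgroup p τ, fun x hx => ?_⟩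
    rw [wgr_mem_nonunits_iff, map_sub, padicEmbedding_localGaloisToGlobal]
    exact h _ ((wgr_mem_padicPlace_iff p x).1 hx)

/-- inertia acts trivially modulo `y 𝔪` on `y 𝒪` when `y` is fixed -/
theorem wgr_inert_scale {τ : GQq p} (hτ : τ ∈ inertiaQ p) {x y : PadicAlgCl p} (hy : y ≠ 0)
    (hτy : τ y = y) (hxy : ‖x‖ ≤ ‖y‖) : ‖τ x - x‖ < ‖y‖ := by
  have hy0 : 0 < ‖y‖ := norm_pos_iff.2 hy
  have h1 : ‖x / y‖ ≤ 1 := by
    rw [norm_div]
    exact div_le_one_of_le₀ hxy (norm_nonneg _)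
  have h2 := (wgr_inert_iff p τ).1 hτ (x / y) h1
  have h3 : τ x - x = y * (τ (x / y) - x / y) := by
    rw [map_div₀, hτy]
    field_simp
  rw [h3, norm_mul]
  calc ‖y‖ * ‖τ (x / y) - x / y‖ < ‖y‖ * 1 := by
        exact mul_lt_mul_of_pos_left h2 hy0
    _ = ‖y‖ := mul_one _

/-- **(Gr-theta)**: for `σ` inertial and `π ≠ 0`: `σ` acts on `π^t 𝒪 / π^t 𝔪` through
multiplication by `(σ π / π) ^ t`. -/
theorem wgr_theta {σ : GQq p} (hσ : σ ∈ inertiaQ p) {π x : PadicAlgCl p} (hπ : π ≠ 0) (t : ℕ)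
    (hx : ‖x‖ ≤ ‖π‖ ^ t) : ‖σ x - (σ π / π) ^ t * x‖ < ‖π‖ ^ t := by
  have hπ0 : 0 < ‖π‖ := norm_pos_iff.2 hπ
  have hπt : π ^ t ≠ 0 := pow_ne_zero _ hπ
  have h1 : ‖x / π ^ t‖ ≤ 1 := by
    rw [norm_div, norm_pow]
    exact div_le_one_of_le₀ hx (by positivity)
  have h2 := (wgr_inert_iff p σ).1 hσ (x / π ^ t) h1
  have hσπ : ‖σ π‖ = ‖π‖ := wgr_norm_map p σ π
  have h3 : σ x - (σ π / π) ^ t * x = (σ π) ^ t * (σ (x / π ^ t) - x / π ^ t) := by
    rw [map_div₀, map_pow]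
    have : σ π ≠ 0 := by rwa [Ne, map_eq_zero_iff _ σ.injective]
    rw [div_pow]
    field_simp
  rw [h3, norm_mul, norm_pow, hσπ]
  calc ‖π‖ ^ t * ‖σ (x / π ^ t) - x / π ^ t‖ < ‖π‖ ^ t * 1 := by
        exact mul_lt_mul_of_pos_left h2 (by positivity)
    _ = ‖π‖ ^ t := mul_one _

end Inert

end Fermat.Agent.TW.W
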