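/-
TW-W, block (GB) (helper67): the FROBENIUS dictionary in the language of the norm of `ℚ̄_p`
(companion of `wgr_inert_iff`, `TW/W/GrInert.lean`).

* `wgr_pow_sub_pow_lt` : `‖b‖, ‖z‖ ≤ 1`, `‖b - z‖ < 1` ⇒ `‖b ^ n - z ^ n‖ < 1`;
* `wgr_frob_dict` (F-dict) : `IsFrobQ p φ`, `‖z‖ ≤ 1` ⇒ `‖φ z - z ^ p‖ < 1`;
* `wgr_inertiaQ_normal` : `inertiaQ p` is a normal subgroup of `G_p`.
-/
import Fermat.Agent.TW.W.GrInert
import Fermat.Agent.Cheb.Glue

set_option autoImplicit false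
set_option linter.unusedSectionVars false
set_option linter.style.haveILetI false

namespace Fermat.Agent.TW.W

open Fermat.Agent.PT.L Fermat.Agent.PT.B Fermat.Agent.TW.L

section Frob

variable (p : ℕ) [Fact p.Prime]

theorem wgr_pow_sub_pow_lt {b z : PadicAlgCl p} (hb : ‖b‖ ≤ 1) (hz : ‖z‖ ≤ 1)
    (hbz : ‖b - z‖ < 1) (n : ℕ) : ‖b ^ n - z ^ n‖ < 1 := by
  induction n with
  | zero => simp
  | succ n ih =>
    have e : b ^ (n + 1) - z ^ (n + 1) = b * (b ^ n - z ^ n) + (b - z) * z ^ n := by ring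
    rw [e]
    refine lt_of_le_of_lt (wgr_norm_add_le p _ _) (max_lt ?_ ?_)
    · rw [norm_mul]
      calc ‖b‖ * ‖b ^ n - z ^ n‖ ≤ 1 * ‖b ^ n - z ^ n‖ :=
            mul_le_mul_of_nonneg_right hb (norm_nonneg _)
        _ < 1 := by rw [one_mul]; exact ih
    · rw [norm_mul, norm_pow]
      calc ‖b - z‖ * ‖z‖ ^ n ≤ ‖b - z‖ * 1 :=
            mul_le_mul_of_nonneg_left (pow_le_one₀ (norm_nonneg _) hz) (norm_nonneg _)
        _ < 1 := by rw [mul_one]; exact hbz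

/-- **(F-dict)**: a Frobenius element of `G_p` acts as `z ↦ z ^ p` on the residue field of
`ℚ̄_p`. -/
theorem wgr_frob_dict {φ : GQq p} (hφ : IsFrobQ p φ) (z : PadicAlgCl p) (hz : ‖z‖ ≤ 1) :
    ‖φ z - z ^ p‖ < 1 := by
  obtain ⟨b₀, hb₀⟩ := wgr_dense p z (δ := 1) one_pos
  have hb1 : ‖padicEmbedding p b₀‖ ≤ 1 := by
    have h1 : padicEmbedding p b₀ = z - (z - padicEmbedding p b₀) := by ring
    rw [h1]
    exact (wgr_norm_sub_le p _ _).trans (max_le hz hb₀.le)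
  have h2 := Fermat.Agent.Cheb.sub_pow_mem_nonunits_of_isFrobeniusAt (padicPlace p)
    (localGaloisToGlobal p φ) p hφ b₀ ((wgr_mem_padicPlace_iff p b₀).2 hb1)
  rw [wgr_mem_nonunits_iff, map_sub, padicEmbedding_localGaloisToGlobal, map_pow] at h2
  have hbz : ‖padicEmbedding p b₀ - z‖ < 1 := by
    rw [← norm_neg, neg_sub]
    exact hb₀
  have h3 : φ z - z ^ p = (φ (z - padicEmbedding p b₀))
      + ((φ (padicEmbedding p b₀) - padicEmbedding p b₀ ^ p)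
        + (padicEmbedding p b₀ ^ p - z ^ p)) := by
    rw [map_sub]; ring
  rw [h3]
  refine lt_of_le_of_lt (wgr_norm_add_le p _ _) (max_lt ?_ ?_)
  · rw [wgr_norm_map]
    exact hb₀
  · exact lt_of_le_of_lt (wgr_norm_add_le p _ _)
      (max_lt h2 (wgr_pow_sub_pow_lt p hb1 hz hbz p))

/-- `inertiaQ p` is normal in `G_p`. -/
theorem wgr_inertiaQ_normal : (inertiaQ p).Normal := by
  constructor
  intro τ hτ γ
  rw [wgr_inert_iff] at hτ ⊢
  intro z hz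
  have h1 : ‖γ⁻¹ z‖ ≤ 1 := by rw [wgr_norm_map]; exact hz
  have h2 := hτ (γ⁻¹ z) h1
  have h3 : (γ * τ * γ⁻¹) z - z = γ (τ (γ⁻¹ z) - γ⁻¹ z) := by
    rw [map_sub]
    have h4 : γ (γ⁻¹ z) = z := by
      have : (γ * γ⁻¹) z = z := by rw [mul_inv_cancel]; rfl
      exact this
    rw [h4]
    rfl
  rw [h3, wgr_norm_map]
  exact h2

end Frob

end Fermat.Agent.TW.W
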