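/-
TW-W (S56, the FLAT local bound "W-flat") — INTERFACE FILE of the sub-captain (helper74).
Project TW = Taylor–Wiles primes (S56), captain helper63, plan NOTES/S56-plan.md §5; route and
piece table: NOTES/TW-W.md.  Definitions and statements only.

Every `Stmt…` below is a `Prop`; the piece `X` is DONE when `theorem stmtX : StmtX` (or
`stmtX_of : deps → StmtX`) is landed, sorry-free, in its own file `Fermat/Agent/TW/W/<File>.lean`,
namespace `Fermat.Agent.TW.W`, private names prefixed by the piece id.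

SHAPE OF THE PROOF.  `L_p^{flat} := flatH1 p D` = the `𝔽_p`-span of the classes `res_p [c]` of the
flat deformations of `ρ̄` to `k[ε]` (so "S-flat" is trivial: `flatClass_mem_flatH1`), and

  `StmtWFlat`  ⇐  `StmtAdd` (flat classes are closed under addition: Baer sum + W1-SQ)
               +  `StmtBridge` (a flat deformation satisfies the GALOIS-THEORETIC necessary
                   conditions `PLev`, `PEt1`, `PEt2`;  from `StmtLev`, `StmtEt1`, `StmtEt2`)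
               +  `StmtCount` (PURE local Galois theory: an additively closed set of classes whose
                   cocycles satisfy `PLev`, `PEt1`, `PEt2` spans at most `f + h⁰` dimensions).

* `StmtLev`  = Fontaine's bound in Kummer form (chain INJ → T2 → T3 → (P_m) → EIS → LEVEL).
* `StmtEt1`, `StmtEt2` = the étale quotient is the maximal unramified quotient (RED + quotient
  lattices over the inertia field); used by `StmtCount` ONLY for `p = 3`.
-/
import Fermat.Agent.TW.S.Defs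
import Fermat.Agent.W1.PlanGL
import Fermat.Prelude.Def_GaloisRep_Flat

set_option autoImplicit false

noncomputable section

namespace Fermat.Agent.TW.W

open CategoryTheory groupCohomology IsLocalRing Polynomial
open Fermat.Agent.PT Fermat.Agent.PT.B Fermat.Agent.TW.L Fermat.Agent.TW.S Fermat.Agent.S53
  Fermat.Agent.W1 ExtCitation

/-! ### Good fields and the subgroup `𝒩_T` -/

section Fields

variable (p : ℕ) [Fact p.Prime]

/-- A GOOD field: a finite Galois extension `T ⊂ ℚ̄_p` of `ℚ_p` of degree prime to `p` (hence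
tamely ramified) containing the `p`-th roots of unity. -/
structure IsGoodField (T : IntermediateField ℚ_[p] (PadicAlgCl p)) : Prop where
  finite : FiniteDimensional ℚ_[p] T
  galois : IsGalois ℚ_[p] T
  tame : ¬ p ∣ Module.finrank ℚ_[p] T
  zeta : ∃ ζ ∈ T, ζ ≠ 1 ∧ ζ ^ p = 1

/-- `𝒩_T ⊆ G_T`: the elements of `G_T` fixing every `p`-th root of every element of
`T ∩ (1 + p 𝒪)`, i.e. `𝒩_T = Gal(ℚ̄_p / T((1 + p𝒪_T)^{1/p}))`.  (`‖p‖ = p⁻¹`.) -/
def lvN (T : IntermediateField ℚ_[p] (PadicAlgCl p)) : Subgroup (GQq p) where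
  carrier := {τ | τ ∈ T.fixingSubgroup ∧
    ∀ α : PadicAlgCl p, α ^ p ∈ T → ‖α ^ p - 1‖ ≤ ‖(p : PadicAlgCl p)‖ → τ α = α}
  mul_mem' := by
    rintro σ τ ⟨h1, h2⟩ ⟨h1', h2'⟩
    refine ⟨mul_mem h1 h1', fun α hα hα' => ?_⟩
    rw [AlgEquiv.mul_apply, h2' α hα hα', h2 α hα hα']
  one_mem' := ⟨one_mem _, fun _ _ _ => rfl⟩
  inv_mem' := by
    rintro σ ⟨h1, h2⟩
    refine ⟨inv_mem h1, fun α hα hα' => ?_⟩
    have h := h2 α hα hα'
    calc σ⁻¹ α = σ⁻¹ (σ α) := by rw [h]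
      _ = (σ⁻¹ * σ) α := rfl
      _ = α := by rw [inv_mul_cancel]; rfl

lemma mem_lvN (T : IntermediateField ℚ_[p] (PadicAlgCl p)) (τ : GQq p) :
    τ ∈ lvN p T ↔ τ ∈ T.fixingSubgroup ∧
      ∀ α : PadicAlgCl p, α ^ p ∈ T → ‖α ^ p - 1‖ ≤ ‖(p : PadicAlgCl p)‖ → τ α = α := Iff.rfl

lemma lvN_le (T : IntermediateField ℚ_[p] (PadicAlgCl p)) : lvN p T ≤ T.fixingSubgroup :=
  fun _ h => h.1

/-- `χ` is a homomorphism on `G_T`. -/
def IsHomOn (T : IntermediateField ℚ_[p] (PadicAlgCl p)) (χ : GQq p → ZMod p) : Prop :=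
  ∀ σ τ : GQq p, σ ∈ T.fixingSubgroup → τ ∈ T.fixingSubgroup → χ (σ * τ) = χ σ + χ τ

end Fields

/-! ### Chain A: Fontaine's bound in Kummer form -/

/-- **W-LEV** (Fontaine's ramification bound, Kummer form).  `(M, act, H)` flat, `p M = 0`,
`T` a good field.  Every `χ : G_p → 𝔽_p` which is a homomorphism on `G_T` and vanishes on the
elements of `G_T` acting trivially on `M` vanishes on `𝒩_T`.
(LEVEL′ of helper57: `u ∈ Tˣ ∩ (T·ℚ_p(M))^{×p} ⇒ u ∈ (1 + p𝒪_T) T^{×p}`, and Mathlib's Kummer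
theory: the fixed field of `ker χ ∩ G_T` is `T(u^{1/p})`.) -/
def StmtLev : Prop :=
  ∀ (p : ℕ) [Fact p.Prime], p ≠ 2 → ∀ (M : Type) [AddCommGroup M] [Finite M]
    (act : GQ → M → M)
    (H : Subalgebra (GaloisRep.ratLocalizedAt p) (M → AlgebraicClosure ℚ)),
    IsHopfLattice (GaloisRep.ratLocalizedAt p) act H → (∀ m : M, p • m = 0) →
    ∀ T : IntermediateField ℚ_[p] (PadicAlgCl p), IsGoodField p T →
    ∀ χ : GQq p → ZMod p, IsHomOn p T χ →
      (∀ σ ∈ T.fixingSubgroup, (∀ m : M, act (localGaloisToGlobal p σ) m = m) → χ σ = 0) →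
      ∀ τ ∈ lvN p T, χ τ = 0

/-! ### Chain B: the étale quotient is the maximal unramified quotient (needed for `p = 3`) -/

/-- `I_aug · M`: the subgroup generated by the `σ m - m`, `σ` in the inertia group at
`padicPlace p`. -/
def iAug (p : ℕ) [Fact p.Prime] {M : Type} [AddCommGroup M] (act : GQ → M → M) :
    AddSubgroup M :=
  AddSubgroup.closure {x | ∃ σ ∈ (padicPlace p).inertiaSubgroupIn ℚ, ∃ m : M, x = act σ m - m}

/-- **W-et1** (RED + (∗)): for `(M, act, H)` flat, `p M = 0`: `(I_aug M)^I = 0`.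
(`M⁰ ∩ M^I = 0` is `tww_red_inter_fixed`; (∗): `M⁰ = I_aug M`, i.e. `M⁰ ⊆ Y` for every `I`-stable
subgroup `Y` with trivial `I`-action on `M/Y`: RED for the QUOTIENT lattice of `M/Y` over the
inertia field.) -/
def StmtEt1 : Prop :=
  ∀ (p : ℕ) [Fact p.Prime], p ≠ 2 → ∀ (M : Type) [AddCommGroup M] [Finite M]
    (act : GQ → M → M)
    (H : Subalgebra (GaloisRep.ratLocalizedAt p) (M → AlgebraicClosure ℚ)),
    IsHopfLattice (GaloisRep.ratLocalizedAt p) act H → (∀ m : M, p • m = 0) →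
    ∀ m ∈ iAug p act, (∀ σ ∈ (padicPlace p).inertiaSubgroupIn ℚ, act σ m = m) → m = 0

/-- **W-et2** ((∗) for `M` and for a subgroup): for `(M, act, H)` flat, `p M = 0`, and `X ⊆ M` a
`G_ℚ`-stable subgroup: `X ∩ I_aug M = I_aug X`  (the functor `M ↦ M_I` is left exact on flat
modules: `X⁰ = X ∩ M⁰` by definition of `M⁰`, and (∗) for `M` and for `X`). -/
def StmtEt2 : Prop :=
  ∀ (p : ℕ) [Fact p.Prime], p ≠ 2 → ∀ (M : Type) [AddCommGroup M] [Finite M]
    (act : GQ → M → M)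
    (H : Subalgebra (GaloisRep.ratLocalizedAt p) (M → AlgebraicClosure ℚ)),
    IsHopfLattice (GaloisRep.ratLocalizedAt p) act H → (∀ m : M, p • m = 0) →
    ∀ X : AddSubgroup M, (∀ σ : GQ, ∀ x ∈ X, act σ x ∈ X) →
    ∀ x ∈ X, x ∈ iAug p act →
      x ∈ AddSubgroup.closure
        {y | ∃ σ ∈ (padicPlace p).inertiaSubgroupIn ℚ, ∃ m ∈ X, y = act σ m - m}

/-! ### The Galois-theoretic necessary conditions on a local cocycle -/

section Conditions

variable (p : ℕ) [Fact p.Prime] {k : Type} [Field k] (ρbar : ResidualGaloisRep k)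

/-- `ρ̄` on `G_{ℚ_p}`. -/
def rhoLoc (τ : GQq p) : Module.End k ρbar.V := ρbar.ρ (localGaloisToGlobal p τ)

/-- **(LEV)** for the `G_p`-module `V_c = V̄ ⊕ ε V̄`, `σ ↦ (1 + ε c(σ)) ρ̄(σ)`: every `χ` which is a
homomorphism on `G_T` (`T` good) and vanishes on the elements of `G_T` acting trivially on `V_c`
(i.e. `ρ̄(σ) = 1`, `c(σ) = 0`) vanishes on `𝒩_T`. -/
def PLev (c : GQq p → Module.End k ρbar.V) : Prop :=
  ∀ T : IntermediateField ℚ_[p] (PadicAlgCl p), IsGoodField p T →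
    ∀ χ : GQq p → ZMod p, IsHomOn p T χ →
      (∀ σ ∈ T.fixingSubgroup, rhoLoc p ρbar σ = 1 → c σ = 0 → χ σ = 0) →
      ∀ τ ∈ lvN p T, χ τ = 0

/-- `I_aug · V̄` (local form). -/
def iAugBar : AddSubgroup ρbar.V :=
  AddSubgroup.closure {v | ∃ σ ∈ inertiaQ p, ∃ w : ρbar.V, v = rhoLoc p ρbar σ w - w}

/-- **(E1)**: `(I_aug V̄)^I = 0`. -/
def PEt1 : Prop :=
  ∀ v ∈ iAugBar p ρbar, (∀ σ ∈ inertiaQ p, rhoLoc p ρbar σ v = v) → v = 0

/-- The action of `G_p` on `V_c = V̄ × V̄` (`(v, w) = v + ε w`): `σ ↦ (1 + ε c(σ)) ρ̄(σ)`. -/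
def vcAct (c : GQq p → Module.End k ρbar.V) (σ : GQq p) (x : ρbar.V × ρbar.V) :
    ρbar.V × ρbar.V :=
  (rhoLoc p ρbar σ x.1, rhoLoc p ρbar σ x.2 + c σ (rhoLoc p ρbar σ x.1))

/-- `I_aug · V_c`. -/
def iAugVc (c : GQq p → Module.End k ρbar.V) : AddSubgroup (ρbar.V × ρbar.V) :=
  AddSubgroup.closure {x | ∃ σ ∈ inertiaQ p, ∃ y : ρbar.V × ρbar.V, x = vcAct p ρbar c σ y - y}

/-- **(E2)**: `ε V̄ ∩ I_aug V_c = ε · I_aug V̄`, i.e. `(ε V̄)_I → (V_c)_I` is injective. -/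
def PEt2 (c : GQq p → Module.End k ρbar.V) : Prop :=
  ∀ w : ρbar.V, ((0, w) : ρbar.V × ρbar.V) ∈ iAugVc p ρbar c → w ∈ iAugBar p ρbar

end Conditions

/-! ### The flat classes and `L_p^{flat}` -/

section Flat

variable (p : ℕ) [Fact p.Prime] {𝒪 : Type} [CommRing 𝒪] [IsLocalRing 𝒪]
  [CharP (ResidueField 𝒪) p] {ρbar : ResidualGaloisRep (ResidueField 𝒪)}
  (D : RigidDatum 𝒪 ρbar)

/-- `c` is the (global) cocycle of a FLAT deformation of `ρ̄` to `k[ε]` with cyclotomic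
determinant. -/
def IsFlatCoc (c : cocycles₁ (ad0Rep p ρbar)) : Prop :=
  ∃ ρ : GaloisRepAdic (DualNumber (ResidueField 𝒪)),
    IsCocOf p D ρ (fun σ => (ad0Incl p ρbar).hom ((c : GQ → (ad0Rep p ρbar).V) σ)) ∧
      ρ.DetIsCyclotomic p ∧ ρ.IsFlatAt p

/-- restriction `H¹(G_ℚ, ad⁰) → H¹(G_p, ad⁰)` -/
def resP : H1 (ad0Rep p ρbar) →ₗ[ZMod p] H1 (locRep p (ad0Rep p ρbar)) :=
  (groupCohomology.map (localGaloisToGlobal p) (𝟙 (locRep p (ad0Rep p ρbar))) 1).hom

/-- The classes in `H¹(G_p, ad⁰)` of the flat deformations. -/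
def flatClasses : Set (H1 (locRep p (ad0Rep p ρbar))) :=
  {x | ∃ c : cocycles₁ (ad0Rep p ρbar), IsFlatCoc p D c ∧
    resP p ((H1π (ad0Rep p ρbar)).hom c) = x}

/-- **`L_p^{flat}`**: the `𝔽_p`-span of the flat classes. -/
def flatH1 : Submodule (ZMod p) (H1 (locRep p (ad0Rep p ρbar))) :=
  Submodule.span (ZMod p) (flatClasses p D)

/-- **S-flat** (the hypothesis `hflat` of `TW.S.StmtSelCardFlat` for `Lp = flatH1 p D`). -/
theorem flatClass_mem_flatH1
    (ρ : GaloisRepAdic (DualNumber (ResidueField 𝒪))) (c : cocycles₁ (ad0Rep p ρbar))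
    (hc : IsCocOf p D ρ (fun σ => (ad0Incl p ρbar).hom ((c : GQ → (ad0Rep p ρbar).V) σ)))
    (hdet : ρ.DetIsCyclotomic p) (hflat : ρ.IsFlatAt p) :
    (groupCohomology.map (localGaloisToGlobal p) (𝟙 (locRep p (ad0Rep p ρbar))) 1).hom
        ((H1π (ad0Rep p ρbar)).hom c) ∈ flatH1 p D :=
  Submodule.subset_span ⟨c, ⟨ρ, hc, hdet, hflat⟩, rfl⟩

end Flat

/-! ### The pieces of the final assembly -/

/-- **W-add**: the flat cocycles are closed under addition.
(Baer sum: `V_{c+c'}` is the sub-quotient `{(x, x') ∈ V_c × V_{c'} | x ≡ x' mod ε} / {(εv, -εv)}`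
of `V_c × V_{c'}`, `G_ℚ`-stable; `W1.hasFiniteFlatModel_prod`, `_of_subquotient`; the three
ideals of `k[ε]`; `det (1 + ε(c + c')) ρ̄ = det ρ̄` as `tr c = tr c' = 0`.) -/
def StmtAdd : Prop :=
  ∀ (p : ℕ) [Fact p.Prime], p ≠ 2 → ∀ (𝒪 : Type) [CommRing 𝒪] [IsLocalRing 𝒪]
    [CharP (ResidueField 𝒪) p] [Finite (ResidueField 𝒪)]
    (ρbar : ResidualGaloisRep (ResidueField 𝒪)) (D : RigidDatum 𝒪 ρbar)
    (c c' : cocycles₁ (ad0Rep p ρbar)),
    IsFlatCoc p D c → IsFlatCoc p D c' → IsFlatCoc p D (c + c')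

/-- **W-bridge**: the local cocycle of a flat deformation satisfies `PLev`, `PEt1`, `PEt2`, and
is a level cocycle.
(`StmtLev`, `StmtEt1`, `StmtEt2` for `M = ρ.V / (⊥ • ⊤) ≅ V_c` (`sq_isFlatAt_iff`, `I = ⊥`), for
its quotient `V̄` and its subgroup `ε V̄`; `IsCocOf` gives the isomorphism `ρ.V ≅ V_c`;
`D_P = r(G_p)`: `TW.L.stmtDecFull`; level: `ρ` is continuous, `k[ε]` is finite.) -/
def StmtBridge : Prop :=
  ∀ (p : ℕ) [Fact p.Prime], p ≠ 2 → ∀ (𝒪 : Type) [CommRing 𝒪] [IsLocalRing 𝒪]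
    [CharP (ResidueField 𝒪) p] [Finite (ResidueField 𝒪)]
    (ρbar : ResidualGaloisRep (ResidueField 𝒪)) (D : RigidDatum 𝒪 ρbar)
    (c : cocycles₁ (ad0Rep p ρbar)), IsFlatCoc p D c →
    IsLevel₁ (towerLoc p) (locFun p (c : GQ → (ad0Rep p ρbar).V)) ∧
    PLev p ρbar (fun τ => ad0Val p ρbar ((c : GQ → (ad0Rep p ρbar).V) (localGaloisToGlobal p τ))) ∧
    PEt1 p ρbar ∧
    PEt2 p ρbar (fun τ => ad0Val p ρbar ((c : GQ → (ad0Rep p ρbar).V) (localGaloisToGlobal p τ)))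

/-- **W-count** (PURE local Galois theory — no group schemes).  `ρ̄ : G_ℚ → GL₂(k)` with
cyclotomic determinant and split characteristic polynomials; `F ⊆ H¹(G_p, ad⁰)` closed under
addition, every element represented by a level cocycle `z` with `PLev`, `PEt1`, `PEt2`.
Then `dim_{𝔽_p} span F ≤ f + h⁰(G_p, ad⁰)`.   (NOTES/TW-W.md §6: (STR), (GB), (GB-char), (GB-I),
(DEV).) -/
def StmtCount : Prop :=
  ∀ (p : ℕ) [Fact p.Prime], p ≠ 2 → ∀ (k : Type) [Field k] [CharP k p] [Algebra (ZMod p) k]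
    [Finite k] (ρbar : ResidualGaloisRep k),
    (GaloisRepAdic.ofResidualGaloisRep ρbar).DetIsCyclotomic p →
    (∀ σ : GQ, ∃ α β : k, LinearMap.charpoly (ρbar.ρ σ) = (X - C α) * (X - C β)) →
    ∀ F : Set (H1 (locRep p (ad0Rep p ρbar))),
      (∀ x ∈ F, ∀ y ∈ F, x + y ∈ F) →
      (∀ x ∈ F, ∃ z : cocycles₁ (locRep p (ad0Rep p ρbar)),
        (H1π (locRep p (ad0Rep p ρbar))).hom z = x ∧
        IsLevel₁ (towerLoc p) (z : GQq p → (ad0Rep p ρbar).V) ∧
        PLev p ρbar (fun τ => ad0Val p ρbar ((z : GQq p → (ad0Rep p ρbar).V) τ)) ∧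
        PEt1 p ρbar ∧
        PEt2 p ρbar (fun τ => ad0Val p ρbar ((z : GQq p → (ad0Rep p ρbar).V) τ))) →
      Module.Finite (ZMod p) (Submodule.span (ZMod p) F) ∧
        Module.finrank (ZMod p) (Submodule.span (ZMod p) F) ≤
          Module.finrank (ZMod p) k +
            Module.finrank (ZMod p) (locRep p (ad0Rep p ρbar)).ρ.invariants

/-- **W-flat** (THE deliverable of TW-W): `L_p^{flat} = flatH1 p D` consists of level classes and
`dim_{𝔽_p} L_p^{flat} ≤ f + h⁰(G_p, ad⁰ ρ̄)`. -/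
def StmtWFlat : Prop :=
  ∀ (p : ℕ) [Fact p.Prime], p ≠ 2 → ∀ (𝒪 : Type) [CommRing 𝒪] [IsLocalRing 𝒪]
    [CharP (ResidueField 𝒪) p] [Algebra (ZMod p) (ResidueField 𝒪)] [Finite (ResidueField 𝒪)]
    (ρbar : ResidualGaloisRep (ResidueField 𝒪)) (D : RigidDatum 𝒪 ρbar),
    (GaloisRepAdic.ofResidualGaloisRep ρbar).DetIsCyclotomic p →
    (∀ σ : GQ, ∃ α β : ResidueField 𝒪,
      LinearMap.charpoly (ρbar.ρ σ) = (X - C α) * (X - C β)) →
    flatH1 p D ≤ levH1 (towerLoc p) (locRep p (ad0Rep p ρbar)) ∧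
    Module.Finite (ZMod p) (flatH1 p D) ∧
      Module.finrank (ZMod p) (flatH1 p D) ≤
        Module.finrank (ZMod p) (ResidueField 𝒪) +
          Module.finrank (ZMod p) (locRep p (ad0Rep p ρbar)).ρ.invariants

end Fermat.Agent.TW.W

end
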