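/-
TW-W (S56, flat local bound) — INTERFACE FILE 2 (helper74): the GALOIS SIDE = the count
`StmtCount` of `TW/W/Plan.lean`, split into pieces.  Route: NOTES/TW-W.md §6.

`T` good (`IsGoodField`), `Γ = Gal(T/ℚ_p)` (order prime to `p`), `C ⊆ Γ` the inertia subgroup,
`e = |C|`, `e' = e/(p-1)`, `θ : C → 𝔽_Tˣ` the tame character (`θ(σ) = σπ/π`), `ω|_C = θ^{e'}`.
For a finite `𝔽_p[G_p]`-module `W`:

* `levFlatH1 p W ⊆ H¹(G_p, W)` : classes of level cocycles which vanish on `𝒩_T` for every good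
  `T` with `G_T` acting trivially on `W`;
* (GB)  `dim levFlatH1 W ≤ h⁰(W) + Σ_{1 ≤ i ≤ e'} mult_{θ^i}(W ⊗_{𝔽_p} 𝔽_T |_C)`
  [`levFlatH1 ∩ unrH1` has dimension `≤ h⁰` (`TW.L.stmtUnrLe`); modulo unramified classes a class
  is determined by `h = c|_{I_T} ∈ Hom_Γ(𝔊_I, W)`, `𝔊_I = I_T/(I_T ∩ 𝒩_T) ↪ Hom(Y, 𝔽_p)` (Kummer
  pairing, trivial half), `Y = ` image of `1 + p𝒪_T` in `Tˣ/(Tˣᵖ · unramified classes)`, a
  `Γ`-quotient of `𝒪_T/𝔪_T^{e'}` via `x ↦ 1 + p x`; Maschke; graded pieces `𝔽_T π^t` with `C`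
  acting by `θ^t`; Frobenius-semilinear fixed points: `dim_{𝔽_p} V^{Gal(𝔽_T/𝔽_p)} ≤ dim_{𝔽_T} V`].
-/
import Fermat.Agent.TW.W.Plan

set_option autoImplicit false

noncomputable section

namespace Fermat.Agent.TW.W

open CategoryTheory groupCohomology IsLocalRing Polynomial
open Fermat.Agent.PT Fermat.Agent.PT.B Fermat.Agent.TW.L Fermat.Agent.TW.S Fermat.Agent.S53
  Fermat.Agent.W1 ExtCitation

section Defs

variable (p : ℕ) [Fact p.Prime]

/-- The level cocycles of `G_p` with values in `W` which vanish on `𝒩_T` for every good field `T`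
such that `G_T` acts trivially on `W`. -/
def levFlatCocycles (W : Rep.{0} (ZMod p) (GQq p)) : Submodule (ZMod p) (cocycles₁ W) where
  carrier := {c | IsLevel₁ (towerLoc p) (c : GQq p → W) ∧
    ∀ T : IntermediateField ℚ_[p] (PadicAlgCl p), IsGoodField p T →
      (∀ σ ∈ T.fixingSubgroup, W.ρ σ = 1) → ∀ τ ∈ lvN p T, (c : GQq p → W) τ = 0}
  add_mem' := by
    rintro c c' ⟨h1, h2⟩ ⟨h1', h2'⟩
    refine ⟨h1.add h1', fun T hT hW τ hτ => ?_⟩
    show (c : GQq p → W) τ + (c' : GQq p → W) τ = 0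
    rw [h2 T hT hW τ hτ, h2' T hT hW τ hτ, add_zero]
  zero_mem' := ⟨isLevel₁_const (towerLoc p) (0 : W), fun _ _ _ _ _ => rfl⟩
  smul_mem' := by
    rintro a c ⟨h1, h2⟩
    refine ⟨(h1.comp (a • ·) :), fun T hT hW τ hτ => ?_⟩
    show a • (c : GQq p → W) τ = 0
    rw [h2 T hT hW τ hτ, smul_zero]

lemma mem_levFlatCocycles (W : Rep.{0} (ZMod p) (GQq p)) (c : cocycles₁ W) :
    c ∈ levFlatCocycles p W ↔ IsLevel₁ (towerLoc p) (c : GQq p → W) ∧
      ∀ T : IntermediateField ℚ_[p] (PadicAlgCl p), IsGoodField p T →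
        (∀ σ ∈ T.fixingSubgroup, W.ρ σ = 1) → ∀ τ ∈ lvN p T, (c : GQq p → W) τ = 0 := Iff.rfl

/-- `H¹_f`-candidate: the classes of the cocycles in `levFlatCocycles`. -/
def levFlatH1 (W : Rep.{0} (ZMod p) (GQq p)) : Submodule (ZMod p) (H1 W) :=
  (levFlatCocycles p W).map (H1π W).hom

lemma mem_levFlatH1 (W : Rep.{0} (ZMod p) (GQq p)) (x : H1 W) :
    x ∈ levFlatH1 p W ↔ ∃ c ∈ levFlatCocycles p W, (H1π W).hom c = x := by
  simp only [levFlatH1, Submodule.mem_map]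

variable {k : Type} [Field k] [Algebra (ZMod p) k]

/-- The representation of `G_p` on `k` through a character `ψ`, over `𝔽_p`. -/
def charRho (ψ : GQq p →* kˣ) : Representation (ZMod p) (GQq p) k where
  toFun σ := ((ψ σ : k) • (LinearMap.id : k →ₗ[k] k)).restrictScalars (ZMod p)
  map_one' := by
    ext x
    simp
  map_mul' σ τ := by
    ext x
    simp [mul_assoc]

/-- `k(ψ)` as a `Rep (ZMod p) G_p`. -/
def charRep (ψ : GQq p →* kˣ) : Rep.{0} (ZMod p) (GQq p) := Rep.of (charRho p ψ)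

@[simp] lemma charRep_ρ_apply (ψ : GQq p →* kˣ) (σ : GQq p) (x : k) :
    (charRep p ψ).ρ σ x = (ψ σ : k) * x := rfl

/-- `ψ` coincides with the mod `p` cyclotomic character on inertia. -/
def IsCycOnInertia (ψ : GQq p →* kˣ) : Prop :=
  ∀ σ ∈ inertiaQ p, (ψ σ : k) =
    algebraMap (ZMod p) k ((cycloChar p (localGaloisToGlobal p σ) : (ZMod p)ˣ) : ZMod p)

/-- `ρ̄|_{G_p}` is irreducible over `k`. -/
def IsLocIrr (ρbar : ResidualGaloisRep k) : Prop :=
  ∀ W : Submodule k ρbar.V, (∀ σ : GQq p, ∀ x ∈ W, rhoLoc p ρbar σ x ∈ W) → W = ⊥ ∨ W = ⊤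

end Defs

/-! ### The pieces of the count -/

/-- **W-gbchar** ((GB) for a character of `G_p`).  `ψ : G_p → kˣ` a level character.
* the flat classes of `k(ψ)` form a finite-dimensional space;
* if `ψ ≠ ω` on inertia they are all unramified;
* if `ψ = ω` on inertia they span at most `f` dimensions.
(`T := ` the field cut out by `ψ` and `ω`: good, abelian of degree prime to `p`; a character of
`G_p` is a power of `ω` on the inertia group of `Γ`, so one may even take `e = p - 1`, `e' = 1`: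
only the level `i = 1`, `θ = ω`, occurs.) -/
def StmtGBChar : Prop :=
  ∀ (p : ℕ) [Fact p.Prime], p ≠ 2 → ∀ (k : Type) [Field k] [CharP k p] [Algebra (ZMod p) k]
    [Finite k] (ψ : GQq p →* kˣ), (∃ U ∈ (towerLoc p).lev, ∀ s ∈ U, ψ s = 1) →
    Module.Finite (ZMod p) (levFlatH1 p (charRep p ψ)) ∧
    (¬ IsCycOnInertia p ψ → levFlatH1 p (charRep p ψ) ≤ unrH1 p (charRep p ψ)) ∧
    (IsCycOnInertia p ψ →
      Module.finrank (ZMod p) (levFlatH1 p (charRep p ψ)) ≤ Module.finrank (ZMod p) k)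

/-- **W-gbirr** ((GB) in the irreducible case).  `ρ̄|_{G_p}` irreducible, `det ρ̄ = ω`, split
characteristic polynomials: the flat classes of `ad⁰ ρ̄` span at most `f` dimensions.
((STR): wild inertia acts trivially, tame inertia through `ψ ⊕ ψ^p`, `ψ^{p+1} = ω`, so
`ρ̄(G_p) ⊆ N(torus)` has order prime to `p` and `T = ℚ_p(V̄, ζ_p)` is good, `e ∣ p² - 1`;
`ad⁰ = k X₀ ⊕ k X₊ ⊕ k X₋` with characters `1, (ψ^{p-1})^{±1}`; among the levels `1 ≤ i ≤ e'`
only one of `ψ^{p-1}`, `ψ^{1-p}` occurs, for `f/2 + f/2` embeddings `k → 𝔽̄_p`; `h⁰ = 0`.) -/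
def StmtGBIrr : Prop :=
  ∀ (p : ℕ) [Fact p.Prime], p ≠ 2 → ∀ (k : Type) [Field k] [CharP k p] [Algebra (ZMod p) k]
    [Finite k] (ρbar : ResidualGaloisRep k),
    (GaloisRepAdic.ofResidualGaloisRep ρbar).DetIsCyclotomic p →
    (∀ σ : GQ, ∃ α β : k, LinearMap.charpoly (ρbar.ρ σ) = (X - C α) * (X - C β)) →
    IsLocIrr p ρbar →
    Module.Finite (ZMod p) (levFlatH1 p (locRep p (ad0Rep p ρbar))) ∧
      Module.finrank (ZMod p) (levFlatH1 p (locRep p (ad0Rep p ρbar))) ≤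
        Module.finrank (ZMod p) k

/-- **W-dev** (dévissage in the reducible case + assembly of the count): `StmtCount` from
(GB) for characters, (GB) in the irreducible case and `TW.L.StmtUnrLe`.
(`PLev c ⇒ c ∈ levFlatCocycles` for `ad⁰` and for its sub-quotients `k(χ^{±1})`, `k`;
reducible split, `p ≥ 5`: `ad⁰ = k ⊕ k(χ) ⊕ k(χ⁻¹)`, at most one of `χ, χ⁻¹` is `ω` on inertia;
`p = 3`: `PEt1`, `PEt2` kill the lower left entry; non-split: `δ(X₀) = ∓2[ρ̄]` kills the line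
`H¹_lev(k(χ))`.) -/
def StmtDev : Prop := StmtGBChar → StmtGBIrr → StmtUnrLe → StmtCount

end Fermat.Agent.TW.W

end
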