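/-
TW-W (S56, flat local bound) — INTERFACE FILE 3 (helper74): structure inputs of the dévissage
(`W-dev`) and the sub-pieces of (GB).  Route: NOTES/TW-W.md §7.

* `StmtNoSqrt`  : the mod `p` cyclotomic character is not, on inertia, the square of a character
                  of `G_p` (so the two diagonal characters of a reducible `ρ̄|_{G_p}` with
                  `det = ω` are distinct).
* `StmtTameGen` : `TW.L.StmtTameGrp` for every exponent prime to the residue characteristic.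
* `StmtCycloRamFull` : `ω` maps the inertia group at `p` ONTO `𝔽_pˣ`.
* `inT`, `gbHom`, `StmtGBRed` : the cohomological reduction (GB1) of (GB).
* `StmtDev2`    : the dévissage `W-dev` with its exact inputs.
-/
import Fermat.Agent.TW.W.Plan2

set_option autoImplicit false

noncomputable section

namespace Fermat.Agent.TW.W

open CategoryTheory groupCohomology IsLocalRing Polynomial
open Fermat.Agent.PT Fermat.Agent.PT.B Fermat.Agent.TW.L Fermat.Agent.TW.S Fermat.Agent.S53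
  Fermat.Agent.W1 ExtCitation

/-! ### Structure of inertia (STR) -/

/-- **STR-tame** (`TW.L.StmtTameGrp` for a general exponent `n` prime to `q`; also for `q = p`):
modulo every level, every homomorphism from the inertia group of `G_{ℚ_q}` to a group of
exponent `n` prime to `q` factors through a cyclic quotient generated by one element `t`, on which
Frobenius acts by `t ↦ t ^ q`.
(Proof of `TW.L.ltame_abstract`/`ltame_global`/`stmtTameGrp` verbatim, `gcd (q ^ m) n = 1`.) -/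
def StmtTameGen : Prop :=
  ∀ (q : ℕ) [Fact q.Prime] (n : ℕ), Nat.Coprime q n → ∀ V ∈ (towerLoc q).lev,
    ∃ t : ↥(inertiaQ q), ∀ (A : Type) [Group A] (h : ↥(inertiaQ q) →* A),
      (∀ a : A, a ^ n = 1) → (∀ x : ↥(inertiaQ q), (x : GQq q) ∈ V → h x = 1) →
      (∀ x : ↥(inertiaQ q), ∃ m : ℕ, h x = h t ^ m) ∧
      ∀ φ : GQq q, IsFrobQ q φ → ∀ hmem : φ * (t : GQq q) * φ⁻¹ ∈ inertiaQ q,
        h ⟨φ * (t : GQq q) * φ⁻¹, hmem⟩ = h t ^ q

/-- **STR-cyc** (`ℚ_p(ζ_p)/ℚ_p` is totally ramified): every value of the mod `p` cyclotomic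
character is taken on the inertia group at `padicPlace p`.
(Proof of `TW.S.stmtCycloRam` with `ζ ↦ ζ ^ a` instead of `ζ ↦ ζ ^ 2`.) -/
def StmtCycloRamFull : Prop :=
  ∀ (p : ℕ) [Fact p.Prime] (a : (ZMod p)ˣ),
    ∃ σ ∈ (padicPlace p).inertiaSubgroupIn ℚ, cycloChar p σ = a

/-- **STR-sqrt**: no smooth character `η : G_p → kˣ` (`char k = p` odd) satisfies `η² = ω` on the
inertia group.
(`StmtTameGen` for `n = |η(I)|·(p - 1)`, `h = (η, ω)`: `h(φ t φ⁻¹) = h(t)^p` and `h` extends to the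
abelianisation of `G_p`, so `η(t)^{p-1} = 1`, hence `ω(x)^{(p-1)/2} = η(x)^{p-1} = 1` for all
`x ∈ I`; `StmtCycloRamFull` gives `x` with `ω(x)` a generator of `𝔽_pˣ`.) -/
def StmtNoSqrt : Prop :=
  ∀ (p : ℕ) [Fact p.Prime], p ≠ 2 → ∀ (k : Type) [Field k] [CharP k p] [Algebra (ZMod p) k]
    (η : GQq p →* kˣ), (∃ U ∈ (towerLoc p).lev, ∀ s ∈ U, η s = 1) →
    ¬ ∀ σ ∈ inertiaQ p, ((η σ : kˣ) : k) ^ 2 =
        algebraMap (ZMod p) k ((cycloChar p (localGaloisToGlobal p σ) : (ZMod p)ˣ) : ZMod p)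

/-! ### (GB1): the cohomological reduction -/

section GB

variable (p : ℕ) [Fact p.Prime]

/-- `I_T = I ∩ G_T`. -/
def inT (T : IntermediateField ℚ_[p] (PadicAlgCl p)) : Subgroup (GQq p) :=
  inertiaQ p ⊓ T.fixingSubgroup

/-- `Hom_{G_p}(I_T / (I_T ∩ 𝒩_T), W)`, as functions on `G_p` supported on `I_T`. -/
def gbHom (T : IntermediateField ℚ_[p] (PadicAlgCl p)) (W : Rep.{0} (ZMod p) (GQq p)) :
    Submodule (ZMod p) (GQq p → W) where
  carrier := {h | (∀ σ, σ ∉ inT p T → h σ = 0) ∧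
    (∀ σ τ, σ ∈ inT p T → τ ∈ inT p T → h (σ * τ) = h σ + h τ) ∧
    (∀ τ ∈ lvN p T, h τ = 0) ∧
    ∀ (γ τ : GQq p), τ ∈ inT p T → h (γ * τ * γ⁻¹) = W.ρ γ (h τ)}
  add_mem' := by
    rintro h h' ⟨h1, h2, h3, h4⟩ ⟨h1', h2', h3', h4'⟩
    refine ⟨fun σ hσ => ?_, fun σ τ hσ hτ => ?_, fun τ hτ => ?_, fun γ τ hτ => ?_⟩
    · show h σ + h' σ = 0
      rw [h1 σ hσ, h1' σ hσ, add_zero]
    · show h (σ * τ) + h' (σ * τ) = h σ + h' σ + (h τ + h' τ)
      rw [h2 σ τ hσ hτ, h2' σ τ hσ hτ]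
      abel
    · show h τ + h' τ = 0
      rw [h3 τ hτ, h3' τ hτ, add_zero]
    · show h (γ * τ * γ⁻¹) + h' (γ * τ * γ⁻¹) = W.ρ γ (h τ + h' τ)
      rw [h4 γ τ hτ, h4' γ τ hτ, map_add]
  zero_mem' := by
    refine ⟨fun _ _ => rfl, fun _ _ _ _ => ?_, fun _ _ => rfl, fun γ _ _ => ?_⟩
    · show (0 : W) = 0 + 0
      rw [add_zero]
    · show (0 : W) = W.ρ γ 0
      rw [map_zero]
  smul_mem' := by
    rintro a h ⟨h1, h2, h3, h4⟩
    refine ⟨fun σ hσ => ?_, fun σ τ hσ hτ => ?_, fun τ hτ => ?_, fun γ τ hτ => ?_⟩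
    · show a • h σ = 0
      rw [h1 σ hσ, smul_zero]
    · show a • h (σ * τ) = a • h σ + a • h τ
      rw [h2 σ τ hσ hτ, smul_add]
    · show a • h τ = 0
      rw [h3 τ hτ, smul_zero]
    · show a • h (γ * τ * γ⁻¹) = W.ρ γ (a • h τ)
      rw [h4 γ τ hτ, map_smul]

lemma mem_gbHom (T : IntermediateField ℚ_[p] (PadicAlgCl p)) (W : Rep.{0} (ZMod p) (GQq p))
    (h : GQq p → W) :
    h ∈ gbHom p T W ↔ (∀ σ, σ ∉ inT p T → h σ = 0) ∧
      (∀ σ τ, σ ∈ inT p T → τ ∈ inT p T → h (σ * τ) = h σ + h τ) ∧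
      (∀ τ ∈ lvN p T, h τ = 0) ∧
      ∀ (γ τ : GQq p), τ ∈ inT p T → h (γ * τ * γ⁻¹) = W.ρ γ (h τ) := Iff.rfl

end GB

/-- **GB0**: for a good field `T`, `G_T` is a normal subgroup of `G_p` of finite index prime to
`p`. -/
def StmtGoodIndex : Prop :=
  ∀ (p : ℕ) [Fact p.Prime] (T : IntermediateField ℚ_[p] (PadicAlgCl p)), IsGoodField p T →
    (T.fixingSubgroup : Subgroup (GQq p)).Normal ∧
      (T.fixingSubgroup : Subgroup (GQq p)).index ≠ 0 ∧
      ¬ p ∣ (T.fixingSubgroup : Subgroup (GQq p)).index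

/-- **GB1** (pure cohomology): for `W` finite and smooth, `T` good with `G_T` acting trivially on
`W`: `dim levFlatH1 W ≤ h⁰(W) + dim gbHom T W`, and `gbHom T W = 0` forces all flat classes to be
unramified.
(`c ↦ c · 1_{I_T}` maps `levFlatCocycles` to `gbHom`, kills coboundaries; if `c|_{I_T} = 0` then
`c|_I` is inflated from `I/I_T`, of order prime to `p`, hence a coboundary `∂m` on `I`, and
`c - ∂m` is an unramified cocycle; `TW.L.stmtUnrLe`.) -/
def StmtGBRed : Prop :=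
  StmtUnrLe → StmtGoodIndex →
  ∀ (p : ℕ) [Fact p.Prime] (W : Rep.{0} (ZMod p) (GQq p)) [FiniteDimensional (ZMod p) W],
    IsSmoothQ p W → ∀ T : IntermediateField ℚ_[p] (PadicAlgCl p), IsGoodField p T →
    (∀ σ ∈ T.fixingSubgroup, W.ρ σ = 1) → Module.Finite (ZMod p) (gbHom p T W) →
    (Module.Finite (ZMod p) (levFlatH1 p W) ∧
      Module.finrank (ZMod p) (levFlatH1 p W) ≤
        Module.finrank (ZMod p) W.ρ.invariants + Module.finrank (ZMod p) (gbHom p T W)) ∧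
    (gbHom p T W = ⊥ → levFlatH1 p W ≤ unrH1 p W)

/-! ### The dévissage with its exact inputs -/

/-- **W-dev** (final form): `StmtCount` from (GB) for characters, (GB) in the irreducible case,
`TW.L.StmtUnrLe` and `StmtNoSqrt` (`TW.L.stmtTame` for `(q, p) = (p, 2)` and `TW.S.stmtCycloRam`
are used directly). -/
def StmtDev2 : Prop := StmtGBChar → StmtGBIrr → StmtUnrLe → StmtNoSqrt → StmtCount

end Fermat.Agent.TW.W

end
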