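/-
TW-W / GB0 + GB1 (helper48): the cohomological reduction of (GB).

* `stmtGoodIndex : StmtGoodIndex` (GB0): for a good field `T`, `G_T` is normal in `G_p`, of finite
  index prime to `p` (`IntermediateField.finrank_eq_fixingSubgroup_index`).
* `stmtGBRed : StmtGBRed` (GB1): `dim levFlatH1 W ≤ h⁰(W) + dim gbHom T W`, and `gbHom T W = 0`
  forces all flat classes to be unramified.

Proof of GB1.  `c ↦ c · 1_{I_T}` is a linear map `wgb1Res : levFlatCocycles W → gbHom T W`.  If
`c|_{I_T} = 0` then `c|_I` is right-invariant under `I_T`; averaging over the finite quotient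
`I / I_T`, whose order divides `[G_p : G_T]` and is prime to `p`, gives `m` with `c = ∂m` on `I`
(`wgb1_avg`); `c - ∂m` is an unramified level cocycle in the class of `c`.  Linear algebra
(`wgb1_finrank_le`) and `TW.L.StmtUnrLe` conclude.
-/
import Fermat.Agent.TW.W.Plan3
import Fermat.Agent.TW.L.LTw

set_option autoImplicit false
set_option linter.style.haveILetI false
set_option linter.unusedSectionVars false

noncomputable section

namespace Fermat.Agent.TW.W

open CategoryTheory groupCohomology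
open Fermat.Agent.PT Fermat.Agent.PT.B Fermat.Agent.TW.L

/-! ### GB0 -/

/-- **GB0**. -/
theorem stmtGoodIndex : StmtGoodIndex := by
  intro p _ T hT
  haveI := hT.finite
  haveI := hT.galois
  have hidx : Module.finrank ℚ_[p] T = (T.fixingSubgroup : Subgroup (GQq p)).index :=
    IntermediateField.finrank_eq_fixingSubgroup_index (PadicAlgCl p) T
  refine ⟨(InfiniteGalois.normal_iff_isGalois T).2 hT.galois, ?_, ?_⟩
  · rw [← hidx]
    exact (Module.finrank_pos).ne'
  · rw [← hidx]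
    exact hT.tame

/-! ### Averaging over a finite quotient of order invertible in `k` -/

section Avg

variable {k : Type} [CommRing k] {G : Type} [Group G] (M : Rep.{0} k G)

/-- A function `c` with the cocycle relation which vanishes on `I ⊓ N`, where the index of
`I ⊓ N` in `I` is finite and invertible in `k`, is a coboundary on `I`. -/
theorem wgb1_avg (c : G → M) (hc : ∀ g h : G, c (g * h) = M.ρ g (c h) + c g)
    (I N : Subgroup G) (hfin : (N.subgroupOf I).index ≠ 0) (u : k)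
    (hu : u * ((N.subgroupOf I).index : k) = 1) (hN : ∀ τ ∈ I ⊓ N, c τ = 0) :
    ∃ m : M, ∀ σ ∈ I, c σ = M.ρ σ m - m := by
  classical
  haveI : (N.subgroupOf I).FiniteIndex := ⟨hfin⟩
  haveI : Finite (↥I ⧸ N.subgroupOf I) := Subgroup.finite_quotient_of_finiteIndex
  letI : Fintype (↥I ⧸ N.subgroupOf I) := Fintype.ofFinite _
  -- `c` is right-invariant under `I ⊓ N` on `I`
  have hinv : ∀ x y : ↥I, x⁻¹ * y ∈ N.subgroupOf I → c (x : G) = c (y : G) := by
    intro x y hxy
    have h1 : (y : G) = (x : G) * ((x : G)⁻¹ * (y : G)) := by group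
    have h2 : (x : G)⁻¹ * (y : G) ∈ I ⊓ N := by
      refine ⟨I.mul_mem (I.inv_mem x.2) y.2, ?_⟩
      have := Subgroup.mem_subgroupOf.1 hxy
      simpa using this
    rw [h1, hc, hN _ h2, map_zero, zero_add]
  obtain ⟨f, hf⟩ : ∃ f : ↥I ⧸ N.subgroupOf I → M,
      ∀ x : ↥I, f (QuotientGroup.mk x) = c (x : G) :=
    ⟨Quotient.lift (fun x : ↥I => c (x : G))
      (fun x y hxy => hinv x y (QuotientGroup.leftRel_apply.1 hxy)), fun _ => rfl⟩
  have hfσ : ∀ (σ : ↥I) (q : ↥I ⧸ N.subgroupOf I),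
      f (σ • q) = M.ρ (σ : G) (f q) + c (σ : G) := by
    intro σ q
    induction q using QuotientGroup.induction_on with
    | H x =>
      have h1 : σ • (QuotientGroup.mk x : ↥I ⧸ N.subgroupOf I) = QuotientGroup.mk (σ * x) := rfl
      rw [h1, hf, hf, Subgroup.coe_mul, hc]
  have hcard : Fintype.card (↥I ⧸ N.subgroupOf I) = (N.subgroupOf I).index := by
    rw [Subgroup.index, Nat.card_eq_fintype_card]
  refine ⟨-(u • ∑ q : ↥I ⧸ N.subgroupOf I, f q), fun σ hσ => ?_⟩
  have hsum : ∑ q : ↥I ⧸ N.subgroupOf I, f q =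
      M.ρ σ (∑ q : ↥I ⧸ N.subgroupOf I, f q) + ((N.subgroupOf I).index : k) • c σ := by
    have h1 : ∑ q : ↥I ⧸ N.subgroupOf I, f ((⟨σ, hσ⟩ : ↥I) • q) =
        ∑ q : ↥I ⧸ N.subgroupOf I, f q :=
      Fintype.sum_equiv (MulAction.toPerm (⟨σ, hσ⟩ : ↥I)) _ _ (fun _ => rfl)
    have h2 : ∑ q : ↥I ⧸ N.subgroupOf I, f ((⟨σ, hσ⟩ : ↥I) • q) =
        M.ρ σ (∑ q : ↥I ⧸ N.subgroupOf I, f q) + ((N.subgroupOf I).index : k) • c σ := by
      simp only [hfσ, Finset.sum_add_distrib, Finset.sum_const, Finset.card_univ, hcard, map_sum,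
        Nat.cast_smul_eq_nsmul]
    rw [← h2, h1]
  have h2 : c σ = u • (((N.subgroupOf I).index : k) • c σ) := by
    rw [smul_smul, hu, one_smul]
  have h3 : ((N.subgroupOf I).index : k) • c σ =
      ∑ q : ↥I ⧸ N.subgroupOf I, f q - M.ρ σ (∑ q : ↥I ⧸ N.subgroupOf I, f q) :=
    eq_sub_of_add_eq' hsum.symm
  rw [h2, h3, map_neg, map_smul, smul_sub]
  abel

end Avg

/-! ### Linear algebra -/

/-- If the kernel of `R` is mapped into `U` by `π` then
`dim (range π) ≤ dim U + dim (target of R)`. -/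
theorem wgb1_finrank_le {K : Type*} [Field K] {Z H D : Type*} [AddCommGroup Z] [Module K Z]
    [AddCommGroup H] [Module K H] [AddCommGroup D] [Module K D] [Module.Finite K D]
    (π : Z →ₗ[K] H) (R : Z →ₗ[K] D) (U : Submodule K H) [Module.Finite K U]
    (hker : ∀ z, R z = 0 → π z ∈ U) :
    Module.Finite K (LinearMap.range π) ∧
      Module.finrank K (LinearMap.range π) ≤ Module.finrank K U + Module.finrank K D := by
  obtain ⟨s, hs⟩ := LinearMap.exists_rightInverse_of_surjective R.rangeRestrict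
    (LinearMap.range_rangeRestrict R)
  have hs' : ∀ y : LinearMap.range R, R (s y) = (y : D) := by
    intro y
    have := congrArg (fun g => ((g y : LinearMap.range R) : D)) hs
    simpa using this
  set P : Submodule K H := LinearMap.range (π ∘ₗ s) with hP
  haveI : Module.Finite K (LinearMap.range R) := inferInstance
  haveI : Module.Finite K P := Module.Finite.range (π ∘ₗ s)
  have hle : LinearMap.range π ≤ U ⊔ P := by
    rintro _ ⟨z, rfl⟩
    have h1 : R (z - s (R.rangeRestrict z)) = 0 := by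
      rw [map_sub, hs']
      exact sub_self _
    have h2 : π z = π (z - s (R.rangeRestrict z)) + (π ∘ₗ s) (R.rangeRestrict z) := by
      rw [LinearMap.comp_apply, ← map_add, sub_add_cancel]
    rw [h2]
    exact Submodule.add_mem_sup (hker _ h1) (LinearMap.mem_range_self _ _)
  haveI : Module.Finite K ↥(U ⊔ P) := inferInstance
  haveI : Module.Finite K (LinearMap.range π) := Submodule.finiteDimensional_of_le hle
  refine ⟨inferInstance, ?_⟩
  calc Module.finrank K (LinearMap.range π) ≤ Module.finrank K ↥(U ⊔ P) :=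
        Submodule.finrank_mono hle
    _ ≤ Module.finrank K U + Module.finrank K P :=
        Submodule.finrank_add_le_finrank_add_finrank U P
    _ ≤ Module.finrank K U + Module.finrank K D := by
        have h1 : Module.finrank K P ≤ Module.finrank K (LinearMap.range R) :=
          LinearMap.finrank_range_le (π ∘ₗ s)
        have h2 : Module.finrank K (LinearMap.range R) ≤ Module.finrank K D :=
          Submodule.finrank_le _
        omega

/-! ### The restriction map to `gbHom` -/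

section Main

variable (p : ℕ) [Fact p.Prime] (T : IntermediateField ℚ_[p] (PadicAlgCl p))
  (W : Rep.{0} (ZMod p) (GQq p))

/-- `I_T` is normal in `G_p` when `G_T` is. -/
theorem wgb1_conj_mem_inT (hn : (T.fixingSubgroup : Subgroup (GQq p)).Normal) (γ : GQq p)
    {τ : GQq p} (hτ : τ ∈ inT p T) : γ * τ * γ⁻¹ ∈ inT p T :=
  ⟨ltw_conj_mem_inertiaQ γ hτ.1, hn.conj_mem τ hτ.2 γ⟩

open Classical in
/-- `c · 1_{I_T}` -/
def wgb1ResFun (c : GQq p → W) : GQq p → W := fun σ => if σ ∈ inT p T then c σ else 0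

lemma wgb1ResFun_of_mem (c : GQq p → W) {σ : GQq p} (hσ : σ ∈ inT p T) :
    wgb1ResFun p T W c σ = c σ := by
  simp only [wgb1ResFun, if_pos hσ]

lemma wgb1ResFun_of_not_mem (c : GQq p → W) {σ : GQq p} (hσ : σ ∉ inT p T) :
    wgb1ResFun p T W c σ = 0 := by
  simp only [wgb1ResFun, if_neg hσ]

lemma wgb1ResFun_add (c c' : GQq p → W) :
    wgb1ResFun p T W (c + c') = wgb1ResFun p T W c + wgb1ResFun p T W c' := by
  funext σ
  by_cases hσ : σ ∈ inT p T
  · simp only [Pi.add_apply, wgb1ResFun_of_mem p T W _ hσ]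
  · simp only [Pi.add_apply, wgb1ResFun_of_not_mem p T W _ hσ, add_zero]

lemma wgb1ResFun_smul (a : ZMod p) (c : GQq p → W) :
    wgb1ResFun p T W (a • c) = a • wgb1ResFun p T W c := by
  funext σ
  by_cases hσ : σ ∈ inT p T
  · simp only [Pi.smul_apply, wgb1ResFun_of_mem p T W _ hσ]
  · simp only [Pi.smul_apply, wgb1ResFun_of_not_mem p T W _ hσ, smul_zero]

variable {p T W}

/-- the restriction of a flat level cocycle to `I_T` lies in `gbHom` -/
theorem wgb1_res_mem (hT : IsGoodField p T)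
    (hn : (T.fixingSubgroup : Subgroup (GQq p)).Normal)
    (hW : ∀ σ ∈ T.fixingSubgroup, W.ρ σ = 1) {c : cocycles₁ W}
    (hc : c ∈ levFlatCocycles p W) :
    wgb1ResFun p T W (c : GQq p → W) ∈ gbHom p T W := by
  have hcoc := (mem_cocycles₁_iff (c : GQq p → W)).1 c.2
  refine ⟨fun σ hσ => wgb1ResFun_of_not_mem p T W _ hσ, fun σ τ hσ hτ => ?_, fun τ hτ => ?_,
    fun γ τ hτ => ?_⟩
  · rw [wgb1ResFun_of_mem p T W _ hσ, wgb1ResFun_of_mem p T W _ hτ,
      wgb1ResFun_of_mem p T W _ ((inT p T).mul_mem hσ hτ), hcoc, hW σ hσ.2,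
      Module.End.one_apply, add_comm]
  · have h0 : (c : GQq p → W) τ = 0 := hc.2 T hT hW τ hτ
    by_cases hτ' : τ ∈ inT p T
    · rw [wgb1ResFun_of_mem p T W _ hτ', h0]
    · exact wgb1ResFun_of_not_mem p T W _ hτ'
  · rw [wgb1ResFun_of_mem p T W _ hτ, wgb1ResFun_of_mem p T W _ (wgb1_conj_mem_inT p T hn γ hτ)]
    exact ltw_cocycle_conj W c γ τ (hW τ hτ.2)

/-- **the restriction map** `levFlatCocycles W → gbHom T W`, `c ↦ c · 1_{I_T}` -/
def wgb1Res (hT : IsGoodField p T) (hn : (T.fixingSubgroup : Subgroup (GQq p)).Normal)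
    (hW : ∀ σ ∈ T.fixingSubgroup, W.ρ σ = 1) :
    ↥(levFlatCocycles p W) →ₗ[ZMod p] ↥(gbHom p T W) where
  toFun c := ⟨wgb1ResFun p T W ((c : cocycles₁ W) : GQq p → W), wgb1_res_mem hT hn hW c.2⟩
  map_add' _ _ := Subtype.ext (wgb1ResFun_add p T W _ _)
  map_smul' a _ := Subtype.ext (wgb1ResFun_smul p T W a _)

lemma wgb1Res_apply (hT : IsGoodField p T) (hn : (T.fixingSubgroup : Subgroup (GQq p)).Normal)
    (hW : ∀ σ ∈ T.fixingSubgroup, W.ρ σ = 1) (c : ↥(levFlatCocycles p W)) (σ : GQq p)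
    (hσ : σ ∈ inT p T) :
    ((wgb1Res hT hn hW c : ↥(gbHom p T W)) : GQq p → W) σ =
      ((c : cocycles₁ W) : GQq p → W) σ :=
  wgb1ResFun_of_mem p T W _ hσ

/-- the coboundary of `m` as a cocycle -/
def wgb1Cob (W : Rep.{0} (ZMod p) (GQq p)) (m : W) : cocycles₁ W :=
  ⟨fun g => W.ρ g m - m, by
    rw [mem_cocycles₁_iff]
    intro g h
    simp only [map_mul, Module.End.mul_apply, map_sub]
    abel⟩

lemma wgb1Cob_apply (m : W) (g : GQq p) : (wgb1Cob W m : GQq p → W) g = W.ρ g m - m := rfl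

lemma wgb1_H1π_sub_cob (c : cocycles₁ W) (m : W) :
    (H1π W).hom (c - wgb1Cob W m) = (H1π W).hom c := by
  have h : H1π W (c - wgb1Cob W m) = H1π W c := by
    rw [H1π_eq_iff]
    have : (⇑(c - wgb1Cob W m) - ⇑c : GQq p → W) = -(fun g => W.ρ g m - m) := by
      funext g
      show (c : GQq p → W) g - (W.ρ g m - m) - (c : GQq p → W) g = -(W.ρ g m - m)
      abel
    rw [this]
    exact (coboundaries₁ W).neg_mem ⟨m, rfl⟩
  exact h

/-- **kernel of the restriction**: a flat level cocycle vanishing on `I_T` is unramified. -/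
theorem wgb1_ker_unr (hsm : IsSmoothQ p W)
    (hn : (T.fixingSubgroup : Subgroup (GQq p)).Normal)
    (hidx : (T.fixingSubgroup : Subgroup (GQq p)).index ≠ 0)
    (hp : ¬ p ∣ (T.fixingSubgroup : Subgroup (GQq p)).index)
    {c : cocycles₁ W} (hlev : IsLevel₁ (towerLoc p) (c : GQq p → W))
    (h0 : ∀ σ ∈ inT p T, (c : GQq p → W) σ = 0) :
    (H1π W).hom c ∈ unrH1 p W := by
  have hcoc := (mem_cocycles₁_iff (c : GQq p → W)).1 c.2
  haveI := hn
  have hdvd : ((T.fixingSubgroup : Subgroup (GQq p)).subgroupOf (inertiaQ p)).index ∣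
      (T.fixingSubgroup : Subgroup (GQq p)).index :=
    Subgroup.relIndex_dvd_index_of_normal _ _
  have hfin : ((T.fixingSubgroup : Subgroup (GQq p)).subgroupOf (inertiaQ p)).index ≠ 0 :=
    fun h => hidx (Nat.eq_zero_of_zero_dvd (h ▸ hdvd))
  have hpn : ¬ p ∣ ((T.fixingSubgroup : Subgroup (GQq p)).subgroupOf (inertiaQ p)).index :=
    fun h => hp (h.trans hdvd)
  have hne : ((((T.fixingSubgroup : Subgroup (GQq p)).subgroupOf (inertiaQ p)).index : ℕ) :
      ZMod p) ≠ 0 := by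
    rw [Ne, ZMod.natCast_eq_zero_iff]
    exact hpn
  obtain ⟨m, hm⟩ := wgb1_avg W (c : GQq p → W) hcoc (inertiaQ p) T.fixingSubgroup hfin
    (((((T.fixingSubgroup : Subgroup (GQq p)).subgroupOf (inertiaQ p)).index : ℕ) : ZMod p)⁻¹)
    (inv_mul_cancel₀ hne) h0
  rw [← wgb1_H1π_sub_cob c m, mem_unrH1]
  refine ⟨c - wgb1Cob W m, ?_, fun τ hτ => ?_, rfl⟩
  · obtain ⟨U, hU, hcU⟩ := hlev
    obtain ⟨V, hV, hρ⟩ := hsm
    refine ⟨U ⊓ V, (towerLoc p).inf_mem U V hU hV, fun g s hs => ?_⟩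
    show (c : GQq p → W) (g * s) - (W.ρ (g * s) m - m) = (c : GQq p → W) g - (W.ρ g m - m)
    rw [hcU g s hs.1, map_mul, hρ s hs.2, mul_one]
  · show (c : GQq p → W) τ - (W.ρ τ m - m) = 0
    rw [hm τ hτ, sub_self]

end Main

/-! ### GB1 -/

/-- **GB1**. -/
theorem stmtGBRed : StmtGBRed := by
  intro hUnr hGI p _ W _ hsm T hT hW hfin
  obtain ⟨hn, hidx, hp⟩ := hGI p T hT
  obtain ⟨hUfin, hUle⟩ := hUnr p p W hsm
  haveI := hfin
  haveI := hUfin
  have hker : ∀ z : ↥(levFlatCocycles p W), wgb1Res hT hn hW z = 0 →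
      ((H1π W).hom ∘ₗ (levFlatCocycles p W).subtype) z ∈ unrH1 p W := by
    intro z hz
    refine wgb1_ker_unr hsm hn hidx hp z.2.1 (fun σ hσ => ?_)
    have h1 := wgb1Res_apply hT hn hW z σ hσ
    rw [hz] at h1
    exact h1.symm
  have hrange : LinearMap.range ((H1π W).hom ∘ₗ (levFlatCocycles p W).subtype) =
      levFlatH1 p W := by
    rw [LinearMap.range_comp, Submodule.range_subtype]
    rfl
  refine ⟨?_, fun hbot => ?_⟩
  · have h := wgb1_finrank_le ((H1π W).hom ∘ₗ (levFlatCocycles p W).subtype)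
      (wgb1Res hT hn hW) (unrH1 p W) hker
    rw [hrange] at h
    exact ⟨h.1, h.2.trans (Nat.add_le_add_right hUle _)⟩
  · rintro _ ⟨c, hc, rfl⟩
    refine wgb1_ker_unr hsm hn hidx hp hc.1 (fun σ hσ => ?_)
    have h1 : (wgb1Res hT hn hW ⟨c, hc⟩ : GQq p → W) = 0 :=
      (Submodule.eq_bot_iff _).1 hbot _ (wgb1Res hT hn hW ⟨c, hc⟩).2
    have h2 := wgb1Res_apply hT hn hW ⟨c, hc⟩ σ hσ
    rw [h1] at h2
    exact h2.symm

end Fermat.Agent.TW.W

end
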