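import Mathlib

/-!
# TW-W (INJ): injectivity of reduction on `p`-torsion points

Abstract form (Mathlib only).  `B` a commutative ring, `ϖ ∈ B` a non-zero-divisor with
`ϖ ^ e = p * w`, `e < (p - 1) * a`.  If `(1 + y) ^ p = 1` and `ϖ ^ a ∣ y` then `ϖ ^ n ∣ y` for all `n`.
-/

namespace Fermat.Agent.TW.W

open Polynomial

/-- The binomial expansion for a prime exponent, with the linear term made explicit:
`(1 + X) ^ p = 1 + p X (1 + X c) + X ^ p` in `ℤ[X]`. -/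
theorem tww_inj_binom_poly (p : ℕ) (hp : p.Prime) :
    ∃ c : ℤ[X], (1 + X : ℤ[X]) ^ p = 1 + (p : ℤ[X]) * X * (1 + X * c) + X ^ p := by
  obtain ⟨r, hr⟩ := exists_add_pow_prime_eq hp (1 : ℤ[X]) X
  have h2 : 2 ≤ p := hp.two_le
  -- coefficient of `X` on both sides
  have hc1 : ((1 + X : ℤ[X]) ^ p).coeff 1 = p := by
    rw [add_comm, coeff_X_add_one_pow]
    simp
  have hc2 : ((1 : ℤ[X]) ^ p + X ^ p + (p : ℤ[X]) * 1 * X * r).coeff 1 = p * r.coeff 0 := by
    have e1 : ((p : ℤ[X]) * 1 * X * r) = C (p : ℤ) * (r * X) := by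
      simp only [mul_one, map_natCast]; ring
    rw [e1, coeff_add, coeff_add, coeff_C_mul, coeff_mul_X, one_pow, coeff_one, coeff_X_pow]
    have : (1 : ℕ) ≠ p := by omega
    simp [this]
  have hr0 : r.coeff 0 = 1 := by
    have := hc1
    rw [hr, hc2] at this
    have hp0 : (p : ℤ) ≠ 0 := by exact_mod_cast hp.ne_zero
    exact mul_left_cancel₀ hp0 (by rw [this, mul_one])
  have hdvd : (X : ℤ[X]) ∣ r - 1 := by
    rw [X_dvd_iff]; simp [hr0]
  obtain ⟨c, hc⟩ := hdvd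
  refine ⟨c, ?_⟩
  rw [hr, ← hc]; ring

/-- The binomial expansion for a prime exponent in any commutative ring. -/
theorem tww_inj_binom {B : Type*} [CommRing B] (p : ℕ) (hp : p.Prime) (y : B) :
    ∃ c : B, (1 + y) ^ p = 1 + (p : B) * y * (1 + y * c) + y ^ p := by
  obtain ⟨c, hc⟩ := tww_inj_binom_poly p hp
  refine ⟨aeval y c, ?_⟩
  have := congrArg (aeval y) hc
  simpa using this

/-- One step: from `ϖ ^ n ∣ y` (with `a ≤ n`) to `ϖ ^ (n + 1) ∣ y`. -/
theorem tww_inj_step {B : Type*} [CommRing B] (p : ℕ) (hp : p.Prime) (ϖ w y : B) (e a n : ℕ)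
    (hϖ : ϖ ∈ nonZeroDivisors B) (hpw : ϖ ^ e = (p : B) * w) (ha : e < (p - 1) * a)
    (han : a ≤ n) (hy : ϖ ^ n ∣ y) (hx : (1 + y) ^ p = 1) : ϖ ^ (n + 1) ∣ y := by
  obtain ⟨y₁, rfl⟩ := hy
  obtain ⟨c, hc⟩ := tww_inj_binom p hp (ϖ ^ n * y₁)
  have h2 : 2 ≤ p := hp.two_le
  have hn1 : 1 ≤ n := by
    rcases Nat.eq_zero_or_pos a with h0 | h0
    · subst h0; simp at ha
    · omega
  -- exponent bookkeeping: `p * n = (e + n) + d + 1`
  have hle : (p - 1) * a ≤ (p - 1) * n := Nat.mul_le_mul_left _ han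
  have hpn : p * n = (p - 1) * n + n := by
    conv_lhs => rw [show p = (p - 1) + 1 by omega]
    rw [add_mul, one_mul]
  obtain ⟨d, hd⟩ : ∃ d, p * n = (e + n) + (d + 1) := ⟨p * n - (e + n) - 1, by omega⟩
  -- the relation `p y u + y ^ p = 0`
  have h0 : (p : B) * (ϖ ^ n * y₁) * (1 + ϖ ^ n * y₁ * c) + (ϖ ^ n * y₁) ^ p = 0 := by
    have := hc
    rw [hx] at this
    linear_combination -this
  have h1 : ϖ ^ (e + n) * (y₁ * (1 + ϖ ^ n * y₁ * c) + w * ϖ ^ (d + 1) * y₁ ^ p) = 0 := by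
    have e1 : (ϖ ^ n * y₁) ^ p = ϖ ^ (e + n) * (ϖ ^ (d + 1) * y₁ ^ p) := by
      rw [mul_pow, ← pow_mul, mul_comm n p, hd, pow_add, mul_assoc]
    rw [e1] at h0
    linear_combination w * h0 + (ϖ ^ n * y₁ * (1 + ϖ ^ n * y₁ * c)) * hpw
  have h3 : y₁ * (1 + ϖ ^ n * y₁ * c) + w * ϖ ^ (d + 1) * y₁ ^ p = 0 :=
    (mul_left_mem_nonZeroDivisors_eq_zero_iff (pow_mem hϖ (e + n))).mp h1
  have h4 : ϖ ∣ y₁ := by
    obtain ⟨m, hm⟩ : ∃ m, n = m + 1 := ⟨n - 1, by omega⟩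
    refine ⟨-(ϖ ^ m * y₁ * c * y₁ + w * ϖ ^ d * y₁ ^ p), ?_⟩
    rw [hm] at h3
    linear_combination h3
  obtain ⟨z, hz⟩ := h4
  exact ⟨z, by rw [hz, pow_succ]; ring⟩

/-- **(INJ), abstract form.** -/
theorem tww_inj_pow_dvd {B : Type*} [CommRing B] (p : ℕ) (hp : p.Prime) (ϖ w y : B) (e a : ℕ)
    (hϖ : ϖ ∈ nonZeroDivisors B) (hpw : ϖ ^ e = (p : B) * w) (ha : e < (p - 1) * a)
    (hy : ϖ ^ a ∣ y) (hx : (1 + y) ^ p = 1) : ∀ n, ϖ ^ n ∣ y := by
  have key : ∀ k, ϖ ^ (a + k) ∣ y := by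
    intro k
    induction k with
    | zero => simpa using hy
    | succ k ih =>
      have := tww_inj_step p hp ϖ w y e a (a + k) hϖ hpw ha (Nat.le_add_right _ _) ih hx
      simpa [add_assoc] using this
  intro n
  exact (pow_dvd_pow ϖ (Nat.le_add_left n a)).trans (by simpa [add_comm] using key n)

/-- (INJ) with separatedness: the element is zero. -/
theorem tww_inj_eq_zero {B : Type*} [CommRing B] (p : ℕ) (hp : p.Prime) (ϖ w y : B) (e a : ℕ)
    (hϖ : ϖ ∈ nonZeroDivisors B) (hpw : ϖ ^ e = (p : B) * w) (ha : e < (p - 1) * a)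
    (hsep : ∀ z : B, (∀ n, ϖ ^ n ∣ z) → z = 0)
    (hy : ϖ ^ a ∣ y) (hx : (1 + y) ^ p = 1) : y = 0 :=
  hsep y (tww_inj_pow_dvd p hp ϖ w y e a hϖ hpw ha hy hx)

/-- (INJ) for two elements with the same `p`-th power, one of them invertible. -/
theorem tww_inj_eq_of_pow_eq {B : Type*} [CommRing B] (p : ℕ) (hp : p.Prime) (ϖ w : B) (e a : ℕ)
    (hϖ : ϖ ∈ nonZeroDivisors B) (hpw : ϖ ^ e = (p : B) * w) (ha : e < (p - 1) * a)
    (hsep : ∀ z : B, (∀ n, ϖ ^ n ∣ z) → z = 0)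
    (x x' : B) (hu : IsUnit x') (hpow : x ^ p = x' ^ p) (hy : ϖ ^ a ∣ x - x') : x = x' := by
  obtain ⟨u, rfl⟩ := hu
  set v : B := ((u⁻¹ : Bˣ) : B) with hv
  have huv : (u : B) * v = 1 := by simp [hv]
  have h1 : (1 + (x - u) * v) = x * v := by
    linear_combination (-1 : B) * huv
  have h2 : (1 + (x - u) * v) ^ p = 1 := by
    rw [h1, mul_pow, hpow, ← mul_pow, huv, one_pow]
  have h3 : ϖ ^ a ∣ (x - u) * v := Dvd.dvd.mul_right hy v
  have h4 := tww_inj_eq_zero p hp ϖ w _ e a hϖ hpw ha hsep h3 h2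
  have h5 : x - u = 0 := by
    have := congrArg (fun t => t * (u : B)) h4
    simp only [zero_mul] at this
    rw [mul_assoc, mul_comm v, huv, mul_one] at this
    exact this
  exact sub_eq_zero.mp h5

section Conv

open WithConv

variable {R C S : Type*} [CommRing R] [AddCommGroup C] [Module R C] [Coalgebra R C]
  [CommRing S] [Algebra R S]

theorem tww_inj_algebraMap_mul_apply (s : S) (g : WithConv (C →ₗ[R] S)) (h : C) :
    (algebraMap S (WithConv (C →ₗ[R] S)) s * g) h = s * g h := by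
  rw [← Algebra.smul_def]
  rfl

/-- Pointwise divisibility by a non-zero-divisor is divisibility in the convolution ring. -/
theorem tww_inj_dvd_of_pointwise (s : S) (hs : s ∈ nonZeroDivisors S)
    (x : WithConv (C →ₗ[R] S)) (hx : ∀ c : C, s ∣ x c) :
    algebraMap S (WithConv (C →ₗ[R] S)) s ∣ x := by
  classical
  choose g hg using hx
  have hcanc : ∀ u t : S, s * u = s * t → u = t := fun u t hst =>
    (mul_cancel_left_mem_nonZeroDivisors hs).mp hst
  let gl : C →ₗ[R] S :=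
    { toFun := g
      map_add' := by
        intro h h'
        apply hcanc
        rw [mul_add, ← hg, ← hg, ← hg, map_add]
      map_smul' := by
        intro r h
        apply hcanc
        rw [RingHom.id_apply, mul_smul_comm, ← hg, ← hg, map_smul] }
  refine ⟨toConv gl, ?_⟩
  ext h
  rw [tww_inj_algebraMap_mul_apply]
  exact hg h

theorem tww_inj_pointwise_of_dvd (s : S) (x : WithConv (C →ₗ[R] S))
    (hx : algebraMap S (WithConv (C →ₗ[R] S)) s ∣ x) (c : C) : s ∣ x c := by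
  obtain ⟨g, rfl⟩ := hx
  exact ⟨g c, tww_inj_algebraMap_mul_apply s g c⟩

theorem tww_inj_algebraMap_mem_nonZeroDivisors [Coalgebra.IsCocomm R C] (s : S)
    (hs : s ∈ nonZeroDivisors S) :
    algebraMap S (WithConv (C →ₗ[R] S)) s ∈ nonZeroDivisors (WithConv (C →ₗ[R] S)) := by
  rw [mem_nonZeroDivisors_iff_right]
  intro g hg
  rw [mul_comm] at hg
  ext h
  have h0 : (algebraMap S (WithConv (C →ₗ[R] S)) s * g) h = (0 : WithConv (C →ₗ[R] S)) h := by
    rw [hg]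
  rw [tww_inj_algebraMap_mul_apply] at h0
  exact (mul_left_mem_nonZeroDivisors_eq_zero_iff hs).mp h0

/-- **(INJ), convolution-ring form**: in the convolution ring `Hom_R(C, S)` of a cocommutative
coalgebra, two elements with the same `p`-th power (one of them invertible) which are pointwise
congruent modulo `ϖ ^ a` (`(p - 1) a > e = v_ϖ(p)`) are equal. -/
theorem tww_inj_conv [Coalgebra.IsCocomm R C] (p : ℕ) (hp : p.Prime) (ϖ w : S) (e a : ℕ)
    (hϖ : ϖ ∈ nonZeroDivisors S) (hpw : ϖ ^ e = (p : S) * w) (ha : e < (p - 1) * a)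
    (hsep : ∀ z : S, (∀ n, ϖ ^ n ∣ z) → z = 0)
    (x x' : WithConv (C →ₗ[R] S)) (hu : IsUnit x') (hpow : x ^ p = x' ^ p)
    (hcong : ∀ c : C, ϖ ^ a ∣ x c - x' c) : x = x' := by
  have hpowB : ∀ n, (algebraMap S (WithConv (C →ₗ[R] S)) ϖ) ^ n =
      algebraMap S (WithConv (C →ₗ[R] S)) (ϖ ^ n) := fun n => (map_pow _ _ _).symm
  have h1 : algebraMap S (WithConv (C →ₗ[R] S)) ϖ ∈ nonZeroDivisors (WithConv (C →ₗ[R] S)) :=
    tww_inj_algebraMap_mem_nonZeroDivisors ϖ hϖ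
  have h2 : (algebraMap S (WithConv (C →ₗ[R] S)) ϖ) ^ e =
      (p : WithConv (C →ₗ[R] S)) * algebraMap S (WithConv (C →ₗ[R] S)) w := by
    rw [hpowB, hpw, map_mul, map_natCast]
  have h3 : ∀ z : WithConv (C →ₗ[R] S),
      (∀ n, (algebraMap S (WithConv (C →ₗ[R] S)) ϖ) ^ n ∣ z) → z = 0 := by
    intro z hz
    ext h
    apply hsep
    intro n
    have := hz n
    rw [hpowB] at this
    exact tww_inj_pointwise_of_dvd _ z this h
  have hd : (algebraMap S (WithConv (C →ₗ[R] S)) ϖ) ^ a ∣ x - x' := by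
    rw [hpowB]
    exact tww_inj_dvd_of_pointwise _ (pow_mem hϖ a) _ hcong
  exact tww_inj_eq_of_pow_eq p hp _ (algebraMap S (WithConv (C →ₗ[R] S)) w) e a h1 h2 ha h3 _ _
    hu hpow hd

end Conv

section Points

open WithConv

variable {R H S : Type*} [CommRing R] [Ring H] [Bialgebra R H] [CommRing S] [Algebra R S]

/-- The linear map underlying a point, as an element of the convolution ring. -/
noncomputable def twwInjLin (ψ : WithConv (H →ₐ[R] S)) : WithConv (H →ₗ[R] S) :=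
  toConv ψ.ofConv.toLinearMap

theorem twwInjLin_injective :
    Function.Injective (twwInjLin : WithConv (H →ₐ[R] S) → WithConv (H →ₗ[R] S)) :=
  toConv_injective.comp <| AlgHom.toLinearMap_injective.comp ofConv_injective

theorem twwInjLin_pow (ψ : WithConv (H →ₐ[R] S)) (n : ℕ) :
    twwInjLin (ψ ^ n) = twwInjLin ψ ^ n :=
  AlgHom.toLinearMap_convPow ψ n

theorem twwInjLin_mul (ψ ψ' : WithConv (H →ₐ[R] S)) :
    twwInjLin (ψ * ψ') = twwInjLin ψ * twwInjLin ψ' :=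
  AlgHom.toLinearMap_convMul ψ ψ'

theorem twwInjLin_one : twwInjLin (1 : WithConv (H →ₐ[R] S)) = 1 :=
  AlgHom.toLinearMap_convOne

theorem twwInjLin_apply (ψ : WithConv (H →ₐ[R] S)) (h : H) :
    twwInjLin ψ h = ψ h := rfl

/-- **(INJ), points form**: two points of a cocommutative bialgebra killed by `p`, with
values in `S`, which are congruent modulo `ϖ ^ a` (`(p - 1) a > e = v_ϖ(p)`) are equal. -/
theorem tww_inj_algHom [Coalgebra.IsCocomm R H] (p : ℕ) (hp : p.Prime) (ϖ w : S) (e a : ℕ)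
    (hϖ : ϖ ∈ nonZeroDivisors S) (hpw : ϖ ^ e = (p : S) * w) (ha : e < (p - 1) * a)
    (hsep : ∀ z : S, (∀ n, ϖ ^ n ∣ z) → z = 0)
    (ψ ψ' : WithConv (H →ₐ[R] S)) (hψ : ψ ^ p = 1) (hψ' : ψ' ^ p = 1)
    (hcong : ∀ h : H, ϖ ^ a ∣ ψ h - ψ' h) : ψ = ψ' := by
  apply twwInjLin_injective
  have hx : twwInjLin ψ ^ p = twwInjLin ψ' ^ p := by
    rw [← twwInjLin_pow, ← twwInjLin_pow, hψ, hψ']
  have hu : IsUnit (twwInjLin ψ') := by
    have h2p : 2 ≤ p := hp.two_le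
    refine IsUnit.of_mul_eq_one (twwInjLin ψ' ^ (p - 1)) ?_
    rw [← pow_succ', show p - 1 + 1 = p by omega, ← twwInjLin_pow, hψ', twwInjLin_one]
  exact tww_inj_conv p hp ϖ w e a hϖ hpw ha hsep _ _ hu hx hcong

end Points

end Fermat.Agent.TW.W
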