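/-
TW-W, piece W-gr (helper65), part 1: SHARP HENSEL for `p`-th powers in a local field (PT-L API).

`F` a finite extension of `ℚ_p`, `w = wv p` its unnormalised valuation (`w(p) = [F : ℚ_p]`).
* `wgr_root_of_high` : `(p - 1) w(x) > w(p)` ⇒ `1 + p x = t ^ p` with `t = 1 + x y`, `y` integral.
-/
import Fermat.Agent.PT.L.Res
import Fermat.Agent.PT.L.Complete
import Fermat.Agent.TW.W.Inj

set_option autoImplicit false
set_option linter.unusedSectionVars false
set_option linter.style.haveILetI false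

open Polynomial

namespace Fermat.Agent.TW.W

open Fermat.Agent.PT.L

section Hensel

variable (q : ℕ) [Fact q.Prime] {F : Type} [Field F] [Algebra ℚ_[q] F]
  [FiniteDimensional ℚ_[q] F]

theorem wgr_natCast_eq : ((q : ℕ) : F) = qEl q F := by
  unfold qEl
  rw [map_natCast]

theorem wgr_wv_natCast : wv q ((q : ℕ) : F) = Module.finrank ℚ_[q] F := by
  rw [wgr_natCast_eq, wv_qEl]

theorem wgr_natCast_ne_zero : ((q : ℕ) : F) ≠ 0 := by
  rw [wgr_natCast_eq]
  exact qEl_ne_zero q

/-- **Sharp Hensel for `p`-th powers**: if `(p - 1) w(x) > w(p)` then `1 + p x` is a `p`-th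
power, of the form `(1 + x y) ^ p` with `y` integral. -/
theorem wgr_root_of_high {x : F}
    (hx : x = 0 ∨ (Module.finrank ℚ_[q] F : ℤ) < ((q : ℤ) - 1) * wv q x) :
    ∃ y : F, IsInt q y ∧ (1 + x * y) ^ q = 1 + (q : F) * x := by
  have hq : q.Prime := Fact.out
  rcases eq_or_ne x 0 with rfl | hx0
  · exact ⟨0, Or.inl rfl, by simp⟩
  have hx := hx.resolve_left hx0
  have hn : (0 : ℤ) < Module.finrank ℚ_[q] F := by exact_mod_cast Module.finrank_pos
  have hq2 : (2 : ℤ) ≤ q := by exact_mod_cast hq.two_le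
  have hwx : 0 < wv q x := by
    by_contra hcon
    rw [not_lt] at hcon
    have : ((q : ℤ) - 1) * wv q x ≤ 0 := mul_nonpos_of_nonneg_of_nonpos (by omega) hcon
    omega
  have hxO : x ∈ UE.OV q stmtWAdd F := Or.inr hwx.le
  set x' : UE.OV q stmtWAdd F := ⟨x, hxO⟩ with hx'
  have hx'm : x' ∈ IsLocalRing.maximalIdeal (UE.OV q stmtWAdd F) := by
    rw [UE.mem_maximalIdeal_iff]
    exact Or.inr hwx
  -- `d = x^(q-1) / q`
  have hq0 : ((q : ℕ) : F) ≠ 0 := wgr_natCast_ne_zero q
  have hdv : wv q (x ^ (q - 1) / (q : F)) = ((q : ℤ) - 1) * wv q x - Module.finrank ℚ_[q] F := by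
    rw [l0b_wv_div q (pow_ne_zero _ hx0) hq0, l0b_wv_pow, wgr_wv_natCast]
    have : ((q - 1 : ℕ) : ℤ) = (q : ℤ) - 1 := by
      have := hq.one_le
      push_cast [Nat.cast_sub this]
      ring
    rw [this]
  have hdO : x ^ (q - 1) / (q : F) ∈ UE.OV q stmtWAdd F := Or.inr (by rw [hdv]; omega)
  set d : UE.OV q stmtWAdd F := ⟨x ^ (q - 1) / (q : F), hdO⟩ with hd
  have hdm : d ∈ IsLocalRing.maximalIdeal (UE.OV q stmtWAdd F) := by
    rw [UE.mem_maximalIdeal_iff]
    right
    show 1 ≤ wv q (x ^ (q - 1) / (q : F))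
    rw [hdv]; omega
  obtain ⟨c, hc⟩ := tww_inj_binom_poly q hq
  set R : (UE.OV q stmtWAdd F)[X] :=
    X ^ 2 * (c.map (Int.castRingHom (UE.OV q stmtWAdd F))).comp (C x' * X) with hR
  set G : (UE.OV q stmtWAdd F)[X] := X + C x' * R + C d * X ^ q - 1 with hG
  have hG1 : G.eval 1 ∈ IsLocalRing.maximalIdeal (UE.OV q stmtWAdd F) := by
    have : G.eval 1 = x' * R.eval 1 + d := by
      simp only [hG, eval_sub, eval_add, eval_mul, eval_C, eval_X, eval_pow, eval_one, one_pow,
        mul_one]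
      ring
    rw [this]
    exact Ideal.add_mem _ (Ideal.mul_mem_right _ _ hx'm) hdm
  have hG' : IsUnit (G.derivative.eval 1) := by
    have : G.derivative.eval 1 = 1 + (x' * R.derivative.eval 1 + d * (q : UE.OV q stmtWAdd F)) := by
      simp only [hG, derivative_sub, derivative_add, derivative_mul, derivative_C, derivative_X,
        derivative_X_pow, derivative_one, eval_add, eval_mul, eval_C, eval_X, eval_pow,
        eval_one, one_pow, mul_one, zero_mul, zero_add, sub_zero]
      ring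
    rw [this]
    have hm : x' * R.derivative.eval 1 + d * (q : UE.OV q stmtWAdd F) ∈
        IsLocalRing.maximalIdeal (UE.OV q stmtWAdd F) :=
      Ideal.add_mem _ (Ideal.mul_mem_right _ _ hx'm) (Ideal.mul_mem_right _ _ hdm)
    by_contra hnu
    have h1 : (1 : UE.OV q stmtWAdd F) + (x' * R.derivative.eval 1 + d * (q : UE.OV q stmtWAdd F)) ∈
        IsLocalRing.maximalIdeal (UE.OV q stmtWAdd F) := by
      rw [IsLocalRing.mem_maximalIdeal, mem_nonunits_iff]
      exact hnu
    have h2 := Ideal.sub_mem _ h1 hm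
    rw [add_sub_cancel_right] at h2
    exact (Ideal.ne_top_iff_one _).1 (IsLocalRing.maximalIdeal.isMaximal _).ne_top h2
  obtain ⟨w, hw0, -⟩ := UE.hensel q stmtWAdd G stmtWComplete hG1 hG'
  refine ⟨(w : F), w.2, ?_⟩
  -- the identity in `X`
  have hcX := congrArg (eval₂ (Int.castRingHom F) (x * (w : F))) hc
  simp only [eval₂_add, eval₂_mul, eval₂_pow, eval₂_one, eval₂_X, eval₂_natCast] at hcX
  -- `G(w) = 0` in `X`
  have hGX : (w : F) + x * ((w : F) ^ 2 * eval₂ (Int.castRingHom F) (x * (w : F)) c) +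
      x ^ (q - 1) / (q : F) * (w : F) ^ q - 1 = 0 := by
    have h1 : G.eval w = w + x' * (w ^ 2 * (c.map (Int.castRingHom (UE.OV q stmtWAdd F))).eval
        (x' * w)) + d * w ^ q - 1 := by
      simp only [hG, hR, eval_sub, eval_add, eval_mul, eval_C, eval_X, eval_pow, eval_one,
        eval_comp]
    rw [h1, eval_map] at hw0
    have h2 := congrArg (fun z : UE.OV q stmtWAdd F => (z : F)) hw0
    have h3 : ((eval₂ (Int.castRingHom (UE.OV q stmtWAdd F)) (x' * w) c :
        UE.OV q stmtWAdd F) : F) = eval₂ (Int.castRingHom F) (x * (w : F)) c := by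
      have := Polynomial.hom_eval₂ c (Int.castRingHom (UE.OV q stmtWAdd F))
        (UE.OV q stmtWAdd F).subtype (x' * w)
      rw [RingHom.eq_intCast' ((UE.OV q stmtWAdd F).subtype.comp
        (Int.castRingHom (UE.OV q stmtWAdd F)))] at this
      exact this
    push_cast at h2
    rw [h3] at h2
    exact h2
  have hxd : (q : F) * x * (x ^ (q - 1) / (q : F)) = x ^ q := by
    have : x ^ q = x ^ (q - 1) * x := by
      rw [← pow_succ]
      congr 1
      have := hq.one_le
      omega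
    rw [this]
    field_simp
  rw [hcX]
  have : (x * (w : F)) ^ q = (q : F) * x * (x ^ (q - 1) / (q : F)) * (w : F) ^ q := by
    rw [hxd, mul_pow]
  rw [this]
  linear_combination ((q : F) * x) * hGX

/-- `1 + x` is a unit when `w(x) > 0`, and so is every `p`-th root of it. -/
theorem wgr_one_add_unit {x : F} (hx : geW q 1 x) : (1 + x ≠ 0) ∧ wv q (1 + x) = 0 :=
  wv_one_add q hx

/-- **(Gr-add)**, valuation form: `(1 + p x)(1 + p y) = (1 + p (x + y)) t ^ p` for integral
`x`, `y`, `p` odd. -/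
theorem wgr_add_wv (hq2 : q ≠ 2) {x y : F} (hx : IsInt q x) (hy : IsInt q y) :
    ∃ t : F, t ≠ 0 ∧ (1 + (q : F) * x) * (1 + (q : F) * y) = (1 + (q : F) * (x + y)) * t ^ q := by
  have hq : q.Prime := Fact.out
  have hn : (0 : ℤ) < Module.finrank ℚ_[q] F := by exact_mod_cast Module.finrank_pos
  have hq3 : (3 : ℤ) ≤ q := by
    have := hq.two_le
    have : 3 ≤ q := by omega
    exact_mod_cast this
  have hqg : geW q (Module.finrank ℚ_[q] F) ((q : ℕ) : F) := Or.inr (wgr_wv_natCast q).ge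
  have hxy : geW q 0 (x + y) := geW_add q hx hy
  have h1 : geW q 1 ((q : F) * (x + y)) := by
    have := geW_mul q hqg hxy
    exact geW_mono q (by omega) this
  obtain ⟨hu0, huv⟩ := wv_one_add q h1
  set u : F := 1 + (q : F) * (x + y) with hu
  set z : F := (q : F) * x * y / u with hz
  have hzg : geW q (Module.finrank ℚ_[q] F) z := by
    rcases eq_or_ne z 0 with h0 | h0
    · exact Or.inl h0
    right
    have hxy0 : (q : F) * x * y ≠ 0 := by
      intro h
      apply h0
      rw [hz, h, zero_div]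
    rw [hz, l0b_wv_div q hxy0 hu0, huv, sub_zero]
    have := geW_mul q (geW_mul q hqg hx) hy
    have := this.resolve_left hxy0
    omega
  have hzhigh : z = 0 ∨ (Module.finrank ℚ_[q] F : ℤ) < ((q : ℤ) - 1) * wv q z := by
    rcases hzg with h | h
    · exact Or.inl h
    · right
      nlinarith
  obtain ⟨w, -, hw⟩ := wgr_root_of_high q hzhigh
  refine ⟨1 + z * w, ?_, ?_⟩
  · intro h
    rw [h, zero_pow hq.ne_zero] at hw
    have h2 : geW q 1 ((q : F) * z) := by
      have := geW_mul q hqg hzg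
      exact geW_mono q (by omega) this
    exact (wv_one_add q h2).1 hw.symm
  · rw [hw, hz]
    field_simp
    ring

/-- integral polynomials take integral values at integral arguments -/
theorem wgr_eval_int (c : ℤ[X]) {y : F} (hy : geW q 0 y) :
    geW q 0 (eval₂ (Int.castRingHom F) y c) := by
  have h1 := Polynomial.hom_eval₂ c (Int.castRingHom (UE.OV q stmtWAdd F))
    (UE.OV q stmtWAdd F).subtype ⟨y, hy⟩
  rw [RingHom.eq_intCast' ((UE.OV q stmtWAdd F).subtype.comp
    (Int.castRingHom (UE.OV q stmtWAdd F)))] at h1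
  have h2 : eval₂ (Int.castRingHom F) y c =
      ((eval₂ (Int.castRingHom (UE.OV q stmtWAdd F)) ⟨y, hy⟩ c : UE.OV q stmtWAdd F) : F) :=
    h1.symm
  rw [h2]
  exact (eval₂ (Int.castRingHom (UE.OV q stmtWAdd F)) ⟨y, hy⟩ c).2

theorem wgr_pow_int {y : F} (hy : geW q 0 y) (i : ℕ) : geW q 0 (y ^ i) :=
  (UE.OV q stmtWAdd F).pow_mem hy i

/-- The valuation of `ζ - 1`: `(p - 1) w(ζ - 1) = w(p)`, and the relation
`(ζ - 1) ^ (p - 1) = - p (1 + (ζ - 1) c)`. -/
theorem wgr_zeta_sub_one {ζ : F} (hζ1 : ζ ≠ 1) (hζp : ζ ^ q = 1) :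
    0 < wv q (ζ - 1) ∧ ((q : ℤ) - 1) * wv q (ζ - 1) = Module.finrank ℚ_[q] F ∧
      ∃ c : ℤ[X], (ζ - 1) ^ (q - 1) =
        -((q : F) * (1 + (ζ - 1) * eval₂ (Int.castRingHom F) (ζ - 1) c)) ∧
        (1 + X : ℤ[X]) ^ q = 1 + (q : ℤ[X]) * X * (1 + X * c) + X ^ q := by
  have hq : q.Prime := Fact.out
  have hn : (0 : ℤ) < Module.finrank ℚ_[q] F := by exact_mod_cast Module.finrank_pos
  obtain ⟨c, hc⟩ := tww_inj_binom_poly q hq
  set l : F := ζ - 1 with hl
  have hl0 : l ≠ 0 := sub_ne_zero.2 hζ1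
  have hζ0 : ζ ≠ 0 := by
    intro h
    rw [h, zero_pow hq.ne_zero] at hζp
    exact zero_ne_one hζp
  have hζw : wv q ζ = 0 := by
    have := l0b_wv_pow q ζ q
    rw [hζp, l0b_wv_one] at this
    have hq0 : (q : ℤ) ≠ 0 := by exact_mod_cast hq.ne_zero
    rcases mul_eq_zero.1 this.symm with h | h
    · exact absurd h hq0
    · exact h
  have hlint : geW q 0 l := geW_sub q (Or.inr hζw.ge) (geW_one q)
  have hcX := congrArg (eval₂ (Int.castRingHom F) l) hc
  simp only [eval₂_add, eval₂_mul, eval₂_pow, eval₂_one, eval₂_X, eval₂_natCast] at hcX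
  have h1l : (1 : F) + l = ζ := by rw [hl]; ring
  rw [h1l, hζp] at hcX
  set cl : F := eval₂ (Int.castRingHom F) l c with hcl
  have hclint : geW q 0 cl := by
    have h1 := Polynomial.hom_eval₂ c (Int.castRingHom (UE.OV q stmtWAdd F))
      (UE.OV q stmtWAdd F).subtype ⟨l, hlint⟩
    rw [RingHom.eq_intCast' ((UE.OV q stmtWAdd F).subtype.comp
      (Int.castRingHom (UE.OV q stmtWAdd F)))] at h1
    have h2 : cl = ((eval₂ (Int.castRingHom (UE.OV q stmtWAdd F)) ⟨l, hlint⟩ c :
        UE.OV q stmtWAdd F) : F) := h1.symm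
    rw [h2]
    exact (eval₂ (Int.castRingHom (UE.OV q stmtWAdd F)) ⟨l, hlint⟩ c).2
  have hpow : l ^ (q - 1) = -((q : F) * (1 + l * cl)) := by
    have h2 : l ^ q = l ^ (q - 1) * l := by
      rw [← pow_succ]
      congr 1
      have := hq.one_le
      omega
    have h3 : l * (l ^ (q - 1) + (q : F) * (1 + l * cl)) = 0 := by
      rw [h2] at hcX
      linear_combination -hcX
    rcases mul_eq_zero.1 h3 with h | h
    · exact absurd h hl0
    · linear_combination h
  have hq0 : ((q : ℕ) : F) ≠ 0 := wgr_natCast_ne_zero q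
  have hqm1 : ((q - 1 : ℕ) : ℤ) = (q : ℤ) - 1 := by
    have := hq.one_le
    push_cast [Nat.cast_sub this]
    ring
  -- positivity of `w(l)`
  have hlpos : 0 < wv q l := by
    by_contra hcon
    rw [not_lt] at hcon
    have hl0w : wv q l = 0 := le_antisymm hcon (hlint.resolve_left hl0)
    have h4 : wv q (l ^ (q - 1)) = 0 := by rw [l0b_wv_pow, hl0w, mul_zero]
    have h5 : geW q (Module.finrank ℚ_[q] F) (-((q : F) * (1 + l * cl))) := by
      apply geW_neg
      have hqg : geW q (Module.finrank ℚ_[q] F) ((q : ℕ) : F) := Or.inr (wgr_wv_natCast q).ge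
      have := geW_mul q hqg (geW_add q (geW_one q) (by simpa using geW_mul q hlint hclint))
      simpa using this
    rw [← hpow] at h5
    rcases h5 with h | h
    · exact pow_ne_zero _ hl0 h
    · omega
  refine ⟨hlpos, ?_, c, hpow, hc⟩
  have h6 : geW q 1 (l * cl) := by
    have := geW_mul q (Or.inr le_rfl : geW q (wv q l) l) hclint
    exact geW_mono q (by omega) this
  obtain ⟨h7, h8⟩ := wv_one_add q h6
  have h9 := congrArg (wv q) hpow
  rw [l0b_wv_pow, geW_wv_neg, l0b_wv_mul q hq0 h7, h8, wgr_wv_natCast, add_zero, hqm1] at h9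
  exact h9

/-- **(Gr-AS)**, valuation form: `1 + p (ζ - 1) (b - b ^ p)` is a `p`-th power for integral `b`
(`p` odd). -/
theorem wgr_as_wv (hq2 : q ≠ 2) {ζ : F} (hζ1 : ζ ≠ 1) (hζp : ζ ^ q = 1) {b : F}
    (hb : IsInt q b) :
    ∃ t : F, t ^ q = 1 + (q : F) * (ζ - 1) * (b - b ^ q) := by
  have hq : q.Prime := Fact.out
  have hn : (0 : ℤ) < Module.finrank ℚ_[q] F := by exact_mod_cast Module.finrank_pos
  have hq3 : (3 : ℤ) ≤ q := by
    have := hq.two_le
    have : 3 ≤ q := by omega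
    exact_mod_cast this
  obtain ⟨hlpos, hlval, c, hpow, hc⟩ := wgr_zeta_sub_one q hζ1 hζp
  set l : F := ζ - 1 with hl
  have hl0 : l ≠ 0 := sub_ne_zero.2 hζ1
  have hlint : geW q 0 l := Or.inr hlpos.le
  set cl : F := eval₂ (Int.castRingHom F) l c with hcl
  set cb : F := eval₂ (Int.castRingHom F) (l * b) c with hcb
  have hlb : geW q 0 (l * b) := by simpa using geW_mul q hlint hb
  have hclint : geW q 0 cl := wgr_eval_int q c hlint
  have hcbint : geW q 0 cb := wgr_eval_int q c hlb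
  have hcX := congrArg (eval₂ (Int.castRingHom F) (l * b)) hc
  simp only [eval₂_add, eval₂_mul, eval₂_pow, eval₂_one, eval₂_X, eval₂_natCast] at hcX
  have hlq : l ^ q = -((q : F) * l * (1 + l * cl)) := by
    have h2 : l ^ q = l ^ (q - 1) * l := by
      rw [← pow_succ]
      congr 1
      have := hq.one_le
      omega
    rw [h2, hpow]
    ring
  set m : F := b ^ 2 * cb - cl * b ^ q with hm
  have hmint : geW q 0 m := by
    apply geW_sub q
    · simpa using geW_mul q (wgr_pow_int q hb 2) hcbint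
    · simpa using geW_mul q hclint (wgr_pow_int q hb q)
  have hexp : (1 + l * b) ^ q = 1 + (q : F) * l * (b - b ^ q) + (q : F) * l ^ 2 * m := by
    rw [hcX, mul_pow, hlq, hm]
    ring
  have hlb1 : geW q 1 (l * b) := by
    have := geW_mul q (Or.inr le_rfl : geW q (wv q l) l) hb
    exact geW_mono q (by omega) this
  obtain ⟨hv0, hvw⟩ := wv_one_add q hlb1
  have hvq0 : (1 + l * b) ^ q ≠ 0 := pow_ne_zero _ hv0
  have hvqw : wv q ((1 + l * b) ^ q) = 0 := by rw [l0b_wv_pow, hvw, mul_zero]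
  set z : F := -(l ^ 2 * m) / (1 + l * b) ^ q with hz
  have hzhigh : z = 0 ∨ (Module.finrank ℚ_[q] F : ℤ) < ((q : ℤ) - 1) * wv q z := by
    rcases eq_or_ne z 0 with h0 | h0
    · exact Or.inl h0
    right
    have hnum0 : -(l ^ 2 * m) ≠ 0 := by
      intro h
      apply h0
      rw [hz, h, zero_div]
    have hm0 : m ≠ 0 := by
      intro h
      apply hnum0
      rw [h, mul_zero, neg_zero]
    rw [hz, l0b_wv_div q hnum0 hvq0, hvqw, sub_zero, geW_wv_neg,
      l0b_wv_mul q (pow_ne_zero _ hl0) hm0, l0b_wv_pow]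
    have := hmint.resolve_left hm0
    push_cast
    nlinarith
  obtain ⟨w, -, hw⟩ := wgr_root_of_high q hzhigh
  refine ⟨(1 + l * b) * (1 + z * w), ?_⟩
  rw [mul_pow, hw, hz]
  field_simp
  rw [hexp]
  ring

end Hensel

end Fermat.Agent.TW.W
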