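/-
TW-W, piece W-gr (helper65), part 2: the unit filtration of a finite extension `T ⊂ ℚ̄_p` in the
language of `TW/W/Plan.lean` (norm of `PadicAlgCl p`).

* `wgr_norm_pow`   : bridge `‖x‖ ^ [T : ℚ_p] = p ^ (- w(x))` between the norm and PT-L's `wv`;
* `wgr_add`  (Gr-add) : `(1 + p x)(1 + p y) = (1 + p (x + y)) t ^ p`, `x, y ∈ 𝒪_T`;
* `wgr_hi`   (Gr-hi)  : `‖x‖ < ‖ζ - 1‖ ⇒ 1 + p x ∈ T^{×p}`  (`1 + p 𝔪^{e'+1} ⊂ T^{×p}`);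
* `wgr_as`   (Gr-AS)  : `1 + p (ζ - 1)(b - b ^ p) ∈ T^{×p}`, `b ∈ 𝒪_T` (Artin–Schreier top piece).
-/
import Fermat.Agent.TW.W.GrHensel
import Mathlib.NumberTheory.Padics.Complex

set_option autoImplicit false
set_option linter.unusedSectionVars false
set_option linter.style.haveILetI false

open Polynomial

namespace Fermat.Agent.TW.W

open Fermat.Agent.PT.L

section Norm

variable (p : ℕ) [Fact p.Prime] (T : IntermediateField ℚ_[p] (PadicAlgCl p))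
  [FiniteDimensional ℚ_[p] T]

/-- the bridge between the norm of `ℚ̄_p` and the valuation `wv` of `T` -/
theorem wgr_norm_pow (x : T) (hx : x ≠ 0) :
    ‖(x : PadicAlgCl p)‖ ^ Module.finrank ℚ_[p] T = (p : ℝ) ^ (-(wv p x)) := by
  have h1 : ‖(x : PadicAlgCl p)‖ = spectralNorm ℚ_[p] T x := by
    rw [← PadicAlgCl.spectralNorm_eq]
    exact (spectralNorm.eq_of_tower (K := ℚ_[p]) (L := PadicAlgCl p) (E := T) x).symm
  rw [h1, ← l0a_norm_eq_spectralNorm_pow p T x]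
  have hN : Algebra.norm ℚ_[p] x ≠ 0 := Algebra.norm_ne_zero_iff.mpr hx
  rw [Padic.norm_eq_zpow_neg_valuation hN]
  rfl

theorem wgr_norm_pos (x : T) (hx : x ≠ 0) : 0 < ‖(x : PadicAlgCl p)‖ := by
  rw [norm_pos_iff]
  exact fun h => hx (Subtype.ext h)

/-- comparison of norms in terms of `wv` -/
theorem wgr_norm_le_iff (x y : T) (hx : x ≠ 0) (hy : y ≠ 0) :
    ‖(x : PadicAlgCl p)‖ ≤ ‖(y : PadicAlgCl p)‖ ↔ wv p y ≤ wv p x := by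
  have hn : Module.finrank ℚ_[p] T ≠ 0 := Module.finrank_pos.ne'
  have h1p : 1 < (p : ℝ) := by exact_mod_cast (Fact.out : p.Prime).one_lt
  rw [← pow_le_pow_iff_left₀ (norm_nonneg _) (norm_nonneg _) hn, wgr_norm_pow p T x hx,
    wgr_norm_pow p T y hy, zpow_le_zpow_iff_right₀ h1p]
  omega

theorem wgr_norm_lt_iff (x y : T) (hx : x ≠ 0) (hy : y ≠ 0) :
    ‖(x : PadicAlgCl p)‖ < ‖(y : PadicAlgCl p)‖ ↔ wv p y < wv p x := by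
  rw [← not_le, wgr_norm_le_iff p T y x hy hx, not_le]

theorem wgr_norm_le_one_iff (x : T) : ‖(x : PadicAlgCl p)‖ ≤ 1 ↔ IsInt p x := by
  rcases eq_or_ne x 0 with rfl | hx
  · simp [IsInt]
  · have h := wgr_norm_le_iff p T x 1 hx one_ne_zero
    have h1 : ((1 : T) : PadicAlgCl p) = 1 := rfl
    rw [h1, norm_one, l0b_wv_one] at h
    rw [h]
    constructor
    · intro h; exact Or.inr h
    · intro h; exact h.resolve_left hx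

theorem wgr_coe_natCast : (((p : ℕ) : T) : PadicAlgCl p) = (p : PadicAlgCl p) := rfl

/-- `‖x‖ ^ (p - 1) < ‖p‖` in terms of `wv` -/
theorem wgr_high_iff (x : T) (hx : x ≠ 0) :
    ‖(x : PadicAlgCl p)‖ ^ (p - 1) < ‖(p : PadicAlgCl p)‖ ↔
      (Module.finrank ℚ_[p] T : ℤ) < ((p : ℤ) - 1) * wv p x := by
  have hq : p.Prime := Fact.out
  have hp0 : ((p : ℕ) : T) ≠ 0 := wgr_natCast_ne_zero p
  have hxp : x ^ (p - 1) ≠ 0 := pow_ne_zero _ hx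
  have h := wgr_norm_lt_iff p T (x ^ (p - 1)) ((p : ℕ) : T) hxp hp0
  have hqm1 : ((p - 1 : ℕ) : ℤ) = (p : ℤ) - 1 := by
    have := hq.one_le
    push_cast [Nat.cast_sub this]
    ring
  rw [wgr_wv_natCast, l0b_wv_pow, hqm1] at h
  rw [← h]
  push_cast
  rw [norm_pow]

/-- **(Gr-add)**: `(1 + p x)(1 + p y) = (1 + p (x + y)) t ^ p` for `x, y ∈ 𝒪_T`, `p` odd. -/
theorem wgr_add (hp2 : p ≠ 2) {x y : PadicAlgCl p} (hx : x ∈ T) (hy : y ∈ T)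
    (hx1 : ‖x‖ ≤ 1) (hy1 : ‖y‖ ≤ 1) :
    ∃ t ∈ T, t ≠ 0 ∧ (1 + (p : PadicAlgCl p) * x) * (1 + (p : PadicAlgCl p) * y) =
      (1 + (p : PadicAlgCl p) * (x + y)) * t ^ p := by
  have hxi : IsInt p (⟨x, hx⟩ : T) := (wgr_norm_le_one_iff p T ⟨x, hx⟩).1 hx1
  have hyi : IsInt p (⟨y, hy⟩ : T) := (wgr_norm_le_one_iff p T ⟨y, hy⟩).1 hy1
  obtain ⟨t, ht0, ht⟩ := wgr_add_wv p hp2 hxi hyi
  refine ⟨(t : PadicAlgCl p), t.2, fun h => ht0 (Subtype.ext h), ?_⟩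
  have := congrArg (fun z : T => (z : PadicAlgCl p)) ht
  simpa using this

/-- **(Gr-hi)**, intrinsic form: `‖x‖ ^ (p - 1) < ‖p‖ ⇒ 1 + p x = t ^ p` with `t ∈ T`,
`‖t - 1‖ ≤ ‖x‖`. -/
theorem wgr_hi' {x : PadicAlgCl p} (hx : x ∈ T) (hlt : ‖x‖ ^ (p - 1) < ‖(p : PadicAlgCl p)‖) :
    ∃ t ∈ T, t ^ p = 1 + (p : PadicAlgCl p) * x ∧ ‖t - 1‖ ≤ ‖x‖ := by
  have hhigh : (⟨x, hx⟩ : T) = 0 ∨
      (Module.finrank ℚ_[p] T : ℤ) < ((p : ℤ) - 1) * wv p (⟨x, hx⟩ : T) := by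
    rcases eq_or_ne (⟨x, hx⟩ : T) 0 with h | h
    · exact Or.inl h
    · exact Or.inr ((wgr_high_iff p T ⟨x, hx⟩ h).1 hlt)
  obtain ⟨y, hy, hxy⟩ := wgr_root_of_high p hhigh
  refine ⟨((1 + (⟨x, hx⟩ : T) * y : T) : PadicAlgCl p), (1 + (⟨x, hx⟩ : T) * y : T).2, ?_, ?_⟩
  · have := congrArg (fun z : T => (z : PadicAlgCl p)) hxy
    simpa using this
  · have hy1 : ‖(y : PadicAlgCl p)‖ ≤ 1 := (wgr_norm_le_one_iff p T y).2 hy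
    have e : ((1 + (⟨x, hx⟩ : T) * y : T) : PadicAlgCl p) - 1 = x * (y : PadicAlgCl p) := by
      push_cast
      ring
    rw [e, norm_mul]
    exact mul_le_of_le_one_right (norm_nonneg _) hy1

section Zeta

variable {ζ : PadicAlgCl p} (hζT : ζ ∈ T) (hζ1 : ζ ≠ 1) (hζp : ζ ^ p = 1)

include hζT hζ1 hζp

/-- `‖ζ - 1‖ ^ (p - 1) = ‖p‖`, `0 < ‖ζ - 1‖ < 1` -/
theorem wgr_norm_zeta_sub_one :
    ‖ζ - 1‖ ^ (p - 1) = ‖(p : PadicAlgCl p)‖ ∧ 0 < ‖ζ - 1‖ ∧ ‖ζ - 1‖ < 1 := by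
  have hq : p.Prime := Fact.out
  have hζ1' : (⟨ζ, hζT⟩ : T) ≠ 1 := fun h => hζ1 (congrArg Subtype.val h)
  have hζp' : (⟨ζ, hζT⟩ : T) ^ p = 1 := Subtype.ext (by simpa using hζp)
  obtain ⟨hpos, hval, -⟩ := wgr_zeta_sub_one p hζ1' hζp'
  have hl0 : (⟨ζ, hζT⟩ : T) - 1 ≠ 0 := sub_ne_zero.2 hζ1'
  have hp0 : ((p : ℕ) : T) ≠ 0 := wgr_natCast_ne_zero p
  have hqm1 : ((p - 1 : ℕ) : ℤ) = (p : ℤ) - 1 := by
    have := hq.one_le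
    push_cast [Nat.cast_sub this]
    ring
  have hcoe : (((⟨ζ, hζT⟩ : T) - 1 : T) : PadicAlgCl p) = ζ - 1 := rfl
  refine ⟨?_, ?_, ?_⟩
  · apply le_antisymm
    · have := (wgr_norm_le_iff p T (((⟨ζ, hζT⟩ : T) - 1) ^ (p - 1)) ((p : ℕ) : T)
        (pow_ne_zero _ hl0) hp0).2 (by rw [wgr_wv_natCast, l0b_wv_pow, hqm1, hval])
      simpa [hcoe] using this
    · have := (wgr_norm_le_iff p T ((p : ℕ) : T) (((⟨ζ, hζT⟩ : T) - 1) ^ (p - 1))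
        hp0 (pow_ne_zero _ hl0)).2 (by rw [wgr_wv_natCast, l0b_wv_pow, hqm1, hval])
      simpa [hcoe] using this
  · rw [norm_pos_iff]
    exact sub_ne_zero.2 hζ1
  · have := (wgr_norm_lt_iff p T ((⟨ζ, hζT⟩ : T) - 1) 1 hl0 one_ne_zero).2
      (by rw [l0b_wv_one]; exact hpos)
    have h1 : ((1 : T) : PadicAlgCl p) = 1 := rfl
    rw [hcoe, h1, norm_one] at this
    exact this

/-- **(Gr-hi)**: `‖x‖ < ‖ζ - 1‖ ⇒ 1 + p x ∈ T^{×p}`, i.e. `1 + p 𝔪^{e'+1} ⊂ T^{×p}`. -/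
theorem wgr_hi {x : PadicAlgCl p} (hx : x ∈ T) (hlt : ‖x‖ < ‖ζ - 1‖) :
    ∃ t ∈ T, t ^ p = 1 + (p : PadicAlgCl p) * x ∧ ‖t - 1‖ ≤ ‖x‖ := by
  have hq : p.Prime := Fact.out
  apply wgr_hi' p T hx
  rw [← (wgr_norm_zeta_sub_one p T hζT hζ1 hζp).1]
  have hne : p - 1 ≠ 0 := by
    have := hq.two_le
    omega
  exact pow_lt_pow_left₀ hlt (norm_nonneg _) hne

/-- **(Gr-AS)**: `1 + p (ζ - 1)(b - b ^ p) ∈ T^{×p}` for `b ∈ 𝒪_T` (`p` odd). -/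
theorem wgr_as (hp2 : p ≠ 2) {b : PadicAlgCl p} (hb : b ∈ T) (hb1 : ‖b‖ ≤ 1) :
    ∃ t ∈ T, t ^ p = 1 + (p : PadicAlgCl p) * (ζ - 1) * (b - b ^ p) := by
  have hζ1' : (⟨ζ, hζT⟩ : T) ≠ 1 := fun h => hζ1 (congrArg Subtype.val h)
  have hζp' : (⟨ζ, hζT⟩ : T) ^ p = 1 := Subtype.ext (by simpa using hζp)
  have hbi : IsInt p (⟨b, hb⟩ : T) := (wgr_norm_le_one_iff p T ⟨b, hb⟩).1 hb1
  obtain ⟨t, ht⟩ := wgr_as_wv p hp2 hζ1' hζp' hbi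
  refine ⟨(t : PadicAlgCl p), t.2, ?_⟩
  have := congrArg (fun z : T => (z : PadicAlgCl p)) ht
  simpa using this

end Zeta

end Norm

end Fermat.Agent.TW.W
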