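/-
TW-W, piece W-gr (helper65), part 3 (= K1): the KUMMER SYMBOL on `ℚ̄_p` and the duality
`G_T / 𝒩_T ≅ Hom((1 + p𝒪_T) T^{×p} / T^{×p}, μ_p)`.

`ζ` a primitive `p`-th root of unity; for `τ ∈ G_{ℚ_p}` and `α ∈ ℚ̄_pˣ` with `τ(α^p) = α^p`:
`wgrKum p ζ τ α = j ∈ ZMod p` iff `τ α = ζ^j α`.

* `wgrKum_spec`, `wgrKum_eq` : characterisation;
* `wgrKum_mul_left`, `wgrKum_mul_right`, `wgrKum_of_fixed` : bilinearity;
* `wgrKum_conj` (Gr-conj) : `κ(γ τ γ⁻¹, γ α) = ω(γ) κ(τ, α)`;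
(The duality statement built on this symbol is in `TW/W/Kummer*.lean`, helper67.)
-/
import Fermat.Agent.TW.W.GrNorm
import Fermat.Agent.TW.W.Plan

set_option autoImplicit false
set_option linter.unusedSectionVars false
set_option linter.style.haveILetI false

namespace Fermat.Agent.TW.W

open Fermat.Agent.PT.L Fermat.Agent.PT.B

section Symbol

variable (p : ℕ) [Fact p.Prime]

/-- the Kummer symbol `κ_ζ(τ, α) ∈ ZMod p`: `τ α = ζ ^ κ · α` (and `0` if there is no such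
exponent). -/
noncomputable def wgrKum (ζ : PadicAlgCl p) (τ : GQq p) (α : PadicAlgCl p) : ZMod p :=
  open Classical in if h : ∃ j : ZMod p, τ α = ζ ^ j.val * α then h.choose else 0

variable {p} {ζ : PadicAlgCl p} (hζ1 : ζ ≠ 1) (hζp : ζ ^ p = 1)

include hζ1 hζp

theorem wgr_orderOf : orderOf ζ = p := orderOf_eq_prime hζp hζ1

theorem wgr_zeta_ne_zero : ζ ≠ 0 := by
  intro h
  rw [h, zero_pow (Fact.out : p.Prime).ne_zero] at hζp
  exact zero_ne_one hζp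

theorem wgr_zeta_pow_eq_iff (i j : ℕ) : ζ ^ i = ζ ^ j ↔ i ≡ j [MOD p] := by
  have h0 := wgr_zeta_ne_zero hζ1 hζp
  have h1 : orderOf (Units.mk0 ζ h0) = p := by
    apply orderOf_eq_prime
    · ext; simpa using hζp
    · intro h
      apply hζ1
      have := congrArg Units.val h
      simpa using this
  have h2 : (Units.mk0 ζ h0) ^ i = (Units.mk0 ζ h0) ^ j ↔ i ≡ j [MOD p] := by
    rw [pow_eq_pow_iff_modEq, h1]
  rw [← h2]
  constructor
  · intro h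
    ext
    simpa using h
  · intro h
    have := congrArg Units.val h
    simpa using this

theorem wgr_zeta_pow_val_inj (i j : ZMod p) (h : ζ ^ i.val = ζ ^ j.val) : i = j := by
  have h1 := (wgr_zeta_pow_eq_iff hζ1 hζp _ _).1 h
  have h2 := (ZMod.natCast_eq_natCast_iff _ _ _).2 h1
  rwa [ZMod.natCast_zmod_val, ZMod.natCast_zmod_val] at h2

theorem wgr_zeta_pow_natCast (n : ℕ) : ζ ^ ((n : ZMod p)).val = ζ ^ n := by
  rw [wgr_zeta_pow_eq_iff hζ1 hζp, ZMod.val_natCast]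
  exact Nat.mod_modEq n p

theorem wgr_zeta_pow_add (i j : ZMod p) : ζ ^ (i + j).val = ζ ^ i.val * ζ ^ j.val := by
  rw [← pow_add, wgr_zeta_pow_eq_iff hζ1 hζp, ZMod.val_add]
  exact Nat.mod_modEq _ p

theorem wgr_zeta_pow_mul (i j : ZMod p) : ζ ^ (i * j).val = (ζ ^ i.val) ^ j.val := by
  rw [← pow_mul, wgr_zeta_pow_eq_iff hζ1 hζp, ZMod.val_mul]
  exact Nat.mod_modEq _ p

/-- every `p`-th root of unity is a power of `ζ` -/
theorem wgr_exists_pow {ξ : PadicAlgCl p} (hξ : ξ ^ p = 1) : ∃ j : ZMod p, ξ = ζ ^ j.val := by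
  have hprim : IsPrimitiveRoot ζ p := by
    have := IsPrimitiveRoot.orderOf ζ
    rwa [wgr_orderOf hζ1 hζp] at this
  obtain ⟨i, -, hi⟩ := hprim.eq_pow_of_pow_eq_one hξ
  exact ⟨(i : ZMod p), by rw [wgr_zeta_pow_natCast hζ1 hζp, hi]⟩

/-- existence of the exponent -/
theorem wgr_kum_exists {τ : GQq p} {α : PadicAlgCl p} (hα : α ≠ 0) (hτ : τ (α ^ p) = α ^ p) :
    ∃ j : ZMod p, τ α = ζ ^ j.val * α := by
  have h1 : (τ α / α) ^ p = 1 := by
    rw [div_pow, ← map_pow, hτ, div_self (pow_ne_zero _ hα)]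
  obtain ⟨j, hj⟩ := wgr_exists_pow hζ1 hζp h1
  exact ⟨j, by rw [← hj]; field_simp⟩

theorem wgrKum_spec {τ : GQq p} {α : PadicAlgCl p} (hα : α ≠ 0) (hτ : τ (α ^ p) = α ^ p) :
    τ α = ζ ^ (wgrKum p ζ τ α).val * α := by
  have h := wgr_kum_exists hζ1 hζp hα hτ
  unfold wgrKum
  rw [dif_pos h]
  exact h.choose_spec

theorem wgrKum_eq {τ : GQq p} {α : PadicAlgCl p} (hα : α ≠ 0) {j : ZMod p}
    (h : τ α = ζ ^ j.val * α) : wgrKum p ζ τ α = j := by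
  have hτ : τ (α ^ p) = α ^ p := by
    rw [map_pow, h, mul_pow, ← pow_mul, mul_comm j.val p, pow_mul, hζp, one_pow, one_mul]
  have h2 := wgrKum_spec hζ1 hζp hα hτ
  rw [h] at h2
  have h3 : ζ ^ j.val = ζ ^ (wgrKum p ζ τ α).val := mul_right_cancel₀ hα h2
  exact (wgr_zeta_pow_val_inj hζ1 hζp _ _ h3).symm

/-- the symbol vanishes iff `τ` fixes `α` -/
theorem wgrKum_eq_zero_iff {τ : GQq p} {α : PadicAlgCl p} (hα : α ≠ 0)
    (hτ : τ (α ^ p) = α ^ p) : wgrKum p ζ τ α = 0 ↔ τ α = α := by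
  constructor
  · intro h
    have := wgrKum_spec hζ1 hζp hα hτ
    rw [h, ZMod.val_zero, pow_zero, one_mul] at this
    exact this
  · intro h
    apply wgrKum_eq hζ1 hζp hα
    rw [ZMod.val_zero, pow_zero, one_mul, h]

/-- additivity in `τ` -/
theorem wgrKum_mul_left {σ τ : GQq p} {α : PadicAlgCl p} (hα : α ≠ 0)
    (hσ : σ (α ^ p) = α ^ p) (hτ : τ (α ^ p) = α ^ p) (hσζ : σ ζ = ζ) :
    wgrKum p ζ (σ * τ) α = wgrKum p ζ σ α + wgrKum p ζ τ α := by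
  apply wgrKum_eq hζ1 hζp hα
  rw [AlgEquiv.mul_apply, wgrKum_spec hζ1 hζp hα hτ, map_mul, map_pow, hσζ,
    wgrKum_spec hζ1 hζp hα hσ, wgr_zeta_pow_add hζ1 hζp]
  ring

/-- additivity in `α` -/
theorem wgrKum_mul_right {τ : GQq p} {α β : PadicAlgCl p} (hα : α ≠ 0) (hβ : β ≠ 0)
    (hτα : τ (α ^ p) = α ^ p) (hτβ : τ (β ^ p) = β ^ p) :
    wgrKum p ζ τ (α * β) = wgrKum p ζ τ α + wgrKum p ζ τ β := by
  apply wgrKum_eq hζ1 hζp (mul_ne_zero hα hβ)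
  rw [map_mul, wgrKum_spec hζ1 hζp hα hτα, wgrKum_spec hζ1 hζp hβ hτβ,
    wgr_zeta_pow_add hζ1 hζp]
  ring

theorem wgrKum_pow_right {τ : GQq p} {α : PadicAlgCl p} (hα : α ≠ 0)
    (hτα : τ (α ^ p) = α ^ p) (n : ℕ) :
    wgrKum p ζ τ (α ^ n) = (n : ZMod p) * wgrKum p ζ τ α := by
  induction n with
  | zero =>
    rw [pow_zero, Nat.cast_zero, zero_mul]
    apply wgrKum_eq hζ1 hζp one_ne_zero
    rw [ZMod.val_zero, pow_zero, one_mul, map_one]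
  | succ n ih =>
    have h1 : τ ((α ^ n) ^ p) = (α ^ n) ^ p := by
      rw [← pow_mul, mul_comm, pow_mul, map_pow, hτα]
    rw [pow_succ, wgrKum_mul_right hζ1 hζp (pow_ne_zero _ hα) hα h1 hτα, ih]
    push_cast
    ring

/-- the symbol of a fixed element vanishes -/
theorem wgrKum_of_fixed {τ : GQq p} {t : PadicAlgCl p} (ht0 : t ≠ 0) (ht : τ t = t) :
    wgrKum p ζ τ t = 0 := by
  apply wgrKum_eq hζ1 hζp ht0
  rw [ZMod.val_zero, pow_zero, one_mul, ht]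

/-- **(Gr-conj)**: `κ(γ τ γ⁻¹, γ α) = w · κ(τ, α)` if `γ ζ = ζ ^ w`. -/
theorem wgrKum_conj {γ τ : GQq p} {α : PadicAlgCl p} (hα : α ≠ 0) (hτ : τ (α ^ p) = α ^ p)
    {w : ZMod p} (hγ : γ ζ = ζ ^ w.val) :
    wgrKum p ζ (γ * τ * γ⁻¹) (γ α) = w * wgrKum p ζ τ α := by
  have hγα : γ α ≠ 0 := by
    rwa [Ne, map_eq_zero_iff _ γ.injective]
  apply wgrKum_eq hζ1 hζp hγα
  have h1 : (γ * τ * γ⁻¹) (γ α) = γ (τ α) := by
    rw [AlgEquiv.mul_apply, AlgEquiv.mul_apply]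
    congr 2
    show γ⁻¹ (γ α) = α
    have : (γ⁻¹ * γ) α = α := by rw [inv_mul_cancel]; rfl
    exact this
  rw [h1, wgrKum_spec hζ1 hζp hα hτ, map_mul, map_pow, hγ, wgr_zeta_pow_mul hζ1 hζp]

end Symbol

end Fermat.Agent.TW.W
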