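/-
TW-W, block (GB) = `StmtGBChar`, `StmtGBIrr` of `TW/W/Plan2.lean` — INTERFACE FILE of the block
captain (helper67).  Route: NOTES/TW-W.md §7; abstract interface: `TW/W/GBAbs.lean`.

  `StmtGBChar` ⇐ `StmtGBRed` (GB1 ✓) + `StmtGBGen` + `StmtGBCharT` (CHAR-T) + `StmtGBCharCount`
  `StmtGBIrr`  ⇐ `StmtGBRed` (GB1 ✓) + `StmtGBGen` + `StmtGBIrrStr` (IRR-STR) + `StmtGBIrrCount`
  `StmtGBGen`  ⇐ `StmtGBKum` (K1) + `StmtGBTame` (K4) + `StmtGBAlg` (GB-ALG, abstract)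

Every `Stmt…` is a `Prop`; the piece `X` is DONE when `theorem stmtX : StmtX` (or `stmtX_of`) is
landed, sorry-free, in its own file `Fermat/Agent/TW/W/GB<X>.lean`, namespace
`Fermat.Agent.TW.W`.
-/
import Fermat.Agent.TW.W.Plan3
import Fermat.Agent.TW.W.GBAbs
import Fermat.Agent.TW.W.KummerCore
import Fermat.Agent.TW.W.GrKum

set_option autoImplicit false

noncomputable section

open scoped TensorProduct

namespace Fermat.Agent.TW.W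

open CategoryTheory groupCohomology IsLocalRing Polynomial
open Fermat.Agent.PT Fermat.Agent.PT.B Fermat.Agent.TW.L Fermat.Agent.TW.S Fermat.Agent.S53
  Fermat.Agent.W1 ExtCitation

section Defs

variable (p : ℕ) [Fact p.Prime]

/-- The mod `p` cyclotomic character of `G_p`. -/
def gbOmega : GQq p →* (ZMod p)ˣ := (cycloChar p).comp (localGaloisToGlobal p)

lemma gbOmega_apply (σ : GQq p) : gbOmega p σ = cycloChar p (localGaloisToGlobal p σ) := rfl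

/-- `{x ∈ T | ‖x‖ ≤ ‖y‖}` (so `gbBall p T 1 = 𝒪_T`, `gbBall p T (π ^ t) = 𝔪_T ^ t`,
`gbBall p T (ζ - 1) = (ζ - 1) 𝒪_T`). -/
def gbBall (T : IntermediateField ℚ_[p] (PadicAlgCl p)) (y : PadicAlgCl p) :
    AddSubgroup (PadicAlgCl p) where
  carrier := {x | x ∈ T ∧ ‖x‖ ≤ ‖y‖}
  add_mem' := by
    rintro a b ⟨ha, ha'⟩ ⟨hb, hb'⟩
    exact ⟨add_mem ha hb, (PadicAlgCl.isNonarchimedean p a b).trans (max_le ha' hb')⟩
  zero_mem' := ⟨zero_mem _, by rw [norm_zero]; exact norm_nonneg _⟩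
  neg_mem' := by
    rintro a ⟨ha, ha'⟩
    exact ⟨neg_mem ha, by rwa [norm_neg]⟩

lemma mem_gbBall (T : IntermediateField ℚ_[p] (PadicAlgCl p)) (y x : PadicAlgCl p) :
    x ∈ gbBall p T y ↔ x ∈ T ∧ ‖x‖ ≤ ‖y‖ := Iff.rfl

/-- **The Kummer symbol in `x`-form**: `κ_ζ(τ, x) = j` iff `τ α = ζ ^ j α` for the `p`-th roots
`α` of `1 + p x`. -/
def gbKappa (ζ : PadicAlgCl p) (τ : GQq p) (x : PadicAlgCl p) : ZMod p :=
  wgrKum p ζ τ (twkRoot p (1 + (p : PadicAlgCl p) * x))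

end Defs

/-! ### The pieces -/

/-- **K1** (the Kummer symbol; owner helper67).  For a good field `T ∋ ζ`: the symbol `gbKappa` on
`I_T × 𝒪_T` is bi-additive, vanishes for `‖x‖ ≤ ‖ζ - 1‖`, is equivariant up to `ω`, and its left
kernel is contained in `𝒩_T`. -/
def StmtGBKum : Prop :=
  ∀ (p : ℕ) [Fact p.Prime], p ≠ 2 → ∀ T : IntermediateField ℚ_[p] (PadicAlgCl p),
    IsGoodField p T → ∀ ζ ∈ T, ζ ≠ 1 → ζ ^ p = 1 →
    GBAbsKum p (inT p T) (lvN p T) (gbBall p T 1) (gbBall p T (ζ - 1)) (gbOmega p) (gbKappa p ζ)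

/-- **K4** (θ-theory; owner helper65).  For a good field `T ∋ ζ` there are: the residue field `F`
of `T` with the action `actF` of `G_p`, a uniformiser `π` of `T`, `e'` with `‖π‖ ^ e' = ‖ζ - 1‖`,
the maps `r t x = x / π ^ t mod 𝔪` and `u γ = γ π / π mod 𝔪`, satisfying `GBAbsTame`, and
* (θ3) `θ = u|_I` is FAITHFUL: `θ ^ t ≠ 1` on inertia for `0 < t < (p - 1) e'`
  (`(p - 1) e' = e` is the ramification index of `T`);
* Frobenius elements act on `F` by `a ↦ a ^ p`. -/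
def StmtGBTame : Prop :=
  ∀ (p : ℕ) [Fact p.Prime], p ≠ 2 → ∀ T : IntermediateField ℚ_[p] (PadicAlgCl p),
    IsGoodField p T → ∀ ζ ∈ T, ζ ≠ 1 → ζ ^ p = 1 →
    ∃ (F : Type) (_ : Field F) (_ : Algebra (ZMod p) F) (actF : GQq p →* RingAut F)
      (u : GQq p → F) (e' : ℕ) (π : PadicAlgCl p) (r : ℕ → PadicAlgCl p → F),
      GBAbsTame p T.fixingSubgroup (inertiaQ p) (gbOmega p) F actF u e'
        (fun t => gbBall p T (π ^ t)) r ∧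
      ‖π‖ ^ e' = ‖ζ - 1‖ ∧
      (∀ t : ℕ, 0 < t → t < (p - 1) * e' → ∃ σ ∈ inertiaQ p, u σ ^ t ≠ 1) ∧
      (∀ φ : GQq p, IsFrobQ p φ → ∀ a : F, actF φ a = a ^ p)

/-- **GB-GEN** (the general bound; assembly K1 + K4 + GB-ALG, owner helper67).  For a good field
`T` there are a field `F ⊇ 𝔽_p`, `e'` and `u : G_p → F` with `u ^ e' = ω` on inertia, `u` faithful
of order `(p - 1) e'` on inertia, such that for every finite `W` on which `G_T` acts trivially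
`dim gbHom T W ≤ Σ_{1 ≤ i ≤ e'} dim_F E_i(W)`. -/
def StmtGBGen : Prop :=
  ∀ (p : ℕ) [Fact p.Prime], p ≠ 2 → ∀ T : IntermediateField ℚ_[p] (PadicAlgCl p),
    IsGoodField p T →
    ∃ (F : Type) (_ : Field F) (_ : Algebra (ZMod p) F) (u : GQq p → F) (e' : ℕ),
      (∀ σ ∈ inertiaQ p,
        algebraMap (ZMod p) F ((gbOmega p σ : (ZMod p)ˣ) : ZMod p) = u σ ^ e') ∧
      (∀ t : ℕ, 0 < t → t < (p - 1) * e' → ∃ σ ∈ inertiaQ p, u σ ^ t ≠ 1) ∧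
      ∀ (W : Rep.{0} (ZMod p) (GQq p)) [FiniteDimensional (ZMod p) W],
        (∀ σ ∈ T.fixingSubgroup, W.ρ σ = 1) →
        Module.Finite (ZMod p) (gbHom p T W) ∧
          Module.finrank (ZMod p) (gbHom p T W) ≤
            ∑ i ∈ Finset.Icc 1 e', Module.finrank F (gbEig p F W.ρ (inertiaQ p) u i)

/-- **CHAR-T** (owner helper48): the field cut out by a level character `ψ` and `ω` is good;
`k(ψ)` is smooth and finite; `ψ ^ (p - 1) = 1` on inertia; no invariants if `ψ = ω` on inertia. -/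
def StmtGBCharT : Prop :=
  ∀ (p : ℕ) [Fact p.Prime], p ≠ 2 → ∀ (k : Type) [Field k] [CharP k p] [Algebra (ZMod p) k]
    [Finite k] (ψ : GQq p →* kˣ), (∃ U ∈ (towerLoc p).lev, ∀ s ∈ U, ψ s = 1) →
    (∃ T : IntermediateField ℚ_[p] (PadicAlgCl p), IsGoodField p T ∧
      ∀ σ ∈ T.fixingSubgroup, (charRep p ψ).ρ σ = 1) ∧
    IsSmoothQ p (charRep p ψ) ∧ Module.Finite (ZMod p) (charRep p ψ) ∧
    (∀ σ ∈ inertiaQ p, ((ψ σ : kˣ) : k) ^ (p - 1) = 1) ∧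
    (IsCycOnInertia p ψ → Module.finrank (ZMod p) (charRep p ψ).ρ.invariants = 0)

/-- **CHAR-count** (linear algebra in `F ⊗ k`): for a character `ψ` with `ψ ^ (p - 1) = 1` on
inertia and `(F, u, e')` as in `StmtGBGen`: `Σ_{1 ≤ i ≤ e'} dim_F E_i(k(ψ)) ≤ f`, and every
`E_i = 0` if `ψ ≠ ω` on inertia.
(`E_i` is the annihilator in `R = F ⊗ k` of the ideal `𝔞_i` generated by the
`1 ⊗ ψ(σ) - u(σ)^i ⊗ 1`; `𝔞_i + 𝔞_j ∋ (u(σ)^j - u(σ)^i) ⊗ 1`, a unit for suitable `σ`, so the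
annihilators are independent in `R`, `dim_F R = f`.  If `E_i ≠ 0` then `ψ = u ^ i` on inertia
(`ψ(σ) ∈ 𝔽_p`), so `u ^ (i (p - 1)) = 1`, `i = e'` and `ψ = ω`.) -/
def StmtGBCharCount : Prop :=
  ∀ (p : ℕ) [Fact p.Prime], p ≠ 2 → ∀ (k : Type) [Field k] [CharP k p] [Algebra (ZMod p) k]
    [Finite k] (ψ : GQq p →* kˣ), (∀ σ ∈ inertiaQ p, ((ψ σ : kˣ) : k) ^ (p - 1) = 1) →
    ∀ (F : Type) [Field F] [Algebra (ZMod p) F] (u : GQq p → F) (e' : ℕ),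
      (∀ σ ∈ inertiaQ p,
        algebraMap (ZMod p) F ((gbOmega p σ : (ZMod p)ˣ) : ZMod p) = u σ ^ e') →
      (∀ t : ℕ, 0 < t → t < (p - 1) * e' → ∃ σ ∈ inertiaQ p, u σ ^ t ≠ 1) →
      ∑ i ∈ Finset.Icc 1 e', Module.finrank F (gbEig p F (charRep p ψ).ρ (inertiaQ p) u i) ≤
          Module.finrank (ZMod p) k ∧
        (¬ IsCycOnInertia p ψ →
          ∀ i ∈ Finset.Icc 1 e', gbEig p F (charRep p ψ).ρ (inertiaQ p) u i = ⊥)

/-- The structure of an irreducible `ρ̄|_{G_p}` on inertia: two eigenlines with characters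
`ψ₁ ≠ ψ₂`, `ψ₂ = ψ₁ ^ p`, `ψ₁ = ψ₂ ^ p`, `ψ₁ ψ₂ = ω`. -/
def IsIrrInertia (p : ℕ) [Fact p.Prime] {k : Type} [Field k] [Algebra (ZMod p) k]
    (ρbar : ResidualGaloisRep k) : Prop :=
  ∃ (v₁ v₂ : ρbar.V) (ψ₁ ψ₂ : GQq p → k), LinearIndependent k ![v₁, v₂] ∧
    (∀ σ ∈ inertiaQ p, rhoLoc p ρbar σ v₁ = ψ₁ σ • v₁ ∧ rhoLoc p ρbar σ v₂ = ψ₂ σ • v₂) ∧
    (∃ σ₀ ∈ inertiaQ p, ψ₁ σ₀ ≠ ψ₂ σ₀) ∧
    (∀ σ ∈ inertiaQ p, ψ₂ σ = ψ₁ σ ^ p ∧ ψ₁ σ = ψ₂ σ ^ p) ∧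
    ∀ σ ∈ inertiaQ p,
      ψ₁ σ * ψ₂ σ = algebraMap (ZMod p) k ((gbOmega p σ : (ZMod p)ˣ) : ZMod p)

/-- **IRR-STR**: `ρ̄|_{G_p}` irreducible, `det ρ̄ = ω`, split characteristic polynomials.  Then the
field cut out by `ρ̄|_{G_p}` is good (`ρ̄(G_p) ⊆ N(torus)` has order prime to `p`), `ad⁰` is smooth
with no invariants, and inertia acts through two characters `ψ₁ ≠ ψ₂ = ψ₁ ^ p`.
(Wild inertia acts trivially [`V̄^P ≠ 0` is stable]; `StmtTameGen` for `h = ρ̄|_I` mod `P`: `ρ̄(I)`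
cyclic, generated by `s` with eigenvalues in `k`; `s` scalar ⇒ an eigenline of `ρ̄(φ)` is stable
(`StmtFrobGen`); so `s` has two eigenlines, permuted by `G_p`, swapped by `φ`;
`h(φ σ φ⁻¹) = h(σ) ^ p`.) -/
def StmtGBIrrStr : Prop :=
  ∀ (p : ℕ) [Fact p.Prime], p ≠ 2 → ∀ (k : Type) [Field k] [CharP k p] [Algebra (ZMod p) k]
    [Finite k] (ρbar : ResidualGaloisRep k),
    (GaloisRepAdic.ofResidualGaloisRep ρbar).DetIsCyclotomic p →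
    (∀ σ : GQ, ∃ α β : k, LinearMap.charpoly (ρbar.ρ σ) = (X - C α) * (X - C β)) →
    IsLocIrr p ρbar →
    (∃ T : IntermediateField ℚ_[p] (PadicAlgCl p), IsGoodField p T ∧
      ∀ σ ∈ T.fixingSubgroup, rhoLoc p ρbar σ = 1) ∧
    IsSmoothQ p (locRep p (ad0Rep p ρbar)) ∧
    Module.finrank (ZMod p) (locRep p (ad0Rep p ρbar)).ρ.invariants = 0 ∧
    IsIrrInertia p ρbar

/-- **IRR-count** (linear algebra in `F ⊗ ad⁰`): if inertia acts on `V̄` through `ψ₁ ≠ ψ₂ = ψ₁^p`,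
`ψ₁ ψ₂ = ω`, and `(F, u, e')` is as in `StmtGBGen`, then `Σ_{1 ≤ i ≤ e'} dim_F E_i(ad⁰) ≤ f`.
(`ad⁰ = k X₀ ⊕ k X₊ ⊕ k X₋` with characters `1, η, η⁻¹`, `η = ψ₁/ψ₂`; `E_i ∩ (F ⊗ k X₀) = 0` as
`u^i ≠ 1`; the `2e'` spaces `E_i ∩ (F ⊗ k X_±)` are annihilators in `R = F ⊗ k` of pairwise
comaximal ideals [`(i,+)` and `(j,-)` in one maximal ideal ⇒ `u^{i+j} = 1` ⇒ `p = 3`, `i = j = e'`,
`η = ω = ψ₁ψ₂`, `ψ₂² = 1`, `ψ₁ = ψ₂^3 = ψ₂`], so their dimensions add up to `≤ dim_F R = f`.) -/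
def StmtGBIrrCount : Prop :=
  ∀ (p : ℕ) [Fact p.Prime], p ≠ 2 → ∀ (k : Type) [Field k] [CharP k p] [Algebra (ZMod p) k]
    [Finite k] (ρbar : ResidualGaloisRep k), IsIrrInertia p ρbar →
    ∀ (F : Type) [Field F] [Algebra (ZMod p) F] (u : GQq p → F) (e' : ℕ),
      (∀ σ ∈ inertiaQ p,
        algebraMap (ZMod p) F ((gbOmega p σ : (ZMod p)ˣ) : ZMod p) = u σ ^ e') →
      (∀ t : ℕ, 0 < t → t < (p - 1) * e' → ∃ σ ∈ inertiaQ p, u σ ^ t ≠ 1) →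
      ∑ i ∈ Finset.Icc 1 e',
          Module.finrank F (gbEig p F (locRep p (ad0Rep p ρbar)).ρ (inertiaQ p) u i) ≤
        Module.finrank (ZMod p) k

end Fermat.Agent.TW.W

end
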