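/-
TW-W, block (GB), piece K1 (helper67): the Kummer symbol `gbKappa` on `I_T × 𝒪_T` satisfies
`GBAbsKum`: bi-additive, vanishing on `(ζ - 1) 𝒪_T`, equivariant up to `ω`, left kernel in `𝒩_T`.

`theorem stmtGBKum : StmtGBKum`.
-/
import Fermat.Agent.TW.W.GBPlan
import Fermat.Agent.TW.W.GrInert
import Fermat.Agent.TW.W.GB1

set_option autoImplicit false
set_option linter.unusedSectionVars false
set_option linter.style.haveILetI false

namespace Fermat.Agent.TW.W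

open Fermat.Agent.PT.L Fermat.Agent.PT.B Fermat.Agent.TW.L ExtCitation

section K1

variable (p : ℕ) [Fact p.Prime]

/-- dictionary: `γ ζ = ζ ^ ω(γ)` for a `p`-th root of unity `ζ ∈ ℚ̄_p`. -/
theorem twk_omega_spec {ζ : PadicAlgCl p} (hζp : ζ ^ p = 1) (γ : GQq p) :
    γ ζ = ζ ^ (((gbOmega p γ : (ZMod p)ˣ) : ZMod p)).val := by
  haveI : NeZero p := ⟨(Fact.out : p.Prime).ne_zero⟩
  obtain ⟨ζ₀, hζ₀⟩ := HasEnoughRootsOfUnity.exists_primitiveRoot (AlgebraicClosure ℚ) p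
  have hspec : ∀ τ : AlgebraicClosure ℚ ≃ₐ[ℚ] AlgebraicClosure ℚ,
      τ ζ₀ = ζ₀ ^ ((cycloChar p τ : (ZMod p)ˣ) : ZMod p).val := by
    intro τ
    have h := modularCyclotomicCharacter.spec (AlgebraicClosure ℚ) (card_rootsOfUnity_eq_self p)
      (τ : AlgebraicClosure ℚ ≃+* AlgebraicClosure ℚ)
      (t := hζ₀.toRootsOfUnity) (SetLike.coe_mem hζ₀.toRootsOfUnity)
    simpa [cycloChar] using h
  have hinj : Function.Injective (padicEmbedding p) := (padicEmbedding p).toRingHom.injective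
  have hξ1 : padicEmbedding p ζ₀ ≠ 1 := by
    intro h
    have h1 : ζ₀ = 1 := hinj (by rw [h, map_one])
    exact hζ₀.ne_one (Fact.out : p.Prime).one_lt h1
  have hξp : padicEmbedding p ζ₀ ^ p = 1 := by
    rw [← map_pow, hζ₀.pow_eq_one, map_one]
  obtain ⟨j, hj⟩ := wgr_exists_pow hξ1 hξp hζp
  have hγξ : γ (padicEmbedding p ζ₀) =
      padicEmbedding p ζ₀ ^ (((gbOmega p γ : (ZMod p)ˣ) : ZMod p)).val := by
    rw [← padicEmbedding_localGaloisToGlobal, hspec, map_pow]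
    rfl
  rw [hj, map_pow, hγξ, ← pow_mul, ← pow_mul, mul_comm]

/-- `‖ξ‖ = 1` for a root of unity -/
theorem twk_norm_root_one {ξ : PadicAlgCl p} (hξ : ξ ^ p = 1) : ‖ξ‖ = 1 := by
  have h : ‖ξ‖ ^ p = 1 := by rw [← norm_pow, hξ, norm_one]
  exact (pow_eq_one_iff_of_nonneg (norm_nonneg _) (Fact.out : p.Prime).ne_zero).1 h

variable {p}
variable {T : IntermediateField ℚ_[p] (PadicAlgCl p)} {ζ : PadicAlgCl p}

/-- `1 + p x ≠ 0` for `‖x‖ ≤ 1`, given `‖p‖ < 1`. -/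
theorem twk_unit_ne_zero (hp1 : ‖(p : PadicAlgCl p)‖ < 1) {x : PadicAlgCl p} (hx : ‖x‖ ≤ 1) :
    1 + (p : PadicAlgCl p) * x ≠ 0 := by
  intro h
  have h1 : (p : PadicAlgCl p) * x = -1 := by
    linear_combination h
  have h2 : ‖(p : PadicAlgCl p) * x‖ = 1 := by rw [h1, norm_neg, norm_one]
  rw [norm_mul] at h2
  have h3 : ‖(p : PadicAlgCl p)‖ * ‖x‖ < 1 := by
    calc ‖(p : PadicAlgCl p)‖ * ‖x‖ ≤ ‖(p : PadicAlgCl p)‖ * 1 :=
          mul_le_mul_of_nonneg_left hx (norm_nonneg _)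
      _ < 1 := by rw [mul_one]; exact hp1
  exact absurd h2 (ne_of_lt h3)

/-- elements of `G_T` fix `1 + p x`, `x ∈ T` -/
theorem twk_fix_unit {τ : GQq p} (hτ : τ ∈ T.fixingSubgroup) {x : PadicAlgCl p} (hx : x ∈ T) :
    τ (1 + (p : PadicAlgCl p) * x) = 1 + (p : PadicAlgCl p) * x := by
  have h := (IntermediateField.mem_fixingSubgroup_iff T τ).1 hτ x hx
  rw [map_add, map_one, map_mul, map_natCast, h]

/-- independence of the root: `κ(τ, x)` may be computed with any `p`-th root of `1 + p x`. -/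
theorem twk_kappa_eq (hζ1 : ζ ≠ 1) (hζp : ζ ^ p = 1) {τ : GQq p} (hτζ : τ ζ = ζ)
    {x β : PadicAlgCl p} (hβ : β ^ p = 1 + (p : PadicAlgCl p) * x)
    (hu : 1 + (p : PadicAlgCl p) * x ≠ 0)
    (hτu : τ (1 + (p : PadicAlgCl p) * x) = 1 + (p : PadicAlgCl p) * x) :
    gbKappa p ζ τ x = wgrKum p ζ τ β := by
  have hpne : p ≠ 0 := (Fact.out : p.Prime).ne_zero
  set α := twkRoot p (1 + (p : PadicAlgCl p) * x) with hα
  have hαp : α ^ p = 1 + (p : PadicAlgCl p) * x := twkRoot_pow p _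
  have hα0 : α ≠ 0 := twkRoot_ne_zero p hu
  have hβ0 : β ≠ 0 := by
    intro h
    rw [h, zero_pow hpne] at hβ
    exact hu hβ.symm
  have h1 : (β / α) ^ p = 1 := by
    rw [div_pow, hβ, hαp, div_self hu]
  obtain ⟨j, hj⟩ := wgr_exists_pow hζ1 hζp h1
  have hβα : β = ζ ^ j.val * α := by
    rw [← hj]
    field_simp
  have hζ0 : ζ ^ j.val ≠ 0 := pow_ne_zero _ (wgr_zeta_ne_zero hζ1 hζp)
  have hτζj : τ (ζ ^ j.val) = ζ ^ j.val := by rw [map_pow, hτζ]
  have hτζjp : τ ((ζ ^ j.val) ^ p) = (ζ ^ j.val) ^ p := by rw [map_pow, hτζj]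
  have hταp : τ (α ^ p) = α ^ p := by rw [hαp]; exact hτu
  show wgrKum p ζ τ α = wgrKum p ζ τ β
  rw [hβα, wgrKum_mul_right hζ1 hζp hζ0 hα0 hτζjp hταp, wgrKum_of_fixed hζ1 hζp hζ0 hτζj,
    zero_add]

/-- `G_p` preserves a good field. -/
theorem twk_map_mem (hn : (T.fixingSubgroup : Subgroup (GQq p)).Normal) (γ : GQq p)
    {x : PadicAlgCl p} (hx : x ∈ T) : γ x ∈ T := by
  have hT : IntermediateField.fixedField T.fixingSubgroup = T :=
    InfiniteGalois.fixedField_fixingSubgroup T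
  rw [← hT, IntermediateField.mem_fixedField_iff]
  intro τ hτ
  have h1 : γ⁻¹ * τ * γ ∈ T.fixingSubgroup := by
    have := hn.conj_mem τ hτ γ⁻¹
    rwa [inv_inv] at this
  have h2 := (IntermediateField.mem_fixingSubgroup_iff T _).1 h1 x hx
  have h3 : (γ⁻¹ * τ * γ) x = γ⁻¹ (τ (γ x)) := rfl
  rw [h3] at h2
  have h4 : γ (γ⁻¹ (τ (γ x))) = τ (γ x) := by
    have : (γ * γ⁻¹) (τ (γ x)) = τ (γ x) := by rw [mul_inv_cancel]; rfl
    exact this
  rw [← h4, h2]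

/-- some `p`-th root of `u` is close to `1` when `‖u - 1‖ ≤ ‖ζ - 1‖ ^ p`. -/
theorem twk_exists_close_root (hζ1 : ζ ≠ 1) (hζp : ζ ^ p = 1) {α : PadicAlgCl p}
    (hα : ‖α ^ p - 1‖ ≤ ‖ζ - 1‖ ^ p) :
    ∃ β : PadicAlgCl p, β ^ p = α ^ p ∧ ‖β - 1‖ ≤ ‖ζ - 1‖ := by
  have hpp : p.Prime := Fact.out
  haveI : NeZero p := ⟨hpp.ne_zero⟩
  have hprim : IsPrimitiveRoot ζ p := by
    have := IsPrimitiveRoot.orderOf ζ
    rwa [wgr_orderOf hζ1 hζp] at this
  have hprod : α ^ p - 1 = ∏ ξ ∈ Polynomial.nthRootsFinset p (1 : PadicAlgCl p), (α - ξ) := by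
    have h := hprim.pow_sub_pow_eq_prod_sub_mul α 1 hpp.pos
    simpa using h
  by_contra hcon
  simp only [not_exists, not_and, not_le] at hcon
  -- every factor is large
  have hbig : ∀ ξ ∈ Polynomial.nthRootsFinset p (1 : PadicAlgCl p), ‖ζ - 1‖ < ‖α - ξ‖ := by
    intro ξ hξ
    have hξp : ξ ^ p = 1 := (Polynomial.mem_nthRootsFinset hpp.pos 1).1 hξ
    have hξn : ‖ξ‖ = 1 := twk_norm_root_one p hξp
    have hξ0 : ξ ≠ 0 := by
      intro h
      rw [h, norm_zero] at hξn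
      exact zero_ne_one hξn
    have h1 := hcon (α / ξ) (by rw [div_pow, hξp, div_one])
    have h2 : α / ξ - 1 = (α - ξ) / ξ := by field_simp
    rwa [h2, norm_div, hξn, div_one] at h1
  have hne : (Polynomial.nthRootsFinset p (1 : PadicAlgCl p)).Nonempty :=
    ⟨1, (Polynomial.mem_nthRootsFinset hpp.pos 1).2 (one_pow _)⟩
  have hcard : (Polynomial.nthRootsFinset p (1 : PadicAlgCl p)).card = p :=
    hprim.card_nthRootsFinset
  have hlt : ∏ _ξ ∈ Polynomial.nthRootsFinset p (1 : PadicAlgCl p), ‖ζ - 1‖ <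
      ∏ ξ ∈ Polynomial.nthRootsFinset p (1 : PadicAlgCl p), ‖α - ξ‖ :=
    Finset.prod_lt_prod_of_nonempty
      (fun _ _ => norm_pos_iff.2 (sub_ne_zero.2 hζ1)) hbig hne
  rw [Finset.prod_const, hcard, ← norm_prod, ← hprod] at hlt
  exact absurd hα (not_le.2 hlt)

end K1

/-- **K1**. -/
theorem stmtGBKum : StmtGBKum := by
  intro p _ hp2 T hT ζ hζT hζ1 hζp
  have hpp : p.Prime := Fact.out
  haveI := hT.finite
  obtain ⟨hlpow, hlpos, hllt⟩ := wgr_norm_zeta_sub_one p T hζT hζ1 hζp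
  have hn : (T.fixingSubgroup : Subgroup (GQq p)).Normal := (stmtGoodIndex p T hT).1
  have hpm1 : p - 1 ≠ 0 := by
    have := hpp.two_le
    omega
  have hp1 : ‖(p : PadicAlgCl p)‖ < 1 := by
    rw [← hlpow]
    exact pow_lt_one₀ (norm_nonneg _) hllt hpm1
  have hp0 : (p : PadicAlgCl p) ≠ 0 := by
    intro h
    rw [h, norm_zero] at hlpow
    exact (pow_pos hlpos _).ne' hlpow
  have hfixζ : ∀ τ ∈ T.fixingSubgroup, τ ζ = ζ := fun τ hτ =>
    (IntermediateField.mem_fixingSubgroup_iff T τ).1 hτ ζ hζT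
  refine ⟨?_, ?_, ?_, ?_, ?_⟩
  · -- additivity in `x`
    rintro τ ⟨-, hτ⟩ x ⟨hx, hx1⟩ y ⟨hy, hy1⟩
    rw [norm_one] at hx1 hy1
    obtain ⟨t, htT, ht0, ht⟩ := wgr_add p T hp2 hx hy hx1 hy1
    have hxy1 : ‖x + y‖ ≤ 1 := (wgr_norm_add_le p x y).trans (max_le hx1 hy1)
    have hux := twk_unit_ne_zero hp1 hx1
    have huy := twk_unit_ne_zero hp1 hy1
    have huxy := twk_unit_ne_zero hp1 hxy1
    set a := twkRoot p (1 + (p : PadicAlgCl p) * x) with ha
    set b := twkRoot p (1 + (p : PadicAlgCl p) * y) with hb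
    have hap : a ^ p = 1 + (p : PadicAlgCl p) * x := twkRoot_pow p _
    have hbp : b ^ p = 1 + (p : PadicAlgCl p) * y := twkRoot_pow p _
    have ha0 : a ≠ 0 := twkRoot_ne_zero p hux
    have hb0 : b ≠ 0 := twkRoot_ne_zero p huy
    have htp0 : t ^ p ≠ 0 := pow_ne_zero _ ht0
    have hβ : (a * b * t⁻¹) ^ p = 1 + (p : PadicAlgCl p) * (x + y) := by
      rw [mul_pow, mul_pow, hap, hbp, ht, inv_pow]
      field_simp
    have hτt : τ t⁻¹ = t⁻¹ := by
      rw [map_inv₀, (IntermediateField.mem_fixingSubgroup_iff T τ).1 hτ t htT]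
    have hτa : τ (a ^ p) = a ^ p := by rw [hap]; exact twk_fix_unit hτ hx
    have hτb : τ (b ^ p) = b ^ p := by rw [hbp]; exact twk_fix_unit hτ hy
    have hτab : τ ((a * b) ^ p) = (a * b) ^ p := by
      rw [mul_pow, map_mul, hτa, hτb]
    have hτtp : τ ((t⁻¹) ^ p) = (t⁻¹) ^ p := by rw [map_pow, hτt]
    rw [twk_kappa_eq hζ1 hζp (hfixζ τ hτ) hβ huxy (twk_fix_unit hτ (add_mem hx hy)),
      wgrKum_mul_right hζ1 hζp (mul_ne_zero ha0 hb0) (inv_ne_zero ht0) hτab hτtp,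
      wgrKum_mul_right hζ1 hζp ha0 hb0 hτa hτb,
      wgrKum_of_fixed hζ1 hζp (inv_ne_zero ht0) hτt, add_zero]
    rfl
  · -- additivity in `τ`
    rintro σ ⟨-, hσ⟩ τ ⟨-, hτ⟩ x ⟨hx, hx1⟩
    rw [norm_one] at hx1
    have hux := twk_unit_ne_zero hp1 hx1
    have hap : (twkRoot p (1 + (p : PadicAlgCl p) * x)) ^ p = 1 + (p : PadicAlgCl p) * x :=
      twkRoot_pow p _
    have ha0 : twkRoot p (1 + (p : PadicAlgCl p) * x) ≠ 0 := twkRoot_ne_zero p hux
    exact wgrKum_mul_left hζ1 hζp ha0 (by rw [hap]; exact twk_fix_unit hσ hx)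
      (by rw [hap]; exact twk_fix_unit hτ hx) (hfixζ σ hσ)
  · -- vanishing on `(ζ - 1) 𝒪_T`
    rintro τ ⟨hτI, hτ⟩ x ⟨hx, hxl⟩
    have hx1 : ‖x‖ ≤ 1 := hxl.trans hllt.le
    have hux := twk_unit_ne_zero hp1 hx1
    set a := twkRoot p (1 + (p : PadicAlgCl p) * x) with ha
    have hap : a ^ p = 1 + (p : PadicAlgCl p) * x := twkRoot_pow p _
    have hclose : ‖a ^ p - 1‖ ≤ ‖ζ - 1‖ ^ p := by
      rw [hap, add_sub_cancel_left, norm_mul, ← hlpow]
      calc ‖ζ - 1‖ ^ (p - 1) * ‖x‖ ≤ ‖ζ - 1‖ ^ (p - 1) * ‖ζ - 1‖ :=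
            mul_le_mul_of_nonneg_left hxl (pow_nonneg (norm_nonneg _) _)
        _ = ‖ζ - 1‖ ^ p := by
            rw [← pow_succ]
            congr 1
            omega
    obtain ⟨β, hβp, hβ1⟩ := twk_exists_close_root hζ1 hζp hclose
    rw [hap] at hβp
    rw [twk_kappa_eq hζ1 hζp (hfixζ τ hτ) hβp hux (twk_fix_unit hτ hx)]
    have hβ0 : β ≠ 0 := by
      intro h
      rw [h, zero_pow hpp.ne_zero] at hβp
      exact hux hβp.symm
    have hτβp : τ (β ^ p) = β ^ p := by rw [hβp]; exact twk_fix_unit hτ hx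
    by_contra hj
    have hspec := wgrKum_spec hζ1 hζp hβ0 hτβp
    set j := wgrKum p ζ τ β with hjdef
    -- `ζ ^ j` is a nontrivial root of unity in `T`
    have hζj1 : ζ ^ j.val ≠ 1 := by
      intro h
      apply hj
      apply wgr_zeta_pow_val_inj hζ1 hζp
      rw [h, ZMod.val_zero, pow_zero]
    have hζjp : (ζ ^ j.val) ^ p = 1 := by rw [← pow_mul, mul_comm, pow_mul, hζp, one_pow]
    have hζjT : ζ ^ j.val ∈ T := pow_mem hζT _
    obtain ⟨hlpow', -, -⟩ := wgr_norm_zeta_sub_one p T hζjT hζj1 hζjp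
    have hnormeq : ‖ζ ^ j.val - 1‖ = ‖ζ - 1‖ := by
      have h : ‖ζ ^ j.val - 1‖ ^ (p - 1) = ‖ζ - 1‖ ^ (p - 1) := by rw [hlpow', hlpow]
      exact (pow_left_inj₀ (norm_nonneg _) (norm_nonneg _) hpm1).1 h
    -- the norm of `β` is one
    have hβn : ‖β‖ = 1 := by
      have h1 : ‖β‖ ^ p = 1 := by
        rw [← norm_pow, hβp]
        have h2 : ‖(p : PadicAlgCl p) * x‖ < 1 := by
          rw [norm_mul]
          calc ‖(p : PadicAlgCl p)‖ * ‖x‖ ≤ ‖(p : PadicAlgCl p)‖ * 1 :=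
                mul_le_mul_of_nonneg_left hx1 (norm_nonneg _)
            _ < 1 := by rw [mul_one]; exact hp1
        have h3 : ‖1 + (p : PadicAlgCl p) * x‖ ≤ 1 :=
          (wgr_norm_add_le p _ _).trans (max_le (by rw [norm_one]) h2.le)
        have h4 : (1 : ℝ) ≤ ‖1 + (p : PadicAlgCl p) * x‖ := by
          have h5 : (1 : PadicAlgCl p) = (1 + (p : PadicAlgCl p) * x) - (p : PadicAlgCl p) * x := by
            ring
          have h6 := wgr_norm_sub_le p (1 + (p : PadicAlgCl p) * x) ((p : PadicAlgCl p) * x)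
          rw [← h5, norm_one] at h6
          rcases le_max_iff.1 h6 with h7 | h7
          · exact h7
          · exact absurd h7 (not_le.2 h2)
        exact le_antisymm h3 h4
      exact (pow_eq_one_iff_of_nonneg (norm_nonneg _) hpp.ne_zero).1 h1
    -- inertia moves `β` by less than `‖ζ - 1‖`
    have hl0 : ζ - 1 ≠ 0 := sub_ne_zero.2 hζ1
    have hτl : τ (ζ - 1) = ζ - 1 := by rw [map_sub, map_one, hfixζ τ hτ]
    have hsmall := wgr_inert_scale p hτI hl0 hτl hβ1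
    have hmove : τ (β - 1) - (β - 1) = (ζ ^ j.val - 1) * β := by
      rw [map_sub, map_one, hspec]
      ring
    rw [hmove, norm_mul, hβn, mul_one, hnormeq] at hsmall
    exact lt_irrefl _ hsmall
  · -- equivariance
    rintro γ τ ⟨-, hτ⟩ x ⟨hx, hx1⟩
    rw [norm_one] at hx1
    have hux := twk_unit_ne_zero hp1 hx1
    set a := twkRoot p (1 + (p : PadicAlgCl p) * x) with ha
    have hap : a ^ p = 1 + (p : PadicAlgCl p) * x := twkRoot_pow p _
    have ha0 : a ≠ 0 := twkRoot_ne_zero p hux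
    have hγx : γ • x = γ x := rfl
    have hγxT : γ x ∈ T := twk_map_mem hn γ hx
    have hγx1 : ‖γ x‖ ≤ 1 := by rw [wgr_norm_map]; exact hx1
    have hτ' : γ * τ * γ⁻¹ ∈ T.fixingSubgroup := hn.conj_mem τ hτ γ
    have hβ : (γ a) ^ p = 1 + (p : PadicAlgCl p) * γ x := by
      rw [← map_pow, hap, map_add, map_one, map_mul, map_natCast]
    rw [hγx, twk_kappa_eq hζ1 hζp (hfixζ _ hτ') hβ (twk_unit_ne_zero hp1 hγx1)
      (twk_fix_unit hτ' hγxT)]
    exact wgrKum_conj hζ1 hζp ha0 (by rw [hap]; exact twk_fix_unit hτ hx)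
      (twk_omega_spec p hζp γ)
  · -- the left kernel is in `𝒩_T`
    rintro τ ⟨-, hτ⟩ hker
    refine ⟨hτ, fun α hαT hα1 => ?_⟩
    set x := (α ^ p - 1) / (p : PadicAlgCl p) with hx
    have hxT : x ∈ T := div_mem (sub_mem hαT (one_mem _)) (natCast_mem _ p)
    have hx1 : ‖x‖ ≤ 1 := by
      rw [hx, norm_div]
      exact div_le_one_of_le₀ hα1 (norm_nonneg _)
    have hαp : α ^ p = 1 + (p : PadicAlgCl p) * x := by
      rw [hx]
      field_simp
      ring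
    have hux := twk_unit_ne_zero hp1 hx1
    have hα0 : α ≠ 0 := by
      intro h
      rw [h, zero_pow hpp.ne_zero] at hαp
      exact hux hαp.symm
    have h0 := hker x ⟨hxT, by rw [norm_one]; exact hx1⟩
    rw [twk_kappa_eq hζ1 hζp (hfixζ τ hτ) hαp hux (twk_fix_unit hτ hxT)] at h0
    exact (wgrKum_eq_zero_iff hζ1 hζp hα0 (by rw [hαp]; exact twk_fix_unit hτ hxT)).1 h0

end Fermat.Agent.TW.W
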