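/-
TW-W, block (GB), piece K4 (helper57 for helper65): the tame character `θ_{e'}` of inertia on
`π^{e'} 𝒪 / π^{e'} 𝔪` with `‖π‖ ^ e' = ‖ζ - 1‖` is the mod-`p` cyclotomic character `ω`:

`wgr_omega_theta : ‖(σ π / π) ^ e' - ω(σ)‖ < 1` for `σ` inertial.
-/
import Fermat.Agent.TW.W.GrInert
import Fermat.Agent.TW.W.Kummer
import Fermat.Agent.TW.W.GrFrob

set_option autoImplicit false
set_option linter.unusedSectionVars false
set_option linter.style.haveILetI false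

namespace Fermat.Agent.TW.W

open Fermat.Agent.PT.L Fermat.Agent.PT.B Fermat.Agent.TW.L ExtCitation

section Omega

variable (p : ℕ) [Fact p.Prime]

/-- `‖ζ - 1‖ < 1` for a `p`-th root of unity `ζ ≠ 1` of `ℚ̄_p` (no field `T` needed). -/
theorem wgr_omega_norm_lt {ζ : PadicAlgCl p} (hζ1 : ζ ≠ 1) (hζp : ζ ^ p = 1) : ‖ζ - 1‖ < 1 := by
  have hint : IsIntegral ℚ_[p] ζ := Algebra.IsIntegral.isIntegral ζ
  haveI : FiniteDimensional ℚ_[p] (IntermediateField.adjoin ℚ_[p] {ζ}) :=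
    IntermediateField.adjoin.finiteDimensional hint
  exact (wgr_norm_zeta_sub_one p (IntermediateField.adjoin ℚ_[p] {ζ})
    (IntermediateField.mem_adjoin_simple_self ℚ_[p] ζ) hζ1 hζp).2.2

/-- `‖Σ_{i<a} b^i - a‖ < 1` when `‖b - 1‖ < 1`, `‖b‖ ≤ 1`. -/
theorem wgr_omega_geom {b : PadicAlgCl p} (hb : ‖b‖ ≤ 1) (hb1 : ‖b - 1‖ < 1) (a : ℕ) :
    ‖(∑ i ∈ Finset.range a, b ^ i) - (a : PadicAlgCl p)‖ < 1 := by
  induction a with
  | zero => simp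
  | succ a ih =>
    have e : (∑ i ∈ Finset.range (a + 1), b ^ i) - ((a + 1 : ℕ) : PadicAlgCl p)
        = ((∑ i ∈ Finset.range a, b ^ i) - (a : PadicAlgCl p)) + (b ^ a - 1 ^ a) := by
      rw [Finset.sum_range_succ]
      push_cast
      ring
    rw [e]
    refine lt_of_le_of_lt (wgr_norm_add_le p _ _) (max_lt ih ?_)
    exact wgr_pow_sub_pow_lt p hb (by simp) hb1 a

/-- **(K4, ω = θ_{e'})**: for `σ` inertial and `‖π‖ ^ e' = ‖ζ - 1‖`, the tame character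
`(σ π / π) ^ e'` reduces to the mod-`p` cyclotomic character `ω(σ)`. -/
theorem wgr_omega_theta {ζ π : PadicAlgCl p} (hζ1 : ζ ≠ 1) (hζp : ζ ^ p = 1)
    (hπ : π ≠ 0) {e' : ℕ} (he' : ‖π‖ ^ e' = ‖ζ - 1‖) {σ : GQq p} (hσ : σ ∈ inertiaQ p) :
    ‖(σ π / π) ^ e' - ((((gbOmega p σ : (ZMod p)ˣ) : ZMod p).val : ℕ) : PadicAlgCl p)‖ < 1 := by
  have hl0 : ζ - 1 ≠ 0 := sub_ne_zero.2 hζ1
  have hlpos : 0 < ‖ζ - 1‖ := norm_pos_iff.2 hl0
  have hl1 : ‖ζ - 1‖ < 1 := wgr_omega_norm_lt p hζ1 hζp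
  have hζn : ‖ζ‖ ≤ 1 := (twk_norm_root_one p hζp).le
  have hS := wgr_omega_geom p hζn hl1 (((gbOmega p σ : (ZMod p)ˣ) : ZMod p).val)
  have hσζ := twk_omega_spec p hζp σ
  have hσl : σ (ζ - 1) = (ζ - 1) *
      ∑ i ∈ Finset.range (((gbOmega p σ : (ZMod p)ˣ) : ZMod p).val), ζ ^ i := by
    rw [map_sub, map_one, hσζ, mul_geom_sum]
  have hth := wgr_theta p hσ (x := ζ - 1) hπ e' he'.ge
  rw [he', hσl] at hth
  have e1 : (ζ - 1) * ∑ i ∈ Finset.range (((gbOmega p σ : (ZMod p)ˣ) : ZMod p).val), ζ ^ i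
      - (σ π / π) ^ e' * (ζ - 1)
      = (ζ - 1) * ((∑ i ∈ Finset.range (((gbOmega p σ : (ZMod p)ˣ) : ZMod p).val), ζ ^ i)
        - (σ π / π) ^ e') := by ring
  rw [e1, norm_mul] at hth
  have h2 : ‖(∑ i ∈ Finset.range (((gbOmega p σ : (ZMod p)ˣ) : ZMod p).val), ζ ^ i)
      - (σ π / π) ^ e'‖ < 1 := by
    by_contra hcon
    have hge : 1 ≤ ‖(∑ i ∈ Finset.range (((gbOmega p σ : (ZMod p)ˣ) : ZMod p).val), ζ ^ i)
      - (σ π / π) ^ e'‖ := not_lt.1 hcon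
    have := mul_le_mul_of_nonneg_left hge hlpos.le
    rw [mul_one] at this
    exact absurd hth (not_lt.2 this)
  have e2 : (σ π / π) ^ e' - ((((gbOmega p σ : (ZMod p)ˣ) : ZMod p).val : ℕ) : PadicAlgCl p)
      = -((∑ i ∈ Finset.range (((gbOmega p σ : (ZMod p)ˣ) : ZMod p).val), ζ ^ i)
          - (σ π / π) ^ e')
        + ((∑ i ∈ Finset.range (((gbOmega p σ : (ZMod p)ˣ) : ZMod p).val), ζ ^ i)
          - ((((gbOmega p σ : (ZMod p)ˣ) : ZMod p).val : ℕ) : PadicAlgCl p)) := by ring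
  rw [e2]
  refine lt_of_le_of_lt (wgr_norm_add_le p _ _) (max_lt ?_ hS)
  rw [norm_neg]
  exact h2

end Omega

end Fermat.Agent.TW.W
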