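/-
TW-W, piece W-gr / K4 (helper65), part 5: THE TAME CHARACTER HAS EXACT ORDER `e`.

PT-L language (`wv`, `IsUnif`, `IsInertial`); `L/ℚ_q` finite Galois of degree `n` prime to `q`,
`π` a uniformiser, `a = wv π` (`= f`), `H ⊆ Gal(L/ℚ_q)` the inertial automorphisms.

* `wk4_isUnif_q`   : `q` is a uniformiser of `ℚ_q`;
* `wk4_wv_add`     : `wv (A + B) = wv A` if `w(B) > w(A)`;
* `wk4_core`       : `∃ e > 0, e · wv π = n` and, for every `s`: if every inertial `σ` satisfies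
                     `σ(π^s) ≡ π^s mod π^s 𝔪` then `e ∣ s`.
  (`K₀ := L^H`; `L/K₀` has only inertial automorphisms, so by `stmtRes` a uniformiser of `K₀` has the
  same `wv` as `π`;  `Tr_{L/K₀}(π^s) = Σ_{σ ∈ H} σ(π^s) ≡ |H| π^s`, and `q ∤ |H|`, so
  `s · a = wv_L(Tr) = |H| · wv_{K₀}(Tr) ∈ |H| · a · ℤ`.)
-/
import Fermat.Agent.PT.L.Res
import Fermat.Agent.PT.L.Ge
import Fermat.Agent.TW.W.GrInert

set_option autoImplicit false
set_option linter.unusedSectionVars false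
set_option linter.style.haveILetI false

namespace Fermat.Agent.TW.W

open Fermat.Agent.PT.L Fermat.Agent.PT.B Fermat.Agent.TW.L

section Core

variable (q : ℕ) [Fact q.Prime]

/-- `wv` on `ℚ_q` itself is the `q`-adic valuation -/
theorem wk4_wv_self (x : ℚ_[q]) : wv q x = Padic.valuation x := by
  unfold wv
  have : Algebra.norm ℚ_[q] x = x := by simp
  rw [this]

/-- `q` is a uniformiser of `ℚ_q` -/
theorem wk4_isUnif_q : IsUnif q ((q : ℕ) : ℚ_[q]) := by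
  have hq : ((q : ℕ) : ℚ_[q]) ≠ 0 := Nat.cast_ne_zero.2 (Fact.out : q.Prime).ne_zero
  have h1 : wv q ((q : ℕ) : ℚ_[q]) = 1 := by
    rw [wk4_wv_self, Padic.valuation_p]
  refine ⟨hq, by rw [h1]; exact one_pos, fun x _ => ?_⟩
  rw [h1]
  exact one_dvd _

variable {F : Type} [Field F] [Algebra ℚ_[q] F] [FiniteDimensional ℚ_[q] F]

/-- isosceles: a summand of strictly larger valuation does not change the valuation -/
theorem wk4_wv_add {A B : F} (hA : A ≠ 0) (hB : geW q (wv q A + 1) B) :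
    A + B ≠ 0 ∧ wv q (A + B) = wv q A := by
  have h1 : geW q 1 (B / A) := by
    rcases hB with hB | hB
    · left; rw [hB, zero_div]
    · by_cases hB0 : B = 0
      · left; rw [hB0, zero_div]
      · right
        rw [l0b_wv_div q hB0 hA]
        omega
  obtain ⟨h2, h3⟩ := wv_one_add q h1
  have h4 : A + B = A * (1 + B / A) := by field_simp
  rw [h4]
  refine ⟨mul_ne_zero hA h2, ?_⟩
  rw [l0b_wv_mul q hA h2, h3, add_zero]

/-- a natural number prime to `q` is a unit -/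
theorem wk4_wv_natCast {m : ℕ} (hm : ¬ q ∣ m) : ((m : ℕ) : F) ≠ 0 ∧ wv q ((m : ℕ) : F) = 0 := by
  have hm0 : m ≠ 0 := by
    rintro rfl
    exact hm (dvd_zero _)
  have h1 : ((m : ℕ) : F) = algebraMap ℚ_[q] F ((m : ℕ) : ℚ_[q]) := by
    rw [map_natCast]
  have hm1 : ((m : ℕ) : ℚ_[q]) ≠ 0 := Nat.cast_ne_zero.2 hm0
  refine ⟨?_, ?_⟩
  · rw [h1]
    intro h
    exact hm1 ((algebraMap ℚ_[q] F).injective (h.trans (map_zero _).symm))
  · rw [h1, l0b_wv_algebraMap, Padic.valuation_natCast, padicValNat.eq_zero_of_not_dvd hm]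
    simp

end Core

section Main

variable (q : ℕ) [Fact q.Prime] (L : Type) [Field L] [Algebra ℚ_[q] L]
  [FiniteDimensional ℚ_[q] L] [IsGalois ℚ_[q] L]

/-- `e · f = n`: the number `e` of inertial automorphisms times `wv π` is the degree. -/
theorem wk4_card {π : L} (hπ : IsUnif q π) :
    ∃ e : ℕ, 0 < e ∧ e ∣ Module.finrank ℚ_[q] L ∧
      (e : ℤ) * wv q π = Module.finrank ℚ_[q] L := by
  classical
  obtain ⟨C, hCg, hCc, ρ, hsurj, hker, hcard⟩ := stmtRes q ℚ_[q] L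
  have ha : (Nat.card C : ℤ) = wv q π := by
    have h1 := hcard _ π (wk4_isUnif_q q) hπ
    rw [wk4_wv_self, Padic.valuation_p, mul_one] at h1
    exact h1
  have hn : Nat.card (L ≃ₐ[ℚ_[q]] L) = Module.finrank ℚ_[q] L :=
    IsGalois.card_aut_eq_finrank ℚ_[q] L
  have hidx : Nat.card ρ.ker * Nat.card C = Module.finrank ℚ_[q] L := by
    rw [← hn, ← Subgroup.card_mul_index ρ.ker, Subgroup.index_ker,
      MonoidHom.range_eq_top.2 hsurj]
    congr 1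
    exact (Nat.card_congr (Subgroup.topEquiv (G := C)).toEquiv).symm
  refine ⟨Nat.card ρ.ker, Nat.card_pos, ⟨Nat.card C, hidx.symm⟩, ?_⟩
  rw [← ha]
  exact_mod_cast hidx

/-- **K4, first half**: an element fixed by all inertial automorphisms has valuation divisible
by the degree (the fixed field of the inertial automorphisms is unramified). -/
theorem wk4_fixed {x : L} (hx0 : x ≠ 0)
    (hx : ∀ σ : L ≃ₐ[ℚ_[q]] L, IsInertial q σ → σ x = x) :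
    (Module.finrank ℚ_[q] L : ℤ) ∣ wv q x := by
  classical
  obtain ⟨C, hCg, hCc, ρ, hsurj, hker, hcard⟩ := stmtRes q ℚ_[q] L
  set H : Subgroup (L ≃ₐ[ℚ_[q]] L) := ρ.ker with hH
  have hHmem : ∀ σ, σ ∈ H ↔ IsInertial q σ := fun σ => by
    rw [hH, MonoidHom.mem_ker]
    exact hker σ
  obtain ⟨π, hπ⟩ := stmtWUnif q L
  have hapos : 0 < wv q π := hπ.2.1
  have ha : (Nat.card C : ℤ) = wv q π := by
    have h1 := hcard _ π (wk4_isUnif_q q) hπ
    rw [wk4_wv_self, Padic.valuation_p, mul_one] at h1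
    exact h1
  have hn : Nat.card (L ≃ₐ[ℚ_[q]] L) = Module.finrank ℚ_[q] L :=
    IsGalois.card_aut_eq_finrank ℚ_[q] L
  have hidx : Nat.card H * Nat.card C = Module.finrank ℚ_[q] L := by
    rw [← hn, ← Subgroup.card_mul_index H, hH, Subgroup.index_ker,
      MonoidHom.range_eq_top.2 hsurj]
    congr 1
    exact (Nat.card_congr (Subgroup.topEquiv (G := C)).toEquiv).symm
  set K₀ : IntermediateField ℚ_[q] L := IntermediateField.fixedField H with hK₀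
  have hfix : K₀.fixingSubgroup = H := IntermediateField.fixingSubgroup_fixedField H
  have hdeg : Module.finrank K₀ L = Nat.card H := IntermediateField.finrank_fixedField_eq_card H
  have hall : ∀ σ' : L ≃ₐ[K₀] L, IsInertial q (σ'.restrictScalars ℚ_[q]) := by
    intro σ'
    have h1 : (σ'.restrictScalars ℚ_[q]) ∈ K₀.fixingSubgroup := by
      rw [IntermediateField.mem_fixingSubgroup_iff]
      intro x hx
      exact σ'.commutes ⟨x, hx⟩
    rw [hfix, hHmem] at h1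
    exact h1
  obtain ⟨C₀, hC₀g, hC₀c, ρ₀, hsurj₀, hker₀, hcard₀⟩ := stmtRes q K₀ L
  have hC₀ : Nat.card C₀ = 1 := by
    haveI : Subsingleton C₀ := ⟨fun x y => by
      obtain ⟨σ, rfl⟩ := hsurj₀ x
      obtain ⟨τ, rfl⟩ := hsurj₀ y
      rw [(hker₀ σ).2 (hall σ), (hker₀ τ).2 (hall τ)]⟩
    exact Nat.card_unique
  obtain ⟨π₀, hπ₀⟩ := stmtWUnif q K₀
  have hπ₀a : wv q π₀ = wv q π := by
    have h1 := hcard₀ π₀ π hπ₀ hπ
    rw [hC₀] at h1
    simpa using h1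
  have hxK : x ∈ K₀ := by
    rw [hK₀, IntermediateField.mem_fixedField_iff]
    intro σ hσ
    exact hx σ ((hHmem σ).1 hσ)
  set y : K₀ := ⟨x, hxK⟩ with hy
  have hy0 : y ≠ 0 := fun h => hx0 (congrArg Subtype.val h)
  have hxy : x = algebraMap K₀ L y := rfl
  obtain ⟨m, hm⟩ := hπ₀.2.2 y hy0
  rw [hxy, wv_algebraMap_tower, hdeg, hm, hπ₀a, ← hidx]
  refine ⟨m, ?_⟩
  push_cast
  rw [← ha]
  ring

/-- **K4, second half** (the trace argument): `C` a group of automorphisms of `L/ℚ_q` whose fixed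
elements have valuation divisible by the degree; if every `σ ∈ C` satisfies
`σ(π^s) ≡ π^s mod π^s 𝔪` then `n ∣ s · wv π`. -/
theorem wk4_trace (htame : ¬ q ∣ Module.finrank ℚ_[q] L) {π : L} (hπ0 : π ≠ 0)
    (C : Subgroup (L ≃ₐ[ℚ_[q]] L))
    (hC : ∀ x : L, x ≠ 0 → (∀ σ ∈ C, σ x = x) → (Module.finrank ℚ_[q] L : ℤ) ∣ wv q x)
    (s : ℕ) (hs : ∀ σ ∈ C, geW q (s * wv q π + 1) (σ (π ^ s) - π ^ s)) :
    (Module.finrank ℚ_[q] L : ℤ) ∣ s * wv q π := by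
  classical
  letI : Fintype C := Fintype.ofFinite C
  have hn : Nat.card (L ≃ₐ[ℚ_[q]] L) = Module.finrank ℚ_[q] L :=
    IsGalois.card_aut_eq_finrank ℚ_[q] L
  have hCq : ¬ q ∣ Nat.card C := fun h =>
    htame (hn ▸ h.trans (Subgroup.card_subgroup_dvd_card C))
  set Tr : L := ∑ σ : C, (σ : L ≃ₐ[ℚ_[q]] L) (π ^ s) with hTr
  have hfixed : ∀ c ∈ C, c Tr = Tr := by
    intro c hc
    rw [hTr, map_sum]
    exact Fintype.sum_equiv (Equiv.mulLeft (⟨c, hc⟩ : C)) _ _ (fun σ => rfl)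
  have hsum2 : Tr = ((Nat.card C : ℕ) : L) * π ^ s +
      ∑ σ : C, ((σ : L ≃ₐ[ℚ_[q]] L) (π ^ s) - π ^ s) := by
    rw [hTr, Finset.sum_sub_distrib, Finset.sum_const, Finset.card_univ, nsmul_eq_mul,
      Nat.card_eq_fintype_card]
    ring
  obtain ⟨hc0, hcw⟩ := wk4_wv_natCast (F := L) q hCq
  have hπs : π ^ s ≠ 0 := pow_ne_zero _ hπ0
  have hA0 : ((Nat.card C : ℕ) : L) * π ^ s ≠ 0 := mul_ne_zero hc0 hπs
  have hAw : wv q (((Nat.card C : ℕ) : L) * π ^ s) = s * wv q π := by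
    rw [l0b_wv_mul q hc0 hπs, hcw, zero_add, l0b_wv_pow]
  have hB : geW q (s * wv q π + 1) (∑ σ : C, ((σ : L ≃ₐ[ℚ_[q]] L) (π ^ s) - π ^ s)) :=
    geW_sum q _ _ _ (fun σ _ => hs σ σ.2)
  obtain ⟨h0, hw⟩ := wk4_wv_add q hA0 (by rw [hAw]; exact hB)
  rw [← hsum2, hAw] at hw
  rw [← hw]
  exact hC Tr (hsum2 ▸ h0) hfixed

/-- **K4, core**: the tame character of a tamely ramified Galois extension `L/ℚ_q` has exact
order `e = e(L/ℚ_q)`. -/
theorem wk4_core (htame : ¬ q ∣ Module.finrank ℚ_[q] L) {π : L} (hπ : IsUnif q π) :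
    ∃ e : ℕ, 0 < e ∧ (e : ℤ) * wv q π = Module.finrank ℚ_[q] L ∧
      ∀ s : ℕ, (∀ σ : L ≃ₐ[ℚ_[q]] L, IsInertial q σ →
          geW q (s * wv q π + 1) (σ (π ^ s) - π ^ s)) → e ∣ s := by
  obtain ⟨e, he0, -, he⟩ := wk4_card q L hπ
  refine ⟨e, he0, he, fun s hs => ?_⟩
  -- the group of inertial automorphisms
  obtain ⟨C, hCg, hCc, ρ, hsurj, hker, hcard⟩ := stmtRes q ℚ_[q] L
  have h1 := wk4_trace q L htame hπ.1 ρ.ker
    (fun x hx0 hx => wk4_fixed q L hx0 (fun σ hσ => hx σ ((hker σ).2 hσ))) s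
    (fun σ hσ => hs σ ((hker σ).1 hσ))
  rw [← he] at h1
  have h2 : (e : ℤ) ∣ s := by
    obtain ⟨m, hm⟩ := h1
    refine ⟨m, ?_⟩
    have h3 : wv q π * (s : ℤ) = wv q π * (e * m) := by linear_combination hm
    exact mul_left_cancel₀ hπ.2.1.ne' h3
  exact Int.natCast_dvd_natCast.1 h2

end Main

section NormLayer

variable (p : ℕ) [Fact p.Prime] (T : IntermediateField ℚ_[p] (PadicAlgCl p))

/-- `σ ∈ G_{ℚ_p}` acts trivially on the residue field of `T` (`T`-inertial). -/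
def wgrInertT (σ : GQq p) : Prop := ∀ x ∈ T, ‖x‖ ≤ 1 → ‖σ x - x‖ < 1

/-- `π` is a uniformiser of `T`, in the language of the norm. -/
def wgrIsUnif (π : PadicAlgCl p) : Prop :=
  π ∈ T ∧ π ≠ 0 ∧ ‖π‖ < 1 ∧ ∀ x ∈ T, ‖x‖ < 1 → ‖x‖ ≤ ‖π‖

variable {p T}

theorem wgrInertT_of_inertiaQ {σ : GQq p} (hσ : σ ∈ inertiaQ p) : wgrInertT p T σ :=
  fun x _ hx => (wgr_inert_iff p σ).1 hσ x hx

theorem wgrInertT_one : wgrInertT p T 1 := fun x _ _ => by
  simp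

variable [FiniteDimensional ℚ_[p] T]

theorem wgr_norm_lt_one_iff (x : T) (hx : x ≠ 0) : ‖(x : PadicAlgCl p)‖ < 1 ↔ 0 < wv p x := by
  have h := wgr_norm_lt_iff p T x 1 hx one_ne_zero
  have h1 : ((1 : T) : PadicAlgCl p) = 1 := rfl
  rw [h1, norm_one, l0b_wv_one] at h
  exact h

/-- the two notions of uniformiser agree -/
theorem wgr_isUnif_iff (π : T) : wgrIsUnif p T (π : PadicAlgCl p) ↔ IsUnif p π := by
  constructor
  · rintro ⟨-, hπ0, hπ1, hmax⟩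
    have hπ0' : π ≠ 0 := fun h => hπ0 (by rw [h]; rfl)
    have hpos : 0 < wv p π := (wgr_norm_lt_one_iff π hπ0').1 hπ1
    obtain ⟨π', hπ'0, hπ'pos, hπ'dvd⟩ := stmtWUnif p T
    have h1 : ‖(π' : PadicAlgCl p)‖ ≤ ‖(π : PadicAlgCl p)‖ :=
      hmax _ π'.2 ((wgr_norm_lt_one_iff π' hπ'0).2 hπ'pos)
    have h2 : wv p π ≤ wv p π' := (wgr_norm_le_iff p T π' π hπ'0 hπ0').1 h1
    have h3 : wv p π' ≤ wv p π := Int.le_of_dvd hpos (hπ'dvd π hπ0')
    have h4 : wv p π = wv p π' := le_antisymm h2 h3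
    exact ⟨hπ0', hpos, fun x hx => h4 ▸ hπ'dvd x hx⟩
  · rintro ⟨hπ0, hpos, hdvd⟩
    refine ⟨π.2, fun h => hπ0 (Subtype.ext h), (wgr_norm_lt_one_iff π hπ0).2 hpos, ?_⟩
    intro x hx hx1
    rcases eq_or_ne x 0 with rfl | hx0
    · rw [norm_zero]; exact norm_nonneg _
    have hx0' : (⟨x, hx⟩ : T) ≠ 0 := fun h => hx0 (congrArg Subtype.val h)
    have h1 : 0 < wv p (⟨x, hx⟩ : T) := (wgr_norm_lt_one_iff ⟨x, hx⟩ hx0').1 hx1
    have h2 : wv p π ≤ wv p (⟨x, hx⟩ : T) := Int.le_of_dvd h1 (hdvd _ hx0')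
    exact (wgr_norm_le_iff p T ⟨x, hx⟩ π hx0' hπ0).2 h2

variable (p T) in
/-- a uniformiser exists -/
theorem wgr_exists_unif : ∃ π : PadicAlgCl p, wgrIsUnif p T π := by
  obtain ⟨π, hπ⟩ := stmtWUnif p T
  exact ⟨π, (wgr_isUnif_iff π).2 hπ⟩

/-- the norm of every nonzero element of `T` is a power of the norm of a uniformiser -/
theorem wgr_unif_norm {π : PadicAlgCl p} (hπ : wgrIsUnif p T π) {x : PadicAlgCl p} (hx : x ∈ T)
    (hx0 : x ≠ 0) : ∃ k : ℤ, ‖x‖ = ‖π‖ ^ k := by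
  have hU : IsUnif p (⟨π, hπ.1⟩ : T) := (wgr_isUnif_iff ⟨π, hπ.1⟩).1 hπ
  have hx0' : (⟨x, hx⟩ : T) ≠ 0 := fun h => hx0 (congrArg Subtype.val h)
  obtain ⟨k, hk⟩ := hU.2.2 _ hx0'
  refine ⟨k, ?_⟩
  have hn : Module.finrank ℚ_[p] T ≠ 0 := Module.finrank_pos.ne'
  have h1 := wgr_norm_pow p T ⟨x, hx⟩ hx0'
  have h2 := wgr_norm_pow p T ⟨π, hπ.1⟩ hU.1
  have hp0 : (0 : ℝ) < p := by exact_mod_cast (Fact.out : p.Prime).pos
  have h3 : ‖x‖ ^ Module.finrank ℚ_[p] T = (‖π‖ ^ k) ^ Module.finrank ℚ_[p] T := by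
    have e1 : (‖π‖ ^ k) ^ Module.finrank ℚ_[p] T = (‖π‖ ^ Module.finrank ℚ_[p] T) ^ k := by
      rw [← zpow_natCast, ← zpow_natCast, ← zpow_mul, ← zpow_mul, mul_comm]
    rw [e1]
    show ‖((⟨x, hx⟩ : T) : PadicAlgCl p)‖ ^ Module.finrank ℚ_[p] T =
      (‖((⟨π, hπ.1⟩ : T) : PadicAlgCl p)‖ ^ Module.finrank ℚ_[p] T) ^ k
    rw [h1, h2, hk, ← zpow_mul]
    congr 1
    ring
  exact (pow_left_inj₀ (norm_nonneg _) (zpow_nonneg (norm_nonneg _) _) hn).1 h3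

/-- **(Gr-theta)** for `T`-inertial elements. -/
theorem wgr_thetaT {σ : GQq p} (hσ : wgrInertT p T σ) {π x : PadicAlgCl p} (hπT : π ∈ T)
    (hπ : π ≠ 0) (t : ℕ) (hxT : x ∈ T) (hx : ‖x‖ ≤ ‖π‖ ^ t) :
    ‖σ x - (σ π / π) ^ t * x‖ < ‖π‖ ^ t := by
  have hπ0 : 0 < ‖π‖ := norm_pos_iff.2 hπ
  have hπt : π ^ t ≠ 0 := pow_ne_zero _ hπ
  have h1 : ‖x / π ^ t‖ ≤ 1 := by
    rw [norm_div, norm_pow]
    exact div_le_one_of_le₀ hx (by positivity)
  have h2 := hσ (x / π ^ t) (div_mem hxT (pow_mem hπT t)) h1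
  have hσπ : ‖σ π‖ = ‖π‖ := wgr_norm_map p σ π
  have h3 : σ x - (σ π / π) ^ t * x = (σ π) ^ t * (σ (x / π ^ t) - x / π ^ t) := by
    rw [map_div₀, map_pow]
    have : σ π ≠ 0 := by rwa [Ne, map_eq_zero_iff _ σ.injective]
    rw [div_pow]
    field_simp
  rw [h3, norm_mul, norm_pow, hσπ]
  calc ‖π‖ ^ t * ‖σ (x / π ^ t) - x / π ^ t‖ < ‖π‖ ^ t * 1 := by
        exact mul_lt_mul_of_pos_left h2 (by positivity)
    _ = ‖π‖ ^ t := mul_one _

/-- **K4, main**: if `θ ^ s = 1` on the `T`-inertial elements then `e ∣ s`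
(`T/ℚ_p` Galois of degree prime to `p`, `‖π‖ ^ e = ‖p‖`). -/
theorem wgr_tame_order [IsGalois ℚ_[p] T] (htame : ¬ p ∣ Module.finrank ℚ_[p] T)
    {π : PadicAlgCl p} (hπ : wgrIsUnif p T π) {e : ℕ} (he : ‖π‖ ^ e = ‖(p : PadicAlgCl p)‖)
    (s : ℕ) (hs : ∀ σ : GQq p, wgrInertT p T σ → ‖σ (π ^ s) - π ^ s‖ < ‖π‖ ^ s) : e ∣ s := by
  set π' : T := ⟨π, hπ.1⟩ with hπ'
  have hU : IsUnif p π' := (wgr_isUnif_iff π').1 hπ
  obtain ⟨e₀, he₀pos, he₀, hdiv⟩ := wk4_core p T htame hU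
  -- `e = e₀`
  have hp0 : ((p : ℕ) : T) ≠ 0 := wgr_natCast_ne_zero p
  have hπe : π' ^ e ≠ 0 := pow_ne_zero _ hU.1
  have hcoe : ((π' ^ e : T) : PadicAlgCl p) = π ^ e := rfl
  have h1 : wv p (π' ^ e) = wv p ((p : ℕ) : T) := by
    apply le_antisymm
    · apply (wgr_norm_le_iff p T _ _ hp0 hπe).1
      rw [hcoe, norm_pow, he]
      exact le_of_eq rfl
    · apply (wgr_norm_le_iff p T _ _ hπe hp0).1
      rw [hcoe, norm_pow, he]
      exact le_of_eq rfl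
  rw [l0b_wv_pow, wgr_wv_natCast, ← he₀] at h1
  have hee : e = e₀ := by
    have h2 : (e : ℤ) = e₀ := mul_right_cancel₀ hU.2.1.ne' h1
    exact_mod_cast h2
  rw [hee]
  apply hdiv s
  intro σ₀ hσ₀
  set σ : GQq p := σ₀.liftNormal (PadicAlgCl p) with hσ
  have hcomm : ∀ x : T, σ (x : PadicAlgCl p) = ((σ₀ x : T) : PadicAlgCl p) :=
    fun x => σ₀.liftNormal_commutes (PadicAlgCl p) x
  have hin : wgrInertT p T σ := by
    intro x hx hx1
    have hxi : IsInt p (⟨x, hx⟩ : T) := (wgr_norm_le_one_iff p T ⟨x, hx⟩).1 hx1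
    have h2 := hσ₀ _ hxi
    have h3 : σ x - x = ((σ₀ ⟨x, hx⟩ - ⟨x, hx⟩ : T) : PadicAlgCl p) := by
      have := hcomm ⟨x, hx⟩
      push_cast
      rw [← this]
    rw [h3]
    rcases h2 with h2 | h2
    · rw [h2, sub_self]
      simp
    · by_cases h0 : σ₀ ⟨x, hx⟩ - ⟨x, hx⟩ = 0
      · rw [h0]; simp
      · exact (wgr_norm_lt_one_iff _ h0).2 (by omega)
  have h4 := hs σ hin
  have h5 : σ (π ^ s) - π ^ s = ((σ₀ (π' ^ s) - π' ^ s : T) : PadicAlgCl p) := by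
    have := hcomm (π' ^ s)
    push_cast
    rw [← this]
    rfl
  rw [h5] at h4
  by_cases h0 : σ₀ (π' ^ s) - π' ^ s = 0
  · exact Or.inl h0
  · right
    have hπs : π' ^ s ≠ 0 := pow_ne_zero _ hU.1
    have hcoe2 : ‖π‖ ^ s = ‖((π' ^ s : T) : PadicAlgCl p)‖ := by
      rw [← norm_pow]; rfl
    rw [hcoe2] at h4
    have h6 := (wgr_norm_lt_iff p T _ _ h0 hπs).1 h4
    rw [l0b_wv_pow] at h6
    omega

end NormLayer

end Fermat.Agent.TW.W
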