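/-
TW-W, piece W-gr / K4 (helper65), part 6: (UNR) and (θ3).

* `wgrInertT_liftNormal` : the lift to `ℚ̄_p` of an inertial automorphism (PT-L sense) of `T` is
  `T`-inertial;
* `wgr_inertial_lift` (LIFT for `T' = ℚ_p·ι(F)`): every inertial automorphism of `localField p F`
  (`F/ℚ` finite Galois) is the restriction of an element of `inertiaQ p`
  (global inertia lifting `Common.exists_mem_inertiaSubgroupIn_of_congr` + `TW.L.stmtDecFull`);
* `wgr_unr` (UNR) : `x ∈ ℚ̄_p` fixed by `inertiaQ p` ⇒ `‖x‖ ∈ p^ℤ`;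
* `wgr_unr_wv`    : the same in terms of `wv`;
* `wgr_theta3` (θ3) : `T/ℚ_p` Galois of degree prime to `p`, `‖π‖ ^ e = ‖p‖`: if
  `σ(π^s) ≡ π^s mod π^s 𝔪` for all `σ ∈ inertiaQ p` then `e ∣ s`.
-/
import Fermat.Agent.TW.W.GrTame
import Fermat.Agent.Common.InertiaLift
import Fermat.Agent.TW.L.DecFull
import Fermat.Agent.TW.L.FrobExists
import Fermat.Agent.TW.L.LocExist
import Fermat.Agent.PT.B.JDisc
import Fermat.Agent.PT.B.UnitsS

set_option autoImplicit false
set_option linter.unusedSectionVars false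
set_option linter.style.haveILetI false

namespace Fermat.Agent.TW.W

open Fermat.Agent.PT.L Fermat.Agent.PT.B Fermat.Agent.TW.L

section Unr

variable {p : ℕ} [Fact p.Prime] {T : IntermediateField ℚ_[p] (PadicAlgCl p)}
  [FiniteDimensional ℚ_[p] T]

/-- `Close 1` in terms of the norm -/
theorem wgr_close_one_iff (x y : T) :
    Close p 1 x y ↔ ‖(x : PadicAlgCl p) - (y : PadicAlgCl p)‖ < 1 := by
  rw [close_iff_geW]
  have hc : (x : PadicAlgCl p) - (y : PadicAlgCl p) = ((x - y : T) : PadicAlgCl p) := rfl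
  rw [hc]
  by_cases h0 : x - y = 0
  · rw [h0]
    constructor
    · intro _
      simp
    · intro _
      exact Or.inl rfl
  · rw [wgr_norm_lt_one_iff _ h0]
    constructor
    · rintro (h | h)
      · exact absurd h h0
      · omega
    · intro h
      exact Or.inr (by omega)

/-- the lift of an inertial automorphism of `T` is `T`-inertial -/
theorem wgrInertT_of_restrict [Normal ℚ_[p] T] {σ : GQq p} {σ₀ : T ≃ₐ[ℚ_[p]] T}
    (hcomm : ∀ x : T, σ (x : PadicAlgCl p) = ((σ₀ x : T) : PadicAlgCl p))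
    (hσ₀ : IsInertial p σ₀) : wgrInertT p T σ := by
  intro x hx hx1
  have hxi : IsInt p (⟨x, hx⟩ : T) := (wgr_norm_le_one_iff p T ⟨x, hx⟩).1 hx1
  have h2 := (wgr_close_one_iff _ _).1 (hσ₀ _ hxi)
  rw [← hcomm] at h2
  exact h2

theorem wgr_isInertial_of_inertT [Normal ℚ_[p] T] {σ : GQq p} {σ₀ : T ≃ₐ[ℚ_[p]] T}
    (hcomm : ∀ x : T, σ (x : PadicAlgCl p) = ((σ₀ x : T) : PadicAlgCl p))
    (hσ : wgrInertT p T σ) : IsInertial p σ₀ := by
  intro x hx
  rw [wgr_close_one_iff, ← hcomm]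
  exact hσ x x.2 ((wgr_norm_le_one_iff p T x).2 hx)

end Unr

section Lift

variable (p : ℕ) [Fact p.Prime]

/-- **LIFT** for `T' = ℚ_p · ι(F)`: an element of `G_{ℚ_p}` which is `T'`-inertial agrees on `T'`
with an element of the inertia group `inertiaQ p`. -/
theorem wgr_inertial_lift (F : QbarField) (hgal : IsGalois ℚ F)
    {σ : GQq p} (hσ : wgrInertT p (localField p F) σ) :
    ∃ τ ∈ inertiaQ p, ∀ x ∈ localField p F, τ x = σ x := by
  have hp : p.Prime := Fact.out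
  haveI : Normal ℚ F := hgal.to_normal
  set σb := localGaloisToGlobal p σ with hσb
  have h1 : ∀ y ∈ F, IsIntegral ℤ y → σb y - y ∈ (padicPlace p).nonunits := by
    intro y hy hint
    rw [wgr_mem_nonunits_iff, map_sub, hσb, padicEmbedding_localGaloisToGlobal]
    have hyT : padicEmbedding p y ∈ localField p F :=
      IntermediateField.subset_adjoin ℚ_[p] _ ⟨y, hy, rfl⟩
    have hy1 : ‖padicEmbedding p y‖ ≤ 1 :=
      (wgr_mem_padicPlace_iff p y).1 (iunits_mem_of_isIntegral (padicPlace p) hint)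
    exact hσ _ hyT hy1
  obtain ⟨τb, hτbI, hτbF⟩ := Fermat.Agent.Common.exists_mem_inertiaSubgroupIn_of_congr F p hp
    (padicPlace p) (lfrobex_liesOverPrime p) σb h1
  have hD : τb ∈ (padicPlace p).decompositionSubgroup ℚ :=
    ((mem_inertiaSubgroupIn_iff _ _).1 hτbI).1
  obtain ⟨τ, hτ⟩ := stmtDecFull p τb hD
  have hτI : τ ∈ inertiaQ p := by
    rw [mem_inertiaQ, hτ]
    exact hτbI
  refine ⟨τ, hτI, ?_⟩
  have h2 : τ⁻¹ * σ ∈ (localField p F).fixingSubgroup := by
    rw [← stmtLocalLevel p F, map_mul, map_inv, hτ, ← hσb]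
    rw [IntermediateField.mem_fixingSubgroup_iff]
    intro y hy
    show τb⁻¹ (σb y) = y
    rw [← hτbF y hy]
    exact τb.symm_apply_apply y
  intro x hx
  have h3 := (IntermediateField.mem_fixingSubgroup_iff _ _).1 h2 x hx
  have h4 : τ ((τ⁻¹ * σ) x) = σ x := by
    show τ (τ⁻¹ (σ x)) = σ x
    exact τ.apply_symm_apply (σ x)
  rw [← h4, h3]

/-- **(UNR)**: an element of `ℚ̄_p` fixed by the inertia group has norm in `p^ℤ`. -/
theorem wgr_unr {x : PadicAlgCl p} (hx0 : x ≠ 0) (hx : ∀ τ ∈ inertiaQ p, τ x = x) :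
    ∃ m : ℤ, ‖x‖ = (p : ℝ) ^ m := by
  obtain ⟨F, hF, hgal, hxF⟩ := jdisc_exists_field p x
  haveI hfin : FiniteDimensional ℚ_[p] (localField p F) := stmtLocalFinite p F hF
  haveI hnor : (localField p F).fixingSubgroup.Normal := lex_normal p F hgal
  haveI hG : IsGalois ℚ_[p] (localField p F) :=
    (InfiniteGalois.normal_iff_isGalois (localField p F)).1 inferInstance
  set x' : localField p F := ⟨x, hxF⟩ with hx'
  have hx'0 : x' ≠ 0 := fun h => hx0 (congrArg Subtype.val h)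
  have h1 : (Module.finrank ℚ_[p] (localField p F) : ℤ) ∣ wv p x' := by
    apply wk4_fixed p (localField p F) hx'0
    intro σ₀ hσ₀
    set σ : GQq p := σ₀.liftNormal (PadicAlgCl p) with hσ
    have hcomm : ∀ y : localField p F, σ (y : PadicAlgCl p) = ((σ₀ y : localField p F) :
        PadicAlgCl p) := fun y => σ₀.liftNormal_commutes (PadicAlgCl p) y
    obtain ⟨τ, hτI, hτ⟩ := wgr_inertial_lift p F hgal (wgrInertT_of_restrict hcomm hσ₀)
    apply Subtype.ext
    rw [← hcomm]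
    show σ x = x
    rw [← hτ x hxF, hx τ hτI]
  obtain ⟨k, hk⟩ := h1
  refine ⟨-k, ?_⟩
  have hn : Module.finrank ℚ_[p] (localField p F) ≠ 0 := Module.finrank_pos.ne'
  have h2 := wgr_norm_pow p (localField p F) x' hx'0
  have hp0 : (0 : ℝ) < p := by exact_mod_cast (Fact.out : p.Prime).pos
  have h3 : ‖x‖ ^ Module.finrank ℚ_[p] (localField p F) =
      ((p : ℝ) ^ (-k)) ^ Module.finrank ℚ_[p] (localField p F) := by
    show ‖(x' : PadicAlgCl p)‖ ^ Module.finrank ℚ_[p] (localField p F) = _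
    rw [h2, hk, ← zpow_natCast ((p : ℝ) ^ (-k)), ← zpow_mul]
    congr 1
    ring
  exact (pow_left_inj₀ (norm_nonneg _) (zpow_nonneg hp0.le _) hn).1 h3

/-- (UNR) in terms of `wv` -/
theorem wgr_unr_wv (T : IntermediateField ℚ_[p] (PadicAlgCl p)) [FiniteDimensional ℚ_[p] T]
    {x : T} (hx0 : x ≠ 0) (hx : ∀ τ ∈ inertiaQ p, τ (x : PadicAlgCl p) = x) :
    (Module.finrank ℚ_[p] T : ℤ) ∣ wv p x := by
  have hx0' : (x : PadicAlgCl p) ≠ 0 := fun h => hx0 (Subtype.ext h)
  obtain ⟨m, hm⟩ := wgr_unr p hx0' hx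
  have h1 := wgr_norm_pow p T x hx0
  have hp1 : (1 : ℝ) < p := by exact_mod_cast (Fact.out : p.Prime).one_lt
  rw [hm, ← zpow_natCast ((p : ℝ) ^ m), ← zpow_mul] at h1
  have h2 := zpow_right_injective₀ (by linarith) hp1.ne' h1
  refine ⟨-m, ?_⟩
  linear_combination h2

/-- **(θ3)**: the tame character of `T` has exact order `e` ON THE INERTIA GROUP `inertiaQ p`. -/
theorem wgr_theta3 (T : IntermediateField ℚ_[p] (PadicAlgCl p)) [FiniteDimensional ℚ_[p] T]
    [IsGalois ℚ_[p] T] (htame : ¬ p ∣ Module.finrank ℚ_[p] T)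
    {π : PadicAlgCl p} (hπ : wgrIsUnif p T π) {e : ℕ} (he : ‖π‖ ^ e = ‖(p : PadicAlgCl p)‖)
    (s : ℕ) (hs : ∀ σ ∈ inertiaQ p, ‖σ (π ^ s) - π ^ s‖ < ‖π‖ ^ s) : e ∣ s := by
  set π' : T := ⟨π, hπ.1⟩ with hπ'
  have hU : IsUnif p π' := (wgr_isUnif_iff π').1 hπ
  set C : Subgroup (T ≃ₐ[ℚ_[p]] T) := (inertiaQ p).map (AlgEquiv.restrictNormalHom T) with hC
  have hres : ∀ (τ : GQq p) (x : T),
      ((AlgEquiv.restrictNormalHom T τ x : T) : PadicAlgCl p) = τ (x : PadicAlgCl p) :=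
    fun τ x => AlgEquiv.restrictNormal_commutes τ T x
  have h1 := wk4_trace p T htame hU.1 C
    (fun x hx0 hx => wgr_unr_wv p T hx0 (fun τ hτ => by
      rw [← hres τ x, hx _ (Subgroup.mem_map_of_mem _ hτ)])) s
    (by
      rintro c ⟨τ, hτ, rfl⟩
      have h4 := hs τ hτ
      have h5 : τ (π ^ s) - π ^ s =
          ((AlgEquiv.restrictNormalHom T τ (π' ^ s) - π' ^ s : T) : PadicAlgCl p) := by
        have := hres τ (π' ^ s)
        push_cast
        rw [this]
        rfl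
      rw [h5] at h4
      by_cases h0 : AlgEquiv.restrictNormalHom T τ (π' ^ s) - π' ^ s = 0
      · exact Or.inl h0
      · right
        have hπs : π' ^ s ≠ 0 := pow_ne_zero _ hU.1
        have hcoe2 : ‖π‖ ^ s = ‖((π' ^ s : T) : PadicAlgCl p)‖ := by
          rw [← norm_pow]; rfl
        rw [hcoe2] at h4
        have h6 := (wgr_norm_lt_iff p T _ _ h0 hπs).1 h4
        rw [l0b_wv_pow] at h6
        omega)
  -- `e · wv π = n`
  have hp0 : ((p : ℕ) : T) ≠ 0 := wgr_natCast_ne_zero p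
  have hπe : π' ^ e ≠ 0 := pow_ne_zero _ hU.1
  have hcoe : ((π' ^ e : T) : PadicAlgCl p) = π ^ e := rfl
  have h2 : wv p (π' ^ e) = wv p ((p : ℕ) : T) := by
    apply le_antisymm
    · apply (wgr_norm_le_iff p T _ _ hp0 hπe).1
      rw [hcoe, norm_pow, he]
      exact le_of_eq rfl
    · apply (wgr_norm_le_iff p T _ _ hπe hp0).1
      rw [hcoe, norm_pow, he]
      exact le_of_eq rfl
  rw [l0b_wv_pow, wgr_wv_natCast] at h2
  rw [← h2] at h1
  have h3 : (e : ℤ) ∣ s := by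
    obtain ⟨m, hm⟩ := h1
    refine ⟨m, ?_⟩
    have h4 : wv p π' * (s : ℤ) = wv p π' * (e * m) := by linear_combination hm
    exact mul_left_cancel₀ hU.2.1.ne' h4
  exact Int.natCast_dvd_natCast.1 h3

end Lift

end Fermat.Agent.TW.W
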