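/-
TW-W / STR-cyc (helper86): `stmtCycloRamFull : StmtCycloRamFull`.

`ℚ_p(ζ_p)/ℚ_p` is totally ramified: every value of the mod `p` cyclotomic character is taken on
the inertia group at `padicPlace p`.

Proof: that of `TW.S.stmtCycloRam` (helper87) with `ζ ↦ ζ ^ a` instead of `ζ ↦ ζ ^ 2`.
-/
import Fermat.Agent.TW.W.Plan3
import Fermat.Agent.TW.S.CycloRam

set_option autoImplicit false
set_option linter.style.haveILetI false

noncomputable section

namespace Fermat.Agent.TW.W

open Polynomial ExtCitation Fermat.Agent.TW.L Fermat.Agent.TW.S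

/-- The mod `p` cyclotomic character through its action on a primitive `p`-th root of unity. -/
theorem wstr_cyclo_spec (p : ℕ) [hp : Fact p.Prime] {ζ : AlgebraicClosure ℚ}
    (hζ : IsPrimitiveRoot ζ p) (τ : AlgebraicClosure ℚ ≃ₐ[ℚ] AlgebraicClosure ℚ) :
    τ ζ = ζ ^ ((cycloChar p τ : (ZMod p)ˣ) : ZMod p).val := by
  haveI : NeZero p := ⟨hp.out.ne_zero⟩
  haveI : NeZero (p : AlgebraicClosure ℚ) := ⟨Nat.cast_ne_zero.mpr hp.out.ne_zero⟩
  have h := modularCyclotomicCharacter.spec (AlgebraicClosure ℚ) (card_rootsOfUnity_eq_self p)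
    (τ : AlgebraicClosure ℚ ≃+* AlgebraicClosure ℚ)
    (t := hζ.toRootsOfUnity) (SetLike.coe_mem hζ.toRootsOfUnity)
  simpa [cycloChar] using h

/-- `τ ζ = ζ ^ a` determines the value of the cyclotomic character. -/
theorem wstr_cyclo_eq (p : ℕ) [hp : Fact p.Prime] {ζ : AlgebraicClosure ℚ}
    (hζ : IsPrimitiveRoot ζ p) (τ : AlgebraicClosure ℚ ≃ₐ[ℚ] AlgebraicClosure ℚ)
    (a : (ZMod p)ˣ) (h : τ ζ = ζ ^ ((a : (ZMod p)ˣ) : ZMod p).val) : cycloChar p τ = a := by
  haveI : NeZero p := ⟨hp.out.ne_zero⟩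
  have h1 := wstr_cyclo_spec p hζ τ
  rw [h] at h1
  have hv := hζ.pow_inj (ZMod.val_lt _) (ZMod.val_lt _) h1
  apply Units.ext
  exact (ZMod.val_injective p hv).symm

/-- Every value of the mod `p` cyclotomic character is taken on `G_ℚ`. -/
theorem wstr_exists_cycloChar_eq (p : ℕ) [hp : Fact p.Prime] (a : (ZMod p)ˣ)
    {ζ : AlgebraicClosure ℚ} (hζ : IsPrimitiveRoot ζ p) :
    ∃ σ : AlgebraicClosure ℚ ≃ₐ[ℚ] AlgebraicClosure ℚ,
      σ ζ = ζ ^ ((a : (ZMod p)ˣ) : ZMod p).val := by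
  haveI : NeZero p := ⟨hp.out.ne_zero⟩
  have hcop : Nat.Coprime ((a : (ZMod p)ˣ) : ZMod p).val p := ZMod.val_coe_unit_coprime a
  have hζa : IsPrimitiveRoot (ζ ^ ((a : (ZMod p)ˣ) : ZMod p).val) p := hζ.pow_of_coprime _ hcop
  have hmin : minpoly ℚ ζ = cyclotomic p ℚ := (cyclotomic_eq_minpoly_rat hζ hp.out.pos).symm
  have hroot : Polynomial.aeval (ζ ^ ((a : (ZMod p)ˣ) : ZMod p).val) (minpoly ℚ ζ) = 0 := by
    rw [hmin]
    have := hζa.isRoot_cyclotomic hp.out.pos
    rw [← map_cyclotomic p (algebraMap ℚ (AlgebraicClosure ℚ))] at this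
    simpa [aeval_def, eval₂_eq_eval_map, IsRoot.def] using this
  haveI := lglob1_qbar_normal
  have halg : IsAlgebraic ℚ ζ := (lglob1_qbar_normal.isAlgebraic ζ)
  exact minpoly.exists_algEquiv_of_root' halg hroot

/-- **STR-cyc**. -/
theorem stmtCycloRamFull : StmtCycloRamFull := by
  intro p _ a
  have hp : p.Prime := Fact.out
  haveI : NeZero p := ⟨hp.ne_zero⟩
  haveI : NeZero (p : AlgebraicClosure ℚ) := ⟨Nat.cast_ne_zero.mpr hp.ne_zero⟩
  obtain ⟨ζ, hζ⟩ := HasEnoughRootsOfUnity.exists_primitiveRoot (AlgebraicClosure ℚ) p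
  obtain ⟨σ, hσζ⟩ := wstr_exists_cycloChar_eq p a hζ
  set m : ℕ := ((a : (ZMod p)ˣ) : ZMod p).val with hm
  have hA : (padicPlace p).LiesOverPrime p := lfrobex_liesOverPrime p
  -- `ζ` lies in the subring
  have h1 := scyc_sub_one_mem_nonunits p (padicPlace p) hA hζ.pow_eq_one
  have h1m : ζ ^ m - 1 ∈ (padicPlace p).nonunits := by
    refine scyc_sub_one_mem_nonunits p (padicPlace p) hA ?_
    rw [← pow_mul, mul_comm, pow_mul, hζ.pow_eq_one, one_pow]
  have hζA : ζ ∈ padicPlace p := by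
    have : ζ = 1 + (ζ - 1) := by ring
    rw [this]
    exact add_mem (one_mem _) ((padicPlace p).nonunits_le h1)
  have hζB : ζ ∈ scycRing (padicPlace p) σ := by
    refine ⟨hζA, ?_⟩
    rw [hσζ]
    have e : ζ ^ m - ζ = (ζ ^ m - 1) - (ζ - 1) := by ring
    rw [e, ValuationSubring.mem_nonunits_iff]
    refine lt_of_le_of_lt (Valuation.map_sub _ _ _) (max_lt ?_ ?_)
    · exact ((padicPlace p).mem_nonunits_iff).mp h1m
    · exact ((padicPlace p).mem_nonunits_iff).mp h1
  -- the cyclotomic field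
  haveI hnorm : Normal ℚ (AlgebraicClosure ℚ) := lglob1_qbar_normal
  haveI : Algebra.IsIntegral ℚ (AlgebraicClosure ℚ) := ⟨fun x => (hnorm.isAlgebraic x).isIntegral⟩
  haveI hcyc : IsCyclotomicExtension {p} ℚ (IntermediateField.adjoin ℚ {ζ}) :=
    hζ.intermediateField_adjoin_isCyclotomicExtension ℚ
  haveI : IsGalois ℚ (IntermediateField.adjoin ℚ {ζ}) :=
    IsCyclotomicExtension.isGalois {p} ℚ (IntermediateField.adjoin ℚ {ζ})
  have hcong : ∀ x ∈ IntermediateField.adjoin ℚ {ζ}, IsIntegral ℤ x →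
      σ x - x ∈ (padicPlace p).nonunits := by
    intro x hx hint
    let ζF : IntermediateField.adjoin ℚ {ζ} := ⟨ζ, IntermediateField.mem_adjoin_simple_self ℚ ζ⟩
    have hζF : IsPrimitiveRoot ζF p :=
      IsPrimitiveRoot.of_map_of_injective
        (f := algebraMap (IntermediateField.adjoin ℚ {ζ}) (AlgebraicClosure ℚ))
        (show IsPrimitiveRoot
          (algebraMap (IntermediateField.adjoin ℚ {ζ}) (AlgebraicClosure ℚ) ζF) p from hζ)
        (algebraMap (IntermediateField.adjoin ℚ {ζ}) (AlgebraicClosure ℚ)).injective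
    have hic := IsCyclotomicExtension.Rat.isIntegralClosure_adjoin_singleton_of_prime hζF
    have hintF : IsIntegral ℤ (⟨x, hx⟩ : IntermediateField.adjoin ℚ {ζ}) :=
      (isIntegral_algebraMap_iff
        (algebraMap (IntermediateField.adjoin ℚ {ζ}) (AlgebraicClosure ℚ)).injective).mp hint
    obtain ⟨y, hy⟩ := hic.isIntegral_iff.mp hintF
    have key : ∀ z ∈ Algebra.adjoin ℤ ({ζF} : Set (IntermediateField.adjoin ℚ {ζ})),
        ((z : IntermediateField.adjoin ℚ {ζ}) : AlgebraicClosure ℚ) ∈ scycRing (padicPlace p) σ := by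
      intro z hz
      induction hz using Algebra.adjoin_induction with
      | mem z hz =>
        rw [Set.mem_singleton_iff] at hz
        subst hz
        exact hζB
      | algebraMap r =>
        have : ((algebraMap ℤ (IntermediateField.adjoin ℚ {ζ}) r :
            IntermediateField.adjoin ℚ {ζ}) : AlgebraicClosure ℚ) = (r : AlgebraicClosure ℚ) := by
          simp
        rw [this]
        exact scyc_intCast_mem _ _ r
      | add a b _ _ ha hb =>
        have : ((a + b : IntermediateField.adjoin ℚ {ζ}) : AlgebraicClosure ℚ)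
            = (a : AlgebraicClosure ℚ) + b := rfl
        rw [this]
        exact add_mem ha hb
      | mul a b _ _ ha hb =>
        have : ((a * b : IntermediateField.adjoin ℚ {ζ}) : AlgebraicClosure ℚ)
            = (a : AlgebraicClosure ℚ) * b := rfl
        rw [this]
        exact mul_mem ha hb
    have hxy : x = ((y : IntermediateField.adjoin ℚ {ζ}) : AlgebraicClosure ℚ) := by
      have := congrArg (fun t : IntermediateField.adjoin ℚ {ζ} => (t : AlgebraicClosure ℚ)) hy
      exact this.symm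
    rw [hxy]
    exact (key y y.2).2
  obtain ⟨σ', hσ'I, hσ'F⟩ := Fermat.Agent.Common.exists_mem_inertiaSubgroupIn_of_congr
    (IntermediateField.adjoin ℚ {ζ}) p hp (padicPlace p) hA σ hcong
  refine ⟨σ', hσ'I, ?_⟩
  apply wstr_cyclo_eq p hζ σ' a
  rw [hσ'F ζ (IntermediateField.mem_adjoin_simple_self ℚ ζ), hσζ]

end Fermat.Agent.TW.W

end
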