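import Fermat.Agent.TW.W.LevelPlan

/-!
# TW-W chain A / DICT (helper64): the coordinate field of a Hopf lattice

`stmtLvDict : StmtLvDict`.  For a Hopf lattice `H` on `M`: the field
`L₀ = ℚ_p(ι(h m) : h ∈ H, m ∈ M)` is finite and normal over `ℚ_p`, and `G_{L₀}` acts trivially on
`M`.
-/

set_option autoImplicit false
set_option linter.unusedSectionVars false
set_option linter.style.haveILetI false

noncomputable section

namespace Fermat.Agent.TW.W

open Fermat.Agent.PT Fermat.Agent.PT.B Fermat.Agent.W1 GaloisRep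

section

variable (p : ℕ) [Fact p.Prime] {M : Type} [AddCommGroup M]
  (act : GQ → M → M) (H : Subalgebra (ratLocalizedAt p) (M → AlgebraicClosure ℚ))

/-- the coordinates are stable under `G_p` -/
theorem lvd_coords_stable (hH : IsHopfLattice (ratLocalizedAt p) act H) (σ : GQq p)
    (z : PadicAlgCl p) (hz : z ∈ twwPmCoords p H) : σ z ∈ twwPmCoords p H := by
  obtain ⟨h, hh, m, rfl⟩ := hz
  refine ⟨h, hh, act (localGaloisToGlobal p σ) m, ?_⟩
  rw [hH.equivariant h hh, padicEmbedding_localGaloisToGlobal]

/-- the image of a rational scalar lies in every intermediate field -/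
theorem lvd_scalar_mem (K : IntermediateField ℚ_[p] (PadicAlgCl p)) (r : ratLocalizedAt p) :
    padicEmbedding p (algebraMap (ratLocalizedAt p) (AlgebraicClosure ℚ) r) ∈ K := by
  have h1 : algebraMap (ratLocalizedAt p) (AlgebraicClosure ℚ) r =
      algebraMap ℚ (AlgebraicClosure ℚ) (r : ℚ) := rfl
  rw [h1, AlgHom.commutes]
  have h2 : algebraMap ℚ (PadicAlgCl p) (r : ℚ) =
      algebraMap ℚ_[p] (PadicAlgCl p) ((r : ℚ) : ℚ_[p]) := by
    rw [IsScalarTower.algebraMap_apply ℚ ℚ_[p] (PadicAlgCl p) (r : ℚ), eq_ratCast]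
  rw [h2]
  exact K.algebraMap_mem _

end

/-- **DICT** -/
theorem stmtLvDict : StmtLvDict := by
  intro p _ M _ _ act H hH
  classical
  haveI : Algebra.IsAlgebraic ℚ_[p] (PadicAlgCl p) := AlgebraicClosure.isAlgebraic ℚ_[p]
  haveI : IsAlgClosure ℚ_[p] (PadicAlgCl p) := ⟨inferInstance, inferInstance⟩
  haveI : Normal ℚ_[p] (PadicAlgCl p) := IsAlgClosure.normal ℚ_[p] (PadicAlgCl p)
  refine ⟨?_, ?_, ?_⟩
  · -- finite
    obtain ⟨G₀, hG₀⟩ := hH.fg
    let S₀ : Set (PadicAlgCl p) :=
      (fun x : (M → AlgebraicClosure ℚ) × M => padicEmbedding p (x.1 x.2)) ''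
        ((G₀ : Set (M → AlgebraicClosure ℚ)) ×ˢ (Set.univ : Set M))
    have hS₀fin : S₀.Finite :=
      Set.Finite.image _ (Set.Finite.prod G₀.finite_toSet Set.finite_univ)
    haveI : Finite S₀ := hS₀fin
    haveI hfd : FiniteDimensional ℚ_[p] (IntermediateField.adjoin ℚ_[p] S₀) :=
      IntermediateField.finiteDimensional_adjoin
        (fun x _ => (Algebra.IsAlgebraic.isAlgebraic x).isIntegral)
    have hle : lvCoordField p H ≤ IntermediateField.adjoin ℚ_[p] S₀ := by
      unfold lvCoordField
      rw [IntermediateField.adjoin_le_iff]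
      rintro z ⟨h, hh, m, rfl⟩
      have hmem : h ∈ Submodule.span (ratLocalizedAt p) (G₀ : Set (M → AlgebraicClosure ℚ)) := by
        rw [hG₀]
        exact hh
      revert m
      refine Submodule.span_induction
        (p := fun h _ => ∀ m : M, padicEmbedding p (h m) ∈
          (IntermediateField.adjoin ℚ_[p] S₀ : Set (PadicAlgCl p))) ?_ ?_ ?_ ?_ hmem
      · intro g hg m
        exact IntermediateField.subset_adjoin _ _ ⟨(g, m), ⟨hg, Set.mem_univ _⟩, rfl⟩
      · intro m
        show padicEmbedding p ((0 : M → AlgebraicClosure ℚ) m) ∈ IntermediateField.adjoin ℚ_[p] S₀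
        rw [Pi.zero_apply, map_zero]
        exact zero_mem _
      · intro x y _ _ hx hy m
        show padicEmbedding p ((x + y) m) ∈ IntermediateField.adjoin ℚ_[p] S₀
        rw [Pi.add_apply, map_add]
        exact add_mem (hx m) (hy m)
      · intro r x _ hx m
        show padicEmbedding p ((r • x) m) ∈ IntermediateField.adjoin ℚ_[p] S₀
        rw [Pi.smul_apply, Algebra.smul_def, map_mul]
        exact mul_mem (lvd_scalar_mem p _ r) (hx m)
    exact FiniteDimensional.of_injective (IntermediateField.inclusion hle).toLinearMap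
      (IntermediateField.inclusion hle).toRingHom.injective
  · -- normal
    rw [IntermediateField.normal_iff_forall_map_le']
    intro σ
    unfold lvCoordField
    rw [IntermediateField.adjoin_map, IntermediateField.adjoin_le_iff]
    rintro _ ⟨z, hz, rfl⟩
    exact IntermediateField.subset_adjoin _ _ (lvd_coords_stable p act H hH σ z hz)
  · -- trivial action
    intro σ hσ m
    apply hH.separates
    intro h hh
    have h1 : padicEmbedding p (h m) ∈ lvCoordField p H :=
      IntermediateField.subset_adjoin _ _ ⟨h, hh, m, rfl⟩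
    have h2 : σ (padicEmbedding p (h m)) = padicEmbedding p (h m) :=
      (IntermediateField.mem_fixingSubgroup_iff _ σ).1 hσ _ h1
    rw [← padicEmbedding_localGaloisToGlobal, ← hH.equivariant h hh] at h2
    exact (padicEmbedding p).toRingHom.injective h2

end Fermat.Agent.TW.W

end
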