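/-
TW-W, common EISENSTEIN LAYER (helper65), on the PT-L API (`wv`, `IsUnif`, `UE.OV`, `UE.lvl`).

Setting: `K ⊂ L` local fields (finite over `ℚ_q`), `πK`, `π` uniformisers, TOTALLY RAMIFIED
in the form `wv q π = wv q πK`; `n = [L : K]`.

* `wr_wv_sum_eq`            sharp ultrametric inequality for finite sums
* `wr_aeval_val`            `w(Σ_{i<n} a_i π^i) = min_i w(a_i π^i)`, in particular `≠ 0`
* `wr_natDegree_minpoly`    `deg minpoly_K π = n`
* `wr_exists_poly`, `wr_int_exists_poly`     `L = K[π]`, `𝒪_L = 𝒪_K[π]`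
* `wr_coeff_geW`            `w(P(π)) ≥ m n f ⇒ w(coefficients) ≥ m f`
* EIS-1: `wr_exists_eis` (a monic `g ∈ 𝒪_K[X]` of degree `n` with `g(π) = 0`),
         `wr_isEisensteinAt` (every such `g` is Eisenstein),
         `wr_dvd_of_eval_eq_zero` (it generates the kernel of `X ↦ π`),
         `wr_universal` (universal property of `𝒪_L = 𝒪_K[X]/(g)`), summary `wr_eis1`
* EIS-2: `wr_eis_field`     an Eisenstein polynomial defines a totally ramified extension
                            `E = K[X]/(g)` in which the root is a uniformiser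
* EIS-3: `wr_iota_mem_lvl`, `wr_lvl_map`     `𝒪_K/{w ≥ k} ↪ 𝒪_L/{w ≥ n k}`
-/
import Fermat.Agent.PT.L.Res
import Mathlib.RingTheory.Norm.Basic

set_option autoImplicit false
set_option linter.unusedSectionVars false
set_option linter.style.haveILetI false

open Polynomial

namespace Fermat.Agent.TW.W

open Fermat.Agent.PT.L

section One

variable (q : ℕ) [Fact q.Prime] {X : Type} [Field X] [Algebra ℚ_[q] X]
  [FiniteDimensional ℚ_[q] X]

/-- ultrametric, sharp form: if one term `t i₀` is nonzero and all other terms have strictly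
larger valuation (or vanish), then the sum is nonzero and has the valuation of `t i₀`. -/
theorem wr_wv_sum_eq {ι : Type*} [DecidableEq ι] (s : Finset ι) (t : ι → X) (i₀ : ι)
    (hi₀ : i₀ ∈ s) (h0 : t i₀ ≠ 0)
    (hlt : ∀ j ∈ s, j ≠ i₀ → geW q (wv q (t i₀) + 1) (t j)) :
    ∑ i ∈ s, t i ≠ 0 ∧ wv q (∑ i ∈ s, t i) = wv q (t i₀) := by
  have hsplit : ∑ i ∈ s, t i = t i₀ + ∑ i ∈ s.erase i₀, t i :=
    (Finset.add_sum_erase s t hi₀).symm
  have hrest : geW q (wv q (t i₀) + 1) (∑ i ∈ s.erase i₀, t i) := by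
    apply geW_sum
    intro j hj
    exact hlt j (Finset.mem_of_mem_erase hj) (Finset.ne_of_mem_erase hj)
  have hall : geW q (wv q (t i₀)) (∑ i ∈ s, t i) := by
    apply geW_sum
    intro j hj
    by_cases hji : j = i₀
    · rw [hji]; exact Or.inr le_rfl
    · exact geW_mono q (by omega) (hlt j hj hji)
  have hnot : ¬ geW q (wv q (t i₀) + 1) (∑ i ∈ s, t i) := by
    intro h
    have h2 : geW q (wv q (t i₀) + 1) (t i₀) := by
      have := geW_sub q h hrest
      rwa [hsplit, add_sub_cancel_right] at this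
    rcases h2 with h2 | h2
    · exact h0 h2
    · omega
  have hne : ∑ i ∈ s, t i ≠ 0 := fun h => hnot (Or.inl h)
  refine ⟨hne, ?_⟩
  have h1 := hall.resolve_left hne
  have h2 : ¬ (wv q (t i₀) + 1 ≤ wv q (∑ i ∈ s, t i)) := fun h => hnot (Or.inr h)
  omega

end One

/-! ### A totally ramified pair `K ⊂ L` -/

section Pair

variable (q : ℕ) [Fact q.Prime] {K L : Type} [Field K] [Field L] [Algebra ℚ_[q] K]
  [FiniteDimensional ℚ_[q] K] [Algebra K L] [Algebra ℚ_[q] L] [IsScalarTower ℚ_[q] K L]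
  [FiniteDimensional K L] [FiniteDimensional ℚ_[q] L]

/-- the valuation of a monomial `a π^i` -/
theorem wr_wv_term {a : K} (ha : a ≠ 0) {π : L} (hπ : π ≠ 0) (i : ℕ) :
    wv q (algebraMap K L a * π ^ i) =
      (Module.finrank K L : ℤ) * wv q a + (i : ℤ) * wv q π := by
  have ha' : algebraMap K L a ≠ 0 := by
    rwa [Ne, map_eq_zero]
  rw [l0b_wv_mul q ha' (pow_ne_zero i hπ), wv_algebraMap_tower, l0b_wv_pow]

variable {πK : K} {π : L}

/-- the valuations of the monomials `a π^i`, `i < n`, are pairwise distinct -/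
theorem wr_term_ne (hK : IsUnif q πK) (hL : IsUnif q π) (htot : wv q π = wv q πK)
    {a b : K} (ha : a ≠ 0) (hb : b ≠ 0) {i j : ℕ} (hi : i < Module.finrank K L)
    (hj : j < Module.finrank K L) (hij : i ≠ j) :
    wv q (algebraMap K L a * π ^ i) ≠ wv q (algebraMap K L b * π ^ j) := by
  rw [wr_wv_term q ha hL.1, wr_wv_term q hb hL.1, htot]
  obtain ⟨α, hα⟩ := hK.2.2 a ha
  obtain ⟨β, hβ⟩ := hK.2.2 b hb
  rw [hα, hβ]
  have hf : 0 < wv q πK := hK.2.1
  intro h
  have h2 : wv q πK * ((Module.finrank K L : ℤ) * α + i) =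
      wv q πK * ((Module.finrank K L : ℤ) * β + j) := by linarith
  have h3 := mul_left_cancel₀ hf.ne' h2
  have h4 : (Module.finrank K L : ℤ) * (α - β) = (j : ℤ) - i := by linarith
  have h5 : (Module.finrank K L : ℤ) ∣ (j : ℤ) - i := ⟨_, h4.symm⟩
  have hi' : (i : ℤ) < Module.finrank K L := by exact_mod_cast hi
  have hj' : (j : ℤ) < Module.finrank K L := by exact_mod_cast hj
  have h6 : (j : ℤ) - i = 0 := by
    apply Int.eq_zero_of_abs_lt_dvd h5
    rw [abs_lt]
    constructor <;> omega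
  apply hij
  omega

/-- values of polynomials of degree `< n` at a uniformiser: the valuation is the minimum of
the valuations of the monomials. -/
theorem wr_aeval_val (hK : IsUnif q πK) (hL : IsUnif q π) (htot : wv q π = wv q πK)
    (P : K[X]) (hP : P ≠ 0) (hdeg : P.natDegree < Module.finrank K L) :
    aeval π P ≠ 0 ∧ ∃ i₀ < Module.finrank K L, P.coeff i₀ ≠ 0 ∧
      wv q (aeval π P) = wv q (algebraMap K L (P.coeff i₀) * π ^ i₀) ∧
      ∀ j < Module.finrank K L, P.coeff j ≠ 0 →
        wv q (algebraMap K L (P.coeff i₀) * π ^ i₀) ≤ wv q (algebraMap K L (P.coeff j) * π ^ j) := by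
  classical
  set n := Module.finrank K L with hn
  set t : ℕ → L := fun i => algebraMap K L (P.coeff i) * π ^ i with ht
  have hsum : aeval π P = ∑ i ∈ Finset.range n, t i := by
    rw [aeval_eq_sum_range' hdeg]
    apply Finset.sum_congr rfl
    intro i _
    rw [Algebra.smul_def]
  set s : Finset ℕ := (Finset.range n).filter (fun i => P.coeff i ≠ 0) with hs
  have hsum2 : ∑ i ∈ Finset.range n, t i = ∑ i ∈ s, t i := by
    rw [hs, Finset.sum_filter]
    apply Finset.sum_congr rfl
    intro i _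
    by_cases h : P.coeff i = 0
    · simp [ht, h]
    · simp [h]
  have hsne : s.Nonempty := by
    by_contra hcon
    rw [Finset.not_nonempty_iff_eq_empty] at hcon
    apply hP
    ext i
    rw [coeff_zero]
    by_cases hi : i < n
    · by_contra hc
      have : i ∈ s := by
        rw [hs, Finset.mem_filter, Finset.mem_range]
        exact ⟨hi, hc⟩
      rw [hcon] at this
      exact absurd this (Finset.notMem_empty i)
    · exact coeff_eq_zero_of_natDegree_lt (by omega)
  obtain ⟨i₀, hi₀s, hmin⟩ := Finset.exists_min_image s (fun i => wv q (t i)) hsne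
  have hi₀ : i₀ < n ∧ P.coeff i₀ ≠ 0 := by
    rw [hs, Finset.mem_filter, Finset.mem_range] at hi₀s
    exact hi₀s
  have ht0 : t i₀ ≠ 0 := by
    simp only [ht]
    apply mul_ne_zero
    · rw [Ne, map_eq_zero]; exact hi₀.2
    · exact pow_ne_zero _ hL.1
  have hlt : ∀ j ∈ s, j ≠ i₀ → geW q (wv q (t i₀) + 1) (t j) := by
    intro j hj hji
    right
    have hj' : j < n ∧ P.coeff j ≠ 0 := by
      rw [hs, Finset.mem_filter, Finset.mem_range] at hj
      exact hj
    have h1 := hmin j hj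
    have h2 := wr_term_ne q hK hL htot hj'.2 hi₀.2 hj'.1 hi₀.1 hji
    simp only [ht] at h1 ⊢
    omega
  obtain ⟨hne, hval⟩ := wr_wv_sum_eq q s t i₀ hi₀s ht0 hlt
  rw [hsum, hsum2]
  refine ⟨hne, i₀, hi₀.1, hi₀.2, hval, ?_⟩
  intro j hj hcj
  apply hmin j
  rw [hs, Finset.mem_filter, Finset.mem_range]
  exact ⟨hj, hcj⟩

/-- `1, π, …, π^{n-1}` are linearly independent over `K` -/
theorem wr_aeval_ne_zero (hK : IsUnif q πK) (hL : IsUnif q π) (htot : wv q π = wv q πK)
    (P : K[X]) (hP : P ≠ 0) (hdeg : P.natDegree < Module.finrank K L) : aeval π P ≠ 0 :=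
  (wr_aeval_val q hK hL htot P hP hdeg).1

/-- the minimal polynomial of a uniformiser of a totally ramified extension has degree `n` -/
theorem wr_natDegree_minpoly (hK : IsUnif q πK) (hL : IsUnif q π) (htot : wv q π = wv q πK) :
    (minpoly K π).natDegree = Module.finrank K L := by
  have hint : IsIntegral K π := Algebra.IsIntegral.isIntegral π
  apply le_antisymm (minpoly.natDegree_le π)
  by_contra hcon
  rw [not_le] at hcon
  exact wr_aeval_ne_zero q hK hL htot (minpoly K π) (minpoly.ne_zero hint) hcon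
    (minpoly.aeval K π)

/-- every element of `L` is a polynomial of degree `< n` in `π` -/
theorem wr_exists_poly (hK : IsUnif q πK) (hL : IsUnif q π) (htot : wv q π = wv q πK)
    (x : L) : ∃ P : K[X], P.natDegree < Module.finrank K L ∧ aeval π P = x := by
  have hint : IsIntegral K π := Algebra.IsIntegral.isIntegral π
  have hdeg := wr_natDegree_minpoly q hK hL htot
  have htop : IntermediateField.adjoin K {π} = ⊤ :=
    (Field.primitive_element_iff_minpoly_natDegree_eq K π).2 hdeg
  have hx : x ∈ Algebra.adjoin K {π} := by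
    have h1 : x ∈ (IntermediateField.adjoin K {π}).toSubalgebra := by
      rw [htop]; trivial
    rwa [IntermediateField.adjoin_simple_toSubalgebra_of_isAlgebraic hint.isAlgebraic] at h1
  rw [Algebra.adjoin_singleton_eq_range_aeval] at hx
  obtain ⟨P, rfl⟩ := hx
  have hmon := minpoly.monic hint
  have hne1 : minpoly K π ≠ 1 := by
    intro h
    have := minpoly.aeval K π
    rw [h] at this
    simp at this
  refine ⟨P %ₘ minpoly K π, ?_, ?_⟩
  · rw [← hdeg]
    exact natDegree_modByMonic_lt P hmon hne1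
  · exact aeval_modByMonic_eq_self_of_root (minpoly.aeval K π)

/-- lower bounds for the coefficients: if `P(π)` has valuation `≥ m·n·f` (`deg P < n`) then all
coefficients of `P` have valuation `≥ m·f`. -/
theorem wr_coeff_geW (hK : IsUnif q πK) (hL : IsUnif q π) (htot : wv q π = wv q πK)
    (P : K[X]) (hdeg : P.natDegree < Module.finrank K L) (m : ℤ)
    (hval : geW q (m * (Module.finrank K L * wv q πK)) (aeval π P)) (i : ℕ) :
    geW q (m * wv q πK) (P.coeff i) := by
  by_cases hc : P.coeff i = 0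
  · exact Or.inl hc
  right
  have hP : P ≠ 0 := fun h => hc (by rw [h, coeff_zero])
  have hi : i < Module.finrank K L := by
    by_contra hcon
    exact hc (coeff_eq_zero_of_natDegree_lt (by omega))
  obtain ⟨hne, i₀, hi₀, hc₀, hv, hmin⟩ := wr_aeval_val q hK hL htot P hP hdeg
  have h1 := hval.resolve_left hne
  have h2 := hmin i hi hc
  rw [hv] at h1
  rw [wr_wv_term q hc hL.1, htot] at h2
  rw [wr_wv_term q hc₀ hL.1, htot] at h1 h2
  obtain ⟨α, hα⟩ := hK.2.2 _ hc
  rw [hα] at h2 ⊢
  have hf : 0 < wv q πK := hK.2.1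
  have hi' : (i : ℤ) < Module.finrank K L := by exact_mod_cast hi
  have h3 : m * (Module.finrank K L * wv q πK) ≤
      (Module.finrank K L : ℤ) * (wv q πK * α) + i * wv q πK := le_trans h1 h2
  have h4 : wv q πK * (m * Module.finrank K L) ≤
      wv q πK * ((Module.finrank K L : ℤ) * α + i) := by linarith
  have h5 := le_of_mul_le_mul_left h4 hf
  have h6 : m ≤ α := by
    by_contra hcon
    rw [not_le] at hcon
    have h7 : α + 1 ≤ m := hcon
    have hn0 : (0 : ℤ) ≤ Module.finrank K L := by positivity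
    have h8 : (α + 1) * (Module.finrank K L : ℤ) ≤ m * Module.finrank K L :=
      mul_le_mul_of_nonneg_right h7 hn0
    nlinarith
  rw [mul_comm]
  exact mul_le_mul_of_nonneg_left h6 hf.le

/-! ### Integral version -/

/-- a uniformiser is integral -/
theorem wr_unif_mem {X : Type} [Field X] [Algebra ℚ_[q] X] [FiniteDimensional ℚ_[q] X]
    {ϖ : X} (h : IsUnif q ϖ) : ϖ ∈ UE.OV q stmtWAdd X := Or.inr h.2.1.le

/-- a polynomial with integral coefficients comes from `𝒪_K[X]` -/
theorem wr_lift_poly (P : K[X]) (h : ∀ i, geW q 0 (P.coeff i)) :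
    ∃ P₀ : (UE.OV q stmtWAdd K)[X], P₀.map (algebraMap (UE.OV q stmtWAdd K) K) = P ∧
      P₀.natDegree = P.natDegree := by
  have h1 : P ∈ Polynomial.lifts (algebraMap (UE.OV q stmtWAdd K) K) := by
    rw [Polynomial.lifts_iff_coeff_lifts]
    intro i
    exact ⟨⟨P.coeff i, h i⟩, rfl⟩
  obtain ⟨P₀, hP₀⟩ := (Polynomial.mem_lifts P).1 h1
  refine ⟨P₀, hP₀, ?_⟩
  rw [← hP₀, natDegree_map_eq_of_injective Subtype.coe_injective]

/-- evaluation at `π` of a polynomial over `𝒪_K`, in `L` -/
theorem wr_coe_eval (hL : IsUnif q π) (P₀ : (UE.OV q stmtWAdd K)[X]) :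
    ((eval₂ (UE.iota q stmtWAdd) (⟨π, wr_unif_mem q hL⟩ : UE.OV q stmtWAdd L) P₀ :
      UE.OV q stmtWAdd L) : L) = aeval π (P₀.map (algebraMap (UE.OV q stmtWAdd K) K)) := by
  rw [UE.coe_eval₂, aeval_def]

/-- `𝒪_L = 𝒪_K[π]`: every integral element is a polynomial of degree `< n` in `π` with
integral coefficients. -/
theorem wr_int_exists_poly (hK : IsUnif q πK) (hL : IsUnif q π) (htot : wv q π = wv q πK)
    (x : UE.OV q stmtWAdd L) :
    ∃ P₀ : (UE.OV q stmtWAdd K)[X], P₀.natDegree < Module.finrank K L ∧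
      eval₂ (UE.iota q stmtWAdd) (⟨π, wr_unif_mem q hL⟩ : UE.OV q stmtWAdd L) P₀ = x := by
  obtain ⟨P, hdeg, hP⟩ := wr_exists_poly q hK hL htot (x : L)
  have hint : ∀ i, geW q 0 (P.coeff i) := by
    intro i
    have := wr_coeff_geW q hK hL htot P hdeg 0 (by rw [zero_mul, hP]; exact x.2) i
    rwa [zero_mul] at this
  obtain ⟨P₀, hP₀, hd⟩ := wr_lift_poly q P hint
  refine ⟨P₀, by rw [hd]; exact hdeg, Subtype.ext ?_⟩
  rw [wr_coe_eval q hL, hP₀, hP]

/-- a polynomial of degree `< n` over `𝒪_K` vanishing at `π` is zero -/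
theorem wr_eval_eq_zero (hK : IsUnif q πK) (hL : IsUnif q π) (htot : wv q π = wv q πK)
    (P₀ : (UE.OV q stmtWAdd K)[X]) (hdeg : P₀.natDegree < Module.finrank K L)
    (h0 : eval₂ (UE.iota q stmtWAdd) (⟨π, wr_unif_mem q hL⟩ : UE.OV q stmtWAdd L) P₀ = 0) :
    P₀ = 0 := by
  by_contra hne
  have hinj : Function.Injective (algebraMap (UE.OV q stmtWAdd K) K) := Subtype.coe_injective
  have hne' : P₀.map (algebraMap (UE.OV q stmtWAdd K) K) ≠ 0 := by
    rwa [Ne, Polynomial.map_eq_zero_iff hinj]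
  have hdeg' : (P₀.map (algebraMap (UE.OV q stmtWAdd K) K)).natDegree < Module.finrank K L := by
    rwa [natDegree_map_eq_of_injective hinj]
  apply wr_aeval_ne_zero q hK hL htot _ hne' hdeg'
  rw [← wr_coe_eval q hL, h0]
  rfl

/-- the kernel of `𝒪_K[X] → 𝒪_L`, `X ↦ π`, is generated by any monic polynomial of degree `n`
vanishing at `π`. -/
theorem wr_dvd_of_eval_eq_zero (hK : IsUnif q πK) (hL : IsUnif q π) (htot : wv q π = wv q πK)
    (g : (UE.OV q stmtWAdd K)[X]) (hmon : g.Monic) (hgdeg : g.natDegree = Module.finrank K L)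
    (hg0 : eval₂ (UE.iota q stmtWAdd) (⟨π, wr_unif_mem q hL⟩ : UE.OV q stmtWAdd L) g = 0)
    (P₀ : (UE.OV q stmtWAdd K)[X])
    (h0 : eval₂ (UE.iota q stmtWAdd) (⟨π, wr_unif_mem q hL⟩ : UE.OV q stmtWAdd L) P₀ = 0) :
    g ∣ P₀ := by
  have hn : 0 < Module.finrank K L := Module.finrank_pos
  have hne1 : g ≠ 1 := by
    intro h
    rw [h, natDegree_one] at hgdeg
    omega
  rw [← Polynomial.modByMonic_eq_zero_iff_dvd hmon]
  apply wr_eval_eq_zero q hK hL htot
  · rw [← hgdeg]
    exact natDegree_modByMonic_lt P₀ hmon hne1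
  · have h1 := Polynomial.modByMonic_add_div P₀ g
    have h2 := congrArg (eval₂ (UE.iota q stmtWAdd)
      (⟨π, wr_unif_mem q hL⟩ : UE.OV q stmtWAdd L)) h1
    rw [eval₂_add, eval₂_mul, hg0, zero_mul, add_zero, h0] at h2
    exact h2

/-- EIS-1, universal property: `𝒪_L = 𝒪_K[X]/(g)` for any monic `g` of degree `n` vanishing at
the uniformiser `π`. -/
theorem wr_universal (hK : IsUnif q πK) (hL : IsUnif q π) (htot : wv q π = wv q πK)
    (g : (UE.OV q stmtWAdd K)[X]) (hmon : g.Monic) (hgdeg : g.natDegree = Module.finrank K L)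
    (hg0 : eval₂ (UE.iota q stmtWAdd) (⟨π, wr_unif_mem q hL⟩ : UE.OV q stmtWAdd L) g = 0)
    (R : Type) [CommRing R] (s : UE.OV q stmtWAdd K →+* R) (r : R) (hr : eval₂ s r g = 0) :
    ∃ η : UE.OV q stmtWAdd L →+* R,
      (∀ a : UE.OV q stmtWAdd K, η (UE.iota q stmtWAdd a) = s a) ∧
      η ⟨π, wr_unif_mem q hL⟩ = r ∧
      ∀ P₀ : (UE.OV q stmtWAdd K)[X],
        η (eval₂ (UE.iota q stmtWAdd) (⟨π, wr_unif_mem q hL⟩ : UE.OV q stmtWAdd L) P₀) =
          eval₂ s r P₀ := by
  set φ : (UE.OV q stmtWAdd K)[X] →+* UE.OV q stmtWAdd L :=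
    eval₂RingHom (UE.iota q stmtWAdd) (⟨π, wr_unif_mem q hL⟩ : UE.OV q stmtWAdd L) with hφ
  set ψ : (UE.OV q stmtWAdd K)[X] →+* R := eval₂RingHom s r with hψ
  have hsurj : Function.Surjective φ := by
    intro x
    obtain ⟨P₀, -, hP₀⟩ := wr_int_exists_poly q hK hL htot x
    exact ⟨P₀, hP₀⟩
  have hker : RingHom.ker φ ≤ RingHom.ker ψ := by
    intro P₀ hP₀
    rw [RingHom.mem_ker] at hP₀ ⊢
    obtain ⟨Q, rfl⟩ := wr_dvd_of_eval_eq_zero q hK hL htot g hmon hgdeg hg0 P₀ hP₀
    rw [map_mul]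
    have : ψ g = 0 := hr
    rw [this, zero_mul]
  have hη : ∀ P₀, (RingHom.liftOfSurjective φ hsurj ⟨ψ, hker⟩) (φ P₀) = ψ P₀ := fun P₀ =>
    RingHom.liftOfRightInverse_comp_apply φ _ _ ⟨ψ, hker⟩ P₀
  refine ⟨RingHom.liftOfSurjective φ hsurj ⟨ψ, hker⟩, ?_, ?_, ?_⟩
  · intro a
    have := hη (C a)
    simpa [hφ, hψ] using this
  · have := hη X
    simpa [hφ, hψ] using this
  · intro P₀
    exact hη P₀

/-! ### Eisenstein polynomials -/

theorem wr_natDegree_X_pow_sub {F : Type} [Field F] (G : F[X]) (hG : G.Monic) (n : ℕ)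
    (hn : 0 < n) (hdeg : G.natDegree = n) : (X ^ n - G : F[X]).natDegree < n := by
  by_cases h : (X ^ n - G : F[X]) = 0
  · rw [h, natDegree_zero]; exact hn
  · have h1 : (X ^ n - G : F[X]).degree < (X ^ n : F[X]).degree := by
      apply degree_sub_lt_left
      · rw [degree_X_pow, degree_eq_natDegree hG.ne_zero, hdeg]
      · exact pow_ne_zero n X_ne_zero
      · rw [hG.leadingCoeff, leadingCoeff_X_pow]
    have h2 := natDegree_lt_natDegree h h1
    rwa [natDegree_X_pow] at h2

/-- a monic polynomial of degree `n` over `K` vanishing at the uniformiser `π` of the totally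
ramified extension `L/K` of degree `n` is Eisenstein. -/
theorem wr_eis_of_root (hK : IsUnif q πK) (hL : IsUnif q π) (htot : wv q π = wv q πK)
    (G : K[X]) (hG : G.Monic) (hdeg : G.natDegree = Module.finrank K L)
    (hroot : aeval π G = 0) :
    (∀ i < Module.finrank K L, geW q (wv q πK) (G.coeff i)) ∧
      G.coeff 0 ≠ 0 ∧ wv q (G.coeff 0) = wv q πK := by
  have hn : 0 < Module.finrank K L := Module.finrank_pos
  have hf : 0 < wv q πK := hK.2.1
  set P : K[X] := X ^ Module.finrank K L - G with hP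
  have hPdeg : P.natDegree < Module.finrank K L := wr_natDegree_X_pow_sub G hG _ hn hdeg
  have hPval : aeval π P = π ^ Module.finrank K L := by
    rw [hP, map_sub, hroot, sub_zero, map_pow, aeval_X]
  have hwv : wv q (π ^ Module.finrank K L) = Module.finrank K L * wv q πK := by
    rw [l0b_wv_pow, htot]
  have hcoeff : ∀ i < Module.finrank K L, P.coeff i = - G.coeff i := by
    intro i hi
    rw [hP, coeff_sub, coeff_X_pow, if_neg hi.ne, zero_sub]
  have h1 : ∀ i, geW q (wv q πK) (P.coeff i) := by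
    intro i
    have := wr_coeff_geW q hK hL htot P hPdeg 1
      (by rw [one_mul, hPval]; exact Or.inr hwv.ge) i
    rwa [one_mul] at this
  have h2 : ∀ i < Module.finrank K L, geW q (wv q πK) (G.coeff i) := by
    intro i hi
    have := geW_neg q (h1 i)
    rwa [hcoeff i hi, neg_neg] at this
  refine ⟨h2, ?_⟩
  by_contra hcon
  -- then all terms of `P(π)` have valuation `> n f`
  have h3 : G.coeff 0 = 0 ∨ 2 * wv q πK ≤ wv q (G.coeff 0) := by
    by_cases h0 : G.coeff 0 = 0
    · exact Or.inl h0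
    · right
      have h4 : wv q (G.coeff 0) ≠ wv q πK := fun h => hcon ⟨h0, h⟩
      have h5 := (h2 0 hn).resolve_left h0
      obtain ⟨α, hα⟩ := hK.2.2 _ h0
      rw [hα] at h4 h5 ⊢
      have h6 : 1 ≤ α := by
        by_contra hc
        rw [not_le] at hc
        have : α ≤ 0 := by omega
        nlinarith
      have h7 : α ≠ 1 := fun h => h4 (by rw [h, mul_one])
      have h8 : 2 ≤ α := by omega
      rw [mul_comm]
      exact mul_le_mul_of_nonneg_left h8 hf.le
  have hterm : ∀ i ∈ Finset.range (Module.finrank K L),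
      geW q ((Module.finrank K L : ℤ) * wv q πK + 1) (algebraMap K L (P.coeff i) * π ^ i) := by
    intro i hi
    rw [Finset.mem_range] at hi
    by_cases hc : P.coeff i = 0
    · left; rw [hc, map_zero, zero_mul]
    right
    rw [wr_wv_term q hc hL.1, htot]
    have hn' : (1 : ℤ) ≤ Module.finrank K L := by exact_mod_cast hn
    rcases Nat.eq_zero_or_pos i with hi0 | hi0
    · subst hi0
      have hc' : G.coeff 0 ≠ 0 := by
        intro h
        apply hc
        rw [hcoeff 0 hn, h, neg_zero]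
      have h4 := h3.resolve_left hc'
      rw [hcoeff 0 hn, geW_wv_neg]
      push_cast
      nlinarith
    · have h4 := (h1 i).resolve_left hc
      have hi1 : (1 : ℤ) ≤ i := by exact_mod_cast hi0
      nlinarith
  have hsum : geW q ((Module.finrank K L : ℤ) * wv q πK + 1) (aeval π P) := by
    rw [aeval_eq_sum_range' hPdeg]
    apply geW_sum
    intro i hi
    rw [Algebra.smul_def]
    exact hterm i hi
  rw [hPval] at hsum
  rcases hsum with h | h
  · exact pow_ne_zero _ hL.1 h
  · rw [hwv] at h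
    omega

/-- EIS-1, Eisenstein property of any monic `g ∈ 𝒪_K[X]` of degree `n` vanishing at `π` -/
theorem wr_isEisensteinAt (hK : IsUnif q πK) (hL : IsUnif q π) (htot : wv q π = wv q πK)
    (g : (UE.OV q stmtWAdd K)[X]) (hmon : g.Monic) (hgdeg : g.natDegree = Module.finrank K L)
    (hg0 : eval₂ (UE.iota q stmtWAdd) (⟨π, wr_unif_mem q hL⟩ : UE.OV q stmtWAdd L) g = 0) :
    g.IsEisensteinAt (IsLocalRing.maximalIdeal (UE.OV q stmtWAdd K)) := by
  have hinj : Function.Injective (algebraMap (UE.OV q stmtWAdd K) K) := Subtype.coe_injective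
  have hroot : aeval π (g.map (algebraMap (UE.OV q stmtWAdd K) K)) = 0 := by
    rw [← wr_coe_eval q hL, hg0]
    rfl
  obtain ⟨h1, h2, h3⟩ := wr_eis_of_root q hK hL htot _ (hmon.map _)
    (by rw [natDegree_map_eq_of_injective hinj, hgdeg]) hroot
  have hf : 0 < wv q πK := hK.2.1
  refine ⟨?_, ?_, ?_⟩
  · rw [hmon.leadingCoeff]
    exact (Ideal.ne_top_iff_one _).1 (IsLocalRing.maximalIdeal.isMaximal _).ne_top
  · intro i hi
    rw [UE.mem_maximalIdeal_iff]
    rw [hgdeg] at hi
    have := h1 i hi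
    rw [coeff_map] at this
    rcases this with h | h
    · exact Or.inl h
    · right
      have e : algebraMap (UE.OV q stmtWAdd K) K (g.coeff i) = ((g.coeff i : UE.OV q stmtWAdd K) : K) := rfl
      rw [e] at h
      omega
  · rw [LU.lu_maximalIdeal_eq q hK (wr_unif_mem q hK), Ideal.span_singleton_pow,
      LU.lu_mem_span_pow q hK.1 (wr_unif_mem q hK)]
    rw [coeff_map] at h2 h3
    have e : algebraMap (UE.OV q stmtWAdd K) K (g.coeff 0) = ((g.coeff 0 : UE.OV q stmtWAdd K) : K) := rfl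
    rw [e] at h2 h3
    rintro (h | h)
    · exact h2 h
    · rw [h3] at h
      push_cast at h
      linarith

/-- EIS-1, existence: the minimal polynomial of `π` has coefficients in `𝒪_K`. -/
theorem wr_exists_eis (hK : IsUnif q πK) (hL : IsUnif q π) (htot : wv q π = wv q πK) :
    ∃ g : (UE.OV q stmtWAdd K)[X], g.Monic ∧ g.natDegree = Module.finrank K L ∧
      eval₂ (UE.iota q stmtWAdd) (⟨π, wr_unif_mem q hL⟩ : UE.OV q stmtWAdd L) g = 0 ∧
      g.map (algebraMap (UE.OV q stmtWAdd K) K) = minpoly K π := by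
  have hint : IsIntegral K π := Algebra.IsIntegral.isIntegral π
  have hmon := minpoly.monic hint
  have hdeg := wr_natDegree_minpoly q hK hL htot
  have hinj : Function.Injective (algebraMap (UE.OV q stmtWAdd K) K) := Subtype.coe_injective
  obtain ⟨h1, -, -⟩ := wr_eis_of_root q hK hL htot _ hmon hdeg (minpoly.aeval K π)
  have hf : 0 < wv q πK := hK.2.1
  have hcoeff : ∀ i, geW q 0 ((minpoly K π).coeff i) := by
    intro i
    rcases lt_trichotomy i (Module.finrank K L) with hi | hi | hi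
    · exact geW_mono q hf.le (h1 i hi)
    · rw [hi, ← hdeg, hmon.coeff_natDegree]
      exact geW_one q
    · rw [coeff_eq_zero_of_natDegree_lt (by omega)]
      exact geW_zero q 0
  obtain ⟨g, hg, hgd⟩ := wr_lift_poly q _ hcoeff
  refine ⟨g, ?_, by rw [hgd, hdeg], ?_, hg⟩
  · apply Polynomial.monic_of_injective hinj
    rw [hg]
    exact hmon
  · apply Subtype.ext
    rw [wr_coe_eval q hL, hg, minpoly.aeval]
    rfl

/-- EIS-1, summary: existence of the Eisenstein polynomial of `π` with the universal property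
of the presentation `𝒪_L = 𝒪_K[X]/(g)`. -/
theorem wr_eis1 (hK : IsUnif q πK) (hL : IsUnif q π) (htot : wv q π = wv q πK) :
    ∃ g : (UE.OV q stmtWAdd K)[X], g.Monic ∧ g.natDegree = Module.finrank K L ∧
      g.IsEisensteinAt (IsLocalRing.maximalIdeal (UE.OV q stmtWAdd K)) ∧
      eval₂ (UE.iota q stmtWAdd) (⟨π, wr_unif_mem q hL⟩ : UE.OV q stmtWAdd L) g = 0 ∧
      ∀ (R : Type) [CommRing R] (s : UE.OV q stmtWAdd K →+* R) (r : R), eval₂ s r g = 0 →
        ∃ η : UE.OV q stmtWAdd L →+* R,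
          (∀ a : UE.OV q stmtWAdd K, η (UE.iota q stmtWAdd a) = s a) ∧
          η ⟨π, wr_unif_mem q hL⟩ = r := by
  obtain ⟨g, hmon, hdeg, h0, -⟩ := wr_exists_eis q hK hL htot
  refine ⟨g, hmon, hdeg, wr_isEisensteinAt q hK hL htot g hmon hdeg h0, h0, ?_⟩
  intro R _ s r hr
  obtain ⟨η, h1, h2, -⟩ := wr_universal q hK hL htot g hmon hdeg h0 R s r hr
  exact ⟨η, h1, h2⟩

end Pair

/-! ### EIS-2: the field defined by an Eisenstein polynomial -/

section Field

variable (q : ℕ) [Fact q.Prime] {K : Type} [Field K] [Algebra ℚ_[q] K]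
  [FiniteDimensional ℚ_[q] K] {πK : K}

/-- the constant coefficient of an Eisenstein polynomial is a uniformiser -/
theorem wr_eis_coeff_zero (hK : IsUnif q πK) (g : (UE.OV q stmtWAdd K)[X])
    (hE : g.IsEisensteinAt (IsLocalRing.maximalIdeal (UE.OV q stmtWAdd K)))
    (hdeg : 0 < g.natDegree) :
    ((g.coeff 0 : UE.OV q stmtWAdd K) : K) ≠ 0 ∧
      wv q ((g.coeff 0 : UE.OV q stmtWAdd K) : K) = wv q πK := by
  have h1 := hE.mem hdeg
  have h2 := hE.notMem
  rw [UE.mem_maximalIdeal_iff] at h1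
  rw [LU.lu_maximalIdeal_eq q hK (wr_unif_mem q hK), Ideal.span_singleton_pow,
    LU.lu_mem_span_pow q hK.1 (wr_unif_mem q hK)] at h2
  rw [not_or] at h2
  obtain ⟨h0, h3⟩ := h2
  refine ⟨h0, ?_⟩
  have h4 := h1.resolve_left h0
  obtain ⟨α, hα⟩ := hK.2.2 _ h0
  have hf : 0 < wv q πK := hK.2.1
  rw [hα] at h3 h4 ⊢
  push_cast at h3
  have h5 : 0 < α := by
    by_contra hc
    rw [not_lt] at hc
    nlinarith
  have h6 : α < 2 := by
    by_contra hc
    rw [not_lt] at hc
    apply h3
    nlinarith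
  have : α = 1 := by omega
  rw [this, mul_one]

/-- EIS-2: an Eisenstein polynomial of degree `n ≥ 1` over `𝒪_K` defines a totally ramified
extension `E = K[X]/(g)` of degree `n`, in which the root is a uniformiser. -/
theorem wr_eis_field (hK : IsUnif q πK) (g : (UE.OV q stmtWAdd K)[X]) (hmon : g.Monic)
    (hE : g.IsEisensteinAt (IsLocalRing.maximalIdeal (UE.OV q stmtWAdd K)))
    (hdeg : 0 < g.natDegree) :
    ∃ (E : Type) (_ : Field E) (_ : Algebra K E) (_ : Algebra ℚ_[q] E)
      (_ : IsScalarTower ℚ_[q] K E) (_ : FiniteDimensional K E)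
      (_ : FiniteDimensional ℚ_[q] E) (x : E),
      Module.finrank K E = g.natDegree ∧ IsUnif q x ∧ wv q x = wv q πK ∧
        aeval x (g.map (algebraMap (UE.OV q stmtWAdd K) K)) = 0 := by
  have hinj : Function.Injective (algebraMap (UE.OV q stmtWAdd K) K) := Subtype.coe_injective
  have hirr₀ : Irreducible g :=
    hE.irreducible (IsLocalRing.maximalIdeal.isMaximal _).isPrime hmon.isPrimitive hdeg
  have hgirr : Irreducible (g.map (algebraMap (UE.OV q stmtWAdd K) K)) :=
    (Monic.irreducible_iff_irreducible_map_fraction_map hmon).1 hirr₀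
  have hgmon : (g.map (algebraMap (UE.OV q stmtWAdd K) K)).Monic := hmon.map _
  have hgdeg : (g.map (algebraMap (UE.OV q stmtWAdd K) K)).natDegree = g.natDegree :=
    natDegree_map_eq_of_injective hinj _
  have : Fact (Irreducible (g.map (algebraMap (UE.OV q stmtWAdd K) K))) := ⟨hgirr⟩
  have hfd : FiniteDimensional K (AdjoinRoot (g.map (algebraMap (UE.OV q stmtWAdd K) K))) :=
    hgmon.finite_adjoinRoot
  have hfd2 : FiniteDimensional ℚ_[q] (AdjoinRoot (g.map (algebraMap (UE.OV q stmtWAdd K) K))) :=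
    FiniteDimensional.trans ℚ_[q] K _
  refine ⟨AdjoinRoot (g.map (algebraMap (UE.OV q stmtWAdd K) K)), inferInstance, inferInstance,
    inferInstance, inferInstance, hfd, hfd2, AdjoinRoot.root _, ?_, ?_, ?_, ?_⟩
  · rw [(AdjoinRoot.powerBasis hgirr.ne_zero).finrank, AdjoinRoot.powerBasis_dim, hgdeg]
  all_goals
    have hnorm : Algebra.norm K (AdjoinRoot.root (g.map (algebraMap (UE.OV q stmtWAdd K) K))) =
        (-1) ^ g.natDegree * ((g.coeff 0 : UE.OV q stmtWAdd K) : K) := by
      have h1 := Algebra.PowerBasis.norm_gen_eq_coeff_zero_minpoly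
        (AdjoinRoot.powerBasis hgirr.ne_zero)
      rw [AdjoinRoot.minpoly_powerBasis_gen_of_monic hgmon, AdjoinRoot.powerBasis_dim,
        AdjoinRoot.powerBasis_gen, hgdeg, coeff_map] at h1
      exact h1
    obtain ⟨hc0, hcv⟩ := wr_eis_coeff_zero q hK g hE hdeg
    have hpm : ((-1 : K) ^ g.natDegree) ≠ 0 := pow_ne_zero _ (neg_ne_zero.2 one_ne_zero)
    have hwpm : wv q ((-1 : K) ^ g.natDegree) = 0 := by
      rw [l0b_wv_pow, UE.wv_neg_one, mul_zero]
    have hval : wv q (AdjoinRoot.root (g.map (algebraMap (UE.OV q stmtWAdd K) K))) =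
        wv q πK := by
      rw [← wv_norm_tower q (F := K), hnorm, l0b_wv_mul q hpm hc0, hwpm, zero_add, hcv]
  · refine ⟨?_, ?_, ?_⟩
    · intro h
      rw [h, Algebra.norm_zero] at hnorm
      exact mul_ne_zero hpm hc0 hnorm.symm
    · rw [hval]; exact hK.2.1
    · intro y hy
      have hy2 := wv_norm_tower q (F := K) y
      rw [hval, ← hy2]
      apply hK.2.2
      rwa [Ne, Algebra.norm_eq_zero_iff]
  · exact hval
  · rw [aeval_def]
    exact AdjoinRoot.eval₂_root _

end Field

/-! ### EIS-3: levels -/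

section Levels

variable (q : ℕ) [Fact q.Prime] {K L : Type} [Field K] [Field L] [Algebra ℚ_[q] K]
  [FiniteDimensional ℚ_[q] K] [Algebra K L] [Algebra ℚ_[q] L] [IsScalarTower ℚ_[q] K L]
  [FiniteDimensional K L] [FiniteDimensional ℚ_[q] L]

/-- EIS-3: `a ∈ 𝒪_K` lies in `{w_L ≥ n k}` iff it lies in `{w_K ≥ k}`. -/
theorem wr_iota_mem_lvl (a : UE.OV q stmtWAdd K) (k : ℕ) :
    UE.iota q stmtWAdd (E := L) a ∈ UE.lvl q stmtWAdd (X := L) (Module.finrank K L * k) ↔
      a ∈ UE.lvl q stmtWAdd (X := K) k := by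
  have hn : 0 < Module.finrank K L := Module.finrank_pos
  have hn' : (0 : ℤ) < Module.finrank K L := by exact_mod_cast hn
  rw [UE.mem_lvl, UE.mem_lvl, UE.coe_iota, wv_algebraMap_tower, map_eq_zero]
  push_cast
  constructor
  · rintro (h | h)
    · exact Or.inl h
    · exact Or.inr (le_of_mul_le_mul_left h hn')
  · rintro (h | h)
    · exact Or.inl h
    · exact Or.inr (mul_le_mul_of_nonneg_left h hn'.le)

/-- EIS-3: the induced map `𝒪_K/{w ≥ k} → 𝒪_L/{w ≥ n k}`. -/
theorem wr_lvl_map (k : ℕ) :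
    ∃ j : (UE.OV q stmtWAdd K ⧸ UE.lvl q stmtWAdd (X := K) k) →+*
        (UE.OV q stmtWAdd L ⧸ UE.lvl q stmtWAdd (X := L) (Module.finrank K L * k)),
      Function.Injective j ∧ ∀ a : UE.OV q stmtWAdd K,
        j (Ideal.Quotient.mk _ a) = Ideal.Quotient.mk _ (UE.iota q stmtWAdd (E := L) a) := by
  have hle : UE.lvl q stmtWAdd (X := K) k ≤
      Ideal.comap (UE.iota q stmtWAdd (E := L))
        (UE.lvl q stmtWAdd (X := L) (Module.finrank K L * k)) := by
    intro a ha
    rw [Ideal.mem_comap]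
    exact (wr_iota_mem_lvl q a k).2 ha
  refine ⟨Ideal.quotientMap _ (UE.iota q stmtWAdd (E := L)) hle, ?_, ?_⟩
  · apply Ideal.quotientMap_injective'
    intro a ha
    rw [Ideal.mem_comap] at ha
    exact (wr_iota_mem_lvl q a k).1 ha
  · intro a
    exact Ideal.quotientMap_mk

end Levels

end Fermat.Agent.TW.W
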