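import Fermat.Agent.TW.W.LevelMain

/-!
# S56 / TW-W (LEVEL), abstract core, part 5: `twlv_core` (helper57)

`TwlvData A B p π ε e₁` ⇒ if `π ^ r * u` (`u` a unit of `A`) is a `p`-th power in `B` then `p ∣ r`
and there is a unit `w` of `A` with `u * w ^ p ≡ 1 mod π ^ ((p-1) e₁)` (`= mod p`).
-/

set_option autoImplicit false

namespace Fermat.Agent.TW.W

open Polynomial IsLocalRing

section VR
variable {B : Type*} [CommRing B] [IsDomain B] [ValuationRing B]

theorem twlv_dvd_of_pow_dvd_pow {a b : B} {n : ℕ} (hn : n ≠ 0) (h : a ^ n ∣ b ^ n) : a ∣ b := by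
  rcases ValuationRing.dvd_total a b with h1 | ⟨m, hm⟩
  · exact h1
  · rcases eq_or_ne b 0 with hb | hb
    · rw [hb]; exact dvd_zero a
    · obtain ⟨c, hc⟩ := h
      have e1 : b ^ n * 1 = b ^ n * (m ^ n * c) := by
        rw [mul_one]
        conv_lhs => rw [hc, hm, mul_pow]
        ring
      have e2 := mul_left_cancel₀ (pow_ne_zero n hb) e1
      have hmu : IsUnit m := by
        have : IsUnit (m ^ n) := IsUnit.of_mul_eq_one c e2.symm
        exact (isUnit_pow_iff hn).1 this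
      obtain ⟨mu, rfl⟩ := hmu
      exact ⟨(↑mu⁻¹ : B), by rw [hm]; simp [mul_assoc]⟩

end VR

section Final
variable {A : Type*} [CommRing A] [IsDomain A] [IsDiscreteValuationRing A]
variable {B : Type*} [CommRing B] [IsDomain B] [IsDiscreteValuationRing B] [Algebra A B]
variable {p : ℕ} {π : A} {ε : A} {e₁ : ℕ}

namespace TwlvData

variable (D : TwlvData A B p π ε e₁)
include D

theorem units_aux (d : ℕ) : ∀ (i : ℕ) (u : A), 1 ≤ i → i + d = (p - 1) * e₁ → π ^ i ∣ u - 1 →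
    (∃ y : B, y ^ p = algebraMap A B u) →
    ∃ w : A, IsUnit w ∧ π ^ ((p - 1) * e₁) ∣ u * w ^ p - 1 := by
  induction d with
  | zero =>
    intro i u _ hi hu _
    refine ⟨1, isUnit_one, ?_⟩
    rw [add_zero] at hi
    rw [one_pow, mul_one, ← hi]; exact hu
  | succ d ih =>
    intro i u hi1 hi hu ⟨y, hy⟩
    obtain ⟨b, hb⟩ := hu
    have hu' : u = 1 + b * π ^ i := by
      have : u = (u - 1) + 1 := by ring
      rw [this, hb]; ring
    by_cases hbd : π ∣ b
    · refine ih (i + 1) u (by omega) (by omega) ?_ ⟨y, hy⟩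
      obtain ⟨b₁, rfl⟩ := hbd
      exact ⟨b₁, by rw [hb, pow_succ]; ring⟩
    · by_cases hpi : p ∣ i
      · obtain ⟨l, rfl⟩ := hpi
        have hl1 : 1 ≤ l := by
          rcases Nat.eq_zero_or_pos l with h0 | h0
          · subst h0; omega
          · exact h0
        obtain ⟨β, m, hβ⟩ := D.exists_pow_sub b
        have hvu : IsUnit (1 + β * π ^ l) := by
          refine twlv_isUnit_of_dvd_sub D.hπ.not_isUnit isUnit_one ?_
          have e : (1 + β * π ^ l) - 1 = π ^ l * β := by ring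
          rw [e]; exact Dvd.dvd.mul_right (dvd_pow_self π (by omega)) _
        obtain ⟨q, hq⟩ := hvu.exists_right_inv
        have hqu : IsUnit q := IsUnit.of_mul_eq_one _ (by rw [mul_comm]; exact hq)
        obtain ⟨G, hG⟩ := twlv_binom p D.hp (β * π ^ l)
        -- exponent bookkeeping
        obtain ⟨k, hk⟩ : ∃ k, (p - 1) * e₁ + l = p * l + 1 + k := ⟨(p - 1) * e₁ + l - (p * l + 1), by omega⟩
        have key : u * q ^ p - 1 = π ^ (p * l + 1) *
            ((- m - ε * π ^ k * β * (1 + β * π ^ l * G)) * q ^ p) := by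
          have e1 : u * q ^ p - 1 = (u - (1 + β * π ^ l) ^ p) * q ^ p := by
            have : (1 + β * π ^ l) ^ p * q ^ p = 1 := by rw [← mul_pow, hq, one_pow]
            linear_combination this
          have e2 : u - (1 + β * π ^ l) ^ p =
              π ^ (p * l + 1) * (- m - ε * π ^ k * β * (1 + β * π ^ l * G)) := by
            rw [hG, D.hpe, hu']
            have e3 : ε * π ^ ((p - 1) * e₁) * (β * π ^ l) =
                π ^ (p * l + 1) * (ε * π ^ k * β) := by
              calc ε * π ^ ((p - 1) * e₁) * (β * π ^ l) = π ^ ((p - 1) * e₁ + l) * (ε * β) := by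
                    rw [pow_add]; ring
                _ = π ^ (p * l + 1) * (ε * π ^ k * β) := by rw [hk, pow_add]; ring
            have e4 : (β * π ^ l) ^ p = β ^ p * π ^ (p * l) := by
              rw [mul_pow, ← pow_mul, mul_comm l p]
            rw [e4]
            linear_combination (-(π ^ (p * l))) * hβ - (1 + β * π ^ l * G) * e3
          rw [e1, e2]; ring
        obtain ⟨w₂, hw₂, hdw⟩ := ih (p * l + 1) (u * q ^ p) (by omega) (by omega) ⟨_, key⟩
          ⟨y * algebraMap A B q, by rw [mul_pow, hy, ← map_pow, ← map_mul]⟩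
        refine ⟨q * w₂, hqu.mul hw₂, ?_⟩
        have e5 : u * (q * w₂) ^ p - 1 = u * q ^ p * w₂ ^ p - 1 := by ring
        rw [e5]; exact hdw
      · exact (D.no_unit_level i hi1 (by omega) hpi b hbd y (by rw [hy, hu'])).elim

/-- units of `A` which are `p`-th powers in `B` lie in `(1 + p A) (Aˣ)^p`. -/
theorem units (u : A) (hu : IsUnit u) (h : ∃ y : B, y ^ p = algebraMap A B u) :
    ∃ w : A, IsUnit w ∧ π ^ ((p - 1) * e₁) ∣ u * w ^ p - 1 := by
  obtain ⟨y, hy⟩ := h
  obtain ⟨q, hq⟩ := hu.exists_right_inv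
  have hqu : IsUnit q := IsUnit.of_mul_eq_one _ (by rw [mul_comm]; exact hq)
  obtain ⟨β, m, hβ⟩ := D.exists_pow_sub q
  have hβu : IsUnit β := by
    have h1 : IsUnit (β ^ p) := by
      refine twlv_isUnit_of_dvd_sub D.hπ.not_isUnit hqu ⟨m, hβ⟩
    exact (isUnit_pow_iff D.hp.ne_zero).1 h1
  have hp3 := D.three_le
  have he₁ := D.he₁
  have h2 : 2 ≤ (p - 1) * e₁ := by
    calc 2 = 2 * 1 := by norm_num
      _ ≤ (p - 1) * e₁ := Nat.mul_le_mul (by omega) (by omega)
  obtain ⟨w₂, hw₂, hdw⟩ := D.units_aux ((p - 1) * e₁ - 1) 1 (u * β ^ p) le_rfl (by omega)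
    ⟨u * m, by rw [pow_one]; linear_combination u * hβ + hq⟩
    ⟨y * algebraMap A B β, by rw [mul_pow, hy, ← map_pow, ← map_mul]⟩
  refine ⟨β * w₂, hβu.mul hw₂, ?_⟩
  have e5 : u * (β * w₂) ^ p - 1 = u * β ^ p * w₂ ^ p - 1 := by ring
  rw [e5]; exact hdw

/-- the valuation of an element of `A` which is a `p`-th power in `B` is divisible by `p`. -/
theorem val (r : ℕ) (u : A) (hu : IsUnit u) (h : ∃ y : B, y ^ p = algebraMap A B (π ^ r * u)) :
    p ∣ r := by
  by_contra hpr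
  obtain ⟨y, hy⟩ := h
  have hcop : Nat.Coprime r p := ((Nat.Prime.coprime_iff_not_dvd D.hp).2 hpr).symm
  obtain ⟨r', -, hr'⟩ := Nat.exists_mul_mod_eq_one_of_coprime hcop D.hp.one_lt
  have hdm := Nat.div_add_mod (r * r') p
  rw [hr'] at hdm
  set q' := r * r' / p with hq'
  have e1 : (y ^ r') ^ p = (algebraMap A B (π ^ q')) ^ p * algebraMap A B (π * u ^ r') := by
    rw [← pow_mul, mul_comm r' p, pow_mul, hy, ← map_pow, ← map_pow, ← map_mul]
    congr 1
    rw [mul_pow, ← pow_mul, ← hdm, pow_add, pow_one, ← pow_mul, mul_comm p q']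
    ring
  have hdvd : algebraMap A B (π ^ q') ∣ y ^ r' :=
    twlv_dvd_of_pow_dvd_pow D.hp.ne_zero ⟨_, e1⟩
  obtain ⟨Y, hY⟩ := hdvd
  have hne : algebraMap A B (π ^ q') ≠ 0 := by
    intro h0
    exact pow_ne_zero q' D.hπ.ne_zero (D.hinj (by rw [h0, map_zero]))
  have e2 : algebraMap A B (π ^ q') ^ p * Y ^ p =
      algebraMap A B (π ^ q') ^ p * algebraMap A B (π * u ^ r') := by
    rw [← e1, hY, mul_pow]
  exact D.no_val (u ^ r') (hu.pow r') Y (mul_left_cancel₀ (pow_ne_zero p hne) e2)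

/-- **(LEVEL), abstract form.** -/
theorem core (r : ℕ) (u : A) (hu : IsUnit u)
    (h : ∃ y : B, y ^ p = algebraMap A B (π ^ r * u)) :
    p ∣ r ∧ ∃ w : A, IsUnit w ∧ π ^ ((p - 1) * e₁) ∣ u * w ^ p - 1 := by
  have hpr := D.val r u hu h
  refine ⟨hpr, ?_⟩
  obtain ⟨r₀, rfl⟩ := hpr
  obtain ⟨y, hy⟩ := h
  have e1 : y ^ p = (algebraMap A B (π ^ r₀)) ^ p * algebraMap A B u := by
    rw [hy, ← map_pow, ← map_mul, ← pow_mul, mul_comm r₀ p]
  have hdvd : algebraMap A B (π ^ r₀) ∣ y := twlv_dvd_of_pow_dvd_pow D.hp.ne_zero ⟨_, e1⟩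
  obtain ⟨Y, hY⟩ := hdvd
  have hne : algebraMap A B (π ^ r₀) ≠ 0 := by
    intro h0
    exact pow_ne_zero r₀ D.hπ.ne_zero (D.hinj (by rw [h0, map_zero]))
  have e2 : algebraMap A B (π ^ r₀) ^ p * Y ^ p =
      algebraMap A B (π ^ r₀) ^ p * algebraMap A B u := by
    rw [← e1, hY, mul_pow]
  exact D.units u hu ⟨Y, mul_left_cancel₀ (pow_ne_zero p hne) e2⟩

end TwlvData

/-- **(LEVEL), abstract form**, restated. -/
theorem twlv_core (D : TwlvData A B p π ε e₁) (r : ℕ) (u : A) (hu : IsUnit u)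
    (h : ∃ y : B, y ^ p = algebraMap A B (π ^ r * u)) :
    p ∣ r ∧ ∃ w : A, IsUnit w ∧ π ^ ((p - 1) * e₁) ∣ u * w ^ p - 1 :=
  D.core r u hu h

end Final

end Fermat.Agent.TW.W
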