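import Fermat.Agent.PT.L.Ge
import Fermat.Agent.PT.L.ValRing
import Fermat.Agent.PT.L.Complete
import Fermat.Agent.PT.L.PlanU
import Fermat.Agent.PT.L.Unif

/-!
# TW-W (P_m): the valuation ring of a local field (PT-L sense) as a complete `ϖ`-adic ring

Data for `tww_lift` / `tww_pm_core` on `S = UE.OV p stmtWAdd E`, and the valuation estimate
(VAL) for a ring homomorphism `η : 𝒪_L → 𝒪_E ⧸ lvl k`.
-/

set_option autoImplicit false
set_option linter.unusedSectionVars false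
set_option linter.style.haveILetI false

namespace Fermat.Agent.TW.W

open Fermat.Agent.PT.L

section Val

variable (p : ℕ) [Fact p.Prime] {E : Type} [Field E] [Algebra ℚ_[p] E]
  [FiniteDimensional ℚ_[p] E]

/-- The isosceles property of the valuation. -/
theorem tww_pmv_wv_add_eq {x z : E} (hx : x ≠ 0) (hz : geW p (wv p x + 1) z) :
    x + z ≠ 0 ∧ wv p (x + z) = wv p x := by
  have h1 : geW p (wv p x) (x + z) :=
    geW_add p (Or.inr le_rfl) (geW_mono p (by omega) hz)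
  have hnot : ¬ geW p (wv p x + 1) (x + z) := by
    intro h
    have h2 := geW_sub p h hz
    rw [add_sub_cancel_right] at h2
    rcases h2 with h2 | h2
    · exact hx h2
    · omega
  have hne : x + z ≠ 0 := fun h => hnot (Or.inl h)
  refine ⟨hne, ?_⟩
  have h3 := h1.resolve_left hne
  have h4 : ¬ (wv p x + 1 ≤ wv p (x + z)) := fun h => hnot (Or.inr h)
  omega

/-- The uniformiser as an element of the valuation ring. -/
def twwPmUnif {π : E} (hπ : IsUnif p π) : UE.OV p stmtWAdd E := ⟨π, Or.inr hπ.2.1.le⟩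

theorem twwPmUnif_coe {π : E} (hπ : IsUnif p π) : ((twwPmUnif p hπ : UE.OV p stmtWAdd E) : E) = π :=
  rfl

theorem twwPmUnif_pow_coe {π : E} (hπ : IsUnif p π) (j : ℕ) :
    (((twwPmUnif p hπ) ^ j : UE.OV p stmtWAdd E) : E) = π ^ j := rfl

theorem twwPmUnif_ne_zero {π : E} (hπ : IsUnif p π) : twwPmUnif p hπ ≠ 0 := by
  intro h
  have := congrArg (fun z : UE.OV p stmtWAdd E => (z : E)) h
  exact hπ.1 this

theorem twwPmUnif_mem_nonZeroDivisors {π : E} (hπ : IsUnif p π) :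
    twwPmUnif p hπ ∈ nonZeroDivisors (UE.OV p stmtWAdd E) :=
  mem_nonZeroDivisors_of_ne_zero (twwPmUnif_ne_zero p hπ)

/-- Divisibility by a power of the uniformiser. -/
theorem tww_pmv_pow_dvd_iff {π : E} (hπ : IsUnif p π) (j : ℕ) (x : UE.OV p stmtWAdd E) :
    (twwPmUnif p hπ) ^ j ∣ x ↔ geW p ((j : ℤ) * wv p π) (x : E) := by
  constructor
  · rintro ⟨y, rfl⟩
    rcases eq_or_ne ((twwPmUnif p hπ ^ j * y : UE.OV p stmtWAdd E) : E) 0 with h | h
    · exact Or.inl h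
    · right
      have hy0 : (y : E) ≠ 0 := by
        intro hy
        apply h
        change π ^ j * (y : E) = 0
        rw [hy, mul_zero]
      have hy1 : 0 ≤ wv p (y : E) := (y.2).resolve_left hy0
      change (j : ℤ) * wv p π ≤ wv p (π ^ j * (y : E))
      rw [UE.wv_mul p (pow_ne_zero j hπ.1) hy0, UE.wv_pow p hπ.1]
      omega
  · intro h
    rcases eq_or_ne (x : E) 0 with hx | hx
    · have : x = 0 := Subtype.ext hx
      rw [this]
      exact dvd_zero _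
    · have h1 := h.resolve_left hx
      have hy : (x : E) / π ^ j ∈ UE.OV p stmtWAdd E := by
        right
        rw [div_eq_mul_inv, UE.wv_mul p hx (inv_ne_zero (pow_ne_zero j hπ.1)),
          UE.wv_inv p (pow_ne_zero j hπ.1), UE.wv_pow p hπ.1]
        omega
      refine ⟨⟨_, hy⟩, ?_⟩
      apply Subtype.ext
      change (x : E) = π ^ j * ((x : E) / π ^ j)
      field_simp [hπ.1]

/-- `𝒪_E` is `ϖ`-adically separated. -/
theorem tww_pmv_sep {π : E} (hπ : IsUnif p π) (z : UE.OV p stmtWAdd E)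
    (hz : ∀ n, (twwPmUnif p hπ) ^ n ∣ z) : z = 0 := by
  apply UE.eq_zero_of_forall_lvl p stmtWAdd
  intro k
  have h1 := (tww_pmv_pow_dvd_iff p hπ k z).mp (hz k)
  rw [UE.mem_lvl]
  rcases h1 with h1 | h1
  · exact Or.inl h1
  · right
    have hf : 1 ≤ wv p π := hπ.2.1
    have : (k : ℤ) ≤ (k : ℤ) * wv p π := by nlinarith
    omega

/-- `𝒪_E` is `ϖ`-adically complete. -/
theorem tww_pmv_pre {π : E} (hπ : IsUnif p π) (s : ℕ → UE.OV p stmtWAdd E)
    (hs : ∀ n, (twwPmUnif p hπ) ^ n ∣ s (n + 1) - s n) :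
    ∃ L : UE.OV p stmtWAdd E, ∀ n, (twwPmUnif p hπ) ^ n ∣ L - s n := by
  have hf : 1 ≤ wv p π := hπ.2.1
  -- telescoping
  have hmn : ∀ m n, m ≤ n → (twwPmUnif p hπ) ^ m ∣ s n - s m := by
    intro m n hmn
    induction n, hmn using Nat.le_induction with
    | base => simp
    | succ n hmn ih =>
      have : s (n + 1) - s m = (s (n + 1) - s n) + (s n - s m) := by ring
      rw [this]
      exact dvd_add ((pow_dvd_pow _ hmn).trans (hs n)) ih
  have hclose : ∀ k : ℕ, Close p (k : ℤ) ((s (k + 1) : E)) ((s k : E)) := by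
    intro k
    rw [close_iff_geW]
    have h1 := (tww_pmv_pow_dvd_iff p hπ k _).mp (hs k)
    refine geW_mono p ?_ h1
    nlinarith
  obtain ⟨y, hy⟩ := stmtWComplete p E (fun k => (s k : E)) hclose
  have hy0 : y ∈ UE.OV p stmtWAdd E := by
    have h0 := hy 0
    rw [close_iff_geW] at h0
    have h1 : geW p 0 (s 0 : E) := (s 0).2
    have h2 : geW p 0 (y - (s 0 : E) + (s 0 : E)) := geW_add p h0 h1
    rw [sub_add_cancel] at h2
    exact h2
  refine ⟨⟨y, hy0⟩, fun n => ?_⟩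
  obtain ⟨N, hN⟩ : ∃ N : ℕ, (N : ℤ) = (n : ℤ) * wv p π :=
    ⟨((n : ℤ) * wv p π).toNat, Int.toNat_of_nonneg (by positivity)⟩
  have hnN : n ≤ N := by
    have : (n : ℤ) ≤ (N : ℤ) := by rw [hN]; nlinarith
    exact_mod_cast this
  have h1 : (twwPmUnif p hπ) ^ n ∣ (⟨y, hy0⟩ : UE.OV p stmtWAdd E) - s N := by
    rw [tww_pmv_pow_dvd_iff]
    have := hy N
    rw [close_iff_geW, hN] at this
    exact this
  have h2 := hmn n N hnN
  have : (⟨y, hy0⟩ : UE.OV p stmtWAdd E) - s n = (⟨y, hy0⟩ - s N) + (s N - s n) := by ring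
  rw [this]
  exact dvd_add h1 h2

/-- `wv (p) = [E : ℚ_p]` for the natural number `p` in `E`. -/
theorem tww_pmv_wv_p : wv p ((p : ℕ) : E) = Module.finrank ℚ_[p] E := by
  have h := l0b_wv_q p (F := E)
  rwa [map_natCast] at h

theorem tww_pmv_p_ne_zero : ((p : ℕ) : E) ≠ 0 := by
  have h := l0b_q_ne_zero p (F := E)
  rwa [map_natCast] at h

/-- Factorisation of a nonzero integer by the uniformiser: `x = ϖ^i u`, `u` a unit. -/
theorem tww_pmv_factor {π : E} (hπ : IsUnif p π) (x : UE.OV p stmtWAdd E) (hx : (x : E) ≠ 0) :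
    ∃ (i : ℕ) (u : UE.OV p stmtWAdd E), x = (twwPmUnif p hπ) ^ i * u ∧ (u : E) ≠ 0 ∧
      wv p (u : E) = 0 ∧ wv p (x : E) = (i : ℤ) * wv p π := by
  have hx0 : 0 ≤ wv p (x : E) := (x.2).resolve_left hx
  obtain ⟨c, hc⟩ := hπ.2.2 (x : E) hx
  have hf : 0 < wv p π := hπ.2.1
  have hc0 : 0 ≤ c := by
    by_contra hneg
    have hneg' : c < 0 := not_le.mp hneg
    have : wv p π * c < 0 := mul_neg_of_pos_of_neg hf hneg'
    omega
  obtain ⟨i, rfl⟩ := Int.eq_ofNat_of_zero_le hc0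
  have hdvd : (twwPmUnif p hπ) ^ i ∣ x := by
    rw [tww_pmv_pow_dvd_iff]
    right
    rw [hc, mul_comm]
  obtain ⟨u, hu⟩ := hdvd
  have hu0 : (u : E) ≠ 0 := by
    intro h
    apply hx
    rw [hu]
    change π ^ i * (u : E) = 0
    rw [h, mul_zero]
  refine ⟨i, u, hu, hu0, ?_, by rw [hc, mul_comm]⟩
  have h1 : wv p (x : E) = wv p (π ^ i * (u : E)) := by rw [hu]; rfl
  rw [UE.wv_mul p (pow_ne_zero i hπ.1) hu0, UE.wv_pow p hπ.1, hc] at h1
  linarith [mul_comm (wv p π) (i : ℤ)]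

/-- A lift of a unit of `𝒪_E ⧸ lvl k` (`k ≥ 1`) is a unit. -/
theorem tww_pmv_unit_of_mk_isUnit (k : ℕ) (hk : 1 ≤ k) (U : UE.OV p stmtWAdd E)
    (hU : IsUnit (Ideal.Quotient.mk (UE.lvl p stmtWAdd k) U)) :
    (U : E) ≠ 0 ∧ wv p (U : E) = 0 := by
  obtain ⟨v, hv⟩ := hU.exists_right_inv
  obtain ⟨V, rfl⟩ := Ideal.Quotient.mk_surjective v
  have hv' : Ideal.Quotient.mk (UE.lvl p stmtWAdd k) (U * V) =
      Ideal.Quotient.mk (UE.lvl p stmtWAdd k) (1 : UE.OV p stmtWAdd E) := by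
    rw [map_mul, hv, map_one]
  rw [Ideal.Quotient.eq] at hv'
  have h1 : geW p 1 ((U : E) * (V : E) - 1) := by
    have h2 := (UE.mem_lvl p stmtWAdd).mp hv'
    rw [AddSubgroupClass.coe_sub, MulMemClass.coe_mul, OneMemClass.coe_one] at h2
    exact geW_mono p (by exact_mod_cast hk) h2
  have h3 := wv_one_add p h1
  rw [add_sub_cancel] at h3
  have hU0 : (U : E) ≠ 0 := left_ne_zero_of_mul h3.1
  have hV0 : (V : E) ≠ 0 := right_ne_zero_of_mul h3.1
  refine ⟨hU0, ?_⟩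
  have h4 := h3.2
  rw [UE.wv_mul p hU0 hV0] at h4
  have h5 := (U.2).resolve_left hU0
  have h6 := (V.2).resolve_left hV0
  omega

/-- **The `T3` data of `𝒪_E` at level `k`** (`(p - 1) k > p [E : ℚ_p]`): a uniformiser `ϖ`,
`ϖ ^ e = p w`, and `a` with `e < (p - 1) a` such that `{w ≥ k} = (p ϖ^a)`. -/
theorem tww_pmv_data (k : ℕ) (hk : p * Module.finrank ℚ_[p] E < (p - 1) * k) :
    ∃ (π : E) (hπ : IsUnif p π) (w : UE.OV p stmtWAdd E) (e a : ℕ),
      (twwPmUnif p hπ) ^ e = ((p : ℕ) : UE.OV p stmtWAdd E) * w ∧ e < (p - 1) * a ∧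
      (∀ x : UE.OV p stmtWAdd E, x ∈ UE.lvl p stmtWAdd k ↔
        ((p : ℕ) : UE.OV p stmtWAdd E) * (twwPmUnif p hπ) ^ a ∣ x) ∧
      (a : ℤ) * wv p π ≤ k ∧ (e : ℤ) * wv p π = Module.finrank ℚ_[p] E := by
  classical
  obtain ⟨π, hπ⟩ : ∃ π : E, IsUnif p π := stmtWUnif p E
  have hf : 0 < wv p π := hπ.2.1
  obtain ⟨f, hff⟩ : ∃ f : ℕ, (f : ℤ) = wv p π := ⟨(wv p π).toNat, Int.toNat_of_nonneg hf.le⟩
  have hf1 : 1 ≤ f := by
    have : (0 : ℤ) < (f : ℤ) := by rw [hff]; exact hf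
    exact_mod_cast this
  have hn : 0 < Module.finrank ℚ_[p] E := Module.finrank_pos
  have hpE : (((p : ℕ) : UE.OV p stmtWAdd E) : E) = ((p : ℕ) : E) := rfl
  have hpE0 : (((p : ℕ) : UE.OV p stmtWAdd E) : E) ≠ 0 := by
    rw [hpE]; exact tww_pmv_p_ne_zero p
  obtain ⟨e, u', hpu, hu'0, hu'1, hpe⟩ := tww_pmv_factor p hπ ((p : ℕ) : UE.OV p stmtWAdd E) hpE0
  rw [hpE, tww_pmv_wv_p, ← hff] at hpe
  have hpe' : Module.finrank ℚ_[p] E = e * f := by exact_mod_cast hpe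
  have he1 : 1 ≤ e := by
    rcases Nat.eq_zero_or_pos e with h | h
    · rw [h, zero_mul] at hpe'; omega
    · exact h
  obtain ⟨v', hv'⟩ := ((UE.isUnit_iff p stmtWAdd u').mpr ⟨hu'0, hu'1⟩).exists_right_inv
  -- the least `t` with `k ≤ t f`
  have hex : ∃ t : ℕ, k ≤ t * f := ⟨k, by nlinarith⟩
  let t := Nat.find hex
  have ht : k ≤ t * f := Nat.find_spec hex
  have htmin : ∀ i : ℕ, k ≤ i * f → t ≤ i := fun i hi => Nat.find_min' hex hi
  have hp2 : 2 ≤ p := (Fact.out : p.Prime).two_le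
  have hpt : p * e < (p - 1) * t := by
    have h1 : (p - 1) * k ≤ (p - 1) * (t * f) := Nat.mul_le_mul_left _ ht
    have h2 : p * (e * f) < (p - 1) * (t * f) := by rw [← hpe']; omega
    have h3 : (p * e) * f < ((p - 1) * t) * f := by
      calc (p * e) * f = p * (e * f) := by ring
        _ < (p - 1) * (t * f) := h2
        _ = ((p - 1) * t) * f := by ring
    exact lt_of_mul_lt_mul_right h3 (Nat.zero_le f)
  have het : e < t := by
    by_contra h
    have h1 : t ≤ e := not_lt.mp h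
    have h2 : (p - 1) * t ≤ (p - 1) * e := Nat.mul_le_mul_left _ h1
    have h3 : (p - 1) * e ≤ p * e := Nat.mul_le_mul_right _ (by omega)
    omega
  obtain ⟨a, hta⟩ : ∃ a, t = e + a := ⟨t - e, by omega⟩
  have ha1 : 1 ≤ a := by omega
  have hea : e < (p - 1) * a := by
    have h1 : (p - 1) * t = (p - 1) * e + (p - 1) * a := by rw [hta]; ring
    have h2 : p * e = (p - 1) * e + e := by
      obtain ⟨p', rfl⟩ : ∃ p', p = p' + 1 := ⟨p - 1, by omega⟩
      simp only [Nat.add_sub_cancel]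
      ring
    omega
  have hpow : ((p : ℕ) : UE.OV p stmtWAdd E) * (twwPmUnif p hπ) ^ a * v' =
      (twwPmUnif p hπ) ^ t := by
    rw [hpu, hta, pow_add]
    calc twwPmUnif p hπ ^ e * u' * twwPmUnif p hπ ^ a * v'
        = twwPmUnif p hπ ^ e * twwPmUnif p hπ ^ a * (u' * v') := by ring
      _ = twwPmUnif p hπ ^ e * twwPmUnif p hπ ^ a := by rw [hv', mul_one]
  have hpow' : ((p : ℕ) : UE.OV p stmtWAdd E) * (twwPmUnif p hπ) ^ a =
      (twwPmUnif p hπ) ^ t * u' := by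
    rw [hpu, hta, pow_add]; ring
  refine ⟨π, hπ, v', e, a, ?_, hea, ?_, ?_, by rw [← hff]; exact_mod_cast hpe'.symm⟩
  · rw [hpu]
    calc twwPmUnif p hπ ^ e = twwPmUnif p hπ ^ e * (u' * v') := by rw [hv', mul_one]
      _ = twwPmUnif p hπ ^ e * u' * v' := by ring
  · intro x
    have h1 : ((p : ℕ) : UE.OV p stmtWAdd E) * (twwPmUnif p hπ) ^ a ∣ x ↔
        (twwPmUnif p hπ) ^ t ∣ x := by
      constructor
      · rintro ⟨y, rfl⟩
        exact ⟨u' * y, by rw [hpow']; ring⟩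
      · rintro ⟨y, rfl⟩
        exact ⟨v' * y, by rw [← hpow]; ring⟩
    rw [h1, tww_pmv_pow_dvd_iff, UE.mem_lvl, ← hff]
    constructor
    · rintro (h | h)
      · exact Or.inl h
      · rcases eq_or_ne (x : E) 0 with hx0 | hx0
        · exact Or.inl hx0
        right
        obtain ⟨i, -, -, -, -, hxi⟩ := tww_pmv_factor p hπ x hx0
        rw [hxi, ← hff] at h ⊢
        have h2 : k ≤ i * f := by exact_mod_cast h
        have h3 := htmin i h2
        have : t * f ≤ i * f := Nat.mul_le_mul_right _ h3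
        exact_mod_cast this
    · rintro (h | h)
      · exact Or.inl h
      · right
        have : (k : ℤ) ≤ (t : ℤ) * (f : ℤ) := by exact_mod_cast ht
        omega
  · rw [← hff]
    have h1 : ¬ k ≤ (t - 1) * f := by
      intro h
      have := htmin _ h
      omega
    have h2 : a ≤ t - 1 := by omega
    have h3 : a * f ≤ (t - 1) * f := Nat.mul_le_mul_right _ h2
    have h4 : a * f ≤ k := by omega
    exact_mod_cast h4

end Val

section ValMap

variable (p : ℕ) [Fact p.Prime] {L E : Type} [Field L] [Algebra ℚ_[p] L]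
  [FiniteDimensional ℚ_[p] L] [Field E] [Algebra ℚ_[p] E] [FiniteDimensional ℚ_[p] E]

/-- **(VAL)**: a ring homomorphism `η : 𝒪_L → 𝒪_E ⧸ {w ≥ k}` with `k > [E : ℚ_p]` (i.e. modulo
`{v_p ≥ m}`, `m > 1`) reflects the valuations `v_p ≤ k / [E : ℚ_p]`. -/
theorem tww_pmv_val (k : ℕ) (hk : Module.finrank ℚ_[p] E < k)
    (η : UE.OV p stmtWAdd L →+* UE.OV p stmtWAdd E ⧸ UE.lvl p stmtWAdd k)
    (y : UE.OV p stmtWAdd L) (Y : UE.OV p stmtWAdd E)
    (hY : Ideal.Quotient.mk (UE.lvl p stmtWAdd k) Y = η y)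
    (j : ℕ) (hj : j ≤ k) (hYj : geW p (j : ℤ) (Y : E)) :
    (y : L) = 0 ∨
      (j : ℤ) * Module.finrank ℚ_[p] L ≤ wv p (y : L) * Module.finrank ℚ_[p] E := by
  rcases eq_or_ne (y : L) 0 with hy0 | hy0
  · exact Or.inl hy0
  right
  have hk1 : 1 ≤ k := by
    have : 0 < Module.finrank ℚ_[p] E := Module.finrank_pos
    omega
  obtain ⟨π, hπ⟩ : ∃ π : L, IsUnif p π := stmtWUnif p L
  have hf : 0 < wv p π := hπ.2.1
  -- `p = ϖ^e u'`
  have hpL : (((p : ℕ) : UE.OV p stmtWAdd L) : L) = ((p : ℕ) : L) := rfl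
  have hpL0 : (((p : ℕ) : UE.OV p stmtWAdd L) : L) ≠ 0 := by
    rw [hpL]; exact tww_pmv_p_ne_zero p
  obtain ⟨e, u', hpu, hu'0, hu'1, hpe⟩ := tww_pmv_factor p hπ ((p : ℕ) : UE.OV p stmtWAdd L) hpL0
  rw [hpL, tww_pmv_wv_p] at hpe
  -- `y = ϖ^i u`
  obtain ⟨i, u, hyu, hu0, hu1, hyi⟩ := tww_pmv_factor p hπ y hy0
  -- lifts
  obtain ⟨P, hP⟩ := Ideal.Quotient.mk_surjective (η (twwPmUnif p hπ))
  obtain ⟨U', hU'⟩ := Ideal.Quotient.mk_surjective (η u')
  obtain ⟨U, hU⟩ := Ideal.Quotient.mk_surjective (η u)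
  have hunit : ∀ v : UE.OV p stmtWAdd L, (v : L) ≠ 0 → wv p (v : L) = 0 → IsUnit (η v) := by
    intro v hv0 hv1
    exact ((UE.isUnit_iff p stmtWAdd v).mpr ⟨hv0, hv1⟩).map η
  have hU'u := tww_pmv_unit_of_mk_isUnit p k hk1 U' (hU' ▸ hunit u' hu'0 hu'1)
  have hUu := tww_pmv_unit_of_mk_isUnit p k hk1 U (hU ▸ hunit u hu0 hu1)
  -- `P^e U' ≡ p`
  have h1 : P ^ e * U' - ((p : ℕ) : UE.OV p stmtWAdd E) ∈ UE.lvl p stmtWAdd k := by
    rw [← Ideal.Quotient.eq, map_mul, map_pow, hP, hU', ← map_pow, ← map_mul, ← hpu,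
      map_natCast, map_natCast]
  have h1' : geW p (k : ℤ) ((P : E) ^ e * (U' : E) - ((p : ℕ) : E)) := by
    have h2 := (UE.mem_lvl p stmtWAdd).mp h1
    rw [AddSubgroupClass.coe_sub, MulMemClass.coe_mul, SubmonoidClass.coe_pow] at h2
    exact h2
  have h2 : ((p : ℕ) : E) + ((P : E) ^ e * (U' : E) - ((p : ℕ) : E)) ≠ 0 ∧
      wv p (((p : ℕ) : E) + ((P : E) ^ e * (U' : E) - ((p : ℕ) : E))) = wv p ((p : ℕ) : E) := by
    apply tww_pmv_wv_add_eq p (tww_pmv_p_ne_zero p)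
    refine geW_mono p ?_ h1'
    rw [tww_pmv_wv_p]
    exact_mod_cast hk
  rw [add_sub_cancel, tww_pmv_wv_p] at h2
  have hP0 : (P : E) ≠ 0 := by
    intro h
    apply h2.1
    rw [h]
    rcases Nat.eq_zero_or_pos e with he | he
    · exfalso
      subst he
      have hn : 0 < Module.finrank ℚ_[p] L := Module.finrank_pos
      simp at hpe
      omega
    · rw [zero_pow he.ne', zero_mul]
  have h3 : (e : ℤ) * wv p (P : E) = Module.finrank ℚ_[p] E := by
    have := h2.2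
    rw [UE.wv_mul p (pow_ne_zero e hP0) hU'u.1, UE.wv_pow p hP0, hU'u.2, add_zero] at this
    exact this
  -- `P^i U ≡ Y`
  have h4 : P ^ i * U - Y ∈ UE.lvl p stmtWAdd k := by
    rw [← Ideal.Quotient.eq, map_mul, map_pow, hP, hU, ← map_pow, ← map_mul, ← hyu, hY]
  have h4' : geW p (k : ℤ) ((P : E) ^ i * (U : E) - (Y : E)) := by
    have h2 := (UE.mem_lvl p stmtWAdd).mp h4
    rw [AddSubgroupClass.coe_sub, MulMemClass.coe_mul, SubmonoidClass.coe_pow] at h2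
    exact h2
  have h5 : geW p (j : ℤ) ((P : E) ^ i * (U : E)) := by
    have := geW_add p (geW_mono p (by exact_mod_cast hj) h4') hYj
    rwa [sub_add_cancel] at this
  have h6 : (j : ℤ) ≤ (i : ℤ) * wv p (P : E) := by
    have h7 := h5.resolve_left (mul_ne_zero (pow_ne_zero i hP0) hUu.1)
    rw [UE.wv_mul p (pow_ne_zero i hP0) hUu.1, UE.wv_pow p hP0, hUu.2, add_zero] at h7
    exact h7
  -- arithmetic
  rw [hyi, ← h3, hpe]
  have he0 : (0 : ℤ) ≤ (e : ℤ) * wv p π := by positivity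
  calc (j : ℤ) * ((e : ℤ) * wv p π) ≤ ((i : ℤ) * wv p (P : E)) * ((e : ℤ) * wv p π) :=
        mul_le_mul_of_nonneg_right h6 he0
    _ = (i : ℤ) * wv p π * ((e : ℤ) * wv p (P : E)) := by ring

end ValMap

end Fermat.Agent.TW.W
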