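/-
TW-W chain A (helper57): field-level (LEVEL), part A — the valuation ring of a local field
(PT-L API) as a discrete valuation ring; dictionary divisibility ↔ `wv`; the cyclotomic data
`p = ε π^((p-1) e₁)`, `ν^(p-1) ≡ -ε`; residue fields of a totally ramified extension.
-/
import Fermat.Agent.TW.W.Eis
import Fermat.Agent.TW.W.GrHensel
import Fermat.Agent.TW.W.PmVal
import Fermat.Agent.TW.W.LevelFinal

set_option autoImplicit false
set_option linter.unusedSectionVars false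
set_option linter.style.haveILetI false

open Polynomial IsLocalRing

namespace Fermat.Agent.TW.W

open Fermat.Agent.PT.L

section One

variable (q : ℕ) [Fact q.Prime] {X : Type} [Field X] [Algebra ℚ_[q] X]
  [FiniteDimensional ℚ_[q] X]

/-- the valuation ring of a local field is a DVR -/
theorem twlf_isDVR : IsDiscreteValuationRing (UE.OV q stmtWAdd X) := by
  haveI : IsPrincipalIdealRing (UE.OV q stmtWAdd X) := LU.lu_pid q
  refine { not_a_field' := ?_ }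
  obtain ⟨π, hπ⟩ := stmtWUnif q X
  intro h
  have h1 : twwPmUnif q hπ ∈ maximalIdeal (UE.OV q stmtWAdd X) := by
    rw [UE.mem_maximalIdeal_iff]
    right
    show 1 ≤ wv q π
    have := hπ.2.1
    omega
  rw [h] at h1
  exact twwPmUnif_ne_zero q hπ ((Submodule.mem_bot _).1 h1)

/-- a uniformiser is irreducible -/
theorem twlf_irreducible {π : X} (hπ : IsUnif q π) : Irreducible (twwPmUnif q hπ) := by
  haveI := twlf_isDVR q (X := X)
  rw [IsDiscreteValuationRing.irreducible_iff_uniformizer]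
  exact LU.lu_maximalIdeal_eq q hπ _

/-- units of the valuation ring -/
theorem twlf_isUnit_iff (x : UE.OV q stmtWAdd X) : IsUnit x ↔ (x : X) ≠ 0 ∧ wv q (x : X) = 0 :=
  UE.isUnit_iff q stmtWAdd x

/-- divisibility by the uniformiser -/
theorem twlf_dvd_iff {π : X} (hπ : IsUnif q π) (x : UE.OV q stmtWAdd X) :
    twwPmUnif q hπ ∣ x ↔ geW q (wv q π) (x : X) := by
  have := tww_pmv_pow_dvd_iff q hπ 1 x
  rwa [pow_one, Nat.cast_one, one_mul] at this

end One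

section Cyc

variable (q : ℕ) [Fact q.Prime] {X : Type} [Field X] [Algebra ℚ_[q] X]
  [FiniteDimensional ℚ_[q] X]

/-- the cyclotomic data: `p = ε π^((p-1) e₁)`, `ν^(p-1) ≡ -ε mod π`, from `ζ_p ∈ X` -/
theorem twlf_cyc {π : X} (hπ : IsUnif q π) {ζ : X} (hζ1 : ζ ≠ 1) (hζp : ζ ^ q = 1) :
    ∃ (e₁ : ℕ) (ε ν : UE.OV q stmtWAdd X), 0 < e₁ ∧ IsUnit ε ∧
      ((q : ℕ) : UE.OV q stmtWAdd X) = ε * (twwPmUnif q hπ) ^ ((q - 1) * e₁) ∧
      ¬ twwPmUnif q hπ ∣ ν ∧ twwPmUnif q hπ ∣ ν ^ (q - 1) + ε ∧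
      (Module.finrank ℚ_[q] X : ℤ) = (((q - 1) * e₁ : ℕ) : ℤ) * wv q π := by
  have hq : q.Prime := Fact.out
  obtain ⟨hlpos, hlval, c, hpow, -⟩ := wgr_zeta_sub_one q hζ1 hζp
  set l : X := ζ - 1 with hl
  have hl0 : l ≠ 0 := sub_ne_zero.2 hζ1
  have hf : 0 < wv q π := hπ.2.1
  have hπ0 : π ≠ 0 := hπ.1
  obtain ⟨c₁, hc₁⟩ := hπ.2.2 l hl0
  have hc₁pos : 0 < c₁ := by
    by_contra hcon
    rw [not_lt] at hcon
    have : wv q π * c₁ ≤ 0 := mul_nonpos_of_nonneg_of_nonpos hf.le hcon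
    omega
  obtain ⟨e₁, rfl⟩ := Int.eq_ofNat_of_zero_le hc₁pos.le
  have he₁ : 0 < e₁ := by exact_mod_cast hc₁pos
  have hqm1 : ((q - 1 : ℕ) : ℤ) = (q : ℤ) - 1 := by
    have := hq.one_le
    push_cast [Nat.cast_sub this]
    ring
  have hn : (Module.finrank ℚ_[q] X : ℤ) = (((q - 1) * e₁ : ℕ) : ℤ) * wv q π := by
    rw [← hlval, hc₁]
    push_cast [hqm1]
    ring
  have hq0 : ((q : ℕ) : X) ≠ 0 := wgr_natCast_ne_zero q
  have hpk0 : π ^ ((q - 1) * e₁) ≠ 0 := pow_ne_zero _ hπ0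
  have hpe0 : π ^ e₁ ≠ 0 := pow_ne_zero _ hπ0
  -- ε
  have hεw : wv q (((q : ℕ) : X) / π ^ ((q - 1) * e₁)) = 0 := by
    rw [l0b_wv_div q hq0 hpk0, wgr_wv_natCast, l0b_wv_pow, hn]
    ring
  have hε0 : ((q : ℕ) : X) / π ^ ((q - 1) * e₁) ≠ 0 := div_ne_zero hq0 hpk0
  -- ν
  have hνw : wv q (l / π ^ e₁) = 0 := by
    rw [l0b_wv_div q hl0 hpe0, l0b_wv_pow, hc₁]
    ring
  have hν0 : l / π ^ e₁ ≠ 0 := div_ne_zero hl0 hpe0
  -- integrality of `c(l)`
  have hζ0 : ζ ≠ 0 := by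
    intro h
    rw [h, zero_pow hq.ne_zero] at hζp
    exact zero_ne_one hζp
  have hlint : geW q 0 l := Or.inr hlpos.le
  have hclint : geW q 0 (eval₂ (Int.castRingHom X) l c) := wgr_eval_int q c hlint
  refine ⟨e₁, ⟨_, Or.inr hεw.ge⟩, ⟨_, Or.inr hνw.ge⟩, he₁, ?_, ?_, ?_, ?_, hn⟩
  · rw [twlf_isUnit_iff]
    exact ⟨hε0, hεw⟩
  · apply Subtype.ext
    show ((q : ℕ) : X) = ((q : ℕ) : X) / π ^ ((q - 1) * e₁) * π ^ ((q - 1) * e₁)
    rw [div_mul_cancel₀ _ hpk0]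
  · rw [twlf_dvd_iff]
    rintro (h | h)
    · exact hν0 h
    · have h' : wv q π ≤ wv q (l / π ^ e₁) := h
      rw [hνw] at h'
      omega
  · rw [twlf_dvd_iff]
    show geW q (wv q π) ((l / π ^ e₁) ^ (q - 1) + ((q : ℕ) : X) / π ^ ((q - 1) * e₁))
    have e : (l / π ^ e₁) ^ (q - 1) + ((q : ℕ) : X) / π ^ ((q - 1) * e₁) =
        -(((q : ℕ) : X) / π ^ ((q - 1) * e₁)) * (l * eval₂ (Int.castRingHom X) l c) := by
      rw [div_pow, hpow, ← pow_mul, mul_comm e₁ (q - 1)]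
      field_simp
      ring
    rw [e]
    have h1 : geW q 0 (-(((q : ℕ) : X) / π ^ ((q - 1) * e₁))) :=
      geW_neg q (Or.inr hεw.ge)
    have h2 : geW q (wv q π) l := by
      right
      rw [hc₁]
      have : (1 : ℤ) ≤ (e₁ : ℤ) := by exact_mod_cast he₁
      nlinarith
    have h3 := geW_mul q h1 (geW_mul q h2 hclint)
    simpa using h3

end Cyc

section Pair

variable (q : ℕ) [Fact q.Prime] {K L : Type} [Field K] [Field L] [Algebra ℚ_[q] K]
  [FiniteDimensional ℚ_[q] K] [Algebra K L] [Algebra ℚ_[q] L] [IsScalarTower ℚ_[q] K L]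
  [FiniteDimensional K L] [FiniteDimensional ℚ_[q] L]

theorem twlf_iota_injective :
    Function.Injective (UE.iota q stmtWAdd : UE.OV q stmtWAdd K →+* UE.OV q stmtWAdd L) := by
  intro a b h
  have h1 := congrArg (fun z : UE.OV q stmtWAdd L => (z : L)) h
  simp only [UE.coe_iota] at h1
  exact Subtype.ext ((algebraMap K L).injective h1)

variable {πK : K} {π : L}

theorem twlf_iota_unif_mem (hK : IsUnif q πK) :
    UE.iota q stmtWAdd (E := L) (twwPmUnif q hK) ∈ maximalIdeal (UE.OV q stmtWAdd L) := by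
  rw [UE.mem_maximalIdeal_iff]
  right
  rw [UE.coe_iota, wv_algebraMap_tower]
  have h1 : (0 : ℤ) < Module.finrank K L := by exact_mod_cast Module.finrank_pos
  have h2 := hK.2.1
  show (1 : ℤ) ≤ (Module.finrank K L : ℤ) * wv q πK
  nlinarith

/-- the residue fields of a totally ramified extension coincide -/
theorem twlf_res (hK : IsUnif q πK) (hL : IsUnif q π) (htot : wv q π = wv q πK)
    (b : UE.OV q stmtWAdd L) :
    ∃ a : UE.OV q stmtWAdd K, b - UE.iota q stmtWAdd a ∈ maximalIdeal (UE.OV q stmtWAdd L) := by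
  obtain ⟨P₀, -, hP₀⟩ := wr_int_exists_poly q hK hL htot b
  refine ⟨P₀.coeff 0, ?_⟩
  have h1 : P₀ = P₀.divX * X + C (P₀.coeff 0) := (Polynomial.divX_mul_X_add P₀).symm
  have h2 : b = eval₂ (UE.iota q stmtWAdd) (⟨π, wr_unif_mem q hL⟩ : UE.OV q stmtWAdd L) P₀.divX *
      ⟨π, wr_unif_mem q hL⟩ + UE.iota q stmtWAdd (P₀.coeff 0) := by
    rw [← hP₀]
    conv_lhs => rw [h1]
    rw [eval₂_add, eval₂_mul, eval₂_X, eval₂_C]
  have h3 : b - UE.iota q stmtWAdd (P₀.coeff 0) =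
      eval₂ (UE.iota q stmtWAdd) (⟨π, wr_unif_mem q hL⟩ : UE.OV q stmtWAdd L) P₀.divX *
      ⟨π, wr_unif_mem q hL⟩ := by
    rw [h2]
    ring
  rw [h3]
  apply Ideal.mul_mem_left
  rw [UE.mem_maximalIdeal_iff]
  right
  show 1 ≤ wv q π
  have := hL.2.1
  omega

end Pair

end Fermat.Agent.TW.W
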