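/-
TW-W chain A (helper57): DESCENT of (LEVEL) through an unramified extension `T'/T`.

* `twlv_nf`   : normal form in a DVR with perfect residue field, `p = ε π^((p-1) e₁)`: a class of
                units closed under multiplication by `p`-th powers and containing no
                `1 + b π^i` (`b` a unit, `p ∤ i`, `1 ≤ i < (p-1) e₁`) consists of elements of
                `(1 + p A) (Aˣ)^p`.
* `twlv_desc` : `A ⊂ A'` DVRs with the same uniformiser: `u ∈ Aˣ ∩ (1 + p A') (A')^p` ⇒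
                `u ∈ (1 + p A) (Aˣ)^p`.
* `twlf_desc` : the field form (PT-L API).
-/
import Fermat.Agent.TW.W.LevelFieldA

set_option autoImplicit false
set_option linter.unusedSectionVars false
set_option linter.style.haveILetI false

open Polynomial IsLocalRing

namespace Fermat.Agent.TW.W

open Fermat.Agent.PT.L

section NF

variable {A : Type*} [CommRing A] [IsDomain A] [IsDiscreteValuationRing A]
variable {p : ℕ} {π ε : A} {e₁ : ℕ}

theorem twlv_nf_aux (hp : p.Prime) (hπ : Irreducible π)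
    (hpe : (p : A) = ε * π ^ ((p - 1) * e₁))
    (hpow : ∀ b : A, ∃ β : A, π ∣ β ^ p - b)
    (P : A → Prop) (hP : ∀ u q : A, P u → IsUnit q → P (u * q ^ p))
    (hno : ∀ (i : ℕ) (b : A), 1 ≤ i → i < (p - 1) * e₁ → ¬ p ∣ i → ¬ π ∣ b →
      ¬ P (1 + b * π ^ i))
    (d : ℕ) : ∀ (i : ℕ) (u : A), 1 ≤ i → i + d = (p - 1) * e₁ → π ^ i ∣ u - 1 → P u →
      ∃ w : A, IsUnit w ∧ π ^ ((p - 1) * e₁) ∣ u * w ^ p - 1 := by
  induction d with
  | zero =>
    intro i u _ hi hu _
    refine ⟨1, isUnit_one, ?_⟩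
    rw [add_zero] at hi
    rw [one_pow, mul_one, ← hi]; exact hu
  | succ d ih =>
    intro i u hi1 hi hu hPu
    obtain ⟨b, hb⟩ := hu
    have hu' : u = 1 + b * π ^ i := by
      have : u = (u - 1) + 1 := by ring
      rw [this, hb]; ring
    by_cases hbd : π ∣ b
    · refine ih (i + 1) u (by omega) (by omega) ?_ hPu
      obtain ⟨b₁, rfl⟩ := hbd
      exact ⟨b₁, by rw [hb, pow_succ]; ring⟩
    · by_cases hpi : p ∣ i
      · obtain ⟨l, rfl⟩ := hpi
        have hl1 : 1 ≤ l := by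
          rcases Nat.eq_zero_or_pos l with h0 | h0
          · subst h0; omega
          · exact h0
        obtain ⟨β, m, hβ⟩ := hpow b
        have hvu : IsUnit (1 + β * π ^ l) := by
          refine twlv_isUnit_of_dvd_sub hπ.not_isUnit isUnit_one ?_
          have e : (1 + β * π ^ l) - 1 = π ^ l * β := by ring
          rw [e]; exact Dvd.dvd.mul_right (dvd_pow_self π (by omega)) _
        obtain ⟨q, hq⟩ := hvu.exists_right_inv
        have hqu : IsUnit q := IsUnit.of_mul_eq_one _ (by rw [mul_comm]; exact hq)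
        obtain ⟨G, hG⟩ := twlv_binom p hp (β * π ^ l)
        obtain ⟨k, hk⟩ : ∃ k, (p - 1) * e₁ + l = p * l + 1 + k :=
          ⟨(p - 1) * e₁ + l - (p * l + 1), by omega⟩
        have key : u * q ^ p - 1 = π ^ (p * l + 1) *
            ((- m - ε * π ^ k * β * (1 + β * π ^ l * G)) * q ^ p) := by
          have e1 : u * q ^ p - 1 = (u - (1 + β * π ^ l) ^ p) * q ^ p := by
            have : (1 + β * π ^ l) ^ p * q ^ p = 1 := by rw [← mul_pow, hq, one_pow]
            linear_combination this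
          have e2 : u - (1 + β * π ^ l) ^ p =
              π ^ (p * l + 1) * (- m - ε * π ^ k * β * (1 + β * π ^ l * G)) := by
            rw [hG, hpe, hu']
            have e3 : ε * π ^ ((p - 1) * e₁) * (β * π ^ l) =
                π ^ (p * l + 1) * (ε * π ^ k * β) := by
              calc ε * π ^ ((p - 1) * e₁) * (β * π ^ l) = π ^ ((p - 1) * e₁ + l) * (ε * β) := by
                    rw [pow_add]; ring
                _ = π ^ (p * l + 1) * (ε * π ^ k * β) := by rw [hk, pow_add]; ring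
            have e4 : (β * π ^ l) ^ p = β ^ p * π ^ (p * l) := by
              rw [mul_pow, ← pow_mul, mul_comm l p]
            rw [e4]
            linear_combination (-(π ^ (p * l))) * hβ - (1 + β * π ^ l * G) * e3
          rw [e1, e2]; ring
        obtain ⟨w₂, hw₂, hdw⟩ := ih (p * l + 1) (u * q ^ p) (by omega) (by omega) ⟨_, key⟩
          (hP u q hPu hqu)
        refine ⟨q * w₂, hqu.mul hw₂, ?_⟩
        have e5 : u * (q * w₂) ^ p - 1 = u * q ^ p * w₂ ^ p - 1 := by ring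
        rw [e5]; exact hdw
      · exact (hno i b hi1 (by omega) hpi hbd (by rw [← hu']; exact hPu)).elim

/-- normal form -/
theorem twlv_nf (hp : p.Prime) (hp2 : p ≠ 2) (hπ : Irreducible π) (he₁ : 0 < e₁)
    (hpe : (p : A) = ε * π ^ ((p - 1) * e₁))
    (hpow : ∀ b : A, ∃ β : A, π ∣ β ^ p - b)
    (P : A → Prop) (hP : ∀ u q : A, P u → IsUnit q → P (u * q ^ p))
    (hno : ∀ (i : ℕ) (b : A), 1 ≤ i → i < (p - 1) * e₁ → ¬ p ∣ i → ¬ π ∣ b →
      ¬ P (1 + b * π ^ i))
    (u : A) (hu : IsUnit u) (hPu : P u) :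
    ∃ w : A, IsUnit w ∧ π ^ ((p - 1) * e₁) ∣ u * w ^ p - 1 := by
  obtain ⟨q, hq⟩ := hu.exists_right_inv
  have hqu : IsUnit q := IsUnit.of_mul_eq_one _ (by rw [mul_comm]; exact hq)
  obtain ⟨β, m, hβ⟩ := hpow q
  have hβu : IsUnit β := by
    have h1 : IsUnit (β ^ p) := by
      refine twlv_isUnit_of_dvd_sub hπ.not_isUnit hqu ⟨m, hβ⟩
    exact (isUnit_pow_iff hp.ne_zero).1 h1
  have hp3 : 3 ≤ p := by
    have := hp.two_le
    omega
  have h2 : 2 ≤ (p - 1) * e₁ := by
    calc 2 = 2 * 1 := by norm_num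
      _ ≤ (p - 1) * e₁ := Nat.mul_le_mul (by omega) (by omega)
  obtain ⟨w₂, hw₂, hdw⟩ := twlv_nf_aux hp hπ hpe hpow P hP hno ((p - 1) * e₁ - 1) 1 (u * β ^ p)
    le_rfl (by omega)
    ⟨u * m, by rw [pow_one]; linear_combination u * hβ + hq⟩
    (hP u β hPu hβu)
  refine ⟨β * w₂, hβu.mul hw₂, ?_⟩
  have e5 : u * (β * w₂) ^ p - 1 = u * β ^ p * w₂ ^ p - 1 := by ring
  rw [e5]; exact hdw

variable {A' : Type*} [CommRing A'] [IsDomain A'] [IsDiscreteValuationRing A'] [Algebra A A']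

/-- descent through an extension of DVRs with the same uniformiser -/
theorem twlv_desc (hp : p.Prime) (hp2 : p ≠ 2) (hπ : Irreducible π)
    (hπ' : Irreducible (algebraMap A A' π)) (he₁ : 0 < e₁)
    (hpe : (p : A) = ε * π ^ ((p - 1) * e₁))
    (hpow : ∀ b : A, ∃ β : A, π ∣ β ^ p - b)
    (u : A) (hu : IsUnit u)
    (h : ∃ c t : A', algebraMap A A' u = (1 + (p : A') * c) * t ^ p) :
    ∃ w : A, IsUnit w ∧ π ^ ((p - 1) * e₁) ∣ u * w ^ p - 1 := by
  have hpe' : (p : A') = algebraMap A A' ε * algebraMap A A' π ^ ((p - 1) * e₁) := by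
    rw [← map_pow, ← map_mul, ← hpe, map_natCast]
  refine twlv_nf hp hp2 hπ he₁ hpe hpow
    (fun u => ∃ c t : A', algebraMap A A' u = (1 + (p : A') * c) * t ^ p) ?_ ?_ u hu h
  · rintro u q ⟨c, t, hct⟩ -
    refine ⟨c, t * algebraMap A A' q, ?_⟩
    rw [map_mul, map_pow, hct, mul_pow]
    ring
  · rintro i b hi1 hie hpi hb ⟨c, t, hct⟩
    apply hpi
    have hbu : IsUnit (algebraMap A A' b) := (twlv_isUnit_of_not_dvd hπ hb).map _
    refine twlv_pw (A := A') hp hπ' (e₁ := e₁) ⟨algebraMap A A' ε, by rw [hpe']; ring⟩ t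
      (algebraMap A A' b) i (twlv_not_dvd_of_isUnit hπ' hbu) ?_ ?_
    · calc i < (p - 1) * e₁ := hie
        _ ≤ p * e₁ := Nat.mul_le_mul_right _ (Nat.sub_le _ _)
    · rw [map_add, map_one, map_mul, map_pow] at hct
      rw [hct]
      obtain ⟨k, hk⟩ : ∃ k, (p - 1) * e₁ = i + 1 + k := ⟨(p - 1) * e₁ - (i + 1), by omega⟩
      refine ⟨- (algebraMap A A' π ^ k * algebraMap A A' ε * c * t ^ p), ?_⟩
      rw [hpe', hk, pow_add]
      ring

end NF

section FieldDesc

variable (q : ℕ) [Fact q.Prime] {T T' : Type} [Field T] [Field T'] [Algebra ℚ_[q] T]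
  [FiniteDimensional ℚ_[q] T] [Algebra T T'] [Algebra ℚ_[q] T'] [IsScalarTower ℚ_[q] T T']
  [FiniteDimensional T T'] [FiniteDimensional ℚ_[q] T']

variable {π : T} {ζ : T}

/-- Frobenius is surjective on the residue field of a local field -/
theorem twlf_pow_sub (hT : IsUnif q π) (b : UE.OV q stmtWAdd T) :
    ∃ β : UE.OV q stmtWAdd T, twwPmUnif q hT ∣ β ^ q - b := by
  haveI := twlf_isDVR q (X := T)
  have hq : q.Prime := Fact.out
  have hπ := twlf_irreducible q hT
  haveI : Finite (ResidueField (UE.OV q stmtWAdd T)) :=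
    UE.finite_residueField q stmtWAdd stmtWFinite
  haveI : CharP (ResidueField (UE.OV q stmtWAdd T)) q := by
    rw [CharP.charP_iff_prime_eq_zero hq]
    have h1 : twwPmUnif q hT ∣ ((q : ℕ) : UE.OV q stmtWAdd T) := by
      rw [twlf_dvd_iff]
      right
      show wv q π ≤ wv q ((q : ℕ) : T)
      rw [wgr_wv_natCast]
      obtain ⟨c, hc⟩ := hT.2.2 ((q : ℕ) : T) (wgr_natCast_ne_zero q)
      rw [wgr_wv_natCast] at hc
      have hn : (0 : ℤ) < Module.finrank ℚ_[q] T := by exact_mod_cast Module.finrank_pos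
      have hf := hT.2.1
      have hc0 : 0 < c := by
        by_contra hcon
        rw [not_lt] at hcon
        have : wv q π * c ≤ 0 := mul_nonpos_of_nonneg_of_nonpos hf.le hcon
        omega
      rw [hc]
      nlinarith
    have h0 := (twlv_residue_eq_zero hπ _).2 h1
    rwa [map_natCast] at h0
  have hinj : Function.Injective (frobenius (ResidueField (UE.OV q stmtWAdd T)) q) :=
    frobenius_inj _ q
  have hsurj := Finite.injective_iff_surjective.1 hinj
  obtain ⟨βbar, hβ⟩ := hsurj (residue _ b)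
  obtain ⟨β, rfl⟩ := residue_surjective βbar
  refine ⟨β, (twlv_residue_eq_zero hπ _).1 ?_⟩
  rw [map_sub, map_pow, sub_eq_zero]
  exact hβ

/-- **Descent of (LEVEL)** through an unramified extension `T'/T` (a uniformiser of `T` stays a
uniformiser of `T'`), `ζ_p ∈ T`. -/
theorem twlf_desc (hq2 : q ≠ 2) (hT : IsUnif q π) (hT' : IsUnif q (algebraMap T T' π))
    (hζ1 : ζ ≠ 1) (hζp : ζ ^ q = 1) (u : T) (hu : u ≠ 0)
    (h : ∃ c t : T', IsInt q c ∧ t ≠ 0 ∧
      algebraMap T T' u = (1 + ((q : ℕ) : T') * c) * t ^ q) :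
    ∃ c t : T, IsInt q c ∧ t ≠ 0 ∧ u = (1 + ((q : ℕ) : T) * c) * t ^ q := by
  haveI := twlf_isDVR q (X := T)
  haveI := twlf_isDVR q (X := T')
  letI := LU.lu_algOO q T T'
  have hq : q.Prime := Fact.out
  obtain ⟨e₁, ε, ν, he₁, hε, hpe, -, -, hn⟩ := twlf_cyc q hT hζ1 hζp
  obtain ⟨c', t', hc', ht'0, hct⟩ := h
  have hπ0 : π ≠ 0 := hT.1
  have hf : 0 < wv q π := hT.2.1
  have hϖ0 : algebraMap T T' π ≠ 0 := hT'.1
  obtain ⟨m, hm⟩ := hT.2.2 u hu
  -- make `u` integral
  set k : ℕ := m.natAbs with hk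
  have hu'0 : u * π ^ (q * k) ≠ 0 := mul_ne_zero hu (pow_ne_zero _ hπ0)
  have hu'w : 0 ≤ wv q (u * π ^ (q * k)) := by
    rw [l0b_wv_mul q hu (pow_ne_zero _ hπ0), l0b_wv_pow, hm]
    have h1 : (0 : ℤ) ≤ m + ((q * k : ℕ) : ℤ) := by
      have h2 : (k : ℤ) = |m| := by rw [hk]; exact Int.natCast_natAbs m
      have h3 : (k : ℤ) ≤ ((q * k : ℕ) : ℤ) := by
        have := Nat.le_mul_of_pos_left k hq.pos
        exact_mod_cast this
      have h4 : -m ≤ |m| := neg_le_abs m
      omega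
    have : wv q π * m + ((q * k : ℕ) : ℤ) * wv q π = (m + ((q * k : ℕ) : ℤ)) * wv q π := by
      ring
    rw [this]
    positivity
  set U : UE.OV q stmtWAdd T := ⟨u * π ^ (q * k), Or.inr hu'w⟩ with hU
  obtain ⟨i, u₀, hfac, hu₀0, hu₀w, hUw⟩ := tww_pmv_factor q hT U hu'0
  have hu₀ : IsUnit u₀ := (twlf_isUnit_iff q u₀).2 ⟨hu₀0, hu₀w⟩
  have hfacT : u * π ^ (q * k) = π ^ i * (u₀ : T) := by
    have := congrArg (fun t : UE.OV q stmtWAdd T => (t : T)) hfac
    exact this
  -- the element `t'' = t' ϖ^k` of `T'`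
  have hqc : geW q 1 (((q : ℕ) : T') * c') := by
    have h1 : geW q (Module.finrank ℚ_[q] T') ((q : ℕ) : T') := Or.inr (wgr_wv_natCast q).ge
    have h2 := geW_mul q h1 hc'
    rw [add_zero] at h2
    refine geW_mono q ?_ h2
    have : (0 : ℤ) < Module.finrank ℚ_[q] T' := by exact_mod_cast Module.finrank_pos
    omega
  obtain ⟨h1c0, h1cw⟩ := wv_one_add q hqc
  have ht'' : algebraMap T T' (u * π ^ (q * k)) =
      (1 + ((q : ℕ) : T') * c') * (t' * algebraMap T T' π ^ k) ^ q := by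
    rw [map_mul, hct, map_pow, mul_pow, ← pow_mul, mul_comm k q]
    ring
  have ht''0 : t' * algebraMap T T' π ^ k ≠ 0 := mul_ne_zero ht'0 (pow_ne_zero _ hϖ0)
  have hnT : (0 : ℤ) < Module.finrank T T' := by exact_mod_cast Module.finrank_pos
  have hq0 : (0 : ℤ) < (q : ℤ) := by exact_mod_cast hq.pos
  have hwt'' : (q : ℤ) * wv q (t' * algebraMap T T' π ^ k) =
      (Module.finrank T T' : ℤ) * ((i : ℤ) * wv q π) := by
    have h1 := congrArg (wv q) ht''
    rw [wv_algebraMap_tower, l0b_wv_mul q h1c0 (pow_ne_zero _ ht''0), h1cw, zero_add,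
      l0b_wv_pow] at h1
    rw [← h1]
    congr 1
  have ht''int : t' * algebraMap T T' π ^ k ∈ UE.OV q stmtWAdd T' := by
    right
    have h3 : (0 : ℤ) ≤ (Module.finrank T T' : ℤ) * ((i : ℤ) * wv q π) := by positivity
    by_contra hneg
    rw [not_le] at hneg
    nlinarith
  obtain ⟨j, t₀, htfac, ht₀0, ht₀w, htw⟩ := tww_pmv_factor q hT'
    (⟨_, ht''int⟩ : UE.OV q stmtWAdd T') ht''0
  have hij : i = q * j := by
    have h1 : wv q (t' * algebraMap T T' π ^ k) = (j : ℤ) * wv q (algebraMap T T' π) := htw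
    rw [h1, wv_algebraMap_tower] at hwt''
    have h2 : (Module.finrank T T' : ℤ) * wv q π * ((q : ℤ) * j - i) = 0 := by
      linear_combination hwt''
    have h3 : (Module.finrank T T' : ℤ) * wv q π ≠ 0 := (mul_pos hnT hf).ne'
    rcases mul_eq_zero.1 h2 with h4 | h4
    · exact absurd h4 h3
    · have : (i : ℤ) = ((q * j : ℕ) : ℤ) := by push_cast; omega
      exact_mod_cast this
  have htfacT : t' * algebraMap T T' π ^ k = algebraMap T T' π ^ j * (t₀ : T') := by
    have := congrArg (fun t : UE.OV q stmtWAdd T' => (t : T')) htfac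
    exact this
  -- `u₀ = (1 + p c') t₀^p` in `T'`
  have hu₀T' : algebraMap T T' (u₀ : T) = (1 + ((q : ℕ) : T') * c') * (t₀ : T') ^ q := by
    have h1 : algebraMap T T' π ^ (q * j) * algebraMap T T' (u₀ : T) =
        algebraMap T T' π ^ (q * j) * ((1 + ((q : ℕ) : T') * c') * (t₀ : T') ^ q) := by
      have h2 : algebraMap T T' π ^ (q * j) * algebraMap T T' (u₀ : T) =
          algebraMap T T' (u * π ^ (q * k)) := by
        rw [hfacT, hij, map_mul, map_pow]
      rw [h2, ht'', htfacT, mul_pow, ← pow_mul, mul_comm j q]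
      ring
    exact mul_left_cancel₀ (pow_ne_zero _ hϖ0) h1
  have hP : ∃ c t : UE.OV q stmtWAdd T',
      algebraMap (UE.OV q stmtWAdd T) (UE.OV q stmtWAdd T') u₀ =
        (1 + ((q : ℕ) : UE.OV q stmtWAdd T') * c) * t ^ q := by
    refine ⟨⟨c', hc'⟩, t₀, Subtype.ext ?_⟩
    exact hu₀T'
  have hπA' : Irreducible (algebraMap (UE.OV q stmtWAdd T) (UE.OV q stmtWAdd T')
      (twwPmUnif q hT)) := twlf_irreducible q hT'
  obtain ⟨w, hw, b, hb⟩ := twlv_desc hq hq2 (twlf_irreducible q hT) hπA' he₁ hpe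
    (twlf_pow_sub q hT) u₀ hu₀ hP
  obtain ⟨hw0, hww⟩ := (twlf_isUnit_iff q w).1 hw
  obtain ⟨εi, hεi⟩ := hε.exists_left_inv
  have hc : u₀ * w ^ q = 1 + ((q : ℕ) : UE.OV q stmtWAdd T) * (εi * b) := by
    rw [hpe]
    linear_combination hb - (twwPmUnif q hT ^ ((q - 1) * e₁) * b) * hεi
  have hcT : (u₀ : T) * (w : T) ^ q = 1 + ((q : ℕ) : T) * ((εi * b : UE.OV q stmtWAdd T) : T) := by
    have := congrArg (fun t : UE.OV q stmtWAdd T => (t : T)) hc
    exact this
  refine ⟨((εi * b : UE.OV q stmtWAdd T) : T), π ^ j / (π ^ k * (w : T)),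
    (εi * b : UE.OV q stmtWAdd T).2, ?_, ?_⟩
  · exact div_ne_zero (pow_ne_zero _ hπ0) (mul_ne_zero (pow_ne_zero _ hπ0) hw0)
  · rw [← hcT, div_pow, mul_pow, ← pow_mul, ← pow_mul, mul_comm j q, ← hij, mul_comm k q]
    have h1 : π ^ (q * k) ≠ 0 := pow_ne_zero _ hπ0
    have h2 : (w : T) ^ q ≠ 0 := pow_ne_zero _ hw0
    field_simp
    linear_combination hfacT

end FieldDesc

end Fermat.Agent.TW.W
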