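/-
TW-W chain A (helper57): field-level (LEVEL), part B — the twist `TwlvTwist` of `𝒪_T` for `T/K`
totally ramified, `K/ℚ_p` unramified: `π ↦ π (1 + a π^j)` modulo `π^(e + j)`.
-/
import Fermat.Agent.TW.W.LevelFieldA

set_option autoImplicit false
set_option linter.unusedSectionVars false
set_option linter.style.haveILetI false

open Polynomial IsLocalRing

namespace Fermat.Agent.TW.W

open Fermat.Agent.PT.L

section Twist

variable (q : ℕ) [Fact q.Prime] {K L : Type} [Field K] [Field L] [Algebra ℚ_[q] K]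
  [FiniteDimensional ℚ_[q] K] [Algebra K L] [Algebra ℚ_[q] L] [IsScalarTower ℚ_[q] K L]
  [FiniteDimensional K L] [FiniteDimensional ℚ_[q] L]

variable {π : L}

/-- `r^i - π^i` is divisible by `π^j` when `r = π (1 + a π^j)` -/
theorem twlf_pow_sub_dvd {A : Type*} [CommRing A] (ϖ a : A) (j i : ℕ) :
    ϖ ^ (i + j) ∣ (ϖ * (1 + a * ϖ ^ j)) ^ i - ϖ ^ i := by
  have h1 : (1 + a * ϖ ^ j) - 1 ∣ (1 + a * ϖ ^ j) ^ i - 1 ^ i := sub_dvd_pow_sub_pow _ _ i
  rw [one_pow, add_sub_cancel_left] at h1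
  obtain ⟨c, hc⟩ := h1
  refine ⟨a * c, ?_⟩
  rw [mul_pow, pow_add]
  linear_combination ϖ ^ i * hc

theorem twlf_twist (hK : IsUnif q ((q : ℕ) : K)) (hL : IsUnif q π)
    (htot : wv q π = wv q ((q : ℕ) : K)) (ε : UE.OV q stmtWAdd L)
    (hpe : ((q : ℕ) : UE.OV q stmtWAdd L) = ε * (twwPmUnif q hL) ^ (Module.finrank K L)) :
    TwlvTwist (twwPmUnif q hL) (Module.finrank K L) := by
  intro N j a hj hN
  obtain ⟨g, hmon, hdeg, hg0, -⟩ := wr_exists_eis q hK hL htot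
  have hE := wr_isEisensteinAt q hK hL htot g hmon hdeg hg0
  set e := Module.finrank K L with he
  set ϖ : UE.OV q stmtWAdd L := twwPmUnif q hL with hϖ
  have hg0' : eval₂ (UE.iota q stmtWAdd) ϖ g = 0 := hg0
  set r₀ : UE.OV q stmtWAdd L := ϖ * (1 + a * ϖ ^ j) with hr₀
  -- the maximal ideal of `𝒪_K` is `(p)`
  have hmax : maximalIdeal (UE.OV q stmtWAdd K) = Ideal.span {((q : ℕ) : UE.OV q stmtWAdd K)} := by
    rw [LU.lu_maximalIdeal_eq q hK (wr_unif_mem q hK)]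
    rfl
  -- the key divisibility
  have hkey : ϖ ^ (e + j) ∣ eval₂ (UE.iota q stmtWAdd) r₀ g := by
    have h1 : eval₂ (UE.iota q stmtWAdd) r₀ g =
        eval₂ (UE.iota q stmtWAdd) r₀ g - eval₂ (UE.iota q stmtWAdd) ϖ g := by
      rw [hg0', sub_zero]
    rw [h1, eval₂_eq_sum_range, eval₂_eq_sum_range, ← Finset.sum_sub_distrib]
    apply Finset.dvd_sum
    intro i hi
    rw [← mul_sub]
    rw [Finset.mem_range, hdeg] at hi
    have h2 := twlf_pow_sub_dvd ϖ a j i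
    rw [← hr₀] at h2
    rcases Nat.lt_succ_iff_lt_or_eq.1 hi with hlt | heq
    · -- `i < e`: the coefficient is divisible by `p`
      have h3 : g.coeff i ∈ maximalIdeal (UE.OV q stmtWAdd K) := by
        apply hE.mem
        rw [hdeg]
        exact hlt
      rw [hmax, Ideal.mem_span_singleton'] at h3
      obtain ⟨b, hb⟩ := h3
      have h4 : ϖ ^ e ∣ UE.iota q stmtWAdd (E := L) (g.coeff i) := by
        rw [← hb, map_mul, map_natCast, hpe]
        exact Dvd.dvd.mul_left (Dvd.intro_left _ rfl) _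
      have h5 : ϖ ^ j ∣ r₀ ^ i - ϖ ^ i :=
        dvd_trans (pow_dvd_pow ϖ (Nat.le_add_left j i)) h2
      rw [pow_add]
      exact mul_dvd_mul h4 h5
    · rw [heq] at h2 ⊢
      exact Dvd.dvd.mul_left h2 _
  have hkeyN : ϖ ^ N ∣ eval₂ (UE.iota q stmtWAdd) r₀ g :=
    dvd_trans (pow_dvd_pow ϖ hN) hkey
  set I : Ideal (UE.OV q stmtWAdd L) := Ideal.span {ϖ ^ N} with hI
  set s₀ : UE.OV q stmtWAdd K →+* UE.OV q stmtWAdd L ⧸ I :=
    (Ideal.Quotient.mk I).comp (UE.iota q stmtWAdd) with hs₀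
  have hr : eval₂ s₀ (Ideal.Quotient.mk I r₀) g = 0 := by
    rw [hs₀, ← Polynomial.hom_eval₂, Ideal.Quotient.eq_zero_iff_mem, hI,
      Ideal.mem_span_singleton]
    exact hkeyN
  obtain ⟨η, -, h2, h3⟩ := wr_universal q hK hL htot g hmon hdeg hg0 _ s₀ _ hr
  refine ⟨η, h2, ?_⟩
  intro x
  obtain ⟨P₀, -, hP₀⟩ := wr_int_exists_poly q hK hL htot x
  have h4 := h3 P₀
  rw [hP₀] at h4
  have h5 : r₀ - ϖ ∣ eval₂ (UE.iota q stmtWAdd) r₀ P₀ - eval₂ (UE.iota q stmtWAdd) ϖ P₀ := by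
    rw [eval₂_eq_eval_map, eval₂_eq_eval_map]
    exact Polynomial.sub_dvd_eval_sub _ _ _
  obtain ⟨x', hx'⟩ := h5
  have hP₀' : eval₂ (UE.iota q stmtWAdd) ϖ P₀ = x := hP₀
  rw [hP₀'] at hx'
  refine ⟨x', ?_⟩
  rw [h4, hs₀, ← Polynomial.hom_eval₂]
  congr 1
  have h6 : r₀ - ϖ = ϖ * (a * ϖ ^ j) := by rw [hr₀]; ring
  rw [h6] at hx'
  linear_combination hx'

end Twist

end Fermat.Agent.TW.W
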