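/-
TW-W chain A (helper57): field-level (LEVEL), part C — the Kummer count `TwlvCount`: for `M/T`
Galois, the units of `𝒪_T` which are `p`-th powers in `𝒪_M` form at most `p ^ [M : T]` classes
modulo `p`-th powers of `𝒪_T`.
-/
import Fermat.Agent.TW.W.LevelFieldA

set_option autoImplicit false
set_option linter.unusedSectionVars false
set_option linter.style.haveILetI false

open Polynomial IsLocalRing

namespace Fermat.Agent.TW.W

open Fermat.Agent.PT.L

section Count

variable (q : ℕ) [Fact q.Prime] {K L : Type} [Field K] [Field L] [Algebra ℚ_[q] K]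
  [FiniteDimensional ℚ_[q] K] [Algebra K L] [Algebra ℚ_[q] L] [IsScalarTower ℚ_[q] K L]
  [FiniteDimensional K L] [FiniteDimensional ℚ_[q] L]

/-- the Kummer cocycle `σ ↦ σ y / y` of a `p`-th root `y` of an element of `K` -/
theorem twlf_kum_mem {y : L} (hy0 : y ≠ 0) {w : K} (hy : y ^ q = algebraMap K L w)
    (σ : L ≃ₐ[K] L) : Units.mk0 (σ y / y) (div_ne_zero (by simpa using hy0) hy0) ∈
      rootsOfUnity q L := by
  rw [mem_rootsOfUnity]
  apply Units.ext
  rw [Units.val_pow_eq_pow_val, Units.val_mk0, Units.val_one, div_pow, ← map_pow, hy,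
    AlgEquiv.commutes]
  exact div_self (by rw [← hy]; exact pow_ne_zero _ hy0)

theorem twlf_count [IsGalois K L] (d : ℕ) (hd : Module.finrank K L ≤ d) :
    letI := LU.lu_algOO q K L
    TwlvCount (UE.OV q stmtWAdd K) (UE.OV q stmtWAdd L) q (q ^ d) := by
  classical
  letI := LU.lu_algOO q K L
  have hq : q.Prime := Fact.out
  haveI : NeZero q := ⟨hq.ne_zero⟩
  intro S hS hdist
  have hex : ∀ w : S, ∃ y : UE.OV q stmtWAdd L,
      y ^ q = UE.iota q stmtWAdd (w : UE.OV q stmtWAdd K) := fun w => (hS w w.2).2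
  choose y hy using hex
  have hwu : ∀ w : S, ((w : UE.OV q stmtWAdd K) : K) ≠ 0 ∧
      wv q ((w : UE.OV q stmtWAdd K) : K) = 0 := fun w =>
    (twlf_isUnit_iff q _).1 (hS w w.2).1
  have hyL : ∀ w : S, ((y w : UE.OV q stmtWAdd L) : L) ^ q =
      algebraMap K L ((w : UE.OV q stmtWAdd K) : K) := by
    intro w
    have := congrArg (fun z : UE.OV q stmtWAdd L => (z : L)) (hy w)
    simpa using this
  have hy0 : ∀ w : S, ((y w : UE.OV q stmtWAdd L) : L) ≠ 0 := by
    intro w h
    have h1 := hyL w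
    rw [h, zero_pow hq.ne_zero] at h1
    exact (hwu w).1 ((map_eq_zero (algebraMap K L)).1 h1.symm)
  let Φ : S → ((L ≃ₐ[K] L) → rootsOfUnity q L) := fun w σ =>
    ⟨_, twlf_kum_mem q (hy0 w) (hyL w) σ⟩
  have hΦ : Function.Injective Φ := by
    intro w w' h
    apply Subtype.ext
    apply hdist _ w.2 _ w'.2
    -- `y w / y w'` is fixed by the Galois group
    have hfix : ∀ σ : L ≃ₐ[K] L, σ ((y w : L) / (y w' : L)) = (y w : L) / (y w' : L) := by
      intro σ
      have h1 := congrArg (fun f => ((f σ : rootsOfUnity q L) : Lˣ).val) h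
      simp only [Φ, Units.val_mk0] at h1
      rw [map_div₀]
      have ha := hy0 w
      have hb := hy0 w'
      have hσa : σ (y w : L) ≠ 0 := by simpa using ha
      have hσb : σ (y w' : L) ≠ 0 := by simpa using hb
      field_simp at h1 ⊢
      linear_combination h1
    have hbot : (y w : L) / (y w' : L) ∈ (⊥ : IntermediateField K L) :=
      (IsGalois.mem_bot_iff_fixed _).2 hfix
    rw [IntermediateField.mem_bot] at hbot
    obtain ⟨ξ, hξ⟩ := hbot
    have hξ0 : ξ ≠ 0 := by
      intro h0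
      rw [h0, map_zero] at hξ
      exact div_ne_zero (hy0 w) (hy0 w') hξ.symm
    have hrel : ((w : UE.OV q stmtWAdd K) : K) = ((w' : UE.OV q stmtWAdd K) : K) * ξ ^ q := by
      apply (algebraMap K L).injective
      rw [map_mul, map_pow, hξ, ← hyL w, ← hyL w', div_pow,
        mul_div_cancel₀ _ (pow_ne_zero _ (hy0 w'))]
    have hξw : wv q ξ = 0 := by
      have h1 := congrArg (wv q) hrel
      rw [l0b_wv_mul q (hwu w').1 (pow_ne_zero _ hξ0), (hwu w).2, (hwu w').2, l0b_wv_pow,
        zero_add] at h1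
      have hq0 : (q : ℤ) ≠ 0 := by exact_mod_cast hq.ne_zero
      rcases mul_eq_zero.1 h1.symm with h2 | h2
      · exact absurd h2 hq0
      · exact h2
    refine ⟨⟨ξ, Or.inr hξw.ge⟩, Subtype.ext ?_⟩
    exact hrel
  have h1 : S.card = Nat.card S := by
    rw [Nat.card_eq_fintype_card, Fintype.card_coe]
  have h2 : Nat.card S ≤ Nat.card ((L ≃ₐ[K] L) → rootsOfUnity q L) :=
    Nat.card_le_card_of_injective Φ hΦ
  have h3 : Nat.card ((L ≃ₐ[K] L) → rootsOfUnity q L) =
      Nat.card (rootsOfUnity q L) ^ Nat.card (L ≃ₐ[K] L) := Nat.card_fun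
  have h4 : Nat.card (rootsOfUnity q L) ≤ q := card_rootsOfUnity L q
  have h5 : Nat.card (L ≃ₐ[K] L) = Module.finrank K L := IsGalois.card_aut_eq_finrank K L
  have h6 : 0 < Nat.card (rootsOfUnity q L) := Nat.card_pos
  calc S.card = Nat.card S := h1
    _ ≤ Nat.card (rootsOfUnity q L) ^ Nat.card (L ≃ₐ[K] L) := by rw [← h3]; exact h2
    _ ≤ q ^ Nat.card (L ≃ₐ[K] L) := Nat.pow_le_pow_left h4 _
    _ ≤ q ^ d := Nat.pow_le_pow_right hq.pos (by rw [h5]; exact hd)

end Count

end Fermat.Agent.TW.W
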