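/-
TW-W chain A (helper57): field-level (LEVEL).

`ℚ_p ⊂ K ⊂ T ⊂ M` local fields (PT-L sense), `K/ℚ_p` unramified, `T/K` and `M/T` totally
ramified, `ζ_p ∈ T`, `M/T` Galois, the residue field of `T` has more than `p ^ [M : T]` elements,
and Fontaine's property `TwlfPm` for `M/T`.  Then every `u ∈ Tˣ` which is a `p`-th power in `M`
lies in `(1 + p 𝒪_T) · T^{×p}`  (`twlf_level`).
-/
import Fermat.Agent.TW.W.LevelFieldB
import Fermat.Agent.TW.W.LevelFieldC
import Fermat.Agent.TW.W.LevelFieldD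

set_option autoImplicit false
set_option linter.unusedSectionVars false
set_option linter.style.haveILetI false

open Polynomial IsLocalRing

namespace Fermat.Agent.TW.W

open Fermat.Agent.PT.L

section Level

variable (q : ℕ) [Fact q.Prime] {K T M : Type} [Field K] [Field T] [Field M]
  [Algebra ℚ_[q] K] [FiniteDimensional ℚ_[q] K]
  [Algebra ℚ_[q] T] [FiniteDimensional ℚ_[q] T] [Algebra K T] [IsScalarTower ℚ_[q] K T]
  [FiniteDimensional K T]
  [Algebra ℚ_[q] M] [FiniteDimensional ℚ_[q] M] [Algebra T M] [IsScalarTower ℚ_[q] T M]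
  [FiniteDimensional T M]

variable {πT : T} {πM : M} {ζ : T}

/-- the degree of `T/K` is the absolute ramification index -/
theorem twlf_finrank_eq (_hK : IsUnif q ((q : ℕ) : K)) (_hT : IsUnif q πT)
    (hTK : wv q πT = wv q ((q : ℕ) : K)) (e : ℕ)
    (hn : (Module.finrank ℚ_[q] T : ℤ) = (e : ℤ) * wv q πT) : Module.finrank K T = e := by
  have h1 : wv q ((q : ℕ) : K) = Module.finrank ℚ_[q] K := wgr_wv_natCast q
  have h2 : Module.finrank ℚ_[q] K * Module.finrank K T = Module.finrank ℚ_[q] T :=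
    Module.finrank_mul_finrank ℚ_[q] K T
  have h3 : (0 : ℤ) < Module.finrank ℚ_[q] K := by exact_mod_cast Module.finrank_pos
  rw [hTK, h1, ← h2] at hn
  push_cast at hn
  have h4 : (Module.finrank ℚ_[q] K : ℤ) * ((Module.finrank K T : ℤ) - e) = 0 := by
    linear_combination hn
  rcases mul_eq_zero.1 h4 with h | h
  · omega
  · have : (Module.finrank K T : ℤ) = e := by omega
    exact_mod_cast this

theorem twlf_data (hq2 : q ≠ 2) [IsGalois T M]
    (hK : IsUnif q ((q : ℕ) : K)) (hT : IsUnif q πT) (hTK : wv q πT = wv q ((q : ℕ) : K))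
    (hM : IsUnif q πM) (hMT : wv q πM = wv q πT) (hζ1 : ζ ≠ 1) (hζp : ζ ^ q = 1)
    (d : ℕ) (hd : Module.finrank T M ≤ d)
    (hbig : q ^ d < Nat.card (ResidueField (UE.OV q stmtWAdd T)))
    (hPm : TwlfPm q (K := T) (L := M)) :
    haveI := twlf_isDVR q (X := T)
    haveI := twlf_isDVR q (X := M)
    letI := LU.lu_algOO q T M
    ∃ (e₁ : ℕ) (ε : UE.OV q stmtWAdd T),
      TwlvData (UE.OV q stmtWAdd T) (UE.OV q stmtWAdd M) q (twwPmUnif q hT) ε e₁ := by
  haveI := twlf_isDVR q (X := T)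
  haveI := twlf_isDVR q (X := M)
  letI := LU.lu_algOO q T M
  obtain ⟨e₁, ε, ν, he₁, hε, hpe, hν1, hν2, hn⟩ := twlf_cyc q hT hζ1 hζp
  have hfr : Module.finrank K T = (q - 1) * e₁ := twlf_finrank_eq q hK hT hTK _ hn
  obtain ⟨g, hmon, hdeg, hg0, -⟩ := wr_exists_eis q hT hM hMT
  have hE := wr_isEisensteinAt q hT hM hMT g hmon hdeg hg0
  refine ⟨e₁, ε, ?_⟩
  refine
    { hp := Fact.out
      hp2 := hq2
      hπ := twlf_irreducible q hT
      he₁ := he₁
      hε := hε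
      hpe := hpe
      hfin := UE.finite_residueField q stmtWAdd stmtWFinite
      hinj := twlf_iota_injective q
      hπB := twlf_iota_unif_mem q hT
      hres := twlf_res q hT hM hMT
      hν := ⟨ν, hν1, hν2⟩
      hF := ?_
      hTw := ?_
      hCount := ⟨q ^ d, twlf_count q d hd, hbig⟩ }
  · refine ⟨g, ⟨πM, wr_unif_mem q hM⟩, Module.finrank T M, hmon, hdeg, ?_, ?_, ?_⟩
    · rw [LU.lu_maximalIdeal_eq q hT (wr_unif_mem q hT)] at hE
      exact hE
    · intro R _ s r hr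
      obtain ⟨η, h1, h2, -⟩ := wr_universal q hT hM hMT g hmon hdeg hg0 R s r hr
      exact ⟨η, h1, h2⟩
    · exact twlf_transfer q hT e₁ hn hPm
  · have := twlf_twist q hK hT hTK ε (by rw [hfr]; exact hpe)
    rwa [hfr] at this

/-- **(LEVEL), field form.** -/
theorem twlf_level (hq2 : q ≠ 2) [IsGalois T M]
    (hK : IsUnif q ((q : ℕ) : K)) (hT : IsUnif q πT) (hTK : wv q πT = wv q ((q : ℕ) : K))
    (hM : IsUnif q πM) (hMT : wv q πM = wv q πT) (hζ1 : ζ ≠ 1) (hζp : ζ ^ q = 1)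
    (d : ℕ) (hd : Module.finrank T M ≤ d)
    (hbig : q ^ d < Nat.card (ResidueField (UE.OV q stmtWAdd T)))
    (hPm : TwlfPm q (K := T) (L := M))
    (u : T) (hu : u ≠ 0) (h : ∃ y : M, y ^ q = algebraMap T M u) :
    ∃ c t : T, IsInt q c ∧ t ≠ 0 ∧ u = (1 + ((q : ℕ) : T) * c) * t ^ q := by
  haveI := twlf_isDVR q (X := T)
  haveI := twlf_isDVR q (X := M)
  letI := LU.lu_algOO q T M
  have hq : q.Prime := Fact.out
  obtain ⟨e₁, ε, D⟩ := twlf_data q hq2 hK hT hTK hM hMT hζ1 hζp d hd hbig hPm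
  obtain ⟨y, hy⟩ := h
  have hπ0 : πT ≠ 0 := hT.1
  have hf : 0 < wv q πT := hT.2.1
  obtain ⟨m, hm⟩ := hT.2.2 u hu
  -- make `u` integral
  set k : ℕ := m.natAbs with hk
  have hu'0 : u * πT ^ (q * k) ≠ 0 := mul_ne_zero hu (pow_ne_zero _ hπ0)
  have hu'w : 0 ≤ wv q (u * πT ^ (q * k)) := by
    rw [l0b_wv_mul q hu (pow_ne_zero _ hπ0), l0b_wv_pow, hm]
    have h1 : (0 : ℤ) ≤ m + ((q * k : ℕ) : ℤ) := by
      have h2 : (k : ℤ) = |m| := by rw [hk]; exact Int.natCast_natAbs m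
      have h3 : (k : ℤ) ≤ ((q * k : ℕ) : ℤ) := by
        have := Nat.le_mul_of_pos_left k hq.pos
        exact_mod_cast this
      have h4 : -m ≤ |m| := neg_le_abs m
      omega
    have : wv q πT * m + ((q * k : ℕ) : ℤ) * wv q πT = (m + ((q * k : ℕ) : ℤ)) * wv q πT := by
      ring
    rw [this]
    positivity
  set U : UE.OV q stmtWAdd T := ⟨u * πT ^ (q * k), Or.inr hu'w⟩ with hU
  obtain ⟨i, u₀, hfac, hu₀0, hu₀w, -⟩ := tww_pmv_factor q hT U hu'0
  have hu₀ : IsUnit u₀ := (twlf_isUnit_iff q u₀).2 ⟨hu₀0, hu₀w⟩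
  -- the `p`-th root of `U`
  have hy' : (y * algebraMap T M πT ^ k) ^ q = algebraMap T M (u * πT ^ (q * k)) := by
    rw [mul_pow, hy, map_mul, map_pow, ← pow_mul, mul_comm k q]
  have hy'0 : y * algebraMap T M πT ^ k ≠ 0 := by
    intro h0
    rw [h0, zero_pow hq.ne_zero] at hy'
    exact hu'0 ((map_eq_zero (algebraMap T M)).1 hy'.symm)
  have hy'int : y * algebraMap T M πT ^ k ∈ UE.OV q stmtWAdd M := by
    right
    have h1 := congrArg (wv q) hy'
    rw [l0b_wv_pow, wv_algebraMap_tower] at h1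
    have h3 : (0 : ℤ) ≤ (Module.finrank T M : ℤ) := by positivity
    have h4 : (0 : ℤ) < (q : ℤ) := by exact_mod_cast hq.pos
    by_contra hneg
    rw [not_le] at hneg
    nlinarith
  have hroot : ∃ Y : UE.OV q stmtWAdd M, Y ^ q =
      algebraMap (UE.OV q stmtWAdd T) (UE.OV q stmtWAdd M) ((twwPmUnif q hT) ^ i * u₀) := by
    refine ⟨⟨_, hy'int⟩, Subtype.ext ?_⟩
    rw [← hfac]
    exact hy'
  obtain ⟨⟨i', hi'⟩, w, hw, b, hb⟩ := twlv_core D i u₀ hu₀ hroot
  obtain ⟨hw0, hww⟩ := (twlf_isUnit_iff q w).1 hw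
  obtain ⟨εi, hεi⟩ := D.hε.exists_left_inv
  -- `u₀ w^p = 1 + p c`
  have hc : u₀ * w ^ q = 1 + ((q : ℕ) : UE.OV q stmtWAdd T) * (εi * b) := by
    rw [D.hpe]
    linear_combination hb - (twwPmUnif q hT ^ ((q - 1) * e₁) * b) * hεi
  have hcT : (u₀ : T) * (w : T) ^ q = 1 + ((q : ℕ) : T) * ((εi * b : UE.OV q stmtWAdd T) : T) := by
    have := congrArg (fun t : UE.OV q stmtWAdd T => (t : T)) hc
    exact this
  have hfacT : u * πT ^ (q * k) = πT ^ i * (u₀ : T) := by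
    have := congrArg (fun t : UE.OV q stmtWAdd T => (t : T)) hfac
    exact this
  refine ⟨((εi * b : UE.OV q stmtWAdd T) : T), πT ^ i' / (πT ^ k * (w : T)),
    (εi * b : UE.OV q stmtWAdd T).2, ?_, ?_⟩
  · exact div_ne_zero (pow_ne_zero _ hπ0) (mul_ne_zero (pow_ne_zero _ hπ0) hw0)
  · rw [← hcT, div_pow, mul_pow, ← pow_mul, ← pow_mul, mul_comm i' q, ← hi', mul_comm k q]
    have h1 : πT ^ (q * k) ≠ 0 := pow_ne_zero _ hπ0
    have h2 : (w : T) ^ q ≠ 0 := pow_ne_zero _ hw0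
    field_simp
    linear_combination hfacT

end Level

end Fermat.Agent.TW.W
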