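import Fermat.Agent.PT.L.Val
import Fermat.Agent.PT.L.Ge
import Fermat.Agent.PT.L.ValRing

/-!
# TW-W (P_m): dictionary between the PT-L valuation `wv` of a local field `L` and the norm of
`PadicAlgCl p`, along an embedding `jL : L →ₐ[ℚ_[p]] PadicAlgCl p`
-/

set_option autoImplicit false
set_option linter.unusedSectionVars false
set_option linter.style.haveILetI false

namespace Fermat.Agent.TW.W

open Fermat.Agent.PT.L

section Dict

variable (p : ℕ) [Fact p.Prime] {L : Type} [Field L] [Algebra ℚ_[p] L]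
  [FiniteDimensional ℚ_[p] L] (jL : L →ₐ[ℚ_[p]] PadicAlgCl p)

/-- The norm of `PadicAlgCl p` on the image of `L` is the spectral norm of `L`. -/
theorem tww_pmd_norm_eq (x : L) : ‖jL x‖ = spectralNorm ℚ_[p] L x := by
  rw [← PadicAlgCl.spectralNorm_eq]
  unfold spectralNorm
  rw [minpoly.algHom_eq jL jL.injective x]

/-- `‖jL x‖ ^ [L : ℚ_p] = ‖N_{L/ℚ_p} x‖`. -/
theorem tww_pmd_norm_pow (x : L) :
    ‖jL x‖ ^ Module.finrank ℚ_[p] L = ‖Algebra.norm ℚ_[p] x‖ := by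
  rw [tww_pmd_norm_eq, l0a_norm_eq_spectralNorm_pow]

/-- `‖jL x‖ ^ [L : ℚ_p] = p ^ (- wv x)` for `x ≠ 0`. -/
theorem tww_pmd_norm_pow_eq {x : L} (hx : x ≠ 0) :
    ‖jL x‖ ^ Module.finrank ℚ_[p] L = (p : ℝ) ^ (-(wv p x)) := by
  rw [tww_pmd_norm_pow]
  have h0 : Algebra.norm ℚ_[p] x ≠ 0 := Algebra.norm_ne_zero_iff.mpr hx
  rw [Padic.norm_eq_zpow_neg_valuation h0]
  rfl

/-- The valuation ring of `L` is the unit ball. -/
theorem tww_pmd_mem_OV_iff (x : L) : x ∈ UE.OV p stmtWAdd L ↔ ‖jL x‖ ≤ 1 := by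
  have hn : Module.finrank ℚ_[p] L ≠ 0 := (Module.finrank_pos).ne'
  rw [UE.mem_OV]
  rcases eq_or_ne x 0 with rfl | hx
  · simp
  · have h1 : ‖jL x‖ ≤ 1 ↔ ‖jL x‖ ^ Module.finrank ℚ_[p] L ≤ 1 :=
      (pow_le_one_iff_of_nonneg (norm_nonneg _) hn).symm
    rw [h1, tww_pmd_norm_pow]
    constructor
    · intro h
      exact (Padic.norm_le_one_iff_val_nonneg _).mpr (h.resolve_left hx)
    · intro h
      exact Or.inr ((Padic.norm_le_one_iff_val_nonneg _).mp h)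

/-- The norm of `p`. -/
theorem tww_pmd_norm_p : ‖((p : ℕ) : PadicAlgCl p)‖ = (p : ℝ)⁻¹ := by
  have h1 : ((p : ℕ) : PadicAlgCl p) = algebraMap ℚ_[p] (PadicAlgCl p) (p : ℚ_[p]) := by
    rw [map_natCast]
  rw [h1, ← PadicAlgCl.spectralNorm_eq, spectralNorm_extends]
  exact Padic.norm_p

/-- Comparison of norms from a comparison of valuations: if `c ^ e = p ^ a` and
`a [L : ℚ_p] ≤ wv x · e` then `‖jL x‖ ≤ ‖c‖`. -/
theorem tww_pmd_norm_le (x : L) (c : PadicAlgCl p) (e a : ℕ) (he : e ≠ 0)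
    (hc : c ^ e = ((p : ℕ) : PadicAlgCl p) ^ a)
    (hx : x = 0 ∨ (a : ℤ) * Module.finrank ℚ_[p] L ≤ wv p x * e) : ‖jL x‖ ≤ ‖c‖ := by
  rcases eq_or_ne x 0 with rfl | hx0
  · simp
  have hx1 := hx.resolve_left hx0
  have hn : Module.finrank ℚ_[p] L ≠ 0 := (Module.finrank_pos).ne'
  have hne : Module.finrank ℚ_[p] L * e ≠ 0 := mul_ne_zero hn he
  rw [← pow_le_pow_iff_left₀ (norm_nonneg _) (norm_nonneg _) hne]
  have h1 : ‖jL x‖ ^ (Module.finrank ℚ_[p] L * e) = (p : ℝ) ^ (-(wv p x * e)) := by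
    rw [pow_mul, tww_pmd_norm_pow_eq p jL hx0, ← zpow_natCast, ← zpow_mul]
    congr 1
    ring
  have h2 : ‖c‖ ^ (Module.finrank ℚ_[p] L * e) =
      (p : ℝ) ^ (-((a : ℤ) * Module.finrank ℚ_[p] L)) := by
    rw [mul_comm, pow_mul, ← norm_pow, hc, norm_pow, tww_pmd_norm_p, ← pow_mul, inv_pow,
      ← zpow_natCast, ← zpow_neg]
    congr 1
  rw [h1, h2]
  have hp1 : (1 : ℝ) ≤ (p : ℝ) := by exact_mod_cast (Fact.out : p.Prime).one_le
  exact zpow_le_zpow_right₀ hp1 (by omega)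

end Dict

end Fermat.Agent.TW.W
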