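import Fermat.Agent.TW.W.PmCore
import Fermat.Agent.TW.W.PmVal
import Fermat.Agent.TW.W.PmDict
import Fermat.Prelude.Def_GaloisRep_CompletionBridge

/-!
# TW-W (P_m): Fontaine's property for the field of points of a flat group scheme killed by `p`

`(M, act, H)` a Hopf lattice over `ℤ_(p)`, `p • M = 0`; `L`, `E` local fields (PT-L sense) with
embeddings `jL`, `jE` into `PadicAlgCl p`, all the coordinates `ι (h m)` of the points lying in
`jL(L)`; `k` with `(p - 1) k > p [E : ℚ_p]` (i.e. `{w ≥ k} = {v_p ≥ m}` with `m > p / (p - 1)`).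
If there is a ring homomorphism `η : 𝒪_L → 𝒪_E ⧸ {w ≥ k}` then all the coordinates `ι (h m)` lie
in `jE(E)` (`tww_pm_field`); hence `L` embeds into `E` if `L` is generated by them
(`tww_pm_embed`).
-/

set_option autoImplicit false
set_option linter.unusedSectionVars false
set_option linter.style.haveILetI false

namespace Fermat.Agent.TW.W

open Fermat.Agent.W1 Fermat.Agent.PT.L GaloisRep

local notation "Qb" => AlgebraicClosure ℚ

section Place

variable (p : ℕ) [Fact p.Prime]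

theorem tww_pmf_mem_nonunits (x : Qb) (h : ‖padicEmbedding p x‖ < 1) :
    x ∈ (padicPlace p).nonunits := by
  rw [ValuationSubring.mem_nonunits_iff]
  refine lt_of_not_ge (fun h1 => ?_)
  rcases eq_or_ne x 0 with rfl | hx0
  · simp at h1
  have h2 : (padicPlace p).valuation x⁻¹ ≤ 1 :=
    ((padicPlace p).valuation.one_le_val_iff hx0).mp h1
  rw [ValuationSubring.valuation_le_one_iff, mem_padicPlace_iff, map_inv₀] at h2
  have h3 : ‖(padicEmbedding p x)⁻¹‖ ≤ 1 := by exact_mod_cast h2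
  rw [norm_inv] at h3
  have hne : padicEmbedding p x ≠ 0 := by
    rw [Ne, map_eq_zero]; exact hx0
  have hpos : 0 < ‖padicEmbedding p x‖ := norm_pos_iff.mpr hne
  have h4 := (inv_le_one₀ hpos).mp h3
  linarith

theorem tww_pmf_mem_place (x : Qb) (h : ‖padicEmbedding p x‖ ≤ 1) : x ∈ padicPlace p := by
  rw [mem_padicPlace_iff]
  exact_mod_cast h

theorem tww_pmf_norm_le_of_mem_place (x : Qb) (h : x ∈ padicPlace p) :
    ‖padicEmbedding p x‖ ≤ 1 := by
  rw [mem_padicPlace_iff] at h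
  exact_mod_cast h

theorem tww_pmf_liesOver : (padicPlace p).LiesOverPrime p := by
  apply tww_pmf_mem_nonunits
  rw [map_natCast, tww_pmd_norm_p]
  have hp1 : (1 : ℝ) < p := by exact_mod_cast (Fact.out : p.Prime).one_lt
  exact inv_lt_one_of_one_lt₀ hp1

end Place

section RatToOV

variable (p : ℕ) [Fact p.Prime] (E : Type) [Field E] [Algebra ℚ_[p] E]
  [FiniteDimensional ℚ_[p] E]

theorem tww_pmf_rat_mem (r : ratLocalizedAt p) :
    (algebraMap ℚ_[p] E) ((algebraMap ℚ ℚ_[p]) (r : ℚ)) ∈ UE.OV p stmtWAdd E := by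
  rw [UE.mem_OV]
  rcases eq_or_ne ((algebraMap ℚ ℚ_[p]) (r : ℚ)) 0 with h0 | h0
  · left
    rw [h0, map_zero]
  · right
    rw [l0b_wv_algebraMap]
    have h1 : ‖(algebraMap ℚ ℚ_[p]) (r : ℚ)‖ ≤ 1 := by
      rw [eq_ratCast]
      apply Padic.norm_rat_le_one
      have hr : ((r : ℚ).den).Coprime p := r.2
      exact (Nat.Prime.coprime_iff_not_dvd (Fact.out : p.Prime)).mp hr.symm
    have h2 := (Padic.norm_le_one_iff_val_nonneg _).mp h1
    positivity

/-- `ℤ_(p) → 𝒪_E`. -/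
noncomputable def twwPmRatToOV : ratLocalizedAt p →+* UE.OV p stmtWAdd E :=
  RingHom.codRestrict
    ((algebraMap ℚ_[p] E).comp ((algebraMap ℚ ℚ_[p]).comp (ratLocalizedAt p).subtype))
    (UE.OV p stmtWAdd E) (fun r => tww_pmf_rat_mem p E r)

end RatToOV

section Step

variable (p : ℕ) [Fact p.Prime] {L E : Type} [Field L] [Algebra ℚ_[p] L]
  [FiniteDimensional ℚ_[p] L] [Field E] [Algebra ℚ_[p] E] [FiniteDimensional ℚ_[p] E]

/-- The valuation step of (P_m): if `η y ≡ 0 mod ϖ^a` then `v_p(y) ≥ a / e`. -/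
theorem tww_pmf_val_step (jL : L →ₐ[ℚ_[p]] PadicAlgCl p) (k : ℕ)
    (hkE : Module.finrank ℚ_[p] E < k)
    (η : UE.OV p stmtWAdd L →+* UE.OV p stmtWAdd E ⧸ UE.lvl p stmtWAdd k)
    {π : E} (hπ : IsUnif p π) (e a : ℕ) (he0 : e ≠ 0)
    (haf : (a : ℤ) * wv p π ≤ k) (hef : (e : ℤ) * wv p π = Module.finrank ℚ_[p] E)
    (J : Ideal (UE.OV p stmtWAdd E)) (hIJ : UE.lvl p stmtWAdd k = J)
    (y : UE.OV p stmtWAdd L) (s : UE.OV p stmtWAdd E)
    (hgs : Ideal.quotEquivOfEq hIJ (η y) = Ideal.Quotient.mk J ((twwPmUnif p hπ) ^ a * s))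
    (c : PadicAlgCl p) (hc : c ^ e = ((p : ℕ) : PadicAlgCl p) ^ a) :
    ‖jL (y : L)‖ ≤ ‖c‖ := by
  subst hIJ
  have hf : 0 < wv p π := hπ.2.1
  have h2 : η y = Ideal.Quotient.mk (UE.lvl p stmtWAdd k) ((twwPmUnif p hπ) ^ a * s) := by
    obtain ⟨z, hz⟩ := Ideal.Quotient.mk_surjective (η y)
    rw [← hz, Ideal.quotEquivOfEq_mk] at hgs
    rw [← hz]
    exact hgs
  obtain ⟨j, hj⟩ : ∃ j : ℕ, (j : ℤ) = (a : ℤ) * wv p π :=
    ⟨((a : ℤ) * wv p π).toNat, Int.toNat_of_nonneg (by positivity)⟩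
  have hjk : j ≤ k := by
    have : (j : ℤ) ≤ (k : ℤ) := by rw [hj]; exact haf
    exact_mod_cast this
  have hY : geW p (j : ℤ) ((((twwPmUnif p hπ) ^ a * s : UE.OV p stmtWAdd E)) : E) := by
    rw [hj, ← tww_pmv_pow_dvd_iff p hπ]
    exact Dvd.intro _ rfl
  have h3 := tww_pmv_val p k hkE η y _ h2.symm j hjk hY
  have h4 : (y : L) = 0 ∨
      (a : ℤ) * Module.finrank ℚ_[p] L ≤ wv p (y : L) * e := by
    rcases h3 with h3 | h3
    · exact Or.inl h3
    · right
      rw [hj, ← hef] at h3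
      have h5 : ((a : ℤ) * Module.finrank ℚ_[p] L) * wv p π ≤
          (wv p (y : L) * e) * wv p π := by
        calc ((a : ℤ) * Module.finrank ℚ_[p] L) * wv p π
            = (a : ℤ) * wv p π * Module.finrank ℚ_[p] L := by ring
          _ ≤ wv p (y : L) * ((e : ℤ) * wv p π) := h3
          _ = _ := by ring
      exact le_of_mul_le_mul_right h5 hf
  exact tww_pmd_norm_le p jL (y : L) c e a he0 hc h4

end Step

section Field

variable {p : ℕ} [Fact p.Prime] {M : Type} [AddCommGroup M] [Finite M]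
  {act : (Qb ≃ₐ[ℚ] Qb) → M → M} {H : Subalgebra (ratLocalizedAt p) (M → Qb)}

/-- **(P_m)**, coordinate form. -/
theorem tww_pm_field (hH : IsHopfLattice (ratLocalizedAt p) act H) (hpM : ∀ m : M, p • m = 0)
    (L E : Type) [Field L] [Algebra ℚ_[p] L] [FiniteDimensional ℚ_[p] L]
    [Field E] [Algebra ℚ_[p] E] [FiniteDimensional ℚ_[p] E]
    (jL : L →ₐ[ℚ_[p]] PadicAlgCl p) (jE : E →ₐ[ℚ_[p]] PadicAlgCl p)
    (hvalL : ∀ h ∈ H, ∀ m : M, ∃ y : L, jL y = padicEmbedding p (h m))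
    (k : ℕ) (hk : p * Module.finrank ℚ_[p] E < (p - 1) * k)
    (η : UE.OV p stmtWAdd L →+* UE.OV p stmtWAdd E ⧸ UE.lvl p stmtWAdd k) :
    ∀ h ∈ H, ∀ m : M, ∃ y : E, jE y = padicEmbedding p (h m) := by
  classical
  have hp : p.Prime := Fact.out
  -- instances
  letI algRS : Algebra (ratLocalizedAt p) (UE.OV p stmtWAdd E) := (twwPmRatToOV p E).toAlgebra
  letI algSΩ : Algebra (UE.OV p stmtWAdd E) (PadicAlgCl p) :=
    (jE.toRingHom.comp (UE.OV p stmtWAdd E).subtype).toAlgebra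
  have hQ : (algebraMap ℚ_[p] (PadicAlgCl p)).comp (algebraMap ℚ ℚ_[p]) =
      algebraMap ℚ (PadicAlgCl p) := Subsingleton.elim _ _
  haveI tower : IsScalarTower (ratLocalizedAt p) (UE.OV p stmtWAdd E) (PadicAlgCl p) := by
    refine IsScalarTower.of_algebraMap_eq (fun r => ?_)
    change algebraMap ℚ (PadicAlgCl p) (r : ℚ) =
      jE ((algebraMap ℚ_[p] E) ((algebraMap ℚ ℚ_[p]) (r : ℚ)))
    rw [AlgHom.commutes, ← hQ]
    rfl
  let ι : Qb →ₐ[ratLocalizedAt p] PadicAlgCl p :=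
    { (padicEmbedding p).toRingHom with
      commutes' := fun r => (padicEmbedding p).commutes (r : ℚ) }
  have hι : ∀ x : Qb, ι x = padicEmbedding p x := fun x => rfl
  have hSF : Function.Injective (algebraMap (UE.OV p stmtWAdd E) (PadicAlgCl p)) := by
    intro x y hxy
    apply Subtype.ext
    exact jE.injective hxy
  -- data
  obtain ⟨π, hπ, w, e, a, hpw, hea, hlvl, haf, hef⟩ := tww_pmv_data p (E := E) k hk
  have hf : 0 < wv p π := hπ.2.1
  have hnE : 0 < Module.finrank ℚ_[p] E := Module.finrank_pos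
  have he0 : e ≠ 0 := by
    rintro rfl
    simp at hef
    omega
  have hIJ : UE.lvl p stmtWAdd k =
      Ideal.span {((p : ℕ) : UE.OV p stmtWAdd E) * (twwPmUnif p hπ) ^ a} := by
    ext x
    rw [hlvl, Ideal.mem_span_singleton]
  have hkE : Module.finrank ℚ_[p] E < k := by
    by_contra hcon
    have h1 : k ≤ Module.finrank ℚ_[p] E := not_lt.mp hcon
    have h2 : (p - 1) * k ≤ (p - 1) * Module.finrank ℚ_[p] E := Nat.mul_le_mul_left _ h1
    have h3 : (p - 1) * Module.finrank ℚ_[p] E ≤ p * Module.finrank ℚ_[p] E :=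
      Nat.mul_le_mul_right _ (by omega)
    omega
  -- the constant `c`
  obtain ⟨c, hc⟩ := IsAlgClosed.exists_pow_nat_eq (((p : ℕ) : Qb) ^ a) (Nat.pos_of_ne_zero he0)
  have hpQ : ((p : ℕ) : Qb) ≠ 0 := by exact_mod_cast hp.ne_zero
  have hc0 : c ≠ 0 := by
    intro h
    rw [h, zero_pow he0] at hc
    exact pow_ne_zero a hpQ hc.symm
  have hcΩ : (padicEmbedding p c) ^ e = ((p : ℕ) : PadicAlgCl p) ^ a := by
    rw [← map_pow, hc, map_pow, map_natCast]
  have hct : c ^ (p - 1) = ((p : ℕ) : Qb) * (c ^ (p - 1) / (p : ℕ)) := by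
    field_simp
  have ht : c ^ (p - 1) / ((p : ℕ) : Qb) ∈ (padicPlace p).nonunits := by
    apply tww_pmf_mem_nonunits
    have hp1 : (1 : ℝ) < p := by exact_mod_cast hp.one_lt
    have hpinv0 : (0 : ℝ) < (p : ℝ)⁻¹ := by positivity
    have hpinv1 : (p : ℝ)⁻¹ < 1 := inv_lt_one_of_one_lt₀ hp1
    have hnc : ‖padicEmbedding p c‖ ^ e = ((p : ℝ)⁻¹) ^ a := by
      rw [← norm_pow, hcΩ, norm_pow, tww_pmd_norm_p]
    have hN : ‖padicEmbedding p (c ^ (p - 1) / ((p : ℕ) : Qb))‖ =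
        ‖padicEmbedding p c‖ ^ (p - 1) / (p : ℝ)⁻¹ := by
      rw [map_div₀, map_pow, map_natCast, norm_div, norm_pow, tww_pmd_norm_p]
    have h1 : ‖padicEmbedding p (c ^ (p - 1) / ((p : ℕ) : Qb))‖ ^ e * ((p : ℝ)⁻¹) ^ e =
        ((p : ℝ)⁻¹) ^ ((p - 1) * a) := by
      rw [hN, div_pow, div_mul_cancel₀ _ (pow_ne_zero e hpinv0.ne'), ← pow_mul,
        mul_comm (p - 1) e, pow_mul, hnc, ← pow_mul, mul_comm a (p - 1)]
    by_contra hcon
    have h3 : 1 ≤ ‖padicEmbedding p (c ^ (p - 1) / ((p : ℕ) : Qb))‖ := not_lt.mp hcon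
    have h4 : (1 : ℝ) ≤ ‖padicEmbedding p (c ^ (p - 1) / ((p : ℕ) : Qb))‖ ^ e :=
      one_le_pow₀ h3
    have h5 : ((p : ℝ)⁻¹) ^ ((p - 1) * a) < ((p : ℝ)⁻¹) ^ e :=
      pow_lt_pow_right_of_lt_one₀ hpinv0 hpinv1 hea
    have h6 : ((p : ℝ)⁻¹) ^ e ≤
        ‖padicEmbedding p (c ^ (p - 1) / ((p : ℕ) : Qb))‖ ^ e * ((p : ℝ)⁻¹) ^ e := by
      have h7 : (0 : ℝ) ≤ ((p : ℝ)⁻¹) ^ e := by positivity
      nlinarith
    linarith
  -- the evaluation maps `H → 𝒪_L`
  have hRA : ∀ r : ratLocalizedAt p, algebraMap (ratLocalizedAt p) Qb r ∈ padicPlace p :=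
    tww_ratLoc_mem hp (padicPlace p) (tww_pmf_liesOver p)
  have hex : ∀ (m : M) (h : H), ∃ y : UE.OV p stmtWAdd L,
      jL (y : L) = padicEmbedding p ((h : M → Qb) m) := by
    intro m h
    obtain ⟨y, hy⟩ := hvalL h.1 h.2 m
    refine ⟨⟨y, ?_⟩, hy⟩
    rw [tww_pmd_mem_OV_iff p jL, hy]
    exact tww_pmf_norm_le_of_mem_place p _ (tww_t2_val_mem hH (padicPlace p) hRA h.1 h.2 m)
  choose ev hev using hex
  have hjL : Function.Injective (jL : L → PadicAlgCl p) := jL.toRingHom.injective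
  let evR : M → H →+* UE.OV p stmtWAdd L := fun m =>
    { toFun := ev m
      map_one' := by
        apply Subtype.ext
        apply hjL
        rw [hev]
        change padicEmbedding p 1 = jL 1
        rw [map_one, map_one]
      map_mul' := by
        intro x y
        apply Subtype.ext
        apply hjL
        rw [hev]
        change padicEmbedding p ((x : M → Qb) m * (y : M → Qb) m) =
          jL ((ev m x : L) * (ev m y : L))
        rw [map_mul, map_mul, hev, hev]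
      map_zero' := by
        apply Subtype.ext
        apply hjL
        rw [hev]
        change padicEmbedding p 0 = jL 0
        rw [map_zero, map_zero]
      map_add' := by
        intro x y
        apply Subtype.ext
        apply hjL
        rw [hev]
        change padicEmbedding p ((x : M → Qb) m + (y : M → Qb) m) =
          jL ((ev m x : L) + (ev m y : L))
        rw [map_add, map_add, hev, hev] }
  have hevR : ∀ m h, evR m h = ev m h := fun m h => rfl
  let g : M → H →+* UE.OV p stmtWAdd E ⧸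
      Ideal.span {((p : ℕ) : UE.OV p stmtWAdd E) * (twwPmUnif p hπ) ^ a} := fun m =>
    (Ideal.quotEquivOfEq hIJ).toRingHom.comp (η.comp (evR m))
  have key := tww_pm_core hH hpM (padicPlace p) (tww_pmf_liesOver p) c
    (c ^ (p - 1) / ((p : ℕ) : Qb)) hct ht ι hSF (twwPmUnif p hπ) w e a
    (twwPmUnif_mem_nonZeroDivisors p hπ) hpw hea (tww_pmv_sep p hπ) (tww_pmv_pre p hπ) g ?_
  · intro h hh m
    obtain ⟨s, hs⟩ := key m ⟨h, hh⟩
    exact ⟨(s : E), hs⟩
  · intro m₁ m₂ h s hgs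
    have h6 := tww_pmf_val_step p jL k hkE η hπ e a he0 haf hef _ hIJ (ev m₁ h - ev m₂ h) s
      (by rw [map_sub, map_sub]; exact hgs) (padicEmbedding p c) hcΩ
    have h7 : jL ((ev m₁ h - ev m₂ h : UE.OV p stmtWAdd L) : L) =
        padicEmbedding p ((h : M → Qb) m₁ - (h : M → Qb) m₂) := by
      change jL ((ev m₁ h : L) - (ev m₂ h : L)) = _
      rw [map_sub, map_sub, hev, hev]
    rw [h7] at h6
    refine ⟨((h : M → Qb) m₁ - (h : M → Qb) m₂) / c, ?_, by field_simp⟩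
    apply tww_pmf_mem_place
    rw [map_div₀, norm_div]
    have hcpos : 0 < ‖padicEmbedding p c‖ := by
      apply norm_pos_iff.mpr
      rw [Ne, map_eq_zero]
      exact hc0
    exact (div_le_one hcpos).mpr h6

/-- The set of coordinates of the points of `M` in `PadicAlgCl p`. -/
def twwPmCoords (p : ℕ) [Fact p.Prime] {M : Type} [AddCommGroup M]
    (H : Subalgebra (ratLocalizedAt p) (M → Qb)) : Set (PadicAlgCl p) :=
  {z | ∃ h ∈ H, ∃ m : M, z = padicEmbedding p (h m)}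

/-- **(P_m)**: Fontaine's property for the field `L = ℚ_p(M)` generated by the coordinates of
the points of a flat group scheme killed by `p`: a ring homomorphism
`𝒪_L → 𝒪_E ⧸ {w ≥ k}`, `(p - 1) k > p [E : ℚ_p]`, forces an embedding `L → E`. -/
theorem tww_pm_embed (hH : IsHopfLattice (ratLocalizedAt p) act H) (hpM : ∀ m : M, p • m = 0)
    (L E : Type) [Field L] [Algebra ℚ_[p] L] [FiniteDimensional ℚ_[p] L]
    [Field E] [Algebra ℚ_[p] E] [FiniteDimensional ℚ_[p] E]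
    (jL : L →ₐ[ℚ_[p]] PadicAlgCl p)
    (hvalL : ∀ h ∈ H, ∀ m : M, ∃ y : L, jL y = padicEmbedding p (h m))
    (hgen : ∀ x : L, jL x ∈ IntermediateField.adjoin ℚ_[p] (twwPmCoords p H))
    (k : ℕ) (hk : p * Module.finrank ℚ_[p] E < (p - 1) * k)
    (η : UE.OV p stmtWAdd L →+* UE.OV p stmtWAdd E ⧸ UE.lvl p stmtWAdd k) :
    Nonempty (L →ₐ[ℚ_[p]] E) := by
  let jE : E →ₐ[ℚ_[p]] PadicAlgCl p := IsAlgClosed.lift
  have h1 := tww_pm_field hH hpM L E jL jE hvalL k hk η
  have h2 : IntermediateField.adjoin ℚ_[p] (twwPmCoords p H) ≤ jE.fieldRange := by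
    rw [IntermediateField.adjoin_le_iff]
    rintro z ⟨h, hh, m, rfl⟩
    obtain ⟨y, hy⟩ := h1 h hh m
    exact ⟨y, hy⟩
  have h3 : ∀ x : L, jL x ∈ jE.range := by
    intro x
    obtain ⟨y, hy⟩ := h2 (hgen x)
    exact ⟨y, hy⟩
  exact ⟨(AlgEquiv.ofInjective jE jE.toRingHom.injective).symm.toAlgHom.comp
    (jL.codRestrict jE.range h3)⟩

end Field

end Fermat.Agent.TW.W
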