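/-
TW-W chain A, last leg (helper57): INTERFACE for `(P_m) ⇒ StmtLev`.

`L₀ := lvCoordField p H = ℚ_p(coordinates of the points of M) ⊂ ℚ̄_p`.

* `StmtLvDict`  (DICT)  : `L₀/ℚ_p` is finite and normal, and `σ ∈ G_{L₀}` acts trivially on `M`.
* `StmtLvKum`   (KUM)   : Hilbert 90: a character `χ` of `G_T` killing `G_{M₁}` (`T ⊂ M₁` finite
                          normal over `ℚ_p`, `ζ_p ∈ T`) has a Kummer generator `α ∈ M₁`, `α^p ∈ T`.
* `StmtLvTower` (TOWER) : the auxiliary tower `K ⊂ T' ⊂ M' = T' L₀` (`K/ℚ_p` unramified, `T'/K` and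
                          `M'/T'` totally ramified, `T'/T` unramified, residue field large).
* `StmtLevPrime` (LEVEL′): `u ∈ Tˣ ∩ (T L₀)^{×p} ⇒ u ∈ (1 + p 𝒪_T) T^{×p}`.
* `stmtLev_of : StmtLvDict → StmtLvKum → StmtLevPrime → StmtLev`   (proved here).
-/
import Fermat.Agent.TW.W.Plan
import Fermat.Agent.TW.W.PmField

set_option autoImplicit false
set_option linter.unusedSectionVars false
set_option linter.style.haveILetI false

noncomputable section

namespace Fermat.Agent.TW.W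

open Fermat.Agent.PT Fermat.Agent.PT.B Fermat.Agent.PT.L Fermat.Agent.W1 GaloisRep IsLocalRing

/-- `L₀ = ℚ_p(M)`: the field generated by the coordinates of the points. -/
def lvCoordField (p : ℕ) [Fact p.Prime] {M : Type} [AddCommGroup M]
    (H : Subalgebra (ratLocalizedAt p) (M → AlgebraicClosure ℚ)) :
    IntermediateField ℚ_[p] (PadicAlgCl p) :=
  IntermediateField.adjoin ℚ_[p] (twwPmCoords p H)

/-- **DICT**: `L₀/ℚ_p` is finite and normal and `G_{L₀}` acts trivially on `M`. -/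
def StmtLvDict : Prop :=
  ∀ (p : ℕ) [Fact p.Prime] (M : Type) [AddCommGroup M] [Finite M]
    (act : GQ → M → M)
    (H : Subalgebra (ratLocalizedAt p) (M → AlgebraicClosure ℚ)),
    IsHopfLattice (ratLocalizedAt p) act H →
      FiniteDimensional ℚ_[p] (lvCoordField p H) ∧ Normal ℚ_[p] (lvCoordField p H) ∧
      ∀ σ : GQq p, σ ∈ (lvCoordField p H).fixingSubgroup →
        ∀ m : M, act (localGaloisToGlobal p σ) m = m

/-- **KUM** (Hilbert 90 for `M₁/T`). -/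
def StmtLvKum : Prop :=
  ∀ (p : ℕ) [Fact p.Prime] (T M₁ : IntermediateField ℚ_[p] (PadicAlgCl p)), T ≤ M₁ →
    FiniteDimensional ℚ_[p] M₁ → Normal ℚ_[p] M₁ → (∃ ζ ∈ T, ζ ≠ 1 ∧ ζ ^ p = 1) →
    ∀ χ : GQq p → ZMod p, IsHomOn p T χ → (∀ σ ∈ M₁.fixingSubgroup, χ σ = 0) →
      ∃ α ∈ M₁, α ≠ 0 ∧ α ^ p ∈ T ∧ ∀ σ ∈ T.fixingSubgroup, σ α = α → χ σ = 0

/-- **(LEVEL′)**: `u = α^p ∈ T`, `α ∈ T L₀`  ⇒  `u ∈ (1 + p 𝒪_T) · T^{×p}`. -/
def StmtLevPrime : Prop :=
  ∀ (p : ℕ) [Fact p.Prime], p ≠ 2 → ∀ (M : Type) [AddCommGroup M] [Finite M]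
    (act : GQ → M → M)
    (H : Subalgebra (ratLocalizedAt p) (M → AlgebraicClosure ℚ)),
    IsHopfLattice (ratLocalizedAt p) act H → (∀ m : M, p • m = 0) →
    ∀ T : IntermediateField ℚ_[p] (PadicAlgCl p), IsGoodField p T →
    ∀ α : PadicAlgCl p, α ≠ 0 → α ∈ T ⊔ lvCoordField p H → α ^ p ∈ T →
      ∃ c ∈ T, ∃ t ∈ T, ‖c‖ ≤ 1 ∧ t ≠ 0 ∧ α ^ p = (1 + (p : PadicAlgCl p) * c) * t ^ p

/-- **TOWER**: for `T`, `L₀` finite normal over `ℚ_p` there are `K ≤ T'`, `T ≤ T'`, with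
`K/ℚ_p` unramified, `T'/K` and `T' L₀/T'` totally ramified, `T'/T` unramified, `T'/ℚ_p` finite
normal, and the residue field of `T'` has more than `p ^ [L₀ : ℚ_p]` elements. -/
def StmtLvTower : Prop :=
  ∀ (p : ℕ) [Fact p.Prime] (T L₀ : IntermediateField ℚ_[p] (PadicAlgCl p)),
    FiniteDimensional ℚ_[p] T → Normal ℚ_[p] T →
    FiniteDimensional ℚ_[p] L₀ → Normal ℚ_[p] L₀ →
    ∃ (K T' : IntermediateField ℚ_[p] (PadicAlgCl p)) (_ : FiniteDimensional ℚ_[p] T')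
      (hTT' : T ≤ T'), K ≤ T' ∧ Normal ℚ_[p] T' ∧
      IsUnif p (((p : ℕ) : ℚ_[p]) • (1 : K)) ∧
      (∃ π : T', IsUnif p π ∧ wv p π = wv p (((p : ℕ) : ℚ_[p]) • (1 : K)) ∧
        ∃ π' : ↥(T' ⊔ L₀), IsUnif p π' ∧ wv p π' = wv p π) ∧
      (∃ π : T, IsUnif p π ∧ IsUnif p (IntermediateField.inclusion hTT' π)) ∧
      p ^ Module.finrank ℚ_[p] L₀ < Nat.card (ResidueField (UE.OV p stmtWAdd T'))

/-- The final assembly of chain A. -/
theorem stmtLev_of (hD : StmtLvDict) (hK : StmtLvKum) (hL : StmtLevPrime) : StmtLev := by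
  intro p _ hp2 M _ _ act H hH hpM T hT χ hχ hχM τ hτ
  obtain ⟨hfin, hnor, htriv⟩ := hD p M act H hH
  haveI := hfin
  haveI := hnor
  haveI := hT.finite
  haveI : Normal ℚ_[p] T := hT.galois.to_normal
  have hle : T ≤ T ⊔ lvCoordField p H := le_sup_left
  have hfix : ∀ σ ∈ (T ⊔ lvCoordField p H).fixingSubgroup, χ σ = 0 := by
    intro σ hσ
    have h1 : σ ∈ T.fixingSubgroup :=
      IntermediateField.fixingSubgroup_antitone hle hσ
    have h2 : σ ∈ (lvCoordField p H).fixingSubgroup :=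
      IntermediateField.fixingSubgroup_antitone le_sup_right hσ
    exact hχM σ h1 (htriv σ h2)
  obtain ⟨α, hαM, hα0, hαT, hαχ⟩ := hK p T (T ⊔ lvCoordField p H) hle inferInstance
    inferInstance hT.zeta χ hχ hfix
  obtain ⟨c, hcT, t, htT, hc1, ht0, hu⟩ := hL p hp2 M act H hH hpM T hT α hα0 hαM hαT
  have hτT : τ ∈ T.fixingSubgroup := hτ.1
  have hτt : τ t = t := by
    have := (IntermediateField.mem_fixingSubgroup_iff T τ).1 hτT t htT
    simpa using this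
  -- β = α / t
  have hβp : (α / t) ^ p = 1 + (p : PadicAlgCl p) * c := by
    rw [div_pow, hu, mul_div_assoc, div_self (pow_ne_zero p ht0), mul_one]
  have hβT : (α / t) ^ p ∈ T := by
    rw [hβp]
    exact add_mem (one_mem _) (mul_mem (natCast_mem _ p) hcT)
  have hβn : ‖(α / t) ^ p - 1‖ ≤ ‖(p : PadicAlgCl p)‖ := by
    rw [hβp, add_sub_cancel_left, norm_mul]
    calc ‖(p : PadicAlgCl p)‖ * ‖c‖ ≤ ‖(p : PadicAlgCl p)‖ * 1 :=
          mul_le_mul_of_nonneg_left hc1 (norm_nonneg _)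
      _ = ‖(p : PadicAlgCl p)‖ := mul_one _
  have hτβ : τ (α / t) = α / t := hτ.2 (α / t) hβT hβn
  have hτα : τ α = α := by
    have h1 : α = (α / t) * t := by rw [div_mul_cancel₀ _ ht0]
    calc τ α = τ ((α / t) * t) := by rw [← h1]
      _ = τ (α / t) * τ t := map_mul _ _ _
      _ = (α / t) * t := by rw [hτβ, hτt]
      _ = α := h1.symm
  exact hαχ τ hτT hτα

end Fermat.Agent.TW.W
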