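/-
TW-W chain A (helper57): ASSEMBLY of (LEVEL′):
`stmtLevPrime_of : StmtLvDict → StmtLvTower → StmtLevPrime`
from the field-level (LEVEL) `twlf_level`, the descent `twlf_desc` and (P_m) `tww_pm_field`.
-/
import Fermat.Agent.TW.W.LevelPlan
import Fermat.Agent.TW.W.LevelField
import Fermat.Agent.TW.W.LevelDesc
import Fermat.Agent.TW.W.PmDict

set_option autoImplicit false
set_option linter.unusedSectionVars false
set_option linter.style.haveILetI false

noncomputable section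

namespace Fermat.Agent.TW.W

open Fermat.Agent.PT Fermat.Agent.PT.B Fermat.Agent.PT.L Fermat.Agent.W1 GaloisRep IsLocalRing

section Incl

variable (p : ℕ) [Fact p.Prime] {E F : IntermediateField ℚ_[p] (PadicAlgCl p)}

/-- the algebra structure of an inclusion of intermediate fields -/
@[reducible] def twlaAlg (h : E ≤ F) : Algebra E F :=
  (IntermediateField.inclusion h).toRingHom.toAlgebra

theorem twla_tower (h : E ≤ F) :
    letI := twlaAlg p h
    IsScalarTower ℚ_[p] E F := by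
  letI := twlaAlg p h
  exact IsScalarTower.of_algebraMap_eq (fun x => rfl)

theorem twla_tower' (h : E ≤ F) :
    letI := twlaAlg p h
    IsScalarTower E F (PadicAlgCl p) := by
  letI := twlaAlg p h
  exact IsScalarTower.of_algebraMap_eq (fun x => rfl)

end Incl

section Pm

variable {p : ℕ} [Fact p.Prime] {M : Type} [AddCommGroup M] [Finite M]
  {act : (AlgebraicClosure ℚ ≃ₐ[ℚ] AlgebraicClosure ℚ) → M → M}
  {H : Subalgebra (ratLocalizedAt p) (M → AlgebraicClosure ℚ)}

/-- (P_m) for the pair `T' ⊂ T' L₀`. -/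
theorem twla_pm (hH : IsHopfLattice (ratLocalizedAt p) act H) (hpM : ∀ m : M, p • m = 0)
    (T' : IntermediateField ℚ_[p] (PadicAlgCl p)) [FiniteDimensional ℚ_[p] T']
    [FiniteDimensional ℚ_[p] (lvCoordField p H)] :
    letI := twlaAlg p (le_sup_left : T' ≤ T' ⊔ lvCoordField p H)
    haveI := twla_tower p (le_sup_left : T' ≤ T' ⊔ lvCoordField p H)
    haveI : FiniteDimensional T' ↥(T' ⊔ lvCoordField p H) :=
      FiniteDimensional.right ℚ_[p] T' _
    TwlfPm p (K := T') (L := ↥(T' ⊔ lvCoordField p H)) := by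
  letI := twlaAlg p (le_sup_left : T' ≤ T' ⊔ lvCoordField p H)
  haveI := twla_tower p (le_sup_left : T' ≤ T' ⊔ lvCoordField p H)
  haveI := twla_tower' p (le_sup_left : T' ≤ T' ⊔ lvCoordField p H)
  haveI : FiniteDimensional T' ↥(T' ⊔ lvCoordField p H) :=
    FiniteDimensional.right ℚ_[p] T' _
  intro E _ _ _ _ _ _ k hk η
  let jE : E →ₐ[T'] PadicAlgCl p := IsAlgClosed.lift
  let jE' : E →ₐ[ℚ_[p]] PadicAlgCl p := jE.restrictScalars ℚ_[p]
  have hvalL : ∀ h ∈ H, ∀ m : M, ∃ y : ↥(T' ⊔ lvCoordField p H),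
      (T' ⊔ lvCoordField p H).val y = padicEmbedding p (h m) := by
    intro h hh m
    have h1 : padicEmbedding p (h m) ∈ lvCoordField p H :=
      IntermediateField.subset_adjoin _ _ ⟨h, hh, m, rfl⟩
    exact ⟨⟨_, (le_sup_right : lvCoordField p H ≤ T' ⊔ lvCoordField p H) h1⟩, rfl⟩
  have h1 := tww_pm_field hH hpM ↥(T' ⊔ lvCoordField p H) E
    (T' ⊔ lvCoordField p H).val jE' hvalL k hk η
  have h2 : lvCoordField p H ≤ jE'.fieldRange := by
    unfold lvCoordField
    rw [IntermediateField.adjoin_le_iff]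
    rintro z ⟨h, hh, m, rfl⟩
    obtain ⟨y, hy⟩ := h1 h hh m
    exact ⟨y, hy⟩
  have h3 : T' ≤ jE'.fieldRange := by
    intro x hx
    refine ⟨algebraMap T' E ⟨x, hx⟩, ?_⟩
    show jE (algebraMap T' E ⟨x, hx⟩) = x
    rw [AlgHom.commutes]
    rfl
  have h4 : T' ⊔ lvCoordField p H ≤ jE'.fieldRange := sup_le h3 h2
  let g : ↥(T' ⊔ lvCoordField p H) →ₐ[T'] PadicAlgCl p :=
    { (T' ⊔ lvCoordField p H).val.toRingHom with
      commutes' := fun x => rfl }
  have h5 : ∀ y : ↥(T' ⊔ lvCoordField p H), g y ∈ jE.range := by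
    intro y
    obtain ⟨e, he⟩ := h4 y.2
    exact ⟨e, he⟩
  exact ⟨(AlgEquiv.ofInjective jE jE.toRingHom.injective).symm.toAlgHom.comp
    (g.codRestrict jE.range h5)⟩

end Pm

/-- **(LEVEL′)** from DICT and TOWER. -/
theorem stmtLevPrime_of (hD : StmtLvDict) (hTw : StmtLvTower) : StmtLevPrime := by
  intro p _ hp2 M _ _ act H hH hpM T hT α hα0 hαM hαT
  have hp : p.Prime := Fact.out
  obtain ⟨hfin, hnor, -⟩ := hD p M act H hH
  haveI := hfin
  haveI := hnor
  haveI := hT.finite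
  haveI : Normal ℚ_[p] T := hT.galois.to_normal
  obtain ⟨K, T', hfT', hTT', hKT', hnT', hKunif, ⟨πT', hπT', hπT'K, πM', hπM', hπM'T'⟩,
    ⟨πT, hπT, hπTT'⟩, hbig⟩ :=
    hTw p T (lvCoordField p H) inferInstance inferInstance inferInstance inferInstance
  haveI := hfT'
  haveI := hnT'
  -- instances
  letI aKT' := twlaAlg p hKT'
  haveI := twla_tower p hKT'
  haveI : FiniteDimensional ℚ_[p] K :=
    FiniteDimensional.of_injective (IntermediateField.inclusion hKT').toLinearMap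
      (IntermediateField.inclusion_injective hKT')
  haveI : FiniteDimensional K T' := FiniteDimensional.right ℚ_[p] K T'
  letI aT'M' := twlaAlg p (le_sup_left : T' ≤ T' ⊔ lvCoordField p H)
  haveI := twla_tower p (le_sup_left : T' ≤ T' ⊔ lvCoordField p H)
  haveI : FiniteDimensional T' ↥(T' ⊔ lvCoordField p H) := FiniteDimensional.right ℚ_[p] T' _
  haveI : Normal T' ↥(T' ⊔ lvCoordField p H) := Normal.tower_top_of_normal ℚ_[p] T' _
  haveI : IsGalois T' ↥(T' ⊔ lvCoordField p H) := ⟨⟩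
  letI aTT' := twlaAlg p hTT'
  haveI := twla_tower p hTT'
  haveI : FiniteDimensional T T' := FiniteDimensional.right ℚ_[p] T T'
  obtain ⟨ζ, hζT, hζ1, hζp⟩ := hT.zeta
  have hαM' : α ∈ T' ⊔ lvCoordField p H := (sup_le_sup_right hTT' _) hαM
  have hKeq : (((p : ℕ) : ℚ_[p]) • (1 : K)) = ((p : ℕ) : K) := by
    rw [Algebra.smul_def, mul_one, map_natCast]
  rw [hKeq] at hKunif hπT'K
  have hd : Module.finrank T' ↥(T' ⊔ lvCoordField p H) ≤
      Module.finrank ℚ_[p] (lvCoordField p H) := by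
    have h1 := IntermediateField.finrank_sup_le T' (lvCoordField p H)
    have h2 := Module.finrank_mul_finrank ℚ_[p] T' ↥(T' ⊔ lvCoordField p H)
    rw [← h2] at h1
    exact Nat.le_of_mul_le_mul_left h1 Module.finrank_pos
  have hu0 : α ^ p ≠ 0 := pow_ne_zero _ hα0
  obtain ⟨c', t', hc', ht', hu'⟩ := twlf_level p hp2 (K := K) (T := T')
    (M := ↥(T' ⊔ lvCoordField p H)) (ζ := ⟨ζ, hTT' hζT⟩) hKunif hπT' hπT'K hπM' hπM'T'
    (fun h => hζ1 (congrArg Subtype.val h)) (Subtype.ext hζp)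
    (Module.finrank ℚ_[p] (lvCoordField p H)) hd hbig (twla_pm hH hpM T')
    ⟨α ^ p, hTT' hαT⟩ (fun h => hu0 (congrArg Subtype.val h))
    ⟨⟨α, hαM'⟩, Subtype.ext rfl⟩
  obtain ⟨c, t, hc, ht, hu⟩ := twlf_desc p hp2 (T := T) (T' := T') (ζ := ⟨ζ, hζT⟩) hπT hπTT'
    (fun h => hζ1 (congrArg Subtype.val h)) (Subtype.ext hζp)
    ⟨α ^ p, hαT⟩ (fun h => hu0 (congrArg Subtype.val h)) ⟨c', t', hc', ht', hu'⟩
  refine ⟨c, c.2, t, t.2, ?_, fun h => ht (Subtype.ext h), ?_⟩
  · exact (tww_pmd_mem_OV_iff p T.val c).1 hc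
  · have := congrArg Subtype.val hu
    exact this

end Fermat.Agent.TW.W
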