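import Fermat.Agent.TW.W.LevelPlan

/-!
# TW-W chain A / KUM (helper64): Hilbert 90 in resolvent form

`stmtLvKum : StmtLvKum`.  `T ≤ M₁` intermediate fields of `ℚ̄_p/ℚ_p`, `M₁` finite normal,
`ζ ∈ T` a primitive `p`-th root of unity, `χ : G_p → 𝔽_p` a homomorphism on `G_T` vanishing on
`G_{M₁}`.  The Lagrange resolvent `α = Σ_g ζ^{-χ(g)} g(θ)` (sum over the `g ∈ Gal(M₁/ℚ_p)` fixing
`T`) satisfies `σ α = ζ^{χ(σ)} α` for `σ ∈ G_T`, and is `≠ 0` for a suitable `θ` (Dedekind).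
-/

set_option autoImplicit false
set_option linter.unusedSectionVars false
set_option linter.style.haveILetI false

noncomputable section

namespace Fermat.Agent.TW.W

open Fermat.Agent.PT Fermat.Agent.PT.B

section Pow

variable {K : Type} [Field K] (p : ℕ) [Fact p.Prime]

/-- `ζ ^ n` for `n : ZMod p` -/
def lvkPow (ζ : K) (n : ZMod p) : K := ζ ^ n.val

theorem lvkPow_add (ζ : K) (hζ : ζ ^ p = 1) (a b : ZMod p) :
    lvkPow p ζ (a + b) = lvkPow p ζ a * lvkPow p ζ b := by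
  unfold lvkPow
  rw [← pow_add, ZMod.val_add, ← pow_eq_pow_mod _ hζ]

theorem lvkPow_zero (ζ : K) : lvkPow p ζ 0 = 1 := by
  unfold lvkPow
  rw [ZMod.val_zero, pow_zero]

theorem lvkPow_ne_zero (ζ : K) (hζ : ζ ^ p = 1) (a : ZMod p) : lvkPow p ζ a ≠ 0 := by
  unfold lvkPow
  have h0 : ζ ≠ 0 := by
    rintro rfl
    rw [zero_pow (Fact.out : p.Prime).ne_zero] at hζ
    exact zero_ne_one hζ
  exact pow_ne_zero _ h0

theorem lvkPow_pow (ζ : K) (hζ : ζ ^ p = 1) (a : ZMod p) : (lvkPow p ζ a) ^ p = 1 := by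
  unfold lvkPow
  rw [← pow_mul, mul_comm, pow_mul, hζ, one_pow]

theorem lvkPow_eq_one (ζ : K) (hζ : ζ ^ p = 1) (hζ1 : ζ ≠ 1) (a : ZMod p)
    (h : lvkPow p ζ a = 1) : a = 0 := by
  unfold lvkPow at h
  have hord : orderOf ζ = p := orderOf_eq_prime hζ hζ1
  have hdvd : p ∣ a.val := by
    have := orderOf_dvd_of_pow_eq_one h
    rwa [hord] at this
  have hlt : a.val < p := ZMod.val_lt a
  have h0 : a.val = 0 := Nat.eq_zero_of_dvd_of_lt hdvd hlt
  exact (ZMod.val_eq_zero a).1 h0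

end Pow

/-- **KUM** -/
theorem stmtLvKum : StmtLvKum := by
  intro p _ T M₁ hTM hfin hnor hζ χ hχ hχM
  obtain ⟨ζ, hζT, hζ1, hζp⟩ := hζ
  classical
  haveI := hfin
  haveI := hnor
  haveI : IsAlgClosure ℚ_[p] (PadicAlgCl p) :=
    ⟨inferInstance, AlgebraicClosure.isAlgebraic ℚ_[p]⟩
  haveI : IsGalois ℚ_[p] (PadicAlgCl p) := inferInstance
  haveI : Fintype (M₁ ≃ₐ[ℚ_[p]] M₁) := Fintype.ofFinite _
  -- restriction to `M₁`
  have hres_surj : Function.Surjective
      (AlgEquiv.restrictNormalHom (F := ℚ_[p]) (K₁ := PadicAlgCl p) M₁) :=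
    AlgEquiv.restrictNormalHom_surjective (PadicAlgCl p)
  have hres : ∀ (σ : GQq p) (x : M₁),
      ((AlgEquiv.restrictNormalHom (F := ℚ_[p]) (K₁ := PadicAlgCl p) M₁ σ x : M₁) :
        PadicAlgCl p) = σ (x : PadicAlgCl p) :=
    fun σ x => AlgEquiv.restrictNormal_commutes σ M₁ x
  set res : GQq p →* (M₁ ≃ₐ[ℚ_[p]] M₁) :=
    AlgEquiv.restrictNormalHom (F := ℚ_[p]) (K₁ := PadicAlgCl p) M₁ with hresdef
  -- elements fixing `T`
  let FixT : (M₁ ≃ₐ[ℚ_[p]] M₁) → Prop := fun g =>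
    ∀ (t : PadicAlgCl p) (ht : t ∈ T), g ⟨t, hTM ht⟩ = ⟨t, hTM ht⟩
  have hF1 : ∀ σ ∈ T.fixingSubgroup, FixT (res σ) := by
    intro σ hσ t ht
    apply Subtype.ext
    rw [hres]
    exact (IntermediateField.mem_fixingSubgroup_iff T σ).1 hσ t ht
  have hmemT : ∀ σ : GQq p, (∀ t ∈ T, σ t = t) → σ ∈ T.fixingSubgroup :=
    fun σ h => (IntermediateField.mem_fixingSubgroup_iff T σ).2 h
  have hF2 : ∀ σ : GQq p, FixT (res σ) → σ ∈ T.fixingSubgroup := by
    intro σ h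
    apply hmemT
    intro t ht
    have := congrArg (Subtype.val) (h t ht)
    rw [hres] at this
    exact this
  -- the lift
  let lift : (M₁ ≃ₐ[ℚ_[p]] M₁) → GQq p := fun g => Classical.choose (hres_surj g)
  have hlift : ∀ g, res (lift g) = g := fun g => Classical.choose_spec (hres_surj g)
  have hχ1 : χ 1 = 0 := by
    have := hχ 1 1 (one_mem _) (one_mem _)
    rw [mul_one] at this
    exact left_eq_add.mp this
  have hχinv : ∀ σ ∈ T.fixingSubgroup, χ σ⁻¹ = - χ σ := by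
    intro σ hσ
    have := hχ σ σ⁻¹ hσ (inv_mem hσ)
    rw [mul_inv_cancel, hχ1] at this
    exact eq_neg_of_add_eq_zero_right this.symm
  -- `χ` on `Gal(M₁/ℚ_p)`
  let χ' : (M₁ ≃ₐ[ℚ_[p]] M₁) → ZMod p := fun g => χ (lift g)
  have hF3 : ∀ σ ∈ T.fixingSubgroup, χ' (res σ) = χ σ := by
    intro σ hσ
    have h1 : lift (res σ) ∈ T.fixingSubgroup := by
      apply hF2
      rw [hlift]
      exact hF1 σ hσ
    have h2 : σ⁻¹ * lift (res σ) ∈ M₁.fixingSubgroup := by
      rw [IntermediateField.mem_fixingSubgroup_iff]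
      intro x hx
      have h3 : lift (res σ) x = σ x := by
        have := hres (lift (res σ)) ⟨x, hx⟩
        rw [hlift, hres] at this
        exact this.symm
      show σ⁻¹ (lift (res σ) x) = x
      rw [h3]
      show (σ⁻¹ * σ) x = x
      rw [inv_mul_cancel]
      rfl
    have h4 : lift (res σ) = σ * (σ⁻¹ * lift (res σ)) := by
      rw [← mul_assoc, mul_inv_cancel, one_mul]
    show χ (lift (res σ)) = χ σ
    rw [h4, hχ σ _ hσ (mul_mem (inv_mem hσ) h1), hχM _ h2, add_zero]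
  -- the coefficients
  let ζ₁ : M₁ := ⟨ζ, hTM hζT⟩
  have hζ₁p : ζ₁ ^ p = 1 := Subtype.ext (by simpa using hζp)
  have hζ₁1 : ζ₁ ≠ 1 := fun h => hζ1 (congrArg Subtype.val h)
  let c : (M₁ ≃ₐ[ℚ_[p]] M₁) → M₁ := fun g => if FixT g then lvkPow p ζ₁ (- χ' g) else 0
  have hc1 : c 1 ≠ 0 := by
    have : FixT 1 := fun t ht => rfl
    show (if FixT 1 then lvkPow p ζ₁ (- χ' 1) else 0) ≠ 0
    rw [if_pos this]
    exact lvkPow_ne_zero p ζ₁ hζ₁p _
  -- Dedekind
  have hind : LinearIndependent M₁ (fun g : (M₁ ≃ₐ[ℚ_[p]] M₁) => ((g : M₁ →* M₁) : M₁ → M₁)) := by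
    have h0 := linearIndependent_monoidHom M₁ M₁
    refine h0.comp (fun g : (M₁ ≃ₐ[ℚ_[p]] M₁) => (g : M₁ →* M₁)) ?_
    intro g g' hgg'
    apply AlgEquiv.ext
    intro x
    exact DFunLike.congr_fun hgg' x
  obtain ⟨θ, hθ⟩ : ∃ θ : M₁, (∑ g : (M₁ ≃ₐ[ℚ_[p]] M₁), c g * g θ) ≠ 0 := by
    by_contra hcon
    have hall : ∀ θ : M₁, (∑ g : (M₁ ≃ₐ[ℚ_[p]] M₁), c g * g θ) = 0 := by
      intro θ
      by_contra h
      exact hcon ⟨θ, h⟩
    have hsum : (∑ g : (M₁ ≃ₐ[ℚ_[p]] M₁), c g • ((g : M₁ →* M₁) : M₁ → M₁)) = 0 := by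
      funext θ
      rw [Finset.sum_apply]
      simpa using hall θ
    exact hc1 (Fintype.linearIndependent_iff.1 hind c hsum 1)
  set R : M₁ := ∑ g : (M₁ ≃ₐ[ℚ_[p]] M₁), c g * g θ with hR
  -- the twist
  have hFixmul : ∀ h g, FixT h → FixT g → FixT (h * g) := by
    intro h g hh hg t ht
    show h (g ⟨t, hTM ht⟩) = _
    rw [hg t ht, hh t ht]
  have hFixinv : ∀ h, FixT h → FixT h⁻¹ := by
    intro h hh t ht
    have := hh t ht
    calc h⁻¹ ⟨t, hTM ht⟩ = h⁻¹ (h ⟨t, hTM ht⟩) := by rw [this]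
      _ = (h⁻¹ * h) ⟨t, hTM ht⟩ := rfl
      _ = ⟨t, hTM ht⟩ := by rw [inv_mul_cancel]; rfl
  have hcfix : ∀ h g, FixT h → h (c g) = c g := by
    intro h g hh
    show h (if FixT g then lvkPow p ζ₁ (- χ' g) else 0) =
      (if FixT g then lvkPow p ζ₁ (- χ' g) else 0)
    by_cases hg : FixT g
    · rw [if_pos hg]
      unfold lvkPow
      rw [map_pow]
      have : h ζ₁ = ζ₁ := hh ζ hζT
      rw [this]
    · rw [if_neg hg]
      exact map_zero h
  have htwist : ∀ τ ∈ T.fixingSubgroup, res τ R = lvkPow p ζ₁ (χ τ) * R := by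
    intro τ hτ
    have hh := hF1 τ hτ
    rw [hR, map_sum, Finset.mul_sum]
    have h1 : ∀ g, res τ (c g * g θ) = c g * (res τ * g) θ := by
      intro g
      rw [map_mul, hcfix _ g hh]
      rfl
    simp only [h1]
    rw [← Equiv.sum_comp (Equiv.mulLeft (res τ))
      (fun g => lvkPow p ζ₁ (χ τ) * (c g * g θ))]
    refine Finset.sum_congr rfl (fun g _ => ?_)
    show c g * (res τ * g) θ = lvkPow p ζ₁ (χ τ) * (c (res τ * g) * (res τ * g) θ)
    have h2 : c g = lvkPow p ζ₁ (χ τ) * c (res τ * g) := by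
      show (if FixT g then lvkPow p ζ₁ (- χ' g) else 0) =
        lvkPow p ζ₁ (χ τ) * (if FixT (res τ * g) then lvkPow p ζ₁ (- χ' (res τ * g)) else 0)
      by_cases hg : FixT g
      · have hg' : FixT (res τ * g) := hFixmul _ _ hh hg
        rw [if_pos hg, if_pos hg', ← lvkPow_add p ζ₁ hζ₁p]
        congr 1
        -- `χ' (res τ * g) = χ τ + χ' g`
        have h3 : lift g ∈ T.fixingSubgroup := by
          apply hF2
          rw [hlift]
          exact hg
        have h4 : χ' (res τ * g) = χ τ + χ' g := by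
          have h5 : res τ * g = res (τ * lift g) := by
            rw [map_mul, hlift]
          rw [h5, hF3 _ (mul_mem hτ h3), hχ τ _ hτ h3]
        rw [h4]
        ring
      · have hg' : ¬ FixT (res τ * g) := by
          intro hcon
          apply hg
          have := hFixmul _ _ (hFixinv _ hh) hcon
          rwa [← mul_assoc, inv_mul_cancel, one_mul] at this
        rw [if_neg hg, if_neg hg', mul_zero]
    rw [h2]
    ring
  -- conclusion
  have hR0 : R ≠ 0 := hθ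
  have hσα : ∀ σ ∈ T.fixingSubgroup,
      σ (R : PadicAlgCl p) = ((lvkPow p ζ₁ (χ σ) : M₁) : PadicAlgCl p) * (R : PadicAlgCl p) := by
    intro σ hσ
    rw [← hres σ R, htwist σ hσ]
    rfl
  refine ⟨(R : PadicAlgCl p), R.2, fun h => hR0 (Subtype.ext h), ?_, ?_⟩
  · -- `α ^ p ∈ T`
    have hfix : (R : PadicAlgCl p) ^ p ∈ IntermediateField.fixedField T.fixingSubgroup := by
      rw [IntermediateField.mem_fixedField_iff]
      intro σ hσ
      rw [map_pow, hσα σ hσ, mul_pow]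
      have : (((lvkPow p ζ₁ (χ σ) : M₁) : PadicAlgCl p)) ^ p = 1 := by
        have := congrArg (Subtype.val) (lvkPow_pow p ζ₁ hζ₁p (χ σ))
        simpa using this
      rw [this, one_mul]
    rwa [InfiniteGalois.fixedField_fixingSubgroup] at hfix
  · intro σ hσ hfixα
    have h1 := hσα σ hσ
    rw [hfixα] at h1
    have hR0' : (R : PadicAlgCl p) ≠ 0 := fun h => hR0 (Subtype.ext h)
    have h2 : ((lvkPow p ζ₁ (χ σ) : M₁) : PadicAlgCl p) = 1 := by
      have h3 : (1 : PadicAlgCl p) * (R : PadicAlgCl p) =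
          ((lvkPow p ζ₁ (χ σ) : M₁) : PadicAlgCl p) * (R : PadicAlgCl p) := by
        rw [one_mul]
        exact h1
      exact (mul_right_cancel₀ hR0' h3).symm
    have h4 : lvkPow p ζ₁ (χ σ) = 1 := Subtype.ext h2
    exact lvkPow_eq_one p ζ₁ hζ₁p hζ₁1 _ h4

end Fermat.Agent.TW.W

end
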