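/-
TW-W chain A, TOWER (helper57): INTERFACE + ASSEMBLY.

`StmtLvTower` (LevelPlan.lean) ⇐
* `StmtLvtCyc`     : an unramified finite normal `U/ℚ_p` (`U = ℚ_p(ζ_m)`, `m = p^(d+1) - 1`) such that
                     every finite `T' ⊇ U` has a residue field with more than `p^d` elements;
* `StmtLvtInertia` : the maximal unramified subextension `K` of a finite normal `F/ℚ_p`
                     (fixed field of the inertial automorphisms): `p` is a uniformiser of `K`,
                     `F/K` is totally ramified, `K` is normal and contains every unramified normal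
                     `U ≤ F`;
* `StmtLvtMid`     : `K ≤ N ≤ F`, `N`, `F` normal over `ℚ_p`, `F/K` totally ramified ⇒ `N/K` totally
                     ramified;
* `StmtLvtUnr`     : `K/ℚ_p` normal with uniformiser `p`, `T/ℚ_p` normal ⇒ a uniformiser of `T` is
                     a uniformiser of `T ⊔ K`.
-/
import Fermat.Agent.TW.W.LevelPlan

set_option autoImplicit false
set_option linter.unusedSectionVars false
set_option linter.style.haveILetI false

noncomputable section

namespace Fermat.Agent.TW.W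

open Fermat.Agent.PT Fermat.Agent.PT.B Fermat.Agent.PT.L IsLocalRing

/-- **CYC**: an unramified normal extension with large residue field. -/
def StmtLvtCyc : Prop :=
  ∀ (p : ℕ) [Fact p.Prime] (d : ℕ),
    ∃ (U : IntermediateField ℚ_[p] (PadicAlgCl p)) (_ : FiniteDimensional ℚ_[p] U),
      Normal ℚ_[p] U ∧ IsUnram p ℚ_[p] U ∧
      ∀ (T' : IntermediateField ℚ_[p] (PadicAlgCl p)) (_ : FiniteDimensional ℚ_[p] T'),
        U ≤ T' → p ^ d < Nat.card (ResidueField (UE.OV p stmtWAdd T'))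

/-- **INERTIA**: the maximal unramified subextension of a finite normal extension. -/
def StmtLvtInertia : Prop :=
  ∀ (p : ℕ) [Fact p.Prime] (F : IntermediateField ℚ_[p] (PadicAlgCl p)),
    FiniteDimensional ℚ_[p] F → Normal ℚ_[p] F →
    ∃ K : IntermediateField ℚ_[p] (PadicAlgCl p), K ≤ F ∧ Normal ℚ_[p] K ∧
      IsUnif p ((p : ℕ) : K) ∧ (∃ π : F, IsUnif p π ∧ wv p π = wv p ((p : ℕ) : K)) ∧
      ∀ U : IntermediateField ℚ_[p] (PadicAlgCl p), U ≤ F → Normal ℚ_[p] U →
        IsUnram p ℚ_[p] U → U ≤ K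

/-- **MID**: intermediate fields of a totally ramified extension. -/
def StmtLvtMid : Prop :=
  ∀ (p : ℕ) [Fact p.Prime] (K N F : IntermediateField ℚ_[p] (PadicAlgCl p)), K ≤ N → N ≤ F →
    FiniteDimensional ℚ_[p] F → Normal ℚ_[p] N → Normal ℚ_[p] F →
    ∀ (πK : K) (πF : F), IsUnif p πK → IsUnif p πF → wv p πF = wv p πK →
      ∃ πN : N, IsUnif p πN ∧ wv p πN = wv p πK

/-- **UNR**: the compositum with an unramified extension is unramified. -/
def StmtLvtUnr : Prop :=
  ∀ (p : ℕ) [Fact p.Prime] (T K : IntermediateField ℚ_[p] (PadicAlgCl p)),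
    FiniteDimensional ℚ_[p] T → Normal ℚ_[p] T → FiniteDimensional ℚ_[p] K → Normal ℚ_[p] K →
    IsUnif p ((p : ℕ) : K) →
    ∃ π : T, IsUnif p π ∧ IsUnif p (IntermediateField.inclusion (le_sup_left : T ≤ T ⊔ K) π)

/-- the assembly of TOWER -/
theorem stmtLvTower_of (hC : StmtLvtCyc) (hI : StmtLvtInertia) (hM : StmtLvtMid)
    (hU : StmtLvtUnr) : StmtLvTower := by
  intro p _ T L₀ hTf hTn hLf hLn
  haveI := hTf
  haveI := hTn
  haveI := hLf
  haveI := hLn
  obtain ⟨U, hUf, hUn, hUu, hbig⟩ := hC p (Module.finrank ℚ_[p] L₀)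
  haveI := hUf
  haveI := hUn
  -- the big field
  obtain ⟨K, hKF, hKn, hKu, ⟨πF, hπF, hπFK⟩, hmax⟩ := hI p (T ⊔ L₀ ⊔ U) inferInstance inferInstance
  haveI := hKn
  have hUK : U ≤ K := hmax U le_sup_right hUn hUu
  haveI hKf : FiniteDimensional ℚ_[p] K :=
    FiniteDimensional.of_injective (IntermediateField.inclusion hKF).toLinearMap
      (IntermediateField.inclusion_injective hKF)
  have hTF : T ≤ T ⊔ L₀ ⊔ U := le_sup_left.trans le_sup_left
  have hLF : L₀ ≤ T ⊔ L₀ ⊔ U := le_sup_right.trans le_sup_left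
  have hT'F : T ⊔ K ≤ T ⊔ L₀ ⊔ U := sup_le hTF hKF
  have hM'F : T ⊔ K ⊔ L₀ ≤ T ⊔ L₀ ⊔ U := sup_le hT'F hLF
  have hKeq : (((p : ℕ) : ℚ_[p]) • (1 : K)) = ((p : ℕ) : K) := by
    rw [Algebra.smul_def, mul_one, map_natCast]
  obtain ⟨πT', hπT', hπT'K⟩ := hM p K (T ⊔ K) (T ⊔ L₀ ⊔ U) le_sup_right hT'F inferInstance
    inferInstance inferInstance _ πF hKu hπF hπFK
  obtain ⟨πM', hπM', hπM'K⟩ := hM p K (T ⊔ K ⊔ L₀) (T ⊔ L₀ ⊔ U)
    (le_sup_right.trans le_sup_left) hM'F inferInstance inferInstance inferInstance _ πF hKu hπF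
    hπFK
  refine ⟨K, T ⊔ K, inferInstance, le_sup_left, le_sup_right, inferInstance, ?_, ?_, ?_, ?_⟩
  · rw [hKeq]
    exact hKu
  · rw [hKeq]
    exact ⟨πT', hπT', hπT'K, πM', hπM', hπM'K.trans hπT'K.symm⟩
  · exact hU p T K inferInstance inferInstance inferInstance inferInstance hKu
  · exact hbig (T ⊔ K) inferInstance (hUK.trans le_sup_right)

end Fermat.Agent.TW.W
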