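/-
TW-W chain A, TOWER piece CYC (helper64): `stmtLvtCyc : StmtLvtCyc`.

`U := ℚ_p(ζ)`, `ζ` a primitive `m`-th root of unity, `m = p^(d+1) - 1`: finite, normal, unramified
(`gbq_isUnram`), and in every finite `T' ⊇ U` the `m + 1` elements `0, 1, ζ, …, ζ^(m-1)` have
pairwise distinct residues.
-/
import Fermat.Agent.TW.W.LvTowerPlan
import Fermat.Agent.PT.G3.GBLocNormQUnram
import Fermat.Agent.PT.L.FiniteQuotFinal

set_option autoImplicit false
set_option linter.unusedSectionVars false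
set_option linter.style.haveILetI false

noncomputable section

namespace Fermat.Agent.TW.W

open Fermat.Agent.PT Fermat.Agent.PT.B Fermat.Agent.PT.L Fermat.Agent.PT.G3 IsLocalRing Polynomial

section

variable (p : ℕ) [Fact p.Prime]

/-- the residue field of a finite extension of `ℚ_p` containing a primitive `m`-th root of unity,
`p ∤ m`, has at least `m + 1` elements -/
theorem lvtc_card_residue {F : Type} [Field F] [Algebra ℚ_[p] F] [FiniteDimensional ℚ_[p] F]
    {m : ℕ} (hm : m ≠ 0) (hpm : ¬ p ∣ m) (ζ : F) (hζ : IsPrimitiveRoot ζ m) :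
    m + 1 ≤ Nat.card (ResidueField (UE.OV p stmtWAdd F)) := by
  classical
  haveI := UE.finite_residueField p stmtWAdd (X := F) stmtWFinite
  have hζm : ζ ^ m = 1 := hζ.pow_eq_one
  let t : UE.OV p stmtWAdd F := ⟨ζ, gbq_mem_OV_of_pow_eq_one p hm hζm⟩
  have htm : t ^ m = 1 := Subtype.ext hζm
  have hunit : ∀ i : ℕ, residue (UE.OV p stmtWAdd F) (t ^ i) ≠ 0 := by
    intro i h
    have h1 : residue (UE.OV p stmtWAdd F) (t ^ i) ^ m = 1 := by
      rw [← map_pow, ← pow_mul, mul_comm, pow_mul, htm, one_pow, map_one]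
    rw [h, zero_pow hm] at h1
    exact zero_ne_one h1
  have hkey : ∀ i j : ℕ, i ≤ j → j < m →
      residue (UE.OV p stmtWAdd F) (t ^ i) = residue (UE.OV p stmtWAdd F) (t ^ j) → i = j := by
    intro i j hij hjm h
    have h1 : t ^ j = t ^ i * t ^ (j - i) := by
      rw [← pow_add, Nat.add_sub_cancel' hij]
    rw [h1, map_mul] at h
    have h2 : residue (UE.OV p stmtWAdd F) (t ^ (j - i)) = 1 := by
      have h3 := mul_left_cancel₀ (hunit i) ((mul_one _).trans h)
      exact h3.symm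
    have h4 : t ^ (j - i) = 1 :=
      gbq_eq_one_of_residue_eq_one p hm hpm (t ^ (j - i))
        (by rw [← pow_mul, mul_comm, pow_mul, htm, one_pow]) h2
    have h5 : ζ ^ (j - i) = 1 := by
      have := congrArg Subtype.val h4
      simpa [t] using this
    have h6 : m ∣ j - i := (hζ.pow_eq_one_iff_dvd _).1 h5
    have h7 : j - i = 0 := Nat.eq_zero_of_dvd_of_lt h6 (by omega)
    omega
  let f : Option (Fin m) → ResidueField (UE.OV p stmtWAdd F) := fun o =>
    match o with
    | none => 0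
    | some i => residue (UE.OV p stmtWAdd F) (t ^ (i : ℕ))
  have hinj : Function.Injective f := by
    intro a b hab
    cases a with
    | none =>
      cases b with
      | none => rfl
      | some j => exact absurd hab.symm (hunit j)
    | some i =>
      cases b with
      | none => exact absurd hab (hunit i)
      | some j =>
        have hab' : residue (UE.OV p stmtWAdd F) (t ^ (i : ℕ)) =
            residue (UE.OV p stmtWAdd F) (t ^ (j : ℕ)) := hab
        rcases le_total (i : ℕ) (j : ℕ) with h | h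
        · have := hkey i j h j.2 hab'
          exact congrArg some (Fin.ext this)
        · have := hkey j i h i.2 hab'.symm
          exact congrArg some (Fin.ext this.symm)
  have hcard := Nat.card_le_card_of_injective f hinj
  have h0 : Nat.card (Option (Fin m)) = m + 1 := by
    rw [Nat.card_eq_fintype_card, Fintype.card_option, Fintype.card_fin]
  rwa [h0] at hcard

/-- every element of `ℚ_p(ζ)` is a polynomial in `ζ` -/
theorem lvtc_gen (ζ : PadicAlgCl p) (hint : IsIntegral ℚ_[p] ζ)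
    (y : IntermediateField.adjoin ℚ_[p] ({ζ} : Set (PadicAlgCl p))) :
    ∃ P : ℚ_[p][X], eval₂ (algebraMap ℚ_[p] (IntermediateField.adjoin ℚ_[p]
      ({ζ} : Set (PadicAlgCl p))))
      (⟨ζ, IntermediateField.mem_adjoin_simple_self ℚ_[p] ζ⟩ :
        IntermediateField.adjoin ℚ_[p] ({ζ} : Set (PadicAlgCl p))) P = y := by
  have h1 : (y : PadicAlgCl p) ∈ (IntermediateField.adjoin ℚ_[p]
      ({ζ} : Set (PadicAlgCl p))).toSubalgebra := y.2
  rw [IntermediateField.adjoin_simple_toSubalgebra_of_isAlgebraic hint.isAlgebraic,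
    Algebra.adjoin_singleton_eq_range_aeval] at h1
  obtain ⟨P, hP⟩ := h1
  refine ⟨P, ?_⟩
  apply Subtype.ext
  have h2 := Polynomial.aeval_algHom_apply
    (IntermediateField.adjoin ℚ_[p] ({ζ} : Set (PadicAlgCl p))).val
    (⟨ζ, IntermediateField.mem_adjoin_simple_self ℚ_[p] ζ⟩ :
        IntermediateField.adjoin ℚ_[p] ({ζ} : Set (PadicAlgCl p))) P
  have h3 : ((IntermediateField.adjoin ℚ_[p] ({ζ} : Set (PadicAlgCl p))).val
      (aeval (⟨ζ, IntermediateField.mem_adjoin_simple_self ℚ_[p] ζ⟩ :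
        IntermediateField.adjoin ℚ_[p] ({ζ} : Set (PadicAlgCl p))) P)) = aeval ζ P := h2.symm
  exact h3.trans hP

end

/-- **CYC** -/
theorem stmtLvtCyc : StmtLvtCyc := by
  intro p _ d
  classical
  have hp : p.Prime := Fact.out
  haveI : Algebra.IsAlgebraic ℚ_[p] (PadicAlgCl p) := AlgebraicClosure.isAlgebraic ℚ_[p]
  haveI : IsAlgClosure ℚ_[p] (PadicAlgCl p) := ⟨inferInstance, inferInstance⟩
  haveI : Normal ℚ_[p] (PadicAlgCl p) := IsAlgClosure.normal ℚ_[p] (PadicAlgCl p)
  have hpow : 2 ≤ p ^ (d + 1) :=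
    hp.two_le.trans (Nat.le_self_pow (Nat.succ_ne_zero d) p)
  obtain ⟨m, hm1⟩ : ∃ m : ℕ, m + 1 = p ^ (d + 1) := ⟨p ^ (d + 1) - 1, by omega⟩
  have hm0 : m ≠ 0 := by omega
  have hpm : ¬ p ∣ m := by
    intro h
    have h1 : p ∣ m + 1 := by
      rw [hm1]
      exact dvd_pow_self p (Nat.succ_ne_zero d)
    have h2 : p ∣ 1 := (Nat.dvd_add_right h).1 h1
    exact hp.one_lt.ne' (Nat.dvd_one.1 h2)
  haveI : NeZero ((m : ℕ) : ℚ_[p]) := ⟨by exact_mod_cast hm0⟩
  haveI : NeZero m := ⟨hm0⟩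
  obtain ⟨ζ, hζ⟩ := HasEnoughRootsOfUnity.exists_primitiveRoot (PadicAlgCl p) m
  have hint : IsIntegral ℚ_[p] ζ := Algebra.IsIntegral.isIntegral ζ
  have hζU : ζ ∈ IntermediateField.adjoin ℚ_[p] ({ζ} : Set (PadicAlgCl p)) :=
    IntermediateField.mem_adjoin_simple_self ℚ_[p] ζ
  haveI hfin : FiniteDimensional ℚ_[p] (IntermediateField.adjoin ℚ_[p]
      ({ζ} : Set (PadicAlgCl p))) := IntermediateField.adjoin.finiteDimensional hint
  have hnor : Normal ℚ_[p] (IntermediateField.adjoin ℚ_[p] ({ζ} : Set (PadicAlgCl p))) := by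
    rw [IntermediateField.normal_iff_forall_map_le']
    intro σ
    rw [IntermediateField.adjoin_map, IntermediateField.adjoin_le_iff]
    rintro _ ⟨z, hz, rfl⟩
    rw [Set.mem_singleton_iff] at hz
    subst hz
    have h1 : (σ z) ^ m = 1 := by
      rw [← map_pow, hζ.pow_eq_one, map_one]
    obtain ⟨i, -, hi⟩ := hζ.eq_pow_of_pow_eq_one h1
    have h2 : z ^ i ∈ IntermediateField.adjoin ℚ_[p] ({z} : Set (PadicAlgCl p)) :=
      pow_mem hζU i
    rw [hi] at h2
    exact h2
  haveI := hnor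
  haveI : IsGalois ℚ_[p] (IntermediateField.adjoin ℚ_[p] ({ζ} : Set (PadicAlgCl p))) := ⟨⟩
  refine ⟨IntermediateField.adjoin ℚ_[p] ({ζ} : Set (PadicAlgCl p)), hfin, hnor, ?_, ?_⟩
  · exact gbq_isUnram p hm0 hpm
      (⟨ζ, hζU⟩ : IntermediateField.adjoin ℚ_[p] ({ζ} : Set (PadicAlgCl p)))
      (Subtype.ext hζ.pow_eq_one) (lvtc_gen p ζ hint)
  · intro T' hT' hUT'
    haveI := hT'
    have hζT' : IsPrimitiveRoot (⟨ζ, hUT' hζU⟩ : T') m := by
      have h1 : IsPrimitiveRoot (T'.val (⟨ζ, hUT' hζU⟩ : T')) m := hζ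
      exact IsPrimitiveRoot.of_map_of_injective (f := T'.val) h1 T'.val.toRingHom.injective
    have h1 := lvtc_card_residue p hm0 hpm (⟨ζ, hUT' hζU⟩ : T') hζT'
    have h2 : p ^ d < p ^ (d + 1) := Nat.pow_lt_pow_right hp.one_lt (Nat.lt_succ_self d)
    omega

end Fermat.Agent.TW.W
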