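/-
TW-W chain A, TOWER / MID (helper57): `K ≤ N ≤ F` intermediate fields of `ℚ̄_p`, `N`, `F` finite
normal over `ℚ_p`, `F/K` totally ramified (`wv π_F = wv π_K`)  ⇒  `N/K` totally ramified.
-/
import Fermat.Agent.TW.W.LvTowerPlan
import Fermat.Agent.TW.W.LevelAsm
import Fermat.Agent.PT.L.Res

set_option autoImplicit false
set_option linter.unusedSectionVars false
set_option linter.style.haveILetI false

noncomputable section

namespace Fermat.Agent.TW.W

open Fermat.Agent.PT Fermat.Agent.PT.B Fermat.Agent.PT.L IsLocalRing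

section Gal

variable (p : ℕ) [Fact p.Prime] {E F : IntermediateField ℚ_[p] (PadicAlgCl p)}

/-- a subfield of a finite extension is finite -/
theorem lvt_finite_of_le (h : E ≤ F) [FiniteDimensional ℚ_[p] F] : FiniteDimensional ℚ_[p] E :=
  FiniteDimensional.of_injective (IntermediateField.inclusion h).toLinearMap
    (IntermediateField.inclusion_injective h)

/-- `F/E` is Galois when `F/ℚ_p` is normal -/
theorem lvt_isGalois (h : E ≤ F) [Normal ℚ_[p] F] :
    letI := twlaAlg p h
    IsGalois E F := by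
  letI := twlaAlg p h
  haveI := twla_tower p h
  haveI : Normal E F := Normal.tower_top_of_normal ℚ_[p] E F
  exact ⟨⟩

end Gal

theorem stmtLvtMid : StmtLvtMid := by
  intro p _ K N F hKN hNF hFf hNn hFn πK πF hπK hπF hFK
  haveI := hFf
  haveI := hNn
  haveI := hFn
  haveI hNf : FiniteDimensional ℚ_[p] N := lvt_finite_of_le p hNF
  haveI hKf : FiniteDimensional ℚ_[p] K := lvt_finite_of_le p hKN
  obtain ⟨πN, hπN⟩ := stmtWUnif p N
  -- `N/K`
  letI a₂ := twlaAlg p hKN
  haveI := twla_tower p hKN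
  haveI : FiniteDimensional K N := FiniteDimensional.right ℚ_[p] K N
  haveI := lvt_isGalois p hKN
  obtain ⟨C₂, _, _, ρ₂, -, -, hc₂⟩ := stmtRes p K N
  have h2 := hc₂ πK πN hπK hπN
  -- `F/N`
  letI a₁ := twlaAlg p hNF
  haveI := twla_tower p hNF
  haveI : FiniteDimensional N F := FiniteDimensional.right ℚ_[p] N F
  haveI := lvt_isGalois p hNF
  obtain ⟨C₁, _, _, ρ₁, -, -, hc₁⟩ := stmtRes p N F
  have h1 := hc₁ πN πF hπN hπF
  refine ⟨πN, hπN, ?_⟩
  have hK0 : 0 < wv p πK := hπK.2.1
  have hN0 : 0 < wv p πN := hπN.2.1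
  have hc1 : (0 : ℤ) ≤ Nat.card C₁ := by positivity
  have hc2 : (0 : ℤ) ≤ Nat.card C₂ := by positivity
  have hc1' : (1 : ℤ) ≤ Nat.card C₁ := by
    by_contra hcon
    have : (Nat.card C₁ : ℤ) = 0 := by omega
    rw [this, zero_mul] at h1
    have := hπF.2.1
    omega
  have hc2' : (1 : ℤ) ≤ Nat.card C₂ := by
    by_contra hcon
    have : (Nat.card C₂ : ℤ) = 0 := by omega
    rw [this, zero_mul] at h2
    omega
  -- `wv πK ≤ wv πN ≤ wv πF = wv πK`
  have h3 : wv p πK ≤ wv p πN := by nlinarith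
  have h4 : wv p πN ≤ wv p πF := by nlinarith
  omega

end Fermat.Agent.TW.W
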