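/-
TW-W chain A, TOWER piece UNR (helper64): `stmtLvtUnr : StmtLvtUnr`.

`K/ℚ_p` finite normal with uniformiser `p` (so unramified), `T/ℚ_p` finite normal.  An inertial
automorphism of `T ⊔ K` over `T` restricts to an inertial automorphism of `K/ℚ_p`, which is
trivial; so it is trivial, `T ⊔ K / T` is unramified and a uniformiser of `T` stays a uniformiser.
-/
import Fermat.Agent.TW.W.LvTowerPlan
import Fermat.Agent.TW.W.LevelAsm
import Fermat.Agent.PT.L.CompositumNorm
import Fermat.Agent.PT.L.Res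

set_option autoImplicit false
set_option linter.unusedSectionVars false
set_option linter.style.haveILetI false

noncomputable section

namespace Fermat.Agent.TW.W

open Fermat.Agent.PT Fermat.Agent.PT.B Fermat.Agent.PT.L IsLocalRing

section

variable (p : ℕ) [Fact p.Prime]

theorem lvtu_wv_self (x : ℚ_[p]) : wv p x = Padic.valuation x := by
  unfold wv
  rw [Algebra.norm_self]
  rfl

/-- `p` is a uniformiser of `ℚ_p`. -/
theorem lvtu_unif_p : IsUnif p ((p : ℕ) : ℚ_[p]) := by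
  refine ⟨by exact_mod_cast (Fact.out : p.Prime).ne_zero, ?_, ?_⟩
  · rw [lvtu_wv_self, Padic.valuation_p]
    exact one_pos
  · intro x _
    rw [lvtu_wv_self, Padic.valuation_p]
    exact one_dvd _

/-- `K/ℚ_p` is unramified if `p` is a uniformiser of `K`. -/
theorem lvtu_unram_of_unif (K : IntermediateField ℚ_[p] (PadicAlgCl p))
    [FiniteDimensional ℚ_[p] K] (hK : IsUnif p ((p : ℕ) : K)) : IsUnram p ℚ_[p] K := by
  refine u2_unram_of_unif p (K := ℚ_[p]) (L := K) (lvtu_unif_p p) hK ?_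
  have h := l3b_wv_algebraMap p (F := ℚ_[p]) (F' := K) ((p : ℕ) : ℚ_[p])
  rwa [map_natCast] at h

/-- An automorphism of `T ⊔ K` over `T` which fixes `K` is trivial. -/
theorem lvtu_eq_one_of_fix (T K : IntermediateField ℚ_[p] (PadicAlgCl p))
    (σ : ↥(T ⊔ K) → ↥(T ⊔ K)) (h0 : σ 0 = 0) (h1 : σ 1 = 1)
    (hadd : ∀ a b, σ (a + b) = σ a + σ b) (hmul : ∀ a b, σ (a * b) = σ a * σ b)
    (hinv : ∀ a, σ a⁻¹ = (σ a)⁻¹)
    (hT : ∀ z : T, σ (IntermediateField.inclusion (le_sup_left : T ≤ T ⊔ K) z) =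
      IntermediateField.inclusion (le_sup_left : T ≤ T ⊔ K) z)
    (hK : ∀ z : K, σ (IntermediateField.inclusion (le_sup_right : K ≤ T ⊔ K) z) =
      IntermediateField.inclusion (le_sup_right : K ≤ T ⊔ K) z) (x : ↥(T ⊔ K)) :
    σ x = x := by
  let Fx : IntermediateField ℚ_[p] ↥(T ⊔ K) :=
    { carrier := {x | σ x = x}
      mul_mem' := fun {a b} ha hb => by
        simp only [Set.mem_ofPred_eq] at ha hb ⊢; rw [hmul, ha, hb]
      one_mem' := h1
      add_mem' := fun {a b} ha hb => by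
        simp only [Set.mem_ofPred_eq] at ha hb ⊢; rw [hadd, ha, hb]
      zero_mem' := h0
      algebraMap_mem' := fun r => by
        have := hT (algebraMap ℚ_[p] T r)
        exact this
      inv_mem' := fun a ha => by
        simp only [Set.mem_ofPred_eq] at ha ⊢; rw [hinv, ha] }
  have hle : T ⊔ K ≤ Fx.map (T ⊔ K).val := by
    refine sup_le ?_ ?_
    · intro t ht
      exact (IntermediateField.mem_map _).2 ⟨⟨t, le_sup_left (b := K) ht⟩, hT ⟨t, ht⟩, rfl⟩
    · intro k hk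
      exact (IntermediateField.mem_map _).2 ⟨⟨k, le_sup_right (a := T) hk⟩, hK ⟨k, hk⟩, rfl⟩
  obtain ⟨y, hy, hyx⟩ := (IntermediateField.mem_map _).1 (hle x.2)
  have hyx' : y = x := Subtype.ext hyx
  rw [← hyx']
  exact hy

end

/-- **UNR** -/
theorem stmtLvtUnr : StmtLvtUnr := by
  intro p _ T K hTf hTn hKf hKn hKu
  haveI := hTf
  haveI := hTn
  haveI := hKf
  haveI := hKn
  have hKunr := lvtu_unram_of_unif p K hKu
  haveI : IsGalois ℚ_[p] K := ⟨⟩
  letI aT := twlaAlg p (le_sup_left : T ≤ T ⊔ K)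
  haveI := twla_tower p (le_sup_left : T ≤ T ⊔ K)
  letI aK := twlaAlg p (le_sup_right : K ≤ T ⊔ K)
  haveI := twla_tower p (le_sup_right : K ≤ T ⊔ K)
  haveI : FiniteDimensional T ↥(T ⊔ K) := FiniteDimensional.right ℚ_[p] T _
  haveI : FiniteDimensional K ↥(T ⊔ K) := FiniteDimensional.right ℚ_[p] K _
  haveI : Normal T ↥(T ⊔ K) := Normal.tower_top_of_normal ℚ_[p] T _
  haveI : IsGalois T ↥(T ⊔ K) := ⟨⟩
  have hin : ∀ σ : ↥(T ⊔ K) ≃ₐ[T] ↥(T ⊔ K), IsInertial p σ → σ = 1 := by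
    intro σ hσ
    have hτ : IsInertial p (AlgEquiv.restrictNormalHom K (σ.restrictScalars ℚ_[p])) :=
      u2_inertial_restrict p (K := K) (L := ↥(T ⊔ K))
        (fun z => AlgEquiv.restrictNormal_commutes (σ.restrictScalars ℚ_[p]) K z) hσ
    have hτ1 := u2_inertial_eq_one_of_unram p (K := ℚ_[p]) (L := K) stmtRes hKunr _ hτ
    have hK : ∀ z : K, σ (algebraMap K ↥(T ⊔ K) z) = algebraMap K ↥(T ⊔ K) z := by
      intro z
      have h := AlgEquiv.restrictNormal_commutes (σ.restrictScalars ℚ_[p]) K z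
      have h' : algebraMap K ↥(T ⊔ K)
          (AlgEquiv.restrictNormalHom K (σ.restrictScalars ℚ_[p]) z) =
          σ (algebraMap K ↥(T ⊔ K) z) := h
      rw [← h', hτ1]
      rfl
    ext x
    have := lvtu_eq_one_of_fix p T K σ (map_zero σ) (map_one σ) (map_add σ) (map_mul σ)
      (fun a => map_inv₀ σ a) (fun z => σ.commutes z) hK x
    rw [this]
    rfl
  obtain ⟨hunr, -⟩ := u2_unram_of_inertial p stmtRes (K := T) (L := ↥(T ⊔ K)) hin
  obtain ⟨πT, hπT⟩ := stmtWUnif p T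
  obtain ⟨πE, hπE⟩ := stmtWUnif p ↥(T ⊔ K)
  have h1 := u2_unif_of_unram p hunr hπT hπE
  have h2 := l3b_wv_algebraMap p (F := T) (F' := ↥(T ⊔ K)) πT
  have h3 : wv p (IntermediateField.inclusion (le_sup_left : T ≤ T ⊔ K) πT) = wv p πE :=
    h2.trans h1.symm
  refine ⟨πT, hπT, ?_, ?_, ?_⟩
  · intro h
    apply hπT.1
    exact (IntermediateField.inclusion_injective (le_sup_left : T ≤ T ⊔ K))
      (h.trans (map_zero _).symm)
  · rw [h3]
    exact hπE.2.1
  · intro x hx
    rw [h3]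
    exact hπE.2.2 x hx

end Fermat.Agent.TW.W
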