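/-
TW-W chain A (helper57): **`stmtLev : StmtLev`** — Fontaine's bound in Kummer form.

Assembly: `stmtLev_of` (LevelPlan) from DICT, KUM (helper64) and (LEVEL′) = `stmtLevPrime_of`
(LevelAsm) from DICT and TOWER = `stmtLvTower_of` (LvTowerPlan) from CYC, UNR (helper64),
INERTIA, MID (helper57).
-/
import Fermat.Agent.TW.W.LevelAsm
import Fermat.Agent.TW.W.LvDict
import Fermat.Agent.TW.W.LvKum
import Fermat.Agent.TW.W.LvtCyc
import Fermat.Agent.TW.W.LvtUnr
import Fermat.Agent.TW.W.LvtInertia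
import Fermat.Agent.TW.W.LvtMid

set_option autoImplicit false

namespace Fermat.Agent.TW.W

/-- TOWER -/
theorem stmtLvTower : StmtLvTower :=
  stmtLvTower_of stmtLvtCyc stmtLvtInertia stmtLvtMid stmtLvtUnr

/-- (LEVEL′) -/
theorem stmtLevPrime : StmtLevPrime := stmtLevPrime_of stmtLvDict stmtLvTower

/-- **W-LEV**: Fontaine's ramification bound, Kummer form. -/
theorem stmtLev : StmtLev := stmtLev_of stmtLvDict stmtLvKum stmtLevPrime

end Fermat.Agent.TW.W
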