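import Fermat.Agent.TW.W.Plan
import Fermat.Agent.TW.S.Core
import Fermat.Agent.TW.S.Trace
import Fermat.Agent.TW.Res
import Fermat.Agent.W1.SubQuot
import Fermat.Agent.W1.RatLocPID
import Fermat.Agent.S28.RatLoc

/-!
# TW-W / W-add (helper64): the flat cocycles are closed under addition

`stmtAdd : StmtAdd`.  For flat deformations `ρ ≅ (1 + εc)ρ̄`, `ρ' ≅ (1 + εc')ρ̄` the matrix
representation `(1 + ε(c + c'))ρ̄` is a deformation with cyclotomic determinant, and it is flat:
for an ideal `I ∋ ε` its reduction modulo `I` is that of `ρ`; for `I = 0` the module `V_{c+c'}` is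
the Baer sum, a quotient of a subobject of `V_c × V_{c'}`.
-/

set_option autoImplicit false
set_option linter.unusedSectionVars false
set_option linter.style.haveILetI false

noncomputable section

namespace Fermat.Agent.TW.W

open CategoryTheory groupCohomology IsLocalRing
open Fermat.Agent.PT Fermat.Agent.PT.B Fermat.Agent.TW.L Fermat.Agent.TW.S Fermat.Agent.S53
  Fermat.Agent.W1 ExtCitation

section Mat

variable {𝒪 : Type} [CommRing 𝒪] [IsLocalRing 𝒪] (p : ℕ) [Fact p.Prime]
  [CharP (ResidueField 𝒪) p] {ρbar : ResidualGaloisRep (ResidueField 𝒪)}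
  (D : RigidDatum 𝒪 ρbar)

/-- multiplicativity of `liftMat` in terms of the `ε`-part -/
theorem wadd_mul_iff (c : GQ → (adRep p ρbar).V) (g h : GQ) :
    liftMat p D c (g * h) = liftMat p D c g * liftMat p D c h ↔
      adMat p D (c (g * h)) * D.ρm (g * h) =
        D.ρm g * (adMat p D (c h) * D.ρm h) + adMat p D (c g) * D.ρm g * D.ρm h := by
  constructor
  · intro hmul
    have := congrArg dnSnd hmul
    rw [dnSnd_mul, dnSnd_liftMat, dnSnd_liftMat, dnSnd_liftMat, dnFst_liftMat, dnFst_liftMat]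
      at this
    exact this
  · intro hs
    apply dn_ext
    · rw [dnFst_mul, dnFst_liftMat, dnFst_liftMat, dnFst_liftMat, map_mul]
    · rw [dnSnd_mul, dnSnd_liftMat, dnSnd_liftMat, dnSnd_liftMat, dnFst_liftMat, dnFst_liftMat]
      exact hs

theorem wadd_one_iff (c : GQ → (adRep p ρbar).V) :
    liftMat p D c 1 = 1 ↔ adMat p D (c 1) = 0 := by
  constructor
  · intro h1
    have := congrArg dnSnd h1
    rw [dnSnd_liftMat, dnSnd_one, map_one, mul_one] at this
    exact this
  · intro hs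
    apply dn_ext
    · rw [dnFst_liftMat, map_one, dnFst_one]
    · rw [dnSnd_liftMat, dnSnd_one, hs, zero_mul]

theorem wadd_eq_one_iff (c : GQ → (adRep p ρbar).V) (σ : GQ) :
    liftMat p D c σ = 1 ↔ D.ρm σ = 1 ∧ adMat p D (c σ) = 0 := by
  constructor
  · intro h1
    have h0 := congrArg dnFst h1
    have hs := congrArg dnSnd h1
    rw [dnFst_liftMat, dnFst_one] at h0
    rw [dnSnd_liftMat, dnSnd_one, h0, mul_one] at hs
    exact ⟨h0, hs⟩
  · rintro ⟨h0, hs⟩
    apply dn_ext
    · rw [dnFst_liftMat, h0, dnFst_one]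
    · rw [dnSnd_liftMat, dnSnd_one, hs, zero_mul]

/-- the matrix representation `(1 + ε(c + c'))ρ̄` -/
def waddRep (c c' : GQ → (adRep p ρbar).V)
    (hmul : ∀ g h, liftMat p D c (g * h) = liftMat p D c g * liftMat p D c h)
    (hmul' : ∀ g h, liftMat p D c' (g * h) = liftMat p D c' g * liftMat p D c' h)
    (hone : liftMat p D c 1 = 1) (hone' : liftMat p D c' 1 = 1) :
    Gal →* M2 (DualNumber (ResidueField 𝒪)) where
  toFun σ := liftMat p D (fun σ => c σ + c' σ) σ
  map_one' := by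
    rw [wadd_one_iff] at hone hone' ⊢
    simp only [adMat_add, hone, hone', add_zero]
  map_mul' := by
    intro g h
    have h1 := (wadd_mul_iff p D c g h).1 (hmul g h)
    have h2 := (wadd_mul_iff p D c' g h).1 (hmul' g h)
    rw [wadd_mul_iff]
    simp only [adMat_add, add_mul, mul_add, h1, h2]
    abel

theorem waddRep_apply (c c' : GQ → (adRep p ρbar).V)
    (hmul : ∀ g h, liftMat p D c (g * h) = liftMat p D c g * liftMat p D c h)
    (hmul' : ∀ g h, liftMat p D c' (g * h) = liftMat p D c' g * liftMat p D c' h)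
    (hone : liftMat p D c 1 = 1) (hone' : liftMat p D c' 1 = 1) (σ : GQ) :
    waddRep p D c c' hmul hmul' hone hone' σ = liftMat p D (fun σ => c σ + c' σ) σ := rfl

theorem waddRep_matCont (c c' : GQ → (adRep p ρbar).V)
    (R : Gal →* M2 (DualNumber (ResidueField 𝒪)))
    (hR : ∀ σ, R σ = liftMat p D (fun σ => c σ + c' σ) σ)
    (hlev : ∃ F : QbarField, FiniteDimensional ℚ F ∧
      ∀ s : GQ, s ∈ F.fixingSubgroup → liftMat p D c s = 1)
    (hlev' : ∃ F : QbarField, FiniteDimensional ℚ F ∧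
      ∀ s : GQ, s ∈ F.fixingSubgroup → liftMat p D c' s = 1) :
    MatCont (DualNumber (ResidueField 𝒪)) R := by
  obtain ⟨F, hF, hF1⟩ := hlev
  obtain ⟨F', hF', hF1'⟩ := hlev'
  intro n
  refine ⟨F ⊔ F', IntermediateField.finiteDimensional_sup F F', fun σ hσ i j => ?_⟩
  have hσF : σ ∈ F.fixingSubgroup :=
    (IntermediateField.mem_fixingSubgroup_iff F σ).2 (fun x hx => hσ x
      ((le_sup_left : F ≤ F ⊔ F') hx))
  have hσF' : σ ∈ F'.fixingSubgroup :=
    (IntermediateField.mem_fixingSubgroup_iff F' σ).2 (fun x hx => hσ x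
      ((le_sup_right : F' ≤ F ⊔ F') hx))
  have h1 := (wadd_eq_one_iff p D c σ).1 (hF1 σ hσF)
  have h2 := (wadd_eq_one_iff p D c' σ).1 (hF1' σ hσF')
  have h3 : R σ = 1 := by
    rw [hR, wadd_eq_one_iff]
    refine ⟨h1.1, ?_⟩
    simp only [adMat_add, h1.2, h2.2, add_zero]
  rw [h3, sub_self]
  exact Ideal.zero_mem _

/-- the determinant of `(1 + εc)ρ̄` for a cocycle with values of trace `0` -/
theorem wadd_det (c : GQ → (adRep p ρbar).V) (σ : GQ)
    (htr : (adMat p D (c σ)).trace = 0) :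
    (liftMat p D c σ).det = TrivSqZeroExt.inl ((D.ρm σ).det) := by
  refine TrivSqZeroExt.ext ?_ ?_
  · rw [TrivSqZeroExt.fst_inl]
    have h1 : (liftMat p D c σ).det.fst = (dnFst (liftMat p D c σ)).det := by
      simp only [Matrix.det_fin_two, dnFst_apply, TrivSqZeroExt.fst_sub, TrivSqZeroExt.fst_mul]
    rw [h1, dnFst_liftMat]
  · rw [TrivSqZeroExt.snd_inl]
    unfold liftMat
    rw [strace_snd_det, htr, mul_zero]

end Mat

section Flat

variable {k : Type} [Field k]

/-- the vector `v + εw` -/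
def waddEmb (v w : Fin 2 → k) : Fin 2 → DualNumber k :=
  fun i => TrivSqZeroExt.inl (v i) + TrivSqZeroExt.inr (w i)

theorem waddEmb_fst (v w : Fin 2 → k) (i : Fin 2) : (waddEmb v w i).fst = v i := by
  simp [waddEmb]

theorem waddEmb_snd (v w : Fin 2 → k) (i : Fin 2) : (waddEmb v w i).snd = w i := by
  simp [waddEmb]

theorem waddEmb_add (v w v' w' : Fin 2 → k) :
    waddEmb (v + v') (w + w') = waddEmb v w + waddEmb v' w' := by
  funext i
  refine TrivSqZeroExt.ext ?_ ?_
  · simp [waddEmb]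
  · simp [waddEmb]

theorem waddEmb_zero : waddEmb (0 : Fin 2 → k) 0 = 0 := by
  funext i
  refine TrivSqZeroExt.ext ?_ ?_
  · simp [waddEmb]
  · simp [waddEmb]

theorem waddEmb_parts (y : Fin 2 → DualNumber k) :
    waddEmb (fun i => (y i).fst) (fun i => (y i).snd) = y := by
  funext i
  refine TrivSqZeroExt.ext ?_ ?_
  · simp [waddEmb]
  · simp [waddEmb]

theorem waddEmb_injective {v w v' w' : Fin 2 → k} (h : waddEmb v w = waddEmb v' w') :
    v = v' ∧ w = w' := by
  constructor
  · funext i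
    have := congrArg TrivSqZeroExt.fst (congrFun h i)
    rwa [waddEmb_fst, waddEmb_fst] at this
  · funext i
    have := congrArg TrivSqZeroExt.snd (congrFun h i)
    rwa [waddEmb_snd, waddEmb_snd] at this

/-- `(M₀ + εM₁)(v + εw) = M₀v + ε(M₀w + M₁v)` -/
theorem wadd_mulVec (M : M2 (DualNumber k)) (v w : Fin 2 → k) :
    M.mulVec (waddEmb v w) =
      waddEmb ((dnFst M).mulVec v) ((dnFst M).mulVec w + (dnSnd M).mulVec v) := by
  funext i
  refine TrivSqZeroExt.ext ?_ ?_
  · rw [waddEmb_fst]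
    simp only [Matrix.mulVec, dotProduct, Fin.sum_univ_two, TrivSqZeroExt.fst_add,
      TrivSqZeroExt.fst_mul, waddEmb_fst, dnFst_apply]
  · rw [waddEmb_snd]
    simp only [Matrix.mulVec, dotProduct, Fin.sum_univ_two, TrivSqZeroExt.snd_add,
      TrivSqZeroExt.snd_mul, waddEmb_fst, waddEmb_snd, dnFst_apply, dnSnd_apply, Pi.add_apply,
      smul_eq_mul, MulOpposite.smul_eq_mul_unop, MulOpposite.unop_op]
    ring

/-- an ideal of the dual numbers is `0` or contains `ε` -/
theorem wadd_ideal_cases (I : Ideal (DualNumber k)) :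
    I = ⊥ ∨ (TrivSqZeroExt.inr (1 : k) : DualNumber k) ∈ I := by
  by_cases hI : I = ⊥
  · exact Or.inl hI
  right
  obtain ⟨x, hx, hx0⟩ := Submodule.exists_mem_ne_zero_of_ne_bot hI
  by_cases hf : x.fst = 0
  · have hs : x.snd ≠ 0 := by
      intro hs
      exact hx0 (TrivSqZeroExt.ext (by simpa using hf) (by simpa using hs))
    have h1 : (TrivSqZeroExt.inr (1 : k) : DualNumber k) =
        (TrivSqZeroExt.inl (x.snd)⁻¹ : DualNumber k) * x := by
      refine TrivSqZeroExt.ext ?_ ?_
      · simp [hf]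
      · simp [hf, inv_mul_cancel₀ hs]
    rw [h1]
    exact I.mul_mem_left _ hx
  · have hu : IsUnit x := (TrivSqZeroExt.isUnit_iff_isUnit_fst).2 (IsUnit.mk0 _ hf)
    rw [I.eq_top_of_isUnit_mem hx hu]
    exact Submodule.mem_top

/-- a vector with coordinates in `I` lies in `I • ⊤` -/
theorem wadd_mem_smul_top {A : Type} [CommRing A] (I : Ideal A) (y : Fin 2 → A)
    (hy : ∀ i, y i ∈ I) : y ∈ I • (⊤ : Submodule A (Fin 2 → A)) := by
  have h : y = y 0 • (Pi.single 0 1 : Fin 2 → A) + y 1 • (Pi.single 1 1 : Fin 2 → A) := by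
    funext i
    fin_cases i <;> simp
  rw [h]
  exact Submodule.add_mem _ (Submodule.smul_mem_smul (hy 0) Submodule.mem_top)
    (Submodule.smul_mem_smul (hy 1) Submodule.mem_top)

theorem wadd_finite_dualNumber [Finite k] : Finite (DualNumber k) :=
  Finite.of_injective (fun x : DualNumber k => (x.fst, x.snd))
    (fun _ _ h => TrivSqZeroExt.ext (congrArg Prod.fst h) (congrArg Prod.snd h))

/-- **The Baer sum is flat** (matrix form). -/
theorem wadd_isFlatAt [Finite k] (p : ℕ) [Fact p.Prime]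
    (r r' r'' : Gal →* M2 (DualNumber k))
    (hr : MatCont (DualNumber k) r) (hr' : MatCont (DualNumber k) r')
    (hr'' : MatCont (DualNumber k) r'')
    (h0 : ∀ σ, dnFst (r' σ) = dnFst (r σ)) (h0' : ∀ σ, dnFst (r'' σ) = dnFst (r σ))
    (h1 : ∀ σ, dnSnd (r'' σ) = dnSnd (r σ) + dnSnd (r' σ))
    (hflat : (ofMatrix r hr).IsFlatAt p) (hflat' : (ofMatrix r' hr').IsFlatAt p) :
    (ofMatrix r'' hr'').IsFlatAt p := by
  haveI : Finite (DualNumber k) := wadd_finite_dualNumber
  haveI := Fermat.Agent.S28.ratLoc_isFractionRing p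
  rw [sq_isFlatAt_iff] at hflat hflat' ⊢
  refine ⟨hflat.1, fun I hI => ?_⟩
  have hfV : ∀ (s : Gal →* M2 (DualNumber k)) (hs : MatCont (DualNumber k) s)
      (J : Ideal (DualNumber k)),
      Finite ((ofMatrix s hs).V ⧸ (J • (⊤ : Submodule (DualNumber k) (ofMatrix s hs).V))) := by
    intro s hs J
    haveI : Finite (ofMatrix s hs).V := inferInstanceAs (Finite (Fin 2 → DualNumber k))
    exact Finite.of_surjective _ (Submodule.Quotient.mk_surjective _)
  haveI := hfV r hr I
  haveI := hfV r' hr' I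
  rcases wadd_ideal_cases I with hIbot | hIeps
  · -- `I = 0`: the Baer sum
    subst hIbot
    have hM := hasFiniteFlatModel_prod (hflat.2 ⊥ hI) (hflat'.2 ⊥ hI)
    have hbot : ∀ (W : GaloisRepAdic (DualNumber k)),
        ((⊥ : Ideal (DualNumber k)) • (⊤ : Submodule (DualNumber k) W.V)) = ⊥ :=
      fun W => Submodule.bot_smul _
    -- the sub-object
    let actN : Gal → ((Fin 2 → k) × (Fin 2 → k) × (Fin 2 → k)) →
        ((Fin 2 → k) × (Fin 2 → k) × (Fin 2 → k)) := fun σ x =>
      ((dnFst (r σ)).mulVec x.1,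
        (dnFst (r σ)).mulVec x.2.1 + (dnSnd (r σ)).mulVec x.1,
        (dnFst (r σ)).mulVec x.2.2 + (dnSnd (r' σ)).mulVec x.1)
    let ι : ((Fin 2 → k) × (Fin 2 → k) × (Fin 2 → k)) →+
        (((ofMatrix r hr).V ⧸ ((⊥ : Ideal (DualNumber k)) •
            (⊤ : Submodule (DualNumber k) (ofMatrix r hr).V))) ×
          ((ofMatrix r' hr').V ⧸ ((⊥ : Ideal (DualNumber k)) •
            (⊤ : Submodule (DualNumber k) (ofMatrix r' hr').V)))) :=
      { toFun := fun x => (Submodule.Quotient.mk (waddEmb x.1 x.2.1),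
          Submodule.Quotient.mk (waddEmb x.1 x.2.2))
        map_zero' := by
          simp only [Prod.fst_zero, Prod.snd_zero, waddEmb_zero]
          rfl
        map_add' := by
          intro x y
          simp only [Prod.fst_add, Prod.snd_add, waddEmb_add]
          rfl }
    let π : ((Fin 2 → k) × (Fin 2 → k) × (Fin 2 → k)) →+
        ((ofMatrix r'' hr'').V ⧸ ((⊥ : Ideal (DualNumber k)) •
            (⊤ : Submodule (DualNumber k) (ofMatrix r'' hr'').V))) :=
      { toFun := fun x => Submodule.Quotient.mk (waddEmb x.1 (x.2.1 + x.2.2))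
        map_zero' := by
          simp only [Prod.fst_zero, Prod.snd_zero, add_zero, waddEmb_zero]
          rfl
        map_add' := by
          intro x y
          simp only [Prod.fst_add, Prod.snd_add]
          rw [show x.2.1 + y.2.1 + (x.2.2 + y.2.2) = (x.2.1 + x.2.2) + (y.2.1 + y.2.2) by abel,
            waddEmb_add]
          rfl }
    refine hasFiniteFlatModel_of_subquotient hM actN ι ?_ ?_ π ?_ ?_
    · -- injectivity of `ι`
      intro x y hxy
      have h1 := congrArg Prod.fst hxy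
      have h2 := congrArg Prod.snd hxy
      simp only [ι, AddMonoidHom.coe_mk, ZeroHom.coe_mk] at h1 h2
      rw [Submodule.Quotient.eq] at h1 h2
      have hb1 := hbot (ofMatrix r hr)
      have hb2 := hbot (ofMatrix r' hr')
      rw [hb1, Submodule.mem_bot, sub_eq_zero] at h1
      rw [hb2, Submodule.mem_bot, sub_eq_zero] at h2
      obtain ⟨ha, hb⟩ := waddEmb_injective h1
      obtain ⟨-, hc⟩ := waddEmb_injective h2
      exact Prod.ext ha (Prod.ext hb hc)
    · -- equivariance of `ι`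
      intro σ x
      refine Prod.ext ?_ ?_
      · show Submodule.Quotient.mk (waddEmb _ _) =
          Submodule.Quotient.mk ((r σ).mulVec (waddEmb x.1 x.2.1))
        rw [wadd_mulVec]
      · show Submodule.Quotient.mk (waddEmb _ _) =
          Submodule.Quotient.mk ((r' σ).mulVec (waddEmb x.1 x.2.2))
        rw [wadd_mulVec, h0 σ]
    · -- surjectivity of `π`
      intro y
      obtain ⟨y, rfl⟩ := Submodule.Quotient.mk_surjective _ y
      refine ⟨(fun i => (y i).fst, fun i => (y i).snd, 0), ?_⟩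
      show Submodule.Quotient.mk (waddEmb _ _) = Submodule.Quotient.mk y
      rw [add_zero, waddEmb_parts]
    · -- equivariance of `π`
      intro σ x
      show Submodule.Quotient.mk (waddEmb _ _) =
          Submodule.Quotient.mk ((r'' σ).mulVec (waddEmb x.1 (x.2.1 + x.2.2)))
      rw [wadd_mulVec, h0' σ, h1 σ]
      have hw : (actN σ x).2.1 + (actN σ x).2.2 =
          (dnFst (r σ)).mulVec (x.2.1 + x.2.2) + (dnSnd (r σ) + dnSnd (r' σ)).mulVec x.1 := by
        simp only [actN, Matrix.mulVec_add, Matrix.add_mulVec]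
        abel
      rw [hw]
  · -- `ε ∈ I`: the reductions of `r''` and `r` modulo `I` agree
    have hM := hflat.2 I hI
    refine hasFiniteFlatModel_of_equiv hM (AddEquiv.refl _) ?_
    intro σ x
    obtain ⟨x, rfl⟩ := Submodule.Quotient.mk_surjective _ x
    show Submodule.Quotient.mk ((r σ).mulVec x) = Submodule.Quotient.mk ((r'' σ).mulVec x)
    rw [Submodule.Quotient.eq]
    rw [← Matrix.sub_mulVec]
    apply wadd_mem_smul_top
    intro i
    have hent : ∀ i j, (r σ - r'' σ) i j ∈ I := by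
      intro i j
      have hfst : ((r σ - r'' σ) i j).fst = 0 := by
        have := congrFun (congrFun (h0' σ) i) j
        simp only [dnFst_apply] at this
        rw [Matrix.sub_apply, TrivSqZeroExt.fst_sub, this, sub_self]
      have heq : (r σ - r'' σ) i j =
          (TrivSqZeroExt.inl ((r σ - r'' σ) i j).snd : DualNumber k) *
            TrivSqZeroExt.inr (1 : k) := by
        refine TrivSqZeroExt.ext ?_ ?_
        · rw [TrivSqZeroExt.fst_mul, TrivSqZeroExt.fst_inr, mul_zero]
          exact hfst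
        · rw [TrivSqZeroExt.snd_mul, TrivSqZeroExt.fst_inl, TrivSqZeroExt.snd_inr,
            TrivSqZeroExt.fst_inr, TrivSqZeroExt.snd_inl]
          simp
      rw [heq]
      exact I.mul_mem_left _ hIeps
    simp only [Matrix.mulVec, dotProduct, Fin.sum_univ_two]
    exact I.add_mem (I.mul_mem_right _ (hent i 0)) (I.mul_mem_right _ (hent i 1))

end Flat

section Final

variable {𝒪 : Type} [CommRing 𝒪] [IsLocalRing 𝒪] (p : ℕ) [Fact p.Prime]
  [CharP (ResidueField 𝒪) p] {ρbar : ResidualGaloisRep (ResidueField 𝒪)}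
  (D : RigidDatum 𝒪 ρbar)

theorem wadd_trace_zero (x : (ad0Rep p ρbar).V) :
    (adMat p D ((ad0Incl p ρbar).hom x)).trace = 0 := by
  rw [← trace_adVal, adVal_ad0Incl]
  exact trace_ad0Val p ρbar x

end Final

/-- the matrix form of the sum, in terms of `IsCocOf` data -/
theorem wadd_exists {𝒪 : Type} [CommRing 𝒪] [IsLocalRing 𝒪] (p : ℕ) [Fact p.Prime]
    [CharP (ResidueField 𝒪) p] [Finite (ResidueField 𝒪)]
    {ρbar : ResidualGaloisRep (ResidueField 𝒪)} (D : RigidDatum 𝒪 ρbar)
    (C C' : GQ → (adRep p ρbar).V)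
    (htr : ∀ σ, (adMat p D (C σ)).trace = 0) (htr' : ∀ σ, (adMat p D (C' σ)).trace = 0)
    (ρ ρ' : GaloisRepAdic (DualNumber (ResidueField 𝒪)))
    (hcoc : IsCocOf p D ρ C) (hcoc' : IsCocOf p D ρ' C')
    (hdet : ρ.DetIsCyclotomic p) (hflat : ρ.IsFlatAt p) (hflat' : ρ'.IsFlatAt p) :
    ∃ ρ'' : GaloisRepAdic (DualNumber (ResidueField 𝒪)),
      IsCocOf p D ρ'' (fun σ => C σ + C' σ) ∧ ρ''.DetIsCyclotomic p ∧ ρ''.IsFlatAt p := by
  have hmul := isCocOf_mul p D hcoc
  have hmul' := isCocOf_mul p D hcoc'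
  have hone := isCocOf_one p D hcoc
  have hone' := isCocOf_one p D hcoc'
  have hlev := isCocOf_exists_level p D hcoc
  have hlev' := isCocOf_exists_level p D hcoc'
  obtain ⟨R, hR⟩ : ∃ R : Gal →* M2 (DualNumber (ResidueField 𝒪)),
      ∀ σ, R σ = liftMat p D (fun σ => C σ + C' σ) σ :=
    ⟨waddRep p D C C' hmul hmul' hone hone', fun σ => rfl⟩
  have hr'' := waddRep_matCont p D C C' R hR hlev hlev'
  have hcoc'' : IsCocOf p D (ofMatrix R hr'') (fun σ => C σ + C' σ) :=
    ⟨R, hr'', ⟨GaloisRepAdic.Equiv.refl _⟩, hR⟩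
  refine ⟨ofMatrix R hr'', hcoc'', ?_, ?_⟩
  · refine ⟨hdet.1, fun n σ a ha => ?_⟩
    have h1 := isCocOf_det p D hcoc'' σ
    have h2 : (liftMat p D (fun σ => C σ + C' σ) σ).det =
        TrivSqZeroExt.inl ((D.ρm σ).det) := by
      apply wadd_det
      rw [adMat_add, Matrix.trace_add, htr, htr', add_zero]
    have h3 : LinearMap.det (ρ.ρ σ) = TrivSqZeroExt.inl ((D.ρm σ).det) := by
      rw [isCocOf_det p D hcoc σ]
      exact wadd_det p D C σ (htr σ)
    rw [h1, h2, ← h3]
    exact hdet.2 n σ a ha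
  · obtain ⟨r, hr, hequiv, hrσ⟩ := hcoc
    obtain ⟨r', hr', hequiv', hrσ'⟩ := hcoc'
    have hW : (ofMatrix r hr).IsFlatAt p := tweq_isFlatAt hequiv p hflat
    have hW' : (ofMatrix r' hr').IsFlatAt p := tweq_isFlatAt hequiv' p hflat'
    refine wadd_isFlatAt p r r' R hr hr' hr''
      (fun σ => ?_) (fun σ => ?_) (fun σ => ?_) hW hW'
    · rw [hrσ, hrσ', dnFst_liftMat, dnFst_liftMat]
    · rw [hrσ, hR, dnFst_liftMat, dnFst_liftMat]
    · rw [hrσ, hrσ', hR, dnSnd_liftMat, dnSnd_liftMat, dnSnd_liftMat, adMat_add,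
        add_mul]

/-- **W-add.** -/
theorem stmtAdd : StmtAdd := by
  intro p _ _ 𝒪 _ _ _ _ ρbar D c c' ⟨ρ, hcoc, hdet, hflat⟩ ⟨ρ', hcoc', hdet', hflat'⟩
  obtain ⟨ρ'', h1, h2, h3⟩ := wadd_exists p D _ _ (fun σ => wadd_trace_zero p D _)
    (fun σ => wadd_trace_zero p D _) ρ ρ' hcoc hcoc' hdet hflat hflat'
  refine ⟨ρ'', ?_, h2, h3⟩
  have hfun : (fun σ => (ad0Incl p ρbar).hom (((c + c' : cocycles₁ (ad0Rep p ρbar)) :
      GQ → (ad0Rep p ρbar).V) σ)) =
      fun σ => (ad0Incl p ρbar).hom ((c : GQ → (ad0Rep p ρbar).V) σ) +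
        (ad0Incl p ρbar).hom ((c' : GQ → (ad0Rep p ρbar).V) σ) := by
    funext σ
    rw [← map_add]
    rfl
  rw [hfun]
  exact h1

end Fermat.Agent.TW.W

end
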