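/-
TW-W / W-asm (helper74): `StmtWFlat` from `StmtAdd`, `StmtBridge`, `StmtCount`.
-/
import Fermat.Agent.TW.W.Plan
import Fermat.Agent.TW.S.SelCardAux

set_option autoImplicit false

noncomputable section

namespace Fermat.Agent.TW.W

open CategoryTheory groupCohomology IsLocalRing Polynomial
open Fermat.Agent.PT Fermat.Agent.PT.B Fermat.Agent.TW.L Fermat.Agent.TW.S Fermat.Agent.S53
  Fermat.Agent.W1 ExtCitation

section

variable (p : ℕ) [Fact p.Prime] {𝒪 : Type} [CommRing 𝒪] [IsLocalRing 𝒪]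
  [CharP (ResidueField 𝒪) p] {ρbar : ResidualGaloisRep (ResidueField 𝒪)}
  (D : RigidDatum 𝒪 ρbar)

lemma wasm_resP_H1π (c : cocycles₁ (ad0Rep p ρbar)) :
    resP p ((H1π (ad0Rep p ρbar)).hom c) =
      (H1π (locRep p (ad0Rep p ρbar))).hom (sasmRes p (ad0Rep p ρbar) c) :=
  sasm_locRes_H1π p (ad0Rep p ρbar) c

lemma wasm_mem_flatClasses (x : H1 (locRep p (ad0Rep p ρbar))) :
    x ∈ flatClasses p D ↔ ∃ c : cocycles₁ (ad0Rep p ρbar), IsFlatCoc p D c ∧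
      (H1π (locRep p (ad0Rep p ρbar))).hom (sasmRes p (ad0Rep p ρbar) c) = x := by
  constructor
  · rintro ⟨c, hc, rfl⟩
    exact ⟨c, hc, (wasm_resP_H1π p c).symm⟩
  · rintro ⟨c, hc, rfl⟩
    exact ⟨c, hc, wasm_resP_H1π p c⟩

end

/-- **W-asm.** -/
theorem stmtWFlat_of (hadd : StmtAdd) (hbr : StmtBridge) (hcount : StmtCount) : StmtWFlat := by
  intro p _ hp2 𝒪 _ _ _ _ _ ρbar D hdet hsplit
  -- the flat classes are closed under addition
  have hF_add : ∀ x ∈ flatClasses p D, ∀ y ∈ flatClasses p D, x + y ∈ flatClasses p D := by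
    rintro _ ⟨c, hc, rfl⟩ _ ⟨c', hc', rfl⟩
    refine ⟨c + c', hadd p hp2 𝒪 ρbar D c c' hc hc', ?_⟩
    rw [map_add, map_add]
  -- every flat class has a good local cocycle
  have hF_rep : ∀ x ∈ flatClasses p D, ∃ z : cocycles₁ (locRep p (ad0Rep p ρbar)),
      (H1π (locRep p (ad0Rep p ρbar))).hom z = x ∧
      IsLevel₁ (towerLoc p) (z : GQq p → (ad0Rep p ρbar).V) ∧
      PLev p ρbar (fun τ => ad0Val p ρbar ((z : GQq p → (ad0Rep p ρbar).V) τ)) ∧
      PEt1 p ρbar ∧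
      PEt2 p ρbar (fun τ => ad0Val p ρbar ((z : GQq p → (ad0Rep p ρbar).V) τ)) := by
    intro x hx
    obtain ⟨c, hc, rfl⟩ := (wasm_mem_flatClasses p D x).1 hx
    obtain ⟨h1, h2, h3, h4⟩ := hbr p hp2 𝒪 ρbar D c hc
    exact ⟨sasmRes p (ad0Rep p ρbar) c, rfl, h1, h2, h3, h4⟩
  obtain ⟨hfin, hrank⟩ := hcount p hp2 (ResidueField 𝒪) ρbar hdet hsplit (flatClasses p D)
    hF_add hF_rep
  refine ⟨?_, hfin, hrank⟩
  -- level classes
  refine Submodule.span_le.2 ?_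
  intro x hx
  obtain ⟨z, hz, hlev, -⟩ := hF_rep x hx
  exact (mem_levH1_iff (towerLoc p) (locRep p (ad0Rep p ρbar)) x).2 ⟨z, hlev, hz⟩

end Fermat.Agent.TW.W

end
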