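/-
TW-W / W-dev (helper74), part A: general lemmas.

* `wdev_exists_submodule` : an additively closed nonempty subset of an `𝔽_p`-vector space is a
  subspace;
* `wdev_mem_levFlat` (Lemma A): `PLev z` forces every level cocycle `c` (of any `W`) which vanishes
  wherever `V_z` is trivial into `levFlatCocycles p W`;
* `wdev_finrank_range_le` : the abstract two-step count;
* `wdev_count_irr` : `StmtCount` in the locally irreducible case.
-/
import Fermat.Agent.TW.W.Plan3
import Fermat.Agent.TW.L.Final

set_option autoImplicit false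
set_option linter.unusedSectionVars false
set_option linter.unusedVariables false

noncomputable section

namespace Fermat.Agent.TW.W

open CategoryTheory groupCohomology IsLocalRing Polynomial
open Fermat.Agent.PT Fermat.Agent.PT.B Fermat.Agent.TW.L Fermat.Agent.TW.S Fermat.Agent.S53
  Fermat.Agent.W1 ExtCitation

/-! ### Additively closed subsets of `𝔽_p`-vector spaces -/

section Sub

theorem wdev_nsmul_mem {X : Type*} [AddCommGroup X] (F : Set X) (hadd : ∀ x ∈ F, ∀ y ∈ F, x + y ∈ F) {x : X} (hx : x ∈ F)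
    (n : ℕ) : (n + 1) • x ∈ F := by
  induction n with
  | zero => simpa using hx
  | succ n ih =>
    rw [succ_nsmul]
    exact hadd _ ih _ hx

theorem wdev_zero_mem (p : ℕ) [Fact p.Prime] {X : Type*} [AddCommGroup X] [Module (ZMod p) X]
    (F : Set X) (hadd : ∀ x ∈ F, ∀ y ∈ F, x + y ∈ F) {x : X} (hx : x ∈ F) :
    (0 : X) ∈ F := by
  have hp : p.Prime := Fact.out
  have h := wdev_nsmul_mem F hadd hx (p - 1)
  rw [Nat.sub_add_cancel hp.one_le] at h
  have h0 : (p : ℕ) • x = 0 := by
    rw [← Nat.cast_smul_eq_nsmul (ZMod p), ZMod.natCast_self, zero_smul]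
  rwa [h0] at h

/-- An additively closed nonempty subset of an `𝔽_p`-vector space is a subspace. -/
theorem wdev_exists_submodule (p : ℕ) [Fact p.Prime] {X : Type*} [AddCommGroup X]
    [Module (ZMod p) X] (F : Set X) (hadd : ∀ x ∈ F, ∀ y ∈ F, x + y ∈ F)
    (hne : F.Nonempty) : ∃ Fs : Submodule (ZMod p) X, (Fs : Set X) = F := by
  obtain ⟨x₀, hx₀⟩ := hne
  refine ⟨{ carrier := F
            add_mem' := fun {a b} ha hb => hadd a ha b hb
            zero_mem' := wdev_zero_mem p F hadd hx₀
            smul_mem' := ?_ }, rfl⟩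
  intro a x hx
  have ha : a • x = a.val • x := by
    conv_lhs => rw [← ZMod.natCast_zmod_val a]
    exact Nat.cast_smul_eq_nsmul (ZMod p) a.val x
  show a • x ∈ F
  rw [ha]
  rcases Nat.eq_zero_or_pos a.val with h | h
  · rw [h, zero_smul]
    exact wdev_zero_mem p F hadd hx
  · have := wdev_nsmul_mem F hadd hx (a.val - 1)
    rwa [Nat.sub_add_cancel h] at this

end Sub

/-! ### The abstract count -/

section Abs

variable {K : Type*} [Field K] {Z X U : Type*} [AddCommGroup Z] [Module K Z]
  [AddCommGroup X] [Module K X] [AddCommGroup U] [Module K U]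

/-- `π : Z → X`, `α : Z → U` with `ker π ≤ ker α`, `α(Z) ⊆ U₀`, `π(ker α) ⊆ I`:
`dim π(Z) ≤ dim U₀ + dim I`. -/
theorem wdev_finrank_range_le (π : Z →ₗ[K] X) (α : Z →ₗ[K] U) (hker : LinearMap.ker π ≤ LinearMap.ker α)
    (U₀ : Submodule K U) [Module.Finite K U₀] (hU : ∀ z, α z ∈ U₀)
    (I : Submodule K X) [Module.Finite K I] (hI : ∀ z, α z = 0 → π z ∈ I) :
    Module.Finite K (LinearMap.range π) ∧
      Module.finrank K (LinearMap.range π) ≤ Module.finrank K U₀ + Module.finrank K I := by
  classical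
  -- the induced map on `Z ⧸ ker π`
  let αbar : (Z ⧸ LinearMap.ker π) →ₗ[K] U₀ :=
    (LinearMap.ker π).liftQ (α.codRestrict U₀ hU) (by
      intro z hz
      rw [LinearMap.mem_ker]
      apply Subtype.ext
      exact LinearMap.mem_ker.1 (hker hz))
  let e : (Z ⧸ LinearMap.ker π) ≃ₗ[K] LinearMap.range π := π.quotKerEquivRange
  -- the kernel of `αbar` maps injectively to `I`
  let j : LinearMap.ker αbar →ₗ[K] I :=
    LinearMap.codRestrict I
      ((LinearMap.range π).subtype ∘ₗ e.toLinearMap ∘ₗ (LinearMap.ker αbar).subtype)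
      (by
        rintro ⟨q, hq⟩
        obtain ⟨z, rfl⟩ := Submodule.Quotient.mk_surjective _ q
        have h1 : α z = 0 := by
          have := LinearMap.mem_ker.1 hq
          exact congrArg Subtype.val this
        exact hI z h1)
  have hj : Function.Injective j := by
    intro a b hab
    have h1 := congrArg (fun x : I => (x : X)) hab
    have h2 : ((e a.1 : LinearMap.range π) : X) = ((e b.1 : LinearMap.range π) : X) := h1
    exact Subtype.ext (e.injective (Subtype.ext h2))
  have : Module.Finite K (LinearMap.ker αbar) := Module.Finite.of_injective j hj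
  have : Module.Finite K (LinearMap.range αbar) := inferInstance
  have hfin : Module.Finite K (Z ⧸ LinearMap.ker π) := by
    have hq : Module.Finite K ((Z ⧸ LinearMap.ker π) ⧸ LinearMap.ker αbar) :=
      Module.Finite.equiv αbar.quotKerEquivRange.symm
    exact Module.Finite.of_submodule_quotient (LinearMap.ker αbar)
  have hfinR : Module.Finite K (LinearMap.range π) := Module.Finite.equiv e
  refine ⟨hfinR, ?_⟩
  have e1 := LinearMap.finrank_range_add_finrank_ker αbar
  have e2 : Module.finrank K (LinearMap.range αbar) ≤ Module.finrank K U₀ :=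
    Submodule.finrank_le _
  have e3 : Module.finrank K (LinearMap.ker αbar) ≤ Module.finrank K I :=
    LinearMap.finrank_le_finrank_of_injective hj
  have e4 : Module.finrank K (LinearMap.range π) = Module.finrank K (Z ⧸ LinearMap.ker π) :=
    (LinearEquiv.finrank_eq e).symm
  omega

end Abs

/-! ### Lemma A -/

section LemmaA

variable (p : ℕ) [Fact p.Prime] {k : Type} [Field k] (ρbar : ResidualGaloisRep k)

/-- **Lemma A.**  If `PLev z`, every level cocycle `c` (with values in any `W`) which vanishes at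
the `σ` with `ρ̄(σ) = 1`, `z(σ) = 0` lies in `levFlatCocycles p W`. -/
theorem wdev_mem_levFlat (z : GQq p → Module.End k ρbar.V) (hz : PLev p ρbar z)
    (W : Rep.{0} (ZMod p) (GQq p)) (c : cocycles₁ W)
    (hc : IsLevel₁ (towerLoc p) (c : GQq p → W))
    (h0 : ∀ σ, rhoLoc p ρbar σ = 1 → z σ = 0 → (c : GQq p → W) σ = 0) :
    c ∈ levFlatCocycles p W := by
  refine ⟨hc, fun T hT hW τ hτ => ?_⟩
  rw [← Module.forall_dual_apply_eq_zero_iff (ZMod p)]
  intro φ
  refine hz T hT (fun σ => φ ((c : GQq p → W) σ)) ?_ ?_ τ hτ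
  · intro σ τ' hσ hτ'
    have h1 := (mem_cocycles₁_iff (c : GQq p → W)).1 c.2 σ τ'
    show φ ((c : GQq p → W) (σ * τ')) = φ ((c : GQq p → W) σ) + φ ((c : GQq p → W) τ')
    rw [h1, hW σ hσ, Module.End.one_apply, map_add, add_comm]
  · intro σ hσ h1 h2
    show φ ((c : GQq p → W) σ) = 0
    rw [h0 σ h1 h2, map_zero]

end LemmaA

/-! ### The irreducible case -/

/-- `StmtCount` when `ρ̄|_{G_p}` is irreducible. -/
theorem wdev_count_irr (hirr : StmtGBIrr) (p : ℕ) [Fact p.Prime] (hp2 : p ≠ 2) (k : Type)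
    [Field k] [CharP k p] [Algebra (ZMod p) k] [Finite k] (ρbar : ResidualGaloisRep k)
    (hdet : (GaloisRepAdic.ofResidualGaloisRep ρbar).DetIsCyclotomic p)
    (hsplit : ∀ σ : GQ, ∃ α β : k, LinearMap.charpoly (ρbar.ρ σ) = (X - C α) * (X - C β))
    (hI : IsLocIrr p ρbar)
    (F : Set (H1 (locRep p (ad0Rep p ρbar))))
    (hrep : ∀ x ∈ F, ∃ z : cocycles₁ (locRep p (ad0Rep p ρbar)),
        (H1π (locRep p (ad0Rep p ρbar))).hom z = x ∧
        IsLevel₁ (towerLoc p) (z : GQq p → (ad0Rep p ρbar).V) ∧
        PLev p ρbar (fun τ => ad0Val p ρbar ((z : GQq p → (ad0Rep p ρbar).V) τ)) ∧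
        PEt1 p ρbar ∧
        PEt2 p ρbar (fun τ => ad0Val p ρbar ((z : GQq p → (ad0Rep p ρbar).V) τ))) :
    Module.Finite (ZMod p) (Submodule.span (ZMod p) F) ∧
      Module.finrank (ZMod p) (Submodule.span (ZMod p) F) ≤
        Module.finrank (ZMod p) k +
          Module.finrank (ZMod p) (locRep p (ad0Rep p ρbar)).ρ.invariants := by
  obtain ⟨hfin, hrank⟩ := hirr p hp2 k ρbar hdet hsplit hI
  have hle : Submodule.span (ZMod p) F ≤ levFlatH1 p (locRep p (ad0Rep p ρbar)) := by
    refine Submodule.span_le.2 ?_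
    intro x hx
    obtain ⟨z, hzx, hlev, hplev, -, -⟩ := hrep x hx
    refine (mem_levFlatH1 p _ x).2 ⟨z, ?_, hzx⟩
    refine wdev_mem_levFlat p ρbar _ hplev _ z hlev ?_
    intro σ _ h2
    exact ad0Val_injective p ρbar (by rw [h2, map_zero])
  have : Module.Finite (ZMod p) (levFlatH1 p (locRep p (ad0Rep p ρbar))) := hfin
  refine ⟨Module.Finite.of_injective (Submodule.inclusion hle)
    (Submodule.inclusion_injective hle), ?_⟩
  have := Submodule.finrank_mono hle
  omega

end Fermat.Agent.TW.W

end
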