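/-
TW-W / W-dev (helper74), part B: frames.

A FRAME of `ρ̄|_{G_p}` is a basis `b` of `V̄` in which `ρ̄(σ)` is upper triangular for all
`σ ∈ G_p`:  `ρ̄(σ) = [[η₁, β], [0, η₂]]`.  Matrix form of the adjoint action and of cocycles.
-/
import Fermat.Agent.TW.W.DevA

set_option autoImplicit false
set_option linter.unusedSectionVars false
set_option linter.unusedVariables false

noncomputable section

namespace Fermat.Agent.TW.W

open CategoryTheory groupCohomology IsLocalRing Polynomial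
open Fermat.Agent.PT Fermat.Agent.PT.B Fermat.Agent.TW.L Fermat.Agent.TW.S Fermat.Agent.S53
  Fermat.Agent.W1 ExtCitation

section Frame

variable (p : ℕ) [Fact p.Prime] {k : Type} [Field k] (ρbar : ResidualGaloisRep k)
  (b : Module.Basis (Fin 2) k ρbar.V)

lemma wdf_rhoLoc_mul (σ τ : GQq p) :
    rhoLoc p ρbar (σ * τ) = rhoLoc p ρbar σ * rhoLoc p ρbar τ := by
  unfold rhoLoc
  rw [map_mul, map_mul]

lemma wdf_rhoLoc_one : rhoLoc p ρbar 1 = 1 := by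
  unfold rhoLoc
  rw [map_one, map_one]

lemma wdf_rhoLoc_mul_inv (σ : GQq p) : rhoLoc p ρbar σ * rhoLoc p ρbar σ⁻¹ = 1 := by
  rw [← wdf_rhoLoc_mul, mul_inv_cancel, wdf_rhoLoc_one]

lemma wdf_rhoLoc_inv_mul (σ : GQq p) : rhoLoc p ρbar σ⁻¹ * rhoLoc p ρbar σ = 1 := by
  rw [← wdf_rhoLoc_mul, inv_mul_cancel, wdf_rhoLoc_one]

/-- the matrix of `ρ̄(σ)` -/
def wdfM (σ : GQq p) : Matrix (Fin 2) (Fin 2) k := LinearMap.toMatrix b b (rhoLoc p ρbar σ)

lemma wdfM_mul (σ τ : GQq p) : wdfM p ρbar b (σ * τ) = wdfM p ρbar b σ * wdfM p ρbar b τ := by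
  unfold wdfM
  rw [wdf_rhoLoc_mul, LinearMap.toMatrix_mul]

lemma wdfM_one : wdfM p ρbar b 1 = 1 := by
  unfold wdfM
  rw [wdf_rhoLoc_one, LinearMap.toMatrix_one]

lemma wdfM_eq_one_iff (σ : GQq p) : wdfM p ρbar b σ = 1 ↔ rhoLoc p ρbar σ = 1 := by
  unfold wdfM
  constructor
  · intro h
    apply (LinearMap.toMatrix b b).injective
    rw [h, LinearMap.toMatrix_one]
  · intro h
    rw [h, LinearMap.toMatrix_one]

/-- `b` is a FRAME: `ρ̄|_{G_p}` is upper triangular in the basis `b`. -/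
def IsFrame : Prop := ∀ σ : GQq p, wdfM p ρbar b σ 1 0 = 0

variable {p ρbar b}

lemma IsFrame.m00_mul (hb : IsFrame p ρbar b) (σ τ : GQq p) :
    wdfM p ρbar b (σ * τ) 0 0 = wdfM p ρbar b σ 0 0 * wdfM p ρbar b τ 0 0 := by
  rw [wdfM_mul, Matrix.mul_apply, Fin.sum_univ_two, hb τ, mul_zero, add_zero]

lemma IsFrame.m11_mul (hb : IsFrame p ρbar b) (σ τ : GQq p) :
    wdfM p ρbar b (σ * τ) 1 1 = wdfM p ρbar b σ 1 1 * wdfM p ρbar b τ 1 1 := by
  rw [wdfM_mul, Matrix.mul_apply, Fin.sum_univ_two, hb σ, zero_mul, zero_add]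

lemma IsFrame.m01_mul (hb : IsFrame p ρbar b) (σ τ : GQq p) :
    wdfM p ρbar b (σ * τ) 0 1 =
      wdfM p ρbar b σ 0 0 * wdfM p ρbar b τ 0 1 + wdfM p ρbar b σ 0 1 * wdfM p ρbar b τ 1 1 := by
  rw [wdfM_mul, Matrix.mul_apply, Fin.sum_univ_two]

variable (p ρbar b) in
lemma wdfM_one_00 : wdfM p ρbar b 1 0 0 = 1 := by
  rw [wdfM_one]; rfl

variable (p ρbar b) in
lemma wdfM_one_11 : wdfM p ρbar b 1 1 1 = 1 := by
  rw [wdfM_one]; rfl

variable (p ρbar b) in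
lemma wdfM_one_01 : wdfM p ρbar b 1 0 1 = 0 := by
  rw [wdfM_one]; rfl

/-- the character `η₁` (on the line `k b₀`) -/
def wdfEta1 (hb : IsFrame p ρbar b) : GQq p →* kˣ :=
  MonoidHom.toHomUnits
    { toFun := fun σ => wdfM p ρbar b σ 0 0
      map_one' := wdfM_one_00 p ρbar b
      map_mul' := hb.m00_mul }

/-- the character `η₂` (on the quotient) -/
def wdfEta2 (hb : IsFrame p ρbar b) : GQq p →* kˣ :=
  MonoidHom.toHomUnits
    { toFun := fun σ => wdfM p ρbar b σ 1 1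
      map_one' := wdfM_one_11 p ρbar b
      map_mul' := hb.m11_mul }

@[simp] lemma wdfEta1_coe (hb : IsFrame p ρbar b) (σ : GQq p) :
    ((wdfEta1 hb σ : kˣ) : k) = wdfM p ρbar b σ 0 0 := rfl

@[simp] lemma wdfEta2_coe (hb : IsFrame p ρbar b) (σ : GQq p) :
    ((wdfEta2 hb σ : kˣ) : k) = wdfM p ρbar b σ 1 1 := rfl

/-- `χ = η₁ / η₂` -/
def wdfChi (hb : IsFrame p ρbar b) : GQq p →* kˣ := wdfEta1 hb / wdfEta2 hb

lemma wdfChi_mul_eta2 (hb : IsFrame p ρbar b) (σ : GQq p) :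
    ((wdfChi hb σ : kˣ) : k) * wdfM p ρbar b σ 1 1 = wdfM p ρbar b σ 0 0 := by
  rw [← wdfEta1_coe hb, ← wdfEta2_coe hb, ← Units.val_mul]
  congr 1
  unfold wdfChi
  rw [MonoidHom.div_apply, div_mul_cancel]

lemma wdfChi_inv_mul_eta1 (hb : IsFrame p ρbar b) (σ : GQq p) :
    (((wdfChi hb)⁻¹ σ : kˣ) : k) * wdfM p ρbar b σ 0 0 = wdfM p ρbar b σ 1 1 := by
  rw [← wdfEta1_coe hb, ← wdfEta2_coe hb, ← Units.val_mul]
  congr 1
  unfold wdfChi
  rw [MonoidHom.inv_apply, MonoidHom.div_apply, inv_div, div_mul_cancel]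

lemma wdf_eta1_ne_zero (hb : IsFrame p ρbar b) (σ : GQq p) : wdfM p ρbar b σ 0 0 ≠ 0 := by
  rw [← wdfEta1_coe hb]
  exact Units.ne_zero _

lemma wdf_eta2_ne_zero (hb : IsFrame p ρbar b) (σ : GQq p) : wdfM p ρbar b σ 1 1 ≠ 0 := by
  rw [← wdfEta2_coe hb]
  exact Units.ne_zero _

end Frame

end Fermat.Agent.TW.W

end
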