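/-
TW-W / W-dev (helper74), part C: the adjoint representation in a frame.

`wdfMat b x` is the matrix of `x ∈ ad⁰`; the adjoint action `Y = σ·X` satisfies `Y M(σ) = M(σ) X`;
entrywise formulas in a frame; the three "entry cocycles".
-/
import Fermat.Agent.TW.W.DevFrame

set_option autoImplicit false
set_option linter.unusedSectionVars false
set_option linter.unusedVariables false

noncomputable section

namespace Fermat.Agent.TW.W

open CategoryTheory groupCohomology IsLocalRing Polynomial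
open Fermat.Agent.PT Fermat.Agent.PT.B Fermat.Agent.TW.L Fermat.Agent.TW.S Fermat.Agent.S53
  Fermat.Agent.W1 ExtCitation

section Ad

variable (p : ℕ) [Fact p.Prime] {k : Type} [Field k] [CharP k p] (ρbar : ResidualGaloisRep k)
  (b : Module.Basis (Fin 2) k ρbar.V)

/-- the matrix of an element of `ad⁰` -/
def wdfMat : (ad0Rep p ρbar).V →+ Matrix (Fin 2) (Fin 2) k :=
  ((LinearMap.toMatrix b b).toLinearMap.toAddMonoidHom).comp (ad0Val p ρbar)

lemma wdfMat_apply (x : (ad0Rep p ρbar).V) :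
    wdfMat p ρbar b x = LinearMap.toMatrix b b (ad0Val p ρbar x) := rfl

lemma wdfMat_injective : Function.Injective (wdfMat p ρbar b) := by
  intro x y h
  apply ad0Val_injective p ρbar
  exact (LinearMap.toMatrix b b).injective h

lemma wdfMat_trace (x : (ad0Rep p ρbar).V) :
    wdfMat p ρbar b x 0 0 + wdfMat p ρbar b x 1 1 = 0 := by
  have h := trace_ad0Val p ρbar x
  rw [LinearMap.trace_eq_matrix_trace k b, Matrix.trace_fin_two] at h
  exact h

lemma wdfMat_11 (x : (ad0Rep p ρbar).V) :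
    wdfMat p ρbar b x 1 1 = - wdfMat p ρbar b x 0 0 :=
  eq_neg_of_add_eq_zero_right (wdfMat_trace p ρbar b x)

/-- every trace-zero matrix is the matrix of an element of `ad⁰` -/
lemma wdfMat_surj (X : Matrix (Fin 2) (Fin 2) k) (hX : X 0 0 + X 1 1 = 0) :
    ∃ x : (ad0Rep p ρbar).V, wdfMat p ρbar b x = X := by
  obtain ⟨x, hx⟩ := exists_ad0Val_eq p ρbar ((LinearMap.toMatrix b b).symm X) (by
    rw [LinearMap.trace_eq_matrix_trace k b, LinearEquiv.apply_symm_apply, Matrix.trace_fin_two]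
    exact hX)
  refine ⟨x, ?_⟩
  rw [wdfMat_apply, hx, LinearEquiv.apply_symm_apply]

/-- the adjoint action in matrix form: `Y M(σ) = M(σ) X` -/
lemma wdfMat_act (σ : GQq p) (x : (ad0Rep p ρbar).V) :
    wdfMat p ρbar b ((locRep p (ad0Rep p ρbar)).ρ σ x) * wdfM p ρbar b σ =
      wdfM p ρbar b σ * wdfMat p ρbar b x := by
  have h : ad0Val p ρbar ((locRep p (ad0Rep p ρbar)).ρ σ x) =
      rhoLoc p ρbar σ * ad0Val p ρbar x * rhoLoc p ρbar σ⁻¹ := by
    show ad0Val p ρbar ((ad0Rep p ρbar).ρ (localGaloisToGlobal p σ) x) = _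
    rw [ad0Val_ρ]
    unfold rhoLoc
    rw [map_inv (localGaloisToGlobal p) σ]
  rw [wdfMat_apply, wdfMat_apply, wdfM, ← LinearMap.toMatrix_mul, ← LinearMap.toMatrix_mul, h,
    mul_assoc, wdf_rhoLoc_inv_mul, mul_one]

variable {p ρbar b}

/-- entry `(1,0)` of the action -/
lemma IsFrame.act10 (hb : IsFrame p ρbar b) (σ : GQq p) (x : (ad0Rep p ρbar).V) :
    wdfMat p ρbar b ((locRep p (ad0Rep p ρbar)).ρ σ x) 1 0 =
      (((wdfChi hb)⁻¹ σ : kˣ) : k) * wdfMat p ρbar b x 1 0 := by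
  have h := congrFun (congrFun (wdfMat_act p ρbar b σ x) 1) 0
  rw [Matrix.mul_apply, Matrix.mul_apply, Fin.sum_univ_two, Fin.sum_univ_two, hb σ, mul_zero,
    add_zero, zero_mul, zero_add] at h
  have h1 := wdf_eta1_ne_zero hb σ
  rw [← wdfChi_inv_mul_eta1 hb σ] at h
  have h2 : wdfMat p ρbar b ((locRep p (ad0Rep p ρbar)).ρ σ x) 1 0 * wdfM p ρbar b σ 0 0 =
      ((((wdfChi hb)⁻¹ σ : kˣ) : k) * wdfMat p ρbar b x 1 0) * wdfM p ρbar b σ 0 0 := by
    rw [h]; ring
  exact mul_right_cancel₀ h1 h2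

/-- entry `(0,0)` of the action on `B⁰` -/
lemma IsFrame.act00 (hb : IsFrame p ρbar b) (σ : GQq p) (x : (ad0Rep p ρbar).V)
    (hx : wdfMat p ρbar b x 1 0 = 0) :
    wdfMat p ρbar b ((locRep p (ad0Rep p ρbar)).ρ σ x) 0 0 = wdfMat p ρbar b x 0 0 := by
  have h := congrFun (congrFun (wdfMat_act p ρbar b σ x) 0) 0
  rw [Matrix.mul_apply, Matrix.mul_apply, Fin.sum_univ_two, Fin.sum_univ_two, hb σ, mul_zero,
    add_zero, hx, mul_zero, add_zero] at h
  have h1 := wdf_eta1_ne_zero hb σ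
  have h2 : wdfMat p ρbar b ((locRep p (ad0Rep p ρbar)).ρ σ x) 0 0 * wdfM p ρbar b σ 0 0 =
      wdfMat p ρbar b x 0 0 * wdfM p ρbar b σ 0 0 := by
    rw [h]; ring
  exact mul_right_cancel₀ h1 h2

/-- entry `(0,0)` of the action, general form -/
lemma IsFrame.act00' (hb : IsFrame p ρbar b) (σ : GQq p) (x : (ad0Rep p ρbar).V) :
    wdfMat p ρbar b ((locRep p (ad0Rep p ρbar)).ρ σ x) 0 0 * wdfM p ρbar b σ 0 0 =
      wdfM p ρbar b σ 0 0 * wdfMat p ρbar b x 0 0 +
        wdfM p ρbar b σ 0 1 * wdfMat p ρbar b x 1 0 := by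
  have h := congrFun (congrFun (wdfMat_act p ρbar b σ x) 0) 0
  rw [Matrix.mul_apply, Matrix.mul_apply, Fin.sum_univ_two, Fin.sum_univ_two, hb σ, mul_zero,
    add_zero] at h
  exact h

/-- entry `(0,1)` of the action on `B⁰`:
`Y₀₁ η₂ = η₁ X₀₁ - 2 β X₀₀`. -/
lemma IsFrame.act01 (hb : IsFrame p ρbar b) (σ : GQq p) (x : (ad0Rep p ρbar).V)
    (hx : wdfMat p ρbar b x 1 0 = 0) :
    wdfMat p ρbar b ((locRep p (ad0Rep p ρbar)).ρ σ x) 0 1 * wdfM p ρbar b σ 1 1 =
      wdfM p ρbar b σ 0 0 * wdfMat p ρbar b x 0 1 -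
        2 * wdfM p ρbar b σ 0 1 * wdfMat p ρbar b x 0 0 := by
  have h := congrFun (congrFun (wdfMat_act p ρbar b σ x) 0) 1
  rw [Matrix.mul_apply, Matrix.mul_apply, Fin.sum_univ_two, Fin.sum_univ_two,
    hb.act00 σ x hx, wdfMat_11 p ρbar b x] at h
  linear_combination h

end Ad

end Fermat.Agent.TW.W

end
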