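/-
TW-W / W-dev (helper74), part D: the entry cocycles of a cocycle with values in `ad⁰`.
-/
import Fermat.Agent.TW.W.DevAd

set_option autoImplicit false
set_option linter.unusedSectionVars false
set_option linter.unusedVariables false

noncomputable section

namespace Fermat.Agent.TW.W

open CategoryTheory groupCohomology IsLocalRing Polynomial
open Fermat.Agent.PT Fermat.Agent.PT.B Fermat.Agent.TW.L Fermat.Agent.TW.S Fermat.Agent.S53
  Fermat.Agent.W1 ExtCitation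

section Coc

variable {p : ℕ} [Fact p.Prime] {k : Type} [Field k] [CharP k p] [Algebra (ZMod p) k]
  {ρbar : ResidualGaloisRep k} {b : Module.Basis (Fin 2) k ρbar.V}

/-- the cocycle identity for the values -/
lemma wdc_coc (z : cocycles₁ (locRep p (ad0Rep p ρbar))) (σ τ : GQq p) :
    (z : GQq p → (ad0Rep p ρbar).V) (σ * τ) =
      (locRep p (ad0Rep p ρbar)).ρ σ ((z : GQq p → (ad0Rep p ρbar).V) τ) +
        (z : GQq p → (ad0Rep p ρbar).V) σ :=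
  (mem_cocycles₁_iff (z : GQq p → (ad0Rep p ρbar).V)).1 z.2 σ τ

/-- the lower left entry is a cocycle with values in `k(χ⁻¹)` -/
def wdcLow (hb : IsFrame p ρbar b) (z : cocycles₁ (locRep p (ad0Rep p ρbar))) :
    cocycles₁ (charRep p (wdfChi hb)⁻¹) :=
  ⟨fun σ => wdfMat p ρbar b ((z : GQq p → (ad0Rep p ρbar).V) σ) 1 0, by
    refine (mem_cocycles₁_iff _).2 ?_
    intro σ τ
    show wdfMat p ρbar b ((z : GQq p → (ad0Rep p ρbar).V) (σ * τ)) 1 0 =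
      (((wdfChi hb)⁻¹ σ : kˣ) : k) * wdfMat p ρbar b ((z : GQq p → (ad0Rep p ρbar).V) τ) 1 0 +
        wdfMat p ρbar b ((z : GQq p → (ad0Rep p ρbar).V) σ) 1 0
    rw [wdc_coc z σ τ, map_add, Matrix.add_apply, hb.act10]⟩

@[simp] lemma wdcLow_apply (hb : IsFrame p ρbar b) (z : cocycles₁ (locRep p (ad0Rep p ρbar)))
    (σ : GQq p) :
    (wdcLow hb z : GQq p → k) σ = wdfMat p ρbar b ((z : GQq p → (ad0Rep p ρbar).V) σ) 1 0 := rfl

/-- the diagonal entry of a `B⁰`-valued cocycle is a homomorphism -/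
def wdcDiag (hb : IsFrame p ρbar b) (z : cocycles₁ (locRep p (ad0Rep p ρbar)))
    (hz : ∀ σ, wdfMat p ρbar b ((z : GQq p → (ad0Rep p ρbar).V) σ) 1 0 = 0) :
    cocycles₁ (charRep p (1 : GQq p →* kˣ)) :=
  ⟨fun σ => wdfMat p ρbar b ((z : GQq p → (ad0Rep p ρbar).V) σ) 0 0, by
    refine (mem_cocycles₁_iff _).2 ?_
    intro σ τ
    show wdfMat p ρbar b ((z : GQq p → (ad0Rep p ρbar).V) (σ * τ)) 0 0 =
      (((1 : GQq p →* kˣ) σ : kˣ) : k) * wdfMat p ρbar b ((z : GQq p → (ad0Rep p ρbar).V) τ) 0 0 +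
        wdfMat p ρbar b ((z : GQq p → (ad0Rep p ρbar).V) σ) 0 0
    rw [wdc_coc z σ τ, map_add, Matrix.add_apply, hb.act00 σ _ (hz τ), MonoidHom.one_apply,
      Units.val_one, one_mul]⟩

@[simp] lemma wdcDiag_apply (hb : IsFrame p ρbar b) (z : cocycles₁ (locRep p (ad0Rep p ρbar)))
    (hz : ∀ σ, wdfMat p ρbar b ((z : GQq p → (ad0Rep p ρbar).V) σ) 1 0 = 0) (σ : GQq p) :
    (wdcDiag hb z hz : GQq p → k) σ =
      wdfMat p ρbar b ((z : GQq p → (ad0Rep p ρbar).V) σ) 0 0 := rfl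

/-- entry `(0,1)` of the action on `N` -/
lemma IsFrame.act01' (hb : IsFrame p ρbar b) (σ : GQq p) (x : (ad0Rep p ρbar).V)
    (hx : wdfMat p ρbar b x 1 0 = 0) (hx' : wdfMat p ρbar b x 0 0 = 0) :
    wdfMat p ρbar b ((locRep p (ad0Rep p ρbar)).ρ σ x) 0 1 =
      ((wdfChi hb σ : kˣ) : k) * wdfMat p ρbar b x 0 1 := by
  have h := hb.act01 σ x hx
  rw [hx', mul_zero, sub_zero, ← wdfChi_mul_eta2 hb σ] at h
  have h1 := wdf_eta2_ne_zero hb σ
  have h2 : wdfMat p ρbar b ((locRep p (ad0Rep p ρbar)).ρ σ x) 0 1 * wdfM p ρbar b σ 1 1 =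
      (((wdfChi hb σ : kˣ) : k) * wdfMat p ρbar b x 0 1) * wdfM p ρbar b σ 1 1 := by
    rw [h]; ring
  exact mul_right_cancel₀ h1 h2

/-- the upper right entry of an `N`-valued cocycle is a cocycle with values in `k(χ)` -/
def wdcUp (hb : IsFrame p ρbar b) (z : cocycles₁ (locRep p (ad0Rep p ρbar)))
    (hz : ∀ σ, wdfMat p ρbar b ((z : GQq p → (ad0Rep p ρbar).V) σ) 1 0 = 0)
    (hz' : ∀ σ, wdfMat p ρbar b ((z : GQq p → (ad0Rep p ρbar).V) σ) 0 0 = 0) :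
    cocycles₁ (charRep p (wdfChi hb)) :=
  ⟨fun σ => wdfMat p ρbar b ((z : GQq p → (ad0Rep p ρbar).V) σ) 0 1, by
    refine (mem_cocycles₁_iff _).2 ?_
    intro σ τ
    show wdfMat p ρbar b ((z : GQq p → (ad0Rep p ρbar).V) (σ * τ)) 0 1 =
      ((wdfChi hb σ : kˣ) : k) * wdfMat p ρbar b ((z : GQq p → (ad0Rep p ρbar).V) τ) 0 1 +
        wdfMat p ρbar b ((z : GQq p → (ad0Rep p ρbar).V) σ) 0 1
    rw [wdc_coc z σ τ, map_add, Matrix.add_apply, hb.act01' σ _ (hz τ) (hz' τ)]⟩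

@[simp] lemma wdcUp_apply (hb : IsFrame p ρbar b) (z : cocycles₁ (locRep p (ad0Rep p ρbar)))
    (hz : ∀ σ, wdfMat p ρbar b ((z : GQq p → (ad0Rep p ρbar).V) σ) 1 0 = 0)
    (hz' : ∀ σ, wdfMat p ρbar b ((z : GQq p → (ad0Rep p ρbar).V) σ) 0 0 = 0) (σ : GQq p) :
    (wdcUp hb z hz hz' : GQq p → k) σ =
      wdfMat p ρbar b ((z : GQq p → (ad0Rep p ρbar).V) σ) 0 1 := rfl

/-- the extension cocycle `n = β / η₂` of `ρ̄` itself, with values in `k(χ)` -/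
def wdcN (hb : IsFrame p ρbar b) : cocycles₁ (charRep p (wdfChi hb)) :=
  ⟨fun σ => wdfM p ρbar b σ 0 1 * (wdfM p ρbar b σ 1 1)⁻¹, by
    refine (mem_cocycles₁_iff _).2 ?_
    intro σ τ
    show wdfM p ρbar b (σ * τ) 0 1 * (wdfM p ρbar b (σ * τ) 1 1)⁻¹ =
      ((wdfChi hb σ : kˣ) : k) * (wdfM p ρbar b τ 0 1 * (wdfM p ρbar b τ 1 1)⁻¹) +
        wdfM p ρbar b σ 0 1 * (wdfM p ρbar b σ 1 1)⁻¹
    have h1 := wdf_eta2_ne_zero hb σ
    have h2 := wdf_eta2_ne_zero hb τ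
    rw [hb.m01_mul, hb.m11_mul, ← wdfChi_mul_eta2 hb σ]
    field_simp⟩

@[simp] lemma wdcN_apply (hb : IsFrame p ρbar b) (σ : GQq p) :
    (wdcN hb : GQq p → k) σ = wdfM p ρbar b σ 0 1 * (wdfM p ρbar b σ 1 1)⁻¹ := rfl

end Coc

end Fermat.Agent.TW.W

end
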