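/-
TW-W / W-dev (helper74): INTERFACE of the sub-pieces of the dévissage (reducible case).

Setting: `b` a FRAME of `ρ̄|_{G_p}` (`IsFrame p ρbar b`, `TW/W/DevFrame.lean`):
`wdfM p ρbar b σ = [[η₁, β], [0, η₂]]`, `χ = wdfChi hb = η₁/η₂`; `wdfMat p ρbar b x` = matrix of
`x ∈ ad⁰` (`TW/W/DevAd.lean`); entry cocycles `wdcLow`, `wdcDiag`, `wdcUp`, `wdcN`
(`TW/W/DevCoc.lean`).  Each piece `X` is DONE when `theorem stmtX : StmtX` is landed in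
`TW/W/Dev<X>.lean` (names `wdev<x>_*`).
-/
import Fermat.Agent.TW.W.DevCoc

set_option autoImplicit false

noncomputable section

namespace Fermat.Agent.TW.W

open CategoryTheory groupCohomology IsLocalRing Polynomial
open Fermat.Agent.PT Fermat.Agent.PT.B Fermat.Agent.TW.L Fermat.Agent.TW.S Fermat.Agent.S53
  Fermat.Agent.W1 ExtCitation

/-- **DEV-O** (ordinary shape: `η₂ = 1` on inertia, `η₁ ≠ 1` on inertia).  If `PEt2 z` then the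
lower left entry of `z` is a coboundary of `k(χ⁻¹)`.
(`I_aug V̄ ⊆ k b₀` since inertia acts trivially on `V̄ / k b₀`.  For `σ ∈ I`:
`g_σ := vcAct σ (b₀, 0) - (b₀, 0) = ((η₁(σ) - 1) b₀, η₁(σ) z(σ) b₀) ∈ I_aug V_c`, a `k`-subspace;
`(η₁(σ₀) - 1) g_σ - (η₁(σ) - 1) g_{σ₀} = (0, w)`, so by `PEt2` the `b₁`-coefficient of `w` vanishes:
`η₁(σ) c'(σ) = m' (η₁(σ) - 1)` with `m' = η₁(σ₀) c'(σ₀) / (η₁(σ₀) - 1)`, i.e.
`c'(σ) = (χ⁻¹(σ) - 1)(-m')` on `I`.  Then `c'' = c' - ∂(-m')` vanishes on `I`, and for `g ∈ G_p`: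
`0 = c''(g σ₀ g⁻¹) = (1 - χ⁻¹(σ₀)) c''(g)`.) -/
def StmtDevO : Prop :=
  ∀ (p : ℕ) [Fact p.Prime] (k : Type) [Field k] [CharP k p] [Algebra (ZMod p) k]
    (ρbar : ResidualGaloisRep k) (b : Module.Basis (Fin 2) k ρbar.V) (hb : IsFrame p ρbar b),
    (∀ σ ∈ inertiaQ p, wdfM p ρbar b σ 1 1 = 1) →
    (∃ σ₀ ∈ inertiaQ p, wdfM p ρbar b σ₀ 0 0 ≠ 1) →
    ∀ z : cocycles₁ (locRep p (ad0Rep p ρbar)),
      PEt2 p ρbar (fun τ => ad0Val p ρbar ((z : GQq p → (ad0Rep p ρbar).V) τ)) →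
      ∃ m : k, ∀ σ : GQq p, wdfMat p ρbar b ((z : GQq p → (ad0Rep p ρbar).V) σ) 1 0 =
        ((((wdfChi hb)⁻¹ σ : kˣ) : k) - 1) * m

/-- **DEV-AO** (anti-ordinary shape: `η₁ = 1` on inertia, `η₂ ≠ 1` on inertia).  If `PEt1` then
`ρ̄|_{G_p}` is split: `β = (η₁ - η₂) m`.
(`I_aug V̄` is a `G_p`-stable `k`-subspace (`I` is normal), nonzero (`(σ₀ - 1) b₁ ∉ k b₀`), and
`k b₀ ∩ I_aug V̄ ⊆ (I_aug V̄)^I = 0`: a stable line `k (b₁ - m b₀)` complementary to `k b₀`.) -/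
def StmtDevAO : Prop :=
  ∀ (p : ℕ) [Fact p.Prime] (k : Type) [Field k] [CharP k p]
    (ρbar : ResidualGaloisRep k) (b : Module.Basis (Fin 2) k ρbar.V), IsFrame p ρbar b →
    (∀ σ ∈ inertiaQ p, wdfM p ρbar b σ 0 0 = 1) →
    (∃ σ₀ ∈ inertiaQ p, wdfM p ρbar b σ₀ 1 1 ≠ 1) →
    PEt1 p ρbar →
    ∃ m : k, ∀ σ : GQq p, wdfM p ρbar b σ 0 1 =
      (wdfM p ρbar b σ 0 0 - wdfM p ρbar b σ 1 1) * m

/-- **DEV-swap**: a split frame can be swapped.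
(`b' = (b₁ - m b₀, b₀)`.) -/
def StmtDevSwap : Prop :=
  ∀ (p : ℕ) [Fact p.Prime] (k : Type) [Field k]
    (ρbar : ResidualGaloisRep k) (b : Module.Basis (Fin 2) k ρbar.V), IsFrame p ρbar b →
    (∃ m : k, ∀ σ : GQq p, wdfM p ρbar b σ 0 1 =
      (wdfM p ρbar b σ 0 0 - wdfM p ρbar b σ 1 1) * m) →
    ∃ b' : Module.Basis (Fin 2) k ρbar.V, IsFrame p ρbar b' ∧
      ∀ σ : GQq p, wdfM p ρbar b' σ 0 0 = wdfM p ρbar b σ 1 1 ∧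
        wdfM p ρbar b' σ 1 1 = wdfM p ρbar b σ 0 0 ∧ wdfM p ρbar b' σ 0 1 = 0

/-- **DEV-2tors**: two characters of `G_p` whose squares are trivial on inertia: one of them is
trivial on inertia, or they coincide on inertia.
(`TW.L.stmtTame` for `(q, p) = (p, 2)` applied to `h = (ε₁, ε₂)|_I`, with values in the elements of
square `1` of `kˣ × kˣ`: the image is `{1, h(t)}`.) -/
def StmtDev2Tors : Prop :=
  ∀ (p : ℕ) [Fact p.Prime], p ≠ 2 → ∀ (k : Type) [Field k] (ε₁ ε₂ : GQq p →* kˣ),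
    (∃ U ∈ (towerLoc p).lev, ∀ s ∈ U, ε₁ s = 1 ∧ ε₂ s = 1) →
    (∀ σ ∈ inertiaQ p, ε₁ σ ^ 2 = 1 ∧ ε₂ σ ^ 2 = 1) →
    (∀ σ ∈ inertiaQ p, ε₁ σ = 1) ∨ (∀ σ ∈ inertiaQ p, ε₂ σ = 1) ∨
      (∀ σ ∈ inertiaQ p, ε₁ σ = ε₂ σ)

/-- **DEV-frame**: a `G_p`-stable line gives a frame.  (`TW.L.gord_exists_basis`.) -/
def StmtDevFrame : Prop :=
  ∀ (p : ℕ) [Fact p.Prime] (k : Type) [Field k] (ρbar : ResidualGaloisRep k),
    ¬ IsLocIrr p ρbar → ∃ b : Module.Basis (Fin 2) k ρbar.V, IsFrame p ρbar b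

end Fermat.Agent.TW.W

end
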