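/-
TW-W / STR-tame (helper86): `stmtTameGen : StmtTameGen`.

Tame inertia of `G_{ℚ_q}` modulo a level, for a general exponent `n` prime to `q` (the case
`q = p` of the residue characteristic included): every homomorphism from the inertia group to a
group of exponent `n`, trivial on the level, factors through a cyclic quotient generated by one
element `t`, and Frobenius acts on it by `t ↦ t ^ q`.

Proof: that of `TW.L.ltame_abstract`, `ltame_global`, `stmtTameGrp` (helper48), with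
`gcd (q ^ m) n = 1` in the place of `gcd (q ^ m) p = 1`.
-/
import Fermat.Agent.TW.W.Plan3
import Fermat.Agent.TW.L.Tame

set_option autoImplicit false
set_option linter.style.haveILetI false

open NumberField

namespace Fermat.Agent.TW.W

open Fermat.Agent.PT Fermat.Agent.PT.B Fermat.Agent.Cheb Fermat.Agent.TW.L

section Abs

variable {R : Type*} [CommRing R] {G : Type*} [Group G] [MulSemiringAction G R] {P : Ideal R}

/-- The tame character of a group `J` mapping to the inertia group of `P`: a homomorphism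
`Θ : J → (R ⧸ P)ˣ` whose kernel consists of elements of `q`-power order modulo `ker ρ`, with
cyclic image generated by `Θ t`, and `Θ (t') = Θ t ^ q` whenever `ρ t' = φ ρ(t) φ⁻¹` for a
Frobenius `φ`. -/
theorem wstr_exists_theta [IsDedekindDomain R] [P.IsPrime] (hP : P ≠ ⊥) [Finite G]
    (hfaith : ∀ σ : G, (∀ x : R, σ • x = x) → σ = 1) {q : ℕ} (hq : q.Prime)
    (hqP : (q : R) ∈ P) {J : Type*} [Group J] (ρ : J →* G) (hρ : ∀ y, LtameInert P (ρ y)) :
    ∃ (Θ : J →* (R ⧸ P)ˣ) (t : J),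
      (∀ y : J, Θ y = 1 → ∃ m : ℕ, ρ y ^ (q ^ m) = 1) ∧
      (∀ x : J, ∃ n : ℕ, Θ x = Θ t ^ n) ∧
      (∀ (s s' : J) (φ : G), (∀ x : R, φ • x - x ^ q ∈ P) → ρ s' = φ * ρ s * φ⁻¹ →
        Θ s' = Θ s ^ q) := by
  classical
  have hPtop : P ≠ ⊤ := Ideal.IsPrime.ne_top inferInstance
  -- a uniformiser
  obtain ⟨π, hπ1, hπ2⟩ := SetLike.exists_of_lt (Ideal.pow_succ_lt_pow hP 1)
  rw [pow_one] at hπ1
  have hπ2' : π ∉ P ^ 2 := hπ2
  obtain ⟨θ, hθ⟩ := ltame_exists_theta (G := G) hP hπ1 hπ2'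
  let ρ' : J →* ltameInertia G P := ρ.codRestrict (ltameInertia G P) hρ
  let Θ : J →* (R ⧸ P)ˣ := θ.comp ρ'
  -- the kernel of `Θ` consists of wild elements
  have hker : ∀ y : J, Θ y = 1 → LtameWild P (ρ y) := by
    intro y hy
    obtain ⟨d, hd, hd'⟩ := hθ (ρ' y)
    have h1 : Ideal.Quotient.mk P d = Ideal.Quotient.mk P 1 := by
      rw [← hd', map_one]
      have : θ (ρ' y) = 1 := hy
      rw [this]; rfl
    rw [Ideal.Quotient.eq] at h1
    exact ltame_wild_of_theta_one hP hπ1 hπ2' (hρ y) (ltame_theta_congr hπ1 hd h1)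
  -- the range of `Θ` is finite cyclic
  haveI : Finite (ltameInertia G P) := inferInstance
  haveI : Finite θ.range := Set.finite_range θ
  have hle : Θ.range ≤ θ.range := by
    rintro _ ⟨y, rfl⟩
    exact ⟨ρ' y, rfl⟩
  haveI : Finite Θ.range := Finite.of_injective (Subgroup.inclusion hle)
    (Subgroup.inclusion_injective hle)
  obtain ⟨⟨g, ⟨t, rfl⟩⟩, hg⟩ := (isCyclic_subgroup_units Θ.range).exists_generator
  have hgen : ∀ x : J, ∃ n : ℕ, Θ x = Θ t ^ n := by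
    intro x
    have h1 := hg ⟨Θ x, ⟨x, rfl⟩⟩
    have h2 : IsOfFinOrder (⟨Θ t, ⟨t, rfl⟩⟩ : Θ.range) := isOfFinOrder_of_finite _
    rw [← h2.mem_powers_iff_mem_zpowers] at h1
    obtain ⟨n, hn⟩ := h1
    refine ⟨n, ?_⟩
    have := congrArg (fun z : Θ.range => (z : (R ⧸ P)ˣ)) hn
    simpa using this.symm
  refine ⟨Θ, t, fun y hy => ?_, hgen, fun s s' φ hφ hs' => ?_⟩
  · exact ltame_wild_pow_eq_one hPtop hfaith hq hqP (hker y hy)
  · obtain ⟨d, hd, hd'⟩ := hθ (ρ' s)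
    obtain ⟨d', hd2, hd2'⟩ := hθ (ρ' s')
    have h1 : LtameTheta P π (ρ s') (d ^ q) := by
      rw [hs']
      exact ltame_theta_frob hP hπ1 hπ2' (hρ s) hd q hq.ne_zero φ hφ
    have h2 : d' - d ^ q ∈ P := ltame_theta_unique hP hπ2' hd2 h1
    apply Units.ext
    rw [Units.val_pow_eq_pow_val]
    show ((θ (ρ' s') : (R ⧸ P)ˣ) : R ⧸ P) = ((θ (ρ' s) : (R ⧸ P)ˣ) : R ⧸ P) ^ q
    rw [hd', hd2', ← map_pow, Ideal.Quotient.eq]
    exact h2

/-- **Abstract tame inertia**, general exponent prime to `q`. -/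
theorem wstr_abstract [IsDedekindDomain R] [P.IsPrime] (hP : P ≠ ⊥) [Finite G]
    (hfaith : ∀ σ : G, (∀ x : R, σ • x = x) → σ = 1) {q : ℕ} (hq : q.Prime)
    (hqP : (q : R) ∈ P) {J : Type*} [Group J] (ρ : J →* G) (hρ : ∀ y, LtameInert P (ρ y)) :
    ∃ t : J, ∀ (n : ℕ), Nat.Coprime q n → ∀ (A : Type) [Group A] (h : J →* A),
      (∀ a : A, a ^ n = 1) → (∀ y, ρ y = 1 → h y = 1) →
      (∀ x, ∃ m : ℕ, h x = h t ^ m) ∧
      ∀ (t' : J) (φ : G), (∀ x : R, φ • x - x ^ q ∈ P) → ρ t' = φ * ρ t * φ⁻¹ →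
        h t' = h t ^ q := by
  obtain ⟨Θ, t, hker, hgen, hfrob⟩ := wstr_exists_theta hP hfaith hq hqP ρ hρ
  refine ⟨t, ?_⟩
  intro n hqn A _ h hA hh
  -- the key: `h` kills the kernel of `Θ`
  have hK : ∀ y : J, Θ y = 1 → h y = 1 := by
    intro y hy
    obtain ⟨m, hm⟩ := hker y hy
    have h1 : h y ^ (q ^ m) = 1 := by
      rw [← map_pow]
      exact hh _ (by rw [map_pow, hm])
    have h2 := pow_gcd_eq_one.mpr ⟨h1, hA (h y)⟩
    have h3 : Nat.gcd (q ^ m) n = 1 := Nat.Coprime.pow_left m hqn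
    rwa [h3, pow_one] at h2
  have hK' : ∀ (x : J) (m : ℕ), Θ x = Θ t ^ m → h x = h t ^ m := by
    intro x m hx
    have h1 : h (x * (t ^ m)⁻¹) = 1 := by
      apply hK
      rw [map_mul, map_inv, map_pow, hx, mul_inv_cancel]
    rw [map_mul, map_inv, map_pow, mul_inv_eq_one] at h1
    exact h1
  refine ⟨fun x => ?_, fun t' φ hφ ht' => ?_⟩
  · obtain ⟨m, hm⟩ := hgen x
    exact ⟨m, hK' x m hm⟩
  · exact hK' t' q (hfrob t t' φ hφ ht')

end Abs

section Global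

/-- **Tame inertia, global form**, general exponent prime to `q`. -/
theorem wstr_global {q : ℕ} (hq : q.Prime) (A : ValuationSubring (AlgebraicClosure ℚ))
    (hA : A.LiesOverPrime q) (F : IntermediateField ℚ (AlgebraicClosure ℚ))
    [FiniteDimensional ℚ F] {J : Type*} [Group J]
    (r : J →* (AlgebraicClosure ℚ ≃ₐ[ℚ] AlgebraicClosure ℚ))
    (hr : ∀ y, r y ∈ A.inertiaSubgroupIn ℚ) :
    ∃ t : J, ∀ (n : ℕ), Nat.Coprime q n → ∀ (B : Type) [Group B] (h : J →* B),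
      (∀ a : B, a ^ n = 1) → (∀ y, r y ∈ F.fixingSubgroup → h y = 1) →
      (∀ x, ∃ m : ℕ, h x = h t ^ m) ∧
      ∀ (t' : J) (φ : AlgebraicClosure ℚ ≃ₐ[ℚ] AlgebraicClosure ℚ), A.IsFrobeniusAt φ q →
        r t' = φ * r t * φ⁻¹ → h t' = h t ^ q := by
  classical
  haveI : IsAlgClosure ℚ (AlgebraicClosure ℚ) := ⟨inferInstance, AlgebraicClosure.isAlgebraic ℚ⟩
  haveI : Normal ℚ (AlgebraicClosure ℚ) := IsAlgClosure.normal ℚ (AlgebraicClosure ℚ)
  -- the normal closure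
  let F' : IntermediateField ℚ (AlgebraicClosure ℚ) :=
    IntermediateField.normalClosure ℚ F (AlgebraicClosure ℚ)
  have hFF' : F ≤ F' := IntermediateField.le_normalClosure F
  haveI : Normal ℚ F' := normalClosure.normal ℚ F (AlgebraicClosure ℚ)
  haveI : FiniteDimensional ℚ F' := normalClosure.is_finiteDimensional ℚ F (AlgebraicClosure ℚ)
  haveI : NumberField F' := ⟨⟩
  haveI : IsGalois ℚ F' := ⟨⟩
  haveI : Finite (F' ≃ₐ[ℚ] F') := inferInstance
  let P : Ideal (𝓞 F') := ltamePrime F' A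
  have hP0 : P ≠ ⊥ := ltame_prime_ne_bot F' A hq hA
  have hqP : ((q : ℕ) : 𝓞 F') ∈ P := ltame_natCast_mem F' A hA
  have hfaith : ∀ σ : F' ≃ₐ[ℚ] F', (∀ x : 𝓞 F', σ • x = x) → σ = 1 := by
    intro σ hσ
    apply algEquiv_eq_of_toAlgHom_eq F'
    ext x
    have := hσ x
    simpa using congrArg (fun z : 𝓞 F' => (z : F')) this
  let ρ : J →* (F' ≃ₐ[ℚ] F') := (AlgEquiv.restrictNormalHom F').comp r
  have hcomm : ∀ (g : AlgebraicClosure ℚ ≃ₐ[ℚ] AlgebraicClosure ℚ) (x : 𝓞 F'),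
      intEmb F' ((AlgEquiv.restrictNormalHom F' g) • x) = g (intEmb F' x) := by
    intro g x
    exact AlgEquiv.restrictNormal_commutes g F' (x : F')
  have hρ : ∀ y, LtameInert P (ρ y) := by
    intro y x
    have e : intEmb F' (ρ y • x) = (r y) (intEmb F' x) := hcomm (r y) x
    rw [ltame_mem_prime, map_sub, e]
    exact ((mem_inertiaSubgroupIn_iff A (r y)).mp (hr y)).2 _ (intEmb_mem F' A x)
  obtain ⟨t, ht⟩ := wstr_abstract (P := P) hP0 hfaith hq hqP ρ hρ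
  refine ⟨t, fun n hqn B _ h hB hh => ?_⟩
  have hh' : ∀ y, ρ y = 1 → h y = 1 := by
    intro y hy
    apply hh
    rw [IntermediateField.mem_fixingSubgroup_iff]
    intro x hx
    have h1 := AlgEquiv.restrictNormal_commutes (r y) F' ⟨x, hFF' hx⟩
    have h2 : (r y).restrictNormal F' = 1 := hy
    rw [h2] at h1
    exact h1.symm
  obtain ⟨h1, h2⟩ := ht n hqn B h hB hh'
  refine ⟨h1, fun t' φ hφ ht' => ?_⟩
  refine h2 t' (AlgEquiv.restrictNormalHom F' φ) ?_ ?_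
  · intro x
    rw [ltame_mem_prime, map_sub, hcomm, map_pow]
    exact sub_pow_mem_nonunits_of_isFrobeniusAt A φ q hφ _ (intEmb_mem F' A x)
  · show AlgEquiv.restrictNormalHom F' (r t') = _
    rw [ht', map_mul, map_mul, map_inv]
    rfl

end Global

/-- **STR-tame.** -/
theorem stmtTameGen : StmtTameGen := by
  intro q hq n hqn V hV
  obtain ⟨F, hF, rfl⟩ := hV
  haveI := hF
  let r : ↥(inertiaQ q) →* (AlgebraicClosure ℚ ≃ₐ[ℚ] AlgebraicClosure ℚ) :=
    (localGaloisToGlobal q).comp (inertiaQ q).subtype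
  have hr : ∀ y, r y ∈ (padicPlace q).inertiaSubgroupIn ℚ := fun y => y.2
  obtain ⟨t, ht⟩ := wstr_global hq.out (padicPlace q) (lfrobex_liesOverPrime q) F r hr
  refine ⟨t, fun B _ h hB hh => ?_⟩
  obtain ⟨h1, h2⟩ := ht n hqn B h hB (fun y hy => hh y hy)
  refine ⟨h1, fun φ hφ hmem => ?_⟩
  refine h2 ⟨φ * (t : GQq q) * φ⁻¹, hmem⟩ (localGaloisToGlobal q φ) hφ ?_
  show localGaloisToGlobal q (φ * (t : GQq q) * φ⁻¹) = _
  rw [map_mul, map_mul, map_inv]
  rfl

end Fermat.Agent.TW.W
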