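/-
TW-W / W-dev, piece DEV-2tors (helper86): `stmtDev2Tors : StmtDev2Tors`.

Two characters of `G_p` (`p` odd) whose squares are trivial on inertia: one of them is trivial
on inertia, or they coincide on inertia.

Proof: `stmtTameGen` for the exponent `2` applied to `h = (ε₁, ε₂)|_I`, with values in the
elements of square `1` of `kˣ × kˣ`: the image consists of powers of `h(t)`.
-/
import Fermat.Agent.TW.W.DevPlan
import Fermat.Agent.TW.W.StrTame

set_option autoImplicit false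
set_option linter.style.haveILetI false

noncomputable section

namespace Fermat.Agent.TW.W

open Fermat.Agent.PT Fermat.Agent.PT.B Fermat.Agent.TW.L

/-- In a field, two units of square `1`, both different from `1`, coincide. -/
theorem wdev2_unit_eq {k : Type*} [Field k] {a b : kˣ} (ha : a ^ 2 = 1) (hb : b ^ 2 = 1)
    (ha1 : a ≠ 1) (hb1 : b ≠ 1) : a = b := by
  have key : ∀ c : kˣ, c ^ 2 = 1 → c ≠ 1 → (c : k) = -1 := by
    intro c hc hc1
    have h1 : (c : k) ^ 2 = 1 := by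
      rw [← Units.val_pow_eq_pow_val, hc, Units.val_one]
    have h2 : ((c : k) - 1) * ((c : k) + 1) = 0 := by
      have : ((c : k) - 1) * ((c : k) + 1) = (c : k) ^ 2 - 1 := by ring
      rw [this, h1, sub_self]
    rcases mul_eq_zero.mp h2 with h | h
    · exact absurd (Units.ext (sub_eq_zero.mp h)) hc1
    · exact eq_neg_of_add_eq_zero_left h
  exact Units.ext ((key a ha ha1).trans (key b hb hb1).symm)

/-- **DEV-2tors.** -/
theorem stmtDev2Tors : StmtDev2Tors := by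
  intro p hpF hp2 k _ ε₁ ε₂ hlev hsq
  have hp : p.Prime := Fact.out
  obtain ⟨U, hU, hUε⟩ := hlev
  have hcop : Nat.Coprime p 2 := (Nat.coprime_primes hp Nat.prime_two).mpr hp2
  obtain ⟨t, ht⟩ := stmtTameGen p 2 hcop U hU
  -- the group of elements of square `1`
  let A : Subgroup (kˣ × kˣ) := (powMonoidHom 2 : (kˣ × kˣ) →* (kˣ × kˣ)).ker
  have hA : ∀ a : A, a ^ 2 = 1 := by
    intro a
    apply Subtype.ext
    have := a.2
    rw [MonoidHom.mem_ker, powMonoidHom_apply] at this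
    simpa using this
  let h₀ : ↥(inertiaQ p) →* (kˣ × kˣ) := (ε₁.prod ε₂).comp (inertiaQ p).subtype
  have hh₀ : ∀ x : ↥(inertiaQ p), h₀ x = (ε₁ (x : GQq p), ε₂ (x : GQq p)) := fun _ => rfl
  have hmem : ∀ x : ↥(inertiaQ p), h₀ x ∈ A := by
    intro x
    rw [MonoidHom.mem_ker, powMonoidHom_apply, hh₀, Prod.pow_mk, (hsq _ x.2).1, (hsq _ x.2).2]
    rfl
  let h : ↥(inertiaQ p) →* A := h₀.codRestrict A hmem
  have hval : ∀ x : ↥(inertiaQ p), ((h x : A) : kˣ × kˣ) = (ε₁ (x : GQq p), ε₂ (x : GQq p)) :=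
    fun _ => rfl
  obtain ⟨h1, -⟩ := ht A h hA (fun x hx => by
    apply Subtype.ext
    rw [hval, (hUε _ hx).1, (hUε _ hx).2]
    rfl)
  -- values as powers of the values at `t`
  have hpow : ∀ σ ∈ inertiaQ p, ∃ m : ℕ, ε₁ σ = ε₁ (t : GQq p) ^ m ∧
      ε₂ σ = ε₂ (t : GQq p) ^ m := by
    intro σ hσ
    obtain ⟨m, hm⟩ := h1 ⟨σ, hσ⟩
    have e := congrArg (fun z : A => (z : kˣ × kˣ)) hm
    simp only [SubmonoidClass.coe_pow, hval, Prod.pow_mk] at e
    exact ⟨m, (Prod.mk.inj e).1, (Prod.mk.inj e).2⟩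
  by_cases h1t : ε₁ (t : GQq p) = 1
  · left
    intro σ hσ
    obtain ⟨m, hm, -⟩ := hpow σ hσ
    rw [hm, h1t, one_pow]
  by_cases h2t : ε₂ (t : GQq p) = 1
  · right; left
    intro σ hσ
    obtain ⟨m, -, hm⟩ := hpow σ hσ
    rw [hm, h2t, one_pow]
  right; right
  intro σ hσ
  obtain ⟨m, hm1, hm2⟩ := hpow σ hσ
  rw [hm1, hm2, wdev2_unit_eq (hsq _ t.2).1 (hsq _ t.2).2 h1t h2t]

end Fermat.Agent.TW.W

end
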