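/-
TW-W / W-dev (helper74), part E: modification by coboundaries, and vanishing of flat classes of
characters which are not cyclotomic on inertia.
-/
import Fermat.Agent.TW.W.DevPlan
import Fermat.Agent.TW.L.AdSmooth

set_option autoImplicit false
set_option linter.unusedSectionVars false
set_option linter.unusedVariables false

noncomputable section

namespace Fermat.Agent.TW.W

open CategoryTheory groupCohomology IsLocalRing Polynomial
open Fermat.Agent.PT Fermat.Agent.PT.B Fermat.Agent.TW.L Fermat.Agent.TW.S Fermat.Agent.S53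
  Fermat.Agent.W1 ExtCitation

section Smooth

variable (p : ℕ) [Fact p.Prime] {k : Type} [Field k] (ρbar : ResidualGaloisRep k)

/-- `ρ̄|_{G_p}` is trivial on a level. -/
lemma wdx_smooth : ∃ U ∈ (towerLoc p).lev, ∀ s ∈ U, rhoLoc p ρbar s = 1 := by
  obtain ⟨L, hL, hρ⟩ := ρbar.factorsThroughFiniteLevel
  refine ⟨L.fixingSubgroup.comap (localGaloisToGlobal p), ⟨L, hL, rfl⟩, fun s hs => ?_⟩
  refine hρ _ (fun x hx => ?_)
  have h1 : localGaloisToGlobal p s ∈ L.fixingSubgroup := hs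
  rw [IntermediateField.mem_fixingSubgroup_iff] at h1
  exact h1 x hx

variable {p ρbar}

lemma wdx_M_level {b : Module.Basis (Fin 2) k ρbar.V} {U : Subgroup (GQq p)}
    (hU : ∀ s ∈ U, rhoLoc p ρbar s = 1) (g s : GQq p) (hs : s ∈ U) :
    wdfM p ρbar b (g * s) = wdfM p ρbar b g := by
  rw [wdfM_mul, (wdfM_eq_one_iff p ρbar b s).2 (hU s hs), mul_one]

lemma wdx_chi_smooth {b : Module.Basis (Fin 2) k ρbar.V} (hb : IsFrame p ρbar b) :
    ∃ U ∈ (towerLoc p).lev, ∀ s ∈ U, wdfChi hb s = 1 := by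
  obtain ⟨U, hU, h⟩ := wdx_smooth p ρbar
  refine ⟨U, hU, fun s hs => ?_⟩
  have h1 := (wdfM_eq_one_iff p ρbar b s).2 (h s hs)
  have e1 : wdfEta1 hb s = 1 := by
    apply Units.ext
    rw [wdfEta1_coe, h1]; rfl
  have e2 : wdfEta2 hb s = 1 := by
    apply Units.ext
    rw [wdfEta2_coe, h1]; rfl
  unfold wdfChi
  rw [MonoidHom.div_apply, e1, e2, div_one]

lemma wdx_chi_inv_smooth {b : Module.Basis (Fin 2) k ρbar.V} (hb : IsFrame p ρbar b) :
    ∃ U ∈ (towerLoc p).lev, ∀ s ∈ U, (wdfChi hb)⁻¹ s = 1 := by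
  obtain ⟨U, hU, h⟩ := wdx_chi_smooth hb
  exact ⟨U, hU, fun s hs => by rw [MonoidHom.inv_apply, h s hs, inv_one]⟩

end Smooth

section Modify

variable {p : ℕ} [Fact p.Prime] {k : Type} [Field k] [CharP k p]
  {ρbar : ResidualGaloisRep k}

/-- Modification of a cocycle by the coboundary of `x`. -/
theorem wdx_modify (z : cocycles₁ (locRep p (ad0Rep p ρbar))) (x : (ad0Rep p ρbar).V) :
    ∃ z' : cocycles₁ (locRep p (ad0Rep p ρbar)),
      (∀ σ, (z' : GQq p → (ad0Rep p ρbar).V) σ = (z : GQq p → (ad0Rep p ρbar).V) σ -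
        ((locRep p (ad0Rep p ρbar)).ρ σ x - x)) ∧
      (H1π (locRep p (ad0Rep p ρbar))).hom z' = (H1π (locRep p (ad0Rep p ρbar))).hom z ∧
      (IsLevel₁ (towerLoc p) (z : GQq p → (ad0Rep p ρbar).V) →
        IsLevel₁ (towerLoc p) (z' : GQq p → (ad0Rep p ρbar).V)) ∧
      (PLev p ρbar (fun τ => ad0Val p ρbar ((z : GQq p → (ad0Rep p ρbar).V) τ)) →
        PLev p ρbar (fun τ => ad0Val p ρbar ((z' : GQq p → (ad0Rep p ρbar).V) τ))) := by
  have hcob : (d₀₁ (locRep p (ad0Rep p ρbar))).hom x ∈ coboundaries₁ (locRep p (ad0Rep p ρbar)) :=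
    ⟨x, rfl⟩
  let dx : cocycles₁ (locRep p (ad0Rep p ρbar)) :=
    ⟨(d₀₁ (locRep p (ad0Rep p ρbar))).hom x,
      coboundaries₁_le_cocycles₁ (locRep p (ad0Rep p ρbar)) hcob⟩
  have hdx : ∀ σ, (dx : GQq p → (ad0Rep p ρbar).V) σ =
      (locRep p (ad0Rep p ρbar)).ρ σ x - x := fun σ =>
    d₀₁_hom_apply (locRep p (ad0Rep p ρbar)) x σ
  have hval : ∀ σ, ((z - dx : cocycles₁ (locRep p (ad0Rep p ρbar))) :
      GQq p → (ad0Rep p ρbar).V) σ =
      (z : GQq p → (ad0Rep p ρbar).V) σ - ((locRep p (ad0Rep p ρbar)).ρ σ x - x) := by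
    intro σ
    rw [← hdx σ]
    rfl
  refine ⟨z - dx, hval, ?_, ?_, ?_⟩
  · rw [map_sub, sub_eq_self]
    exact (H1π_eq_zero_iff dx).2 hcob
  · intro hz
    obtain ⟨U, hU, h⟩ := hz
    obtain ⟨U', hU', h'⟩ := stmtAdSmooth p k ρbar p
    refine ⟨U ⊓ U', (towerLoc p).inf_mem U U' hU hU', fun g s hs => ?_⟩
    rw [hval, hval, h g s hs.1, map_mul, h' s hs.2, mul_one]
  · intro hz T hT χ hχ h0 τ hτ
    refine hz T hT χ hχ ?_ τ hτ
    intro σ hσ h1 h2
    refine h0 σ hσ h1 ?_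
    show ad0Val p ρbar (((z - dx : cocycles₁ (locRep p (ad0Rep p ρbar))) :
      GQq p → (ad0Rep p ρbar).V) σ) = 0
    have h3 : (locRep p (ad0Rep p ρbar)).ρ σ x = x := by
      apply ad0Val_injective p ρbar
      show ad0Val p ρbar ((ad0Rep p ρbar).ρ (localGaloisToGlobal p σ) x) = _
      have h4 : ρbar.ρ (localGaloisToGlobal p σ) = 1 := h1
      have h5 : ρbar.ρ (localGaloisToGlobal p σ)⁻¹ = 1 := by
        have := rho_inv_mul ρbar (localGaloisToGlobal p σ)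
        rwa [h4, mul_one] at this
      rw [ad0Val_ρ, h4, h5, one_mul, mul_one]
    rw [hval, h3, sub_self, sub_zero]
    exact h2

end Modify

section Vanish

variable {p : ℕ} [Fact p.Prime] {k : Type} [Field k] [CharP k p] [Algebra (ZMod p) k] [Finite k]

lemma wdx_charRep_smooth (ψ : GQq p →* kˣ) (hsm : ∃ U ∈ (towerLoc p).lev, ∀ s ∈ U, ψ s = 1) :
    IsSmoothQ p (charRep p ψ) := by
  obtain ⟨U, hU, h⟩ := hsm
  refine ⟨U, hU, fun s hs => ?_⟩
  apply LinearMap.ext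
  intro x
  show ((ψ s : kˣ) : k) * (id x : k) = (id x : k)
  rw [h s hs, Units.val_one, one_mul]

lemma wdx_invariants_eq_bot (ψ : GQq p →* kˣ) (hne : ∃ σ₁, ψ σ₁ ≠ 1) :
    (charRep p ψ).ρ.invariants = ⊥ := by
  obtain ⟨σ₁, hσ₁⟩ := hne
  rw [eq_bot_iff]
  intro x hx
  rw [Submodule.mem_bot]
  have h1 : ((ψ σ₁ : kˣ) : k) * (id x : k) = (id x : k) := hx σ₁
  have h2 : (((ψ σ₁ : kˣ) : k) - 1) * (id x : k) = 0 := by rw [sub_mul, h1, one_mul, sub_self]
  rcases mul_eq_zero.1 h2 with h | h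
  · exfalso
    apply hσ₁
    apply Units.ext
    rw [Units.val_one]
    exact sub_eq_zero.1 h
  · exact h

/-- flat classes of a nontrivial character which is not cyclotomic on inertia vanish -/
theorem wdx_vanish (hgb : StmtGBChar) (hunr : StmtUnrLe) (hp2 : p ≠ 2)
    (ψ : GQq p →* kˣ) (hsm : ∃ U ∈ (towerLoc p).lev, ∀ s ∈ U, ψ s = 1)
    (hne : ∃ σ₁, ψ σ₁ ≠ 1) (hncyc : ¬ IsCycOnInertia p ψ)
    (c : cocycles₁ (charRep p ψ)) (hc : c ∈ levFlatCocycles p (charRep p ψ)) :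
    ∃ m : k, ∀ σ, (c : GQq p → k) σ = (((ψ σ : kˣ) : k) - 1) * m := by
  obtain ⟨-, h1, -⟩ := hgb p hp2 k ψ hsm
  have hmem : (H1π (charRep p ψ)).hom c ∈ unrH1 p (charRep p ψ) :=
    h1 hncyc ((mem_levFlatH1 p _ _).2 ⟨c, hc, rfl⟩)
  have hfd : FiniteDimensional (ZMod p) (charRep p ψ) :=
    (Module.Finite.of_finite : Module.Finite (ZMod p) k)
  obtain ⟨hfin, hrank⟩ := hunr p p (charRep p ψ) (wdx_charRep_smooth ψ hsm)
  rw [wdx_invariants_eq_bot ψ hne, finrank_bot, Nat.le_zero] at hrank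
  have hbot : unrH1 p (charRep p ψ) = ⊥ := by
    have := hfin
    exact Submodule.finrank_eq_zero.1 hrank
  rw [hbot, Submodule.mem_bot] at hmem
  obtain ⟨m, hm⟩ := (H1π_eq_zero_iff c).1 hmem
  refine ⟨(id m : k), fun σ => ?_⟩
  have h2 := congrFun hm σ
  rw [d₀₁_hom_apply] at h2
  have h3 : ((ψ σ : kˣ) : k) * (id m : k) - (id m : k) = (c : GQq p → k) σ := h2
  rw [sub_mul, one_mul]
  exact h3.symm

end Vanish

end Fermat.Agent.TW.W

end
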