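/-
TW-W / W-dev (helper74), part F: the linear maps of the count.

* `wdfOfMat` : the element of `ad⁰` with a given trace-zero matrix;
* `wdmB`     : the `B⁰`-valued cocycles;  `wdmDiag : wdmB → Z¹(k)` (diagonal entry);
* `wdmJ`     : `Z¹(k(χ)) → Z¹(ad⁰)`, `c ↦ c · E₀₁`;
* `wdmN`     : `k → Z¹(k(χ))`, `a ↦ a · n`.
-/
import Fermat.Agent.TW.W.DevFix

set_option autoImplicit false
set_option linter.unusedSectionVars false
set_option linter.unusedVariables false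

noncomputable section

namespace Fermat.Agent.TW.W

open CategoryTheory groupCohomology IsLocalRing Polynomial
open Fermat.Agent.PT Fermat.Agent.PT.B Fermat.Agent.TW.L Fermat.Agent.TW.S Fermat.Agent.S53
  Fermat.Agent.W1 ExtCitation

section Maps

variable {p : ℕ} [Fact p.Prime] {k : Type} [Field k] [CharP k p] [Algebra (ZMod p) k]
  {ρbar : ResidualGaloisRep k} {b : Module.Basis (Fin 2) k ρbar.V}

variable (p ρbar b) in
/-- the element of `ad⁰` with matrix `X` -/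
def wdfOfMat (X : Matrix (Fin 2) (Fin 2) k) (hX : X 0 0 + X 1 1 = 0) : (ad0Rep p ρbar).V :=
  Ad0.mk p ρbar ((LinearMap.toMatrix b b).symm X) (by
    rw [LinearMap.trace_eq_matrix_trace k b, LinearEquiv.apply_symm_apply, Matrix.trace_fin_two]
    exact hX)

@[simp] lemma wdfMat_ofMat (X : Matrix (Fin 2) (Fin 2) k) (hX : X 0 0 + X 1 1 = 0) :
    wdfMat p ρbar b (wdfOfMat p ρbar b X hX) = X := by
  rw [wdfMat_apply]
  show LinearMap.toMatrix b b ((LinearMap.toMatrix b b).symm X) = X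
  rw [LinearEquiv.apply_symm_apply]

/-- two elements of `ad⁰` with the same entries `(0,0)`, `(0,1)`, `(1,0)` are equal -/
lemma wdf_ext {x y : (ad0Rep p ρbar).V} (h00 : wdfMat p ρbar b x 0 0 = wdfMat p ρbar b y 0 0)
    (h01 : wdfMat p ρbar b x 0 1 = wdfMat p ρbar b y 0 1)
    (h10 : wdfMat p ρbar b x 1 0 = wdfMat p ρbar b y 1 0) : x = y := by
  apply wdfMat_injective p ρbar b
  ext i j
  fin_cases i <;> fin_cases j
  · exact h00
  · exact h01
  · exact h10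
  · show wdfMat p ρbar b x 1 1 = wdfMat p ρbar b y 1 1
    rw [wdfMat_11, wdfMat_11, h00]

/-- the upper triangular nilpotent matrix -/
def wdE01 (a : k) : Matrix (Fin 2) (Fin 2) k := Matrix.of ![![0, a], ![0, 0]]

@[simp] lemma wdE01_00 (a : k) : wdE01 a 0 0 = 0 := rfl
@[simp] lemma wdE01_01 (a : k) : wdE01 a 0 1 = a := rfl
@[simp] lemma wdE01_10 (a : k) : wdE01 a 1 0 = 0 := rfl
@[simp] lemma wdE01_11 (a : k) : wdE01 a 1 1 = 0 := rfl

lemma wdE01_trace (a : k) : wdE01 a 0 0 + wdE01 a 1 1 = 0 := by simp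

/-- the value of a cocycle of `k(ψ)`, as an element of `k` -/
def wdcVal {ψ : GQq p →* kˣ} (c : cocycles₁ (charRep p ψ)) (σ : GQq p) : k :=
  (c : GQq p → (charRep p ψ).V) σ

lemma wdcVal_mul {ψ : GQq p →* kˣ} (c : cocycles₁ (charRep p ψ)) (σ τ : GQq p) :
    wdcVal c (σ * τ) = ((ψ σ : kˣ) : k) * wdcVal c τ + wdcVal c σ :=
  (mem_cocycles₁_iff (c : GQq p → (charRep p ψ).V)).1 c.2 σ τ

lemma wdcVal_ext {ψ : GQq p →* kˣ} {c c' : cocycles₁ (charRep p ψ)}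
    (h : ∀ σ, wdcVal c σ = wdcVal c' σ) : c = c' :=
  Subtype.ext (funext h)

lemma wdcVal_add {ψ : GQq p →* kˣ} (c c' : cocycles₁ (charRep p ψ)) (σ : GQq p) :
    wdcVal (c + c') σ = wdcVal c σ + wdcVal c' σ := rfl

lemma wdcVal_sub {ψ : GQq p →* kˣ} (c c' : cocycles₁ (charRep p ψ)) (σ : GQq p) :
    wdcVal (c - c') σ = wdcVal c σ - wdcVal c' σ := rfl

/-- a cocycle of `k(ψ)` from a function -/
def wdcMk {ψ : GQq p →* kˣ} (f : GQq p → k)
    (hf : ∀ σ τ, f (σ * τ) = ((ψ σ : kˣ) : k) * f τ + f σ) : cocycles₁ (charRep p ψ) :=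
  ⟨f, (mem_cocycles₁_iff (A := charRep p ψ) f).2 hf⟩

@[simp] lemma wdcVal_mk {ψ : GQq p →* kˣ} (f : GQq p → k)
    (hf : ∀ σ τ, f (σ * τ) = ((ψ σ : kˣ) : k) * f τ + f σ) (σ : GQq p) :
    wdcVal (wdcMk (ψ := ψ) f hf) σ = f σ := rfl

lemma wdcVal_low (hb : IsFrame p ρbar b) (z : cocycles₁ (locRep p (ad0Rep p ρbar)))
    (σ : GQq p) :
    wdcVal (wdcLow hb z) σ = wdfMat p ρbar b ((z : GQq p → (ad0Rep p ρbar).V) σ) 1 0 := rfl

lemma wdcVal_diag (hb : IsFrame p ρbar b) (z : cocycles₁ (locRep p (ad0Rep p ρbar)))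
    (hz : ∀ σ, wdfMat p ρbar b ((z : GQq p → (ad0Rep p ρbar).V) σ) 1 0 = 0) (σ : GQq p) :
    wdcVal (wdcDiag hb z hz) σ =
      wdfMat p ρbar b ((z : GQq p → (ad0Rep p ρbar).V) σ) 0 0 := rfl

lemma wdcVal_up (hb : IsFrame p ρbar b) (z : cocycles₁ (locRep p (ad0Rep p ρbar)))
    (hz : ∀ σ, wdfMat p ρbar b ((z : GQq p → (ad0Rep p ρbar).V) σ) 1 0 = 0)
    (hz' : ∀ σ, wdfMat p ρbar b ((z : GQq p → (ad0Rep p ρbar).V) σ) 0 0 = 0) (σ : GQq p) :
    wdcVal (wdcUp hb z hz hz') σ =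
      wdfMat p ρbar b ((z : GQq p → (ad0Rep p ρbar).V) σ) 0 1 := rfl

lemma wdcVal_N (hb : IsFrame p ρbar b) (σ : GQq p) :
    wdcVal (wdcN hb) σ = wdfM p ρbar b σ 0 1 * (wdfM p ρbar b σ 1 1)⁻¹ := rfl

/-- a cocycle of `k(ψ)` is a coboundary iff `c = (ψ - 1) m` -/
lemma wdc_H1π_eq_zero_iff {ψ : GQq p →* kˣ} (c : cocycles₁ (charRep p ψ)) :
    (H1π (charRep p ψ)).hom c = 0 ↔ ∃ m : k, ∀ σ, wdcVal c σ = (((ψ σ : kˣ) : k) - 1) * m := by
  rw [H1π_eq_zero_iff]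
  constructor
  · rintro ⟨m, hm⟩
    refine ⟨(id m : k), fun σ => ?_⟩
    have h2 := congrFun hm σ
    rw [d₀₁_hom_apply] at h2
    have h3 : ((ψ σ : kˣ) : k) * (id m : k) - (id m : k) = wdcVal c σ := h2
    rw [sub_mul, one_mul]
    exact h3.symm
  · rintro ⟨m, hm⟩
    refine ⟨(show (charRep p ψ).V from m), ?_⟩
    funext σ
    rw [d₀₁_hom_apply]
    have h3 : wdcVal c σ = ((ψ σ : kˣ) : k) * m - m := by rw [hm σ]; ring
    exact h3.symm

variable (p ρbar b) in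
/-- the `B⁰`-valued cocycles -/
def wdmB : Submodule (ZMod p) (cocycles₁ (locRep p (ad0Rep p ρbar))) where
  carrier := {z | ∀ σ, wdfMat p ρbar b ((z : GQq p → (ad0Rep p ρbar).V) σ) 1 0 = 0}
  add_mem' := by
    intro z z' hz hz' σ
    show wdfMat p ρbar b ((z : GQq p → (ad0Rep p ρbar).V) σ +
      (z' : GQq p → (ad0Rep p ρbar).V) σ) 1 0 = 0
    rw [map_add, Matrix.add_apply, hz σ, hz' σ, add_zero]
  zero_mem' := by
    intro σ
    show wdfMat p ρbar b (0 : (ad0Rep p ρbar).V) 1 0 = 0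
    rw [map_zero]; rfl
  smul_mem' := by
    intro a z hz σ
    have ha : a • z = a.val • z := by
      conv_lhs => rw [← ZMod.natCast_zmod_val a]
      exact Nat.cast_smul_eq_nsmul (ZMod p) a.val z
    rw [ha]
    show wdfMat p ρbar b (a.val • (z : GQq p → (ad0Rep p ρbar).V) σ) 1 0 = 0
    rw [map_nsmul, Matrix.smul_apply, hz σ, smul_zero]

lemma mem_wdmB (z : cocycles₁ (locRep p (ad0Rep p ρbar))) :
    z ∈ wdmB p ρbar b ↔ ∀ σ, wdfMat p ρbar b ((z : GQq p → (ad0Rep p ρbar).V) σ) 1 0 = 0 :=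
  Iff.rfl

/-- the diagonal entry, as a linear map `B⁰`-valued cocycles → `Z¹(G_p, k)` -/
def wdmDiag (hb : IsFrame p ρbar b) :
    wdmB p ρbar b →ₗ[ZMod p] cocycles₁ (charRep p (1 : GQq p →* kˣ)) :=
  AddMonoidHom.toZModLinearMap p
    (AddMonoidHom.mk' (fun z => wdcDiag hb z.1 ((mem_wdmB z.1).1 z.2)) (by
      intro z z'
      apply wdcVal_ext
      intro σ
      show wdfMat p ρbar b ((z.1 : GQq p → (ad0Rep p ρbar).V) σ +
        (z'.1 : GQq p → (ad0Rep p ρbar).V) σ) 0 0 =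
        wdfMat p ρbar b ((z.1 : GQq p → (ad0Rep p ρbar).V) σ) 0 0 +
          wdfMat p ρbar b ((z'.1 : GQq p → (ad0Rep p ρbar).V) σ) 0 0
      rw [map_add, Matrix.add_apply]))

lemma wdcVal_wdmDiag (hb : IsFrame p ρbar b) (z : wdmB p ρbar b) (σ : GQq p) :
    wdcVal (wdmDiag hb z) σ =
      wdfMat p ρbar b ((z.1 : GQq p → (ad0Rep p ρbar).V) σ) 0 0 := rfl

/-- `c ↦ c · E₀₁` on cocycles -/
def wdmJfun (hb : IsFrame p ρbar b) (c : cocycles₁ (charRep p (wdfChi hb))) :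
    cocycles₁ (locRep p (ad0Rep p ρbar)) :=
  ⟨fun σ => wdfOfMat p ρbar b (wdE01 (wdcVal c σ)) (wdE01_trace _), by
    refine (mem_cocycles₁_iff _).2 ?_
    intro σ τ
    have hc := wdcVal_mul c σ τ
    apply wdf_ext (b := b)
    · rw [map_add, Matrix.add_apply, hb.act00 σ _ (by rw [wdfMat_ofMat]; rfl),
        wdfMat_ofMat, wdfMat_ofMat, wdfMat_ofMat]
      show (0 : k) = 0 + 0
      rw [add_zero]
    · rw [map_add, Matrix.add_apply, hb.act01' σ _ (by rw [wdfMat_ofMat]; rfl)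
        (by rw [wdfMat_ofMat]; rfl), wdfMat_ofMat, wdfMat_ofMat, wdfMat_ofMat]
      exact hc
    · rw [map_add, Matrix.add_apply, hb.act10, wdfMat_ofMat, wdfMat_ofMat, wdfMat_ofMat]
      show (0 : k) = _ * 0 + 0
      rw [mul_zero, add_zero]⟩

lemma wdmJfun_apply (hb : IsFrame p ρbar b) (c : cocycles₁ (charRep p (wdfChi hb)))
    (σ : GQq p) :
    wdfMat p ρbar b ((wdmJfun hb c : GQq p → (ad0Rep p ρbar).V) σ) =
      wdE01 (wdcVal c σ) := by
  show wdfMat p ρbar b (wdfOfMat p ρbar b (wdE01 (wdcVal c σ)) (wdE01_trace _)) = _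
  rw [wdfMat_ofMat]

/-- `c ↦ c · E₀₁`, linear -/
def wdmJ (hb : IsFrame p ρbar b) :
    cocycles₁ (charRep p (wdfChi hb)) →ₗ[ZMod p] cocycles₁ (locRep p (ad0Rep p ρbar)) :=
  AddMonoidHom.toZModLinearMap p
    (AddMonoidHom.mk' (wdmJfun hb) (by
      intro c c'
      apply Subtype.ext
      funext σ
      apply wdfMat_injective p ρbar b
      show wdfMat p ρbar b ((wdmJfun hb (c + c') : GQq p → (ad0Rep p ρbar).V) σ) =
        wdfMat p ρbar b ((wdmJfun hb c : GQq p → (ad0Rep p ρbar).V) σ +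
          (wdmJfun hb c' : GQq p → (ad0Rep p ρbar).V) σ)
      rw [map_add, wdmJfun_apply, wdmJfun_apply, wdmJfun_apply, wdcVal_add]
      ext i j
      fin_cases i <;> fin_cases j <;> simp [wdE01]))

lemma wdmJ_apply (hb : IsFrame p ρbar b) (c : cocycles₁ (charRep p (wdfChi hb)))
    (σ : GQq p) :
    wdfMat p ρbar b ((wdmJ hb c : GQq p → (ad0Rep p ρbar).V) σ) =
      wdE01 (wdcVal c σ) := wdmJfun_apply hb c σ

/-- `a ↦ a · n`, with values in cocycles of `k(χ)` -/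
def wdmNfun (hb : IsFrame p ρbar b) (a : k) : cocycles₁ (charRep p (wdfChi hb)) :=
  wdcMk (fun σ => a * wdcVal (wdcN hb) σ) (by
    intro σ τ
    rw [wdcVal_mul]
    ring)

lemma wdcVal_wdmNfun (hb : IsFrame p ρbar b) (a : k) (σ : GQq p) :
    wdcVal (wdmNfun hb a) σ = a * wdcVal (wdcN hb) σ := rfl

/-- `a ↦ a · n`, linear -/
def wdmN (hb : IsFrame p ρbar b) : k →ₗ[ZMod p] cocycles₁ (charRep p (wdfChi hb)) :=
  AddMonoidHom.toZModLinearMap p
    (AddMonoidHom.mk' (wdmNfun hb) (by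
      intro a a'
      apply wdcVal_ext
      intro σ
      rw [wdcVal_add, wdcVal_wdmNfun, wdcVal_wdmNfun, wdcVal_wdmNfun]
      ring))

lemma wdcVal_wdmN (hb : IsFrame p ρbar b) (a : k) (σ : GQq p) :
    wdcVal (wdmN hb a) σ = a * wdcVal (wdcN hb) σ := rfl

end Maps

end Fermat.Agent.TW.W

end
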