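/-
TW-W / W-dev (helper74), part G: the image `𝓘` of the flat classes of `k(χ)` in `H¹(G_p, ad⁰)`
has dimension `≤ h⁰(G_p, ad⁰)`.
-/
import Fermat.Agent.TW.W.DevMaps
import Fermat.Agent.TW.L.AdMin

set_option autoImplicit false
set_option linter.unusedSectionVars false
set_option linter.unusedVariables false

noncomputable section

namespace Fermat.Agent.TW.W

open CategoryTheory groupCohomology IsLocalRing Polynomial
open Fermat.Agent.PT Fermat.Agent.PT.B Fermat.Agent.TW.L Fermat.Agent.TW.S Fermat.Agent.S53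
  Fermat.Agent.W1 ExtCitation

section Abs2

variable {K : Type*} [Field K] {Z X Y : Type*} [AddCommGroup Z] [Module K Z]
  [AddCommGroup X] [Module K X] [AddCommGroup Y] [Module K Y]

/-- `ker g ≤ ker f`, `range g` finite-dimensional: `dim range f ≤ dim range g`. -/
theorem wdev_finrank_range_mono (f : Z →ₗ[K] X) (g : Z →ₗ[K] Y)
    (hker : LinearMap.ker g ≤ LinearMap.ker f) [Module.Finite K (LinearMap.range g)] :
    Module.Finite K (LinearMap.range f) ∧
      Module.finrank K (LinearMap.range f) ≤ Module.finrank K (LinearMap.range g) := by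
  let fbar : (Z ⧸ LinearMap.ker g) →ₗ[K] X := (LinearMap.ker g).liftQ f hker
  let e : (Z ⧸ LinearMap.ker g) ≃ₗ[K] LinearMap.range g := g.quotKerEquivRange
  have hfin : Module.Finite K (Z ⧸ LinearMap.ker g) := Module.Finite.equiv e.symm
  have hr : LinearMap.range fbar = LinearMap.range f := Submodule.range_liftQ _ f hker
  rw [← hr]
  refine ⟨inferInstance, ?_⟩
  calc Module.finrank K (LinearMap.range fbar) ≤ Module.finrank K (Z ⧸ LinearMap.ker g) :=
        LinearMap.finrank_range_le fbar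
    _ = Module.finrank K (LinearMap.range g) := LinearEquiv.finrank_eq e

end Abs2

section I

variable {p : ℕ} [Fact p.Prime] {k : Type} [Field k] [CharP k p] [Algebra (ZMod p) k] [Finite k]
  {ρbar : ResidualGaloisRep k} {b : Module.Basis (Fin 2) k ρbar.V}

/-- `Θ : levFlatCocycles(k(χ)) → H¹(G_p, ad⁰)`, `c ↦ [c · E₀₁]` -/
def wdnTheta (hb : IsFrame p ρbar b) :
    ↥(levFlatCocycles p (charRep p (wdfChi hb))) →ₗ[ZMod p] H1 (locRep p (ad0Rep p ρbar)) :=
  (H1π (locRep p (ad0Rep p ρbar))).hom ∘ₗ wdmJ hb ∘ₗ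
    (levFlatCocycles p (charRep p (wdfChi hb))).subtype

/-- `𝓘`: the image of the flat classes of `k(χ)` in `H¹(G_p, ad⁰)`. -/
def wdnI (hb : IsFrame p ρbar b) : Submodule (ZMod p) (H1 (locRep p (ad0Rep p ρbar))) :=
  LinearMap.range (wdnTheta hb)

lemma wdnTheta_apply (hb : IsFrame p ρbar b)
    (c : ↥(levFlatCocycles p (charRep p (wdfChi hb)))) :
    wdnTheta hb c = (H1π (locRep p (ad0Rep p ρbar))).hom (wdmJ hb c.1) := rfl

/-- `J` maps coboundaries to coboundaries -/
lemma wdn_J_cob (hb : IsFrame p ρbar b) (c : cocycles₁ (charRep p (wdfChi hb)))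
    (m : k) (hm : ∀ σ, wdcVal c σ = (((wdfChi hb σ : kˣ) : k) - 1) * m) :
    (H1π (locRep p (ad0Rep p ρbar))).hom (wdmJ hb c) = 0 := by
  rw [H1π_eq_zero_iff]
  refine ⟨wdfOfMat p ρbar b (wdE01 m) (wdE01_trace m), ?_⟩
  funext σ
  rw [d₀₁_hom_apply]
  apply wdf_ext (b := b)
  · rw [map_sub, Matrix.sub_apply, hb.act00 σ _ (by rw [wdfMat_ofMat]; rfl), sub_self,
      wdmJ_apply]
    rfl
  · rw [map_sub, Matrix.sub_apply, hb.act01' σ _ (by rw [wdfMat_ofMat]; rfl)
      (by rw [wdfMat_ofMat]; rfl), wdfMat_ofMat, wdmJ_apply]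
    show ((wdfChi hb σ : kˣ) : k) * m - m = wdcVal c σ
    rw [hm σ]; ring
  · rw [map_sub, Matrix.sub_apply, hb.act10, wdfMat_ofMat, wdmJ_apply]
    show _ * (0 : k) - 0 = 0
    rw [mul_zero, sub_zero]

/-- the diagonal matrix `diag(a, -a)` -/
def wdH (a : k) : Matrix (Fin 2) (Fin 2) k := Matrix.of ![![a, 0], ![0, -a]]

lemma wdH_trace (a : k) : wdH a 0 0 + wdH a 1 1 = 0 := by
  show a + -a = 0
  rw [add_neg_cancel]

/-- `J (a · n)` is a coboundary: `∂ (diag(-a/2, a/2)) = a n E₀₁` -/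
lemma wdn_J_N (hp2 : p ≠ 2) (hb : IsFrame p ρbar b) (a : k) :
    (H1π (locRep p (ad0Rep p ρbar))).hom (wdmJ hb (wdmN hb a)) = 0 := by
  have h2 : (2 : k) ≠ 0 := by
    intro h
    have h3 : ((2 : ℕ) : k) = 0 := by exact_mod_cast h
    rw [CharP.cast_eq_zero_iff k p] at h3
    have hp : p.Prime := Fact.out
    have := (Nat.prime_dvd_prime_iff_eq hp Nat.prime_two).1 h3
    exact hp2 this
  rw [H1π_eq_zero_iff]
  refine ⟨wdfOfMat p ρbar b (wdH (-(a / 2))) (wdH_trace _), ?_⟩
  funext σ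
  rw [d₀₁_hom_apply]
  apply wdf_ext (b := b)
  · rw [map_sub, Matrix.sub_apply, hb.act00 σ _ (by rw [wdfMat_ofMat]; rfl), sub_self,
      wdmJ_apply]
    rfl
  · rw [map_sub, Matrix.sub_apply, wdmJ_apply, wdfMat_ofMat]
    have h := hb.act01 σ (wdfOfMat p ρbar b (wdH (-(a / 2))) (wdH_trace _))
      (by rw [wdfMat_ofMat]; rfl)
    rw [wdfMat_ofMat] at h
    have e1 : wdH (-(a / 2)) 0 1 = 0 := rfl
    have e2 : wdH (-(a / 2)) 0 0 = -(a / 2) := rfl
    rw [e1, e2, mul_zero, zero_sub] at h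
    have h1 := wdf_eta2_ne_zero hb σ
    show _ - (0 : k) = wdcVal (wdmN hb a) σ
    rw [sub_zero, wdcVal_wdmN, wdcVal_N]
    have h' : -(2 * wdfM p ρbar b σ 0 1 * -(a / 2)) = a * wdfM p ρbar b σ 0 1 := by
      field_simp
    rw [h'] at h
    rw [← mul_assoc, ← h, mul_assoc, mul_inv_cancel₀ h1, mul_one]
  · rw [map_sub, Matrix.sub_apply, hb.act10, wdfMat_ofMat, wdmJ_apply]
    show _ * (0 : k) - 0 = 0
    rw [mul_zero, sub_zero]

/-- `a · n` is a flat cocycle of `k(χ)` as soon as SOME cocycle satisfies `PLev` -/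
lemma wdn_N_mem (hb : IsFrame p ρbar b) (z₀ : GQq p → Module.End k ρbar.V)
    (hz₀ : PLev p ρbar z₀) (a : k) :
    wdmN hb a ∈ levFlatCocycles p (charRep p (wdfChi hb)) := by
  refine wdev_mem_levFlat p ρbar z₀ hz₀ _ (wdmN hb a) ?_ ?_
  · obtain ⟨U, hU, h⟩ := wdx_smooth p ρbar
    refine ⟨U, hU, fun g s hs => ?_⟩
    show wdcVal (wdmN hb a) (g * s) = wdcVal (wdmN hb a) g
    rw [wdcVal_wdmN, wdcVal_wdmN, wdcVal_N, wdcVal_N, wdx_M_level h g s hs]
  · intro σ h1 _
    show wdcVal (wdmN hb a) σ = 0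
    rw [wdcVal_wdmN, wdcVal_N, (wdfM_eq_one_iff p ρbar b σ).2 h1]
    show a * ((0 : k) * _) = 0
    rw [zero_mul, mul_zero]

/-- the matrix `[[a, 2 m a], [0, -a]]` -/
def wdX1 (m a : k) : Matrix (Fin 2) (Fin 2) k := Matrix.of ![![a, 2 * m * a], ![0, -a]]

lemma wdX1_trace (m a : k) : wdX1 m a 0 0 + wdX1 m a 1 1 = 0 := by
  show a + -a = 0
  rw [add_neg_cancel]

/-- if `ρ̄|_{G_p}` is split, `h⁰(G_p, ad⁰) ≥ f` -/
lemma wdn_finrank_le_inv (hb : IsFrame p ρbar b) (m : k)
    (hm : ∀ σ, wdcVal (wdcN hb) σ = (((wdfChi hb σ : kˣ) : k) - 1) * m) :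
    Module.finrank (ZMod p) k ≤
      Module.finrank (ZMod p) (locRep p (ad0Rep p ρbar)).ρ.invariants := by
  have hfd := gmin_finiteDimensional p ρbar p
  -- `β = (η₁ - η₂) m`
  have hβ : ∀ σ, wdfM p ρbar b σ 0 1 =
      (wdfM p ρbar b σ 0 0 - wdfM p ρbar b σ 1 1) * m := by
    intro σ
    have h1 := wdf_eta2_ne_zero hb σ
    have h2 := hm σ
    rw [wdcVal_N, ← wdfChi_mul_eta2 hb σ] at *
    have h3 : wdfM p ρbar b σ 0 1 =
        (wdfM p ρbar b σ 0 1 * (wdfM p ρbar b σ 1 1)⁻¹) * wdfM p ρbar b σ 1 1 := by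
      rw [mul_assoc, inv_mul_cancel₀ h1, mul_one]
    rw [h3, h2]
    ring
  let f0 : k →+ (ad0Rep p ρbar).V :=
    AddMonoidHom.mk' (fun a => wdfOfMat p ρbar b (wdX1 m a) (wdX1_trace m a)) (by
      intro a a'
      apply wdf_ext (b := b)
      · rw [map_add, Matrix.add_apply, wdfMat_ofMat, wdfMat_ofMat, wdfMat_ofMat]
        rfl
      · rw [map_add, Matrix.add_apply, wdfMat_ofMat, wdfMat_ofMat, wdfMat_ofMat]
        show 2 * m * (a + a') = 2 * m * a + 2 * m * a'
        ring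
      · rw [map_add, Matrix.add_apply, wdfMat_ofMat, wdfMat_ofMat, wdfMat_ofMat]
        show (0 : k) = 0 + 0
        rw [add_zero])
  let f1 : k →ₗ[ZMod p] (locRep p (ad0Rep p ρbar)).V := AddMonoidHom.toZModLinearMap p f0
  have hf1 : ∀ a, wdfMat p ρbar b (f1 a) = wdX1 m a := fun a =>
    wdfMat_ofMat (wdX1 m a) (wdX1_trace m a)
  let f : k →ₗ[ZMod p] (locRep p (ad0Rep p ρbar)).ρ.invariants :=
    LinearMap.codRestrict _ f1 (by
      intro a σ
      apply wdf_ext (b := b)
      · rw [hb.act00 σ _ (by rw [hf1]; rfl)]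
      · have h := hb.act01 σ (f1 a) (by rw [hf1]; rfl)
        rw [hf1] at h
        have e1 : wdX1 m a 0 1 = 2 * m * a := rfl
        have e2 : wdX1 m a 0 0 = a := rfl
        rw [e1, e2, hβ σ] at h
        have h1 := wdf_eta2_ne_zero hb σ
        rw [hf1, e1]
        apply mul_right_cancel₀ h1
        rw [h]
        ring
      · rw [hb.act10, hf1]
        show _ * (0 : k) = 0
        rw [mul_zero])
  refine LinearMap.finrank_le_finrank_of_injective (f := f) ?_
  intro a a' h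
  have h1 := congrArg (fun x : (locRep p (ad0Rep p ρbar)).ρ.invariants =>
    wdfMat p ρbar b (x : (ad0Rep p ρbar).V) 0 0) h
  have h2 : wdfMat p ρbar b (f1 a) 0 0 = wdfMat p ρbar b (f1 a') 0 0 := h1
  rw [hf1, hf1] at h2
  exact h2

/-- **Lemma I**: `dim 𝓘 ≤ h⁰(G_p, ad⁰)`. -/
theorem wdn_finrank_I (hgb : StmtGBChar) (hunr : StmtUnrLe) (hp2 : p ≠ 2)
    (hb : IsFrame p ρbar b) (hχ : ∃ σ₁, wdfChi hb σ₁ ≠ 1)
    (z₀ : GQq p → Module.End k ρbar.V) (hz₀ : PLev p ρbar z₀) :
    Module.Finite (ZMod p) (wdnI hb) ∧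
      Module.finrank (ZMod p) (wdnI hb) ≤
        Module.finrank (ZMod p) (locRep p (ad0Rep p ρbar)).ρ.invariants := by
  have hbotcase : (∀ c : ↥(levFlatCocycles p (charRep p (wdfChi hb))), wdnTheta hb c = 0) →
      Module.Finite (ZMod p) (wdnI hb) ∧
      Module.finrank (ZMod p) (wdnI hb) ≤
        Module.finrank (ZMod p) (locRep p (ad0Rep p ρbar)).ρ.invariants := by
    intro h
    have hbot : wdnI hb = ⊥ := by
      rw [eq_bot_iff]
      rintro _ ⟨c, rfl⟩
      rw [h c]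
      exact Submodule.zero_mem _
    rw [hbot]
    refine ⟨inferInstance, ?_⟩
    rw [finrank_bot]
    exact Nat.zero_le _
  by_cases hcyc : IsCycOnInertia p (wdfChi hb)
  · obtain ⟨hfin, -, h3⟩ := hgb p hp2 k (wdfChi hb) (wdx_chi_smooth hb)
    have hle := h3 hcyc
    have hfdk : FiniteDimensional (ZMod p) k := Module.Finite.of_finite
    by_cases hn : ∃ m : k, ∀ σ, wdcVal (wdcN hb) σ = (((wdfChi hb σ : kˣ) : k) - 1) * m
    · -- split case
      obtain ⟨m, hm⟩ := hn
      have h2 := wdn_finrank_le_inv hb m hm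
      let g : ↥(levFlatCocycles p (charRep p (wdfChi hb))) →ₗ[ZMod p]
          H1 (charRep p (wdfChi hb)) :=
        (H1π (charRep p (wdfChi hb))).hom ∘ₗ (levFlatCocycles p (charRep p (wdfChi hb))).subtype
      have hrg : LinearMap.range g = levFlatH1 p (charRep p (wdfChi hb)) := by
        show LinearMap.range ((H1π (charRep p (wdfChi hb))).hom ∘ₗ
          (levFlatCocycles p (charRep p (wdfChi hb))).subtype) = _
        rw [LinearMap.range_comp, Submodule.range_subtype]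
        rfl
      have hfg : Module.Finite (ZMod p) (LinearMap.range g) := by rw [hrg]; exact hfin
      have hker : LinearMap.ker g ≤ LinearMap.ker (wdnTheta hb) := by
        intro c hc
        rw [LinearMap.mem_ker] at hc ⊢
        have hc' : (H1π (charRep p (wdfChi hb))).hom c.1 = 0 := hc
        obtain ⟨m', hm'⟩ := (wdc_H1π_eq_zero_iff c.1).1 hc'
        exact wdn_J_cob hb c.1 m' hm'
      obtain ⟨hf, hr⟩ := wdev_finrank_range_mono (wdnTheta hb) g hker
      refine ⟨hf, ?_⟩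
      have hr' : Module.finrank (ZMod p) (wdnI hb) ≤
          Module.finrank (ZMod p) (levFlatH1 p (charRep p (wdfChi hb))) := by
        rw [← hrg]
        exact hr
      omega
    · -- non-split case: `𝓘 = 0`
      apply hbotcase
      let κ : k →ₗ[ZMod p] levFlatH1 p (charRep p (wdfChi hb)) :=
        LinearMap.codRestrict _ ((H1π (charRep p (wdfChi hb))).hom ∘ₗ wdmN hb)
          (fun a => (mem_levFlatH1 p _ _).2 ⟨wdmN hb a, wdn_N_mem hb z₀ hz₀ a, rfl⟩)
      have hκ : ∀ a, ((κ a : levFlatH1 p (charRep p (wdfChi hb))) :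
          H1 (charRep p (wdfChi hb))) = (H1π (charRep p (wdfChi hb))).hom (wdmN hb a) :=
        fun _ => rfl
      have hinj : Function.Injective κ := by
        rw [injective_iff_map_eq_zero]
        intro a ha
        by_contra ha0
        apply hn
        have h1 : (H1π (charRep p (wdfChi hb))).hom (wdmN hb a) = 0 := by
          rw [← hκ, ha]
          rfl
        obtain ⟨m', hm'⟩ := (wdc_H1π_eq_zero_iff _).1 h1
        refine ⟨a⁻¹ * m', fun σ => ?_⟩
        have h2 := hm' σ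
        rw [wdcVal_wdmN] at h2
        calc wdcVal (wdcN hb) σ = a⁻¹ * (a * wdcVal (wdcN hb) σ) := by
              rw [← mul_assoc, inv_mul_cancel₀ ha0, one_mul]
          _ = _ := by rw [h2]; ring
      have hfin' : Module.Finite (ZMod p) (levFlatH1 p (charRep p (wdfChi hb))) := hfin
      have hge := LinearMap.finrank_le_finrank_of_injective hinj
      have heq : Module.finrank (ZMod p) k =
          Module.finrank (ZMod p) (levFlatH1 p (charRep p (wdfChi hb))) :=
        le_antisymm hge hle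
      have hsurj : Function.Surjective κ :=
        (LinearMap.injective_iff_surjective_of_finrank_eq_finrank heq).1 hinj
      intro c
      obtain ⟨a, ha⟩ := hsurj ⟨(H1π (charRep p (wdfChi hb))).hom c.1,
        (mem_levFlatH1 p _ _).2 ⟨c.1, c.2, rfl⟩⟩
      have h1 : (H1π (charRep p (wdfChi hb))).hom (wdmN hb a) =
          (H1π (charRep p (wdfChi hb))).hom c.1 := by
        rw [← hκ, ha]
      have h2 : (H1π (charRep p (wdfChi hb))).hom (c.1 - wdmN hb a) = 0 := by
        rw [map_sub, h1, sub_self]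
      obtain ⟨m', hm'⟩ := (wdc_H1π_eq_zero_iff _).1 h2
      have h3 := wdn_J_cob hb _ m' hm'
      rw [map_sub, map_sub, wdn_J_N hp2 hb a, sub_zero] at h3
      exact h3
  · -- `χ` is not cyclotomic on inertia: all flat classes of `k(χ)` vanish
    apply hbotcase
    intro c
    obtain ⟨m, hm⟩ := wdx_vanish hgb hunr hp2 (wdfChi hb) (wdx_chi_smooth hb) hχ hcyc c.1 c.2
    exact wdn_J_cob hb c.1 m hm

end I

end Fermat.Agent.TW.W

end
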