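/-
TW-W / STR-sqrt (helper86): `stmtNoSqrt : StmtNoSqrt`.

No smooth character `η : G_p → kˣ` (`char k = p` odd) satisfies `η² = ω` on the inertia group.

Proof.  `η(G_p)` is a finite subgroup of `kˣ`, of order `n` prime to `p`.  By `stmtTameGen` the
restriction of `η` to inertia has values in the powers of `η(t)`, and `η(φ t φ⁻¹) = η(t) ^ p` for
a Frobenius `φ`; `kˣ` is commutative, so `η(t) ^ (p - 1) = 1` and `η(x) ^ (p - 1) = 1` for every
`x` in inertia (`wstr_char_inertia_pow`).  If `η² = ω` on inertia then `ω(x) ^ ((p - 1)/2) = 1`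
for all such `x`; but `ω` maps inertia onto `𝔽_pˣ` (`stmtCycloRamFull` + `stmtDecFull`), which
contains an element of order `p - 1`.
-/
import Fermat.Agent.TW.W.StrTame
import Fermat.Agent.TW.W.StrCyc
import Fermat.Agent.TW.L.FrobExistsFinal
import Fermat.Agent.TW.L.LTw

set_option autoImplicit false
set_option linter.style.haveILetI false

noncomputable section

namespace Fermat.Agent.TW.W

open Fermat.Agent.PT Fermat.Agent.PT.B Fermat.Agent.TW.L ExtCitation

/-- The units of a field of characteristic `p` contain no element of order `p`. -/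
theorem wstr_unit_eq_one_of_pow_char {k : Type*} [Field k] (p : ℕ) [hp : Fact p.Prime]
    [CharP k p] (x : kˣ) (h : x ^ p = 1) : x = 1 := by
  have h1 : ((x : k) - 1) ^ p = 0 := by
    rw [sub_pow_char, one_pow, ← Units.val_pow_eq_pow_val, h, Units.val_one, sub_self]
  have h2 : (x : k) - 1 = 0 := (pow_eq_zero_iff hp.out.ne_zero).mp h1
  exact Units.ext (sub_eq_zero.mp h2)

/-- A finite subgroup of the units of a field of characteristic `p` has order prime to `p`. -/
theorem wstr_coprime_card {k : Type*} [Field k] (p : ℕ) [hp : Fact p.Prime] [CharP k p]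
    (H : Subgroup kˣ) [Finite H] : Nat.Coprime p (Nat.card H) := by
  rw [Nat.Prime.coprime_iff_not_dvd hp.out]
  intro hdvd
  obtain ⟨x, hx⟩ := exists_prime_orderOf_dvd_card' p hdvd
  have h1 : x ^ p = 1 := by
    rw [← hx]
    exact pow_orderOf_eq_one x
  have h2 : (x : kˣ) ^ p = 1 := by
    have := congrArg (fun z : H => (z : kˣ)) h1
    simpa using this
  have h3 : x = 1 := Subtype.ext (wstr_unit_eq_one_of_pow_char p _ h2)
  rw [h3, orderOf_one] at hx
  exact hp.out.one_lt.ne hx

/-- **Characters of `G_p` on inertia.**  A smooth character of `G_p` with values in a field of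
characteristic `p` has, on the inertia group, values of order dividing `p - 1`. -/
theorem wstr_char_inertia_pow (p : ℕ) [hp : Fact p.Prime] (k : Type) [Field k] [CharP k p]
    (η : GQq p →* kˣ) (hη : ∃ U ∈ (towerLoc p).lev, ∀ s ∈ U, η s = 1) :
    ∀ σ ∈ inertiaQ p, η σ ^ (p - 1) = 1 := by
  obtain ⟨U, hU, hUη⟩ := hη
  haveI : U.FiniteIndex := (towerLoc p).finiteIndex U hU
  have hle : U ≤ η.ker := fun s hs => (MonoidHom.mem_ker).mpr (hUη s hs)
  haveI : η.ker.FiniteIndex := Subgroup.finiteIndex_of_le hle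
  haveI : Finite (GQq p ⧸ η.ker) := Subgroup.finite_quotient_of_finiteIndex
  haveI : Finite η.range := Finite.of_equiv _ (QuotientGroup.quotientKerEquivRange η).toEquiv
  have hcop : Nat.Coprime p (Nat.card η.range) := wstr_coprime_card p η.range
  obtain ⟨t, ht⟩ := stmtTameGen p (Nat.card η.range) hcop U hU
  let h : ↥(inertiaQ p) →* η.range := η.rangeRestrict.comp (inertiaQ p).subtype
  have hval : ∀ x : ↥(inertiaQ p), ((h x : η.range) : kˣ) = η (x : GQq p) := fun _ => rfl
  obtain ⟨h1, h2⟩ := ht η.range h (fun a => pow_card_eq_one') (fun x hx => by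
    apply Subtype.ext
    rw [hval]
    exact hUη _ hx)
  obtain ⟨φ, hφ⟩ := stmtFrobExists p
  have h3 := h2 φ hφ (ltw_conj_mem_inertiaQ φ t.2)
  have h4 : η (t : GQq p) ^ p = η (t : GQq p) := by
    have e := congrArg (fun z : η.range => (z : kˣ)) h3
    simp only [SubmonoidClass.coe_pow, hval] at e
    rw [← e, map_mul, map_mul, map_inv, mul_comm (η φ), mul_assoc, mul_inv_cancel, mul_one]
  have h5 : η (t : GQq p) ^ (p - 1) = 1 := by
    have e : η (t : GQq p) ^ (p - 1) * η (t : GQq p) = 1 * η (t : GQq p) := by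
      rw [← pow_succ, Nat.sub_add_cancel hp.out.one_le, h4, one_mul]
    exact mul_right_cancel e
  intro σ hσ
  obtain ⟨m, hm⟩ := h1 ⟨σ, hσ⟩
  have e := congrArg (fun z : η.range => (z : kˣ)) hm
  simp only [SubmonoidClass.coe_pow, hval] at e
  show η σ ^ (p - 1) = 1
  have e' : η σ = η (t : GQq p) ^ m := e
  rw [e', ← pow_mul, mul_comm, pow_mul, h5, one_pow]

/-- `ω` maps the inertia group of `G_p` onto `𝔽_pˣ`. -/
theorem wstr_cyclo_inertiaQ_surjective (p : ℕ) [Fact p.Prime] (a : (ZMod p)ˣ) :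
    ∃ τ ∈ inertiaQ p, cycloChar p (localGaloisToGlobal p τ) = a := by
  obtain ⟨σ, hσI, hσa⟩ := stmtCycloRamFull p a
  obtain ⟨τ, hτ⟩ := stmtDecFull p σ ((mem_inertiaSubgroupIn_iff _ σ).mp hσI).1
  refine ⟨τ, ?_, ?_⟩
  · rw [mem_inertiaQ, hτ]
    exact hσI
  · rw [hτ, hσa]

/-- **STR-sqrt.** -/
theorem stmtNoSqrt : StmtNoSqrt := by
  intro p hpF hp2 k _ _ _ η hη hsq
  have hp : p.Prime := Fact.out
  have hpow := wstr_char_inertia_pow p k η hη
  -- a generator of `𝔽_pˣ`
  obtain ⟨a, ha⟩ := IsCyclic.exists_generator (α := (ZMod p)ˣ)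
  have horda : orderOf a = p - 1 := by
    rw [orderOf_eq_card_of_forall_mem_zpowers ha, Nat.card_eq_fintype_card, ZMod.card_units]
  obtain ⟨τ, hτI, hτa⟩ := wstr_cyclo_inertiaQ_surjective p a
  have h1 := hsq τ hτI
  rw [hτa] at h1
  have hodd : p % 2 = 1 := hp.eq_two_or_odd.resolve_left hp2
  have hhalf : 2 * ((p - 1) / 2) = p - 1 := by omega
  have h2 : algebraMap (ZMod p) k (((a : (ZMod p)ˣ) : ZMod p) ^ ((p - 1) / 2)) = 1 := by
    rw [map_pow, ← h1, ← pow_mul, hhalf, ← Units.val_pow_eq_pow_val, hpow τ hτI, Units.val_one]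
  have h3 : ((a : (ZMod p)ˣ) : ZMod p) ^ ((p - 1) / 2) = 1 := by
    apply (algebraMap (ZMod p) k).injective
    rw [h2, map_one]
  have h4 : a ^ ((p - 1) / 2) = 1 := by
    apply Units.ext
    rw [Units.val_pow_eq_pow_val, h3, Units.val_one]
  have h5 := orderOf_dvd_of_pow_eq_one h4
  rw [horda] at h5
  have h2le : 2 ≤ p := hp.two_le
  have h6 := Nat.le_of_dvd (by omega) h5
  omega

end Fermat.Agent.TW.W

end
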