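/-
TW-W / W-dev (helper74), part H: THE COUNT for a good frame.

`wdk_count`: `b` a frame with `χ ≠ 1`, `Fs ⊆ H¹(G_p, ad⁰)` a subspace all of whose elements have
`B⁰`-valued level representatives satisfying `PLev`.  Then `dim Fs ≤ f + h⁰(G_p, ad⁰)`.
-/
import Fermat.Agent.TW.W.DevI
import Fermat.Agent.TW.W.StrSqrt

set_option autoImplicit false
set_option linter.unusedSectionVars false
set_option linter.unusedVariables false

noncomputable section

namespace Fermat.Agent.TW.W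

open CategoryTheory groupCohomology IsLocalRing Polynomial
open Fermat.Agent.PT Fermat.Agent.PT.B Fermat.Agent.TW.L Fermat.Agent.TW.S Fermat.Agent.S53
  Fermat.Agent.W1 ExtCitation

section Count

variable {p : ℕ} [Fact p.Prime] {k : Type} [Field k] [CharP k p] [Algebra (ZMod p) k] [Finite k]
  {ρbar : ResidualGaloisRep k} {b : Module.Basis (Fin 2) k ρbar.V}

lemma wdk_two_ne_zero (hp2 : p ≠ 2) : (2 : k) ≠ 0 := by
  intro h
  have h3 : ((2 : ℕ) : k) = 0 := by exact_mod_cast h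
  rw [CharP.cast_eq_zero_iff k p] at h3
  have hp : p.Prime := Fact.out
  exact hp2 ((Nat.prime_dvd_prime_iff_eq hp Nat.prime_two).1 h3)

/-- the trivial character is not cyclotomic on inertia -/
lemma wdk_not_cyc_one (hp2 : p ≠ 2) : ¬ IsCycOnInertia p (1 : GQq p →* kˣ) := by
  intro h
  obtain ⟨τ, hτ, hτa⟩ := wstr_cyclo_inertiaQ_surjective p (-1 : (ZMod p)ˣ)
  have h1 := h τ hτ
  rw [hτa, MonoidHom.one_apply, Units.val_one, Units.val_neg, Units.val_one, map_neg,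
    map_one] at h1
  apply wdk_two_ne_zero (k := k) hp2
  have : (2 : k) = 1 + 1 := by norm_num
  rw [this]
  nth_rewrite 1 [h1]
  rw [neg_add_cancel]

/-- a coboundary with values in `B⁰` has vanishing diagonal entry (`χ ≠ 1`) -/
lemma wdk_diag_cob (hb : IsFrame p ρbar b) (hχ : ∃ σ₁, wdfChi hb σ₁ ≠ 1)
    (x : (ad0Rep p ρbar).V)
    (hx : ∀ σ, wdfMat p ρbar b ((locRep p (ad0Rep p ρbar)).ρ σ x - x) 1 0 = 0) (σ : GQq p) :
    wdfMat p ρbar b ((locRep p (ad0Rep p ρbar)).ρ σ x - x) 0 0 = 0 := by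
  obtain ⟨σ₁, hσ₁⟩ := hχ
  have h1 := hx σ₁
  rw [map_sub, Matrix.sub_apply, hb.act10] at h1
  have h2 : ((((wdfChi hb)⁻¹ σ₁ : kˣ) : k) - 1) * wdfMat p ρbar b x 1 0 = 0 := by
    rw [sub_mul, one_mul]
    exact h1
  have h3 : wdfMat p ρbar b x 1 0 = 0 := by
    rcases mul_eq_zero.1 h2 with h | h
    · exfalso
      apply hσ₁
      have h4 : (wdfChi hb)⁻¹ σ₁ = 1 := by
        apply Units.ext
        rw [Units.val_one]
        exact sub_eq_zero.1 h
      rw [MonoidHom.inv_apply, inv_eq_one] at h4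
      exact h4
    · exact h
  rw [map_sub, Matrix.sub_apply, hb.act00 σ x h3, sub_self]

/-- two cohomologous `B⁰`-valued cocycles have the same diagonal entry (`χ ≠ 1`) -/
lemma wdk_diag_eq (hb : IsFrame p ρbar b) (hχ : ∃ σ₁, wdfChi hb σ₁ ≠ 1)
    (z z' : cocycles₁ (locRep p (ad0Rep p ρbar)))
    (hz : ∀ σ, wdfMat p ρbar b ((z : GQq p → (ad0Rep p ρbar).V) σ) 1 0 = 0)
    (hz' : ∀ σ, wdfMat p ρbar b ((z' : GQq p → (ad0Rep p ρbar).V) σ) 1 0 = 0)
    (h : (H1π (locRep p (ad0Rep p ρbar))).hom z = (H1π (locRep p (ad0Rep p ρbar))).hom z')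
    (σ : GQq p) :
    wdfMat p ρbar b ((z : GQq p → (ad0Rep p ρbar).V) σ) 0 0 =
      wdfMat p ρbar b ((z' : GQq p → (ad0Rep p ρbar).V) σ) 0 0 := by
  obtain ⟨x, hx⟩ := (H1π_eq_iff z z').1 h
  have hx' : ∀ τ, (locRep p (ad0Rep p ρbar)).ρ τ x - x =
      (z : GQq p → (ad0Rep p ρbar).V) τ - (z' : GQq p → (ad0Rep p ρbar).V) τ := by
    intro τ
    have := congrFun hx τ
    rw [d₀₁_hom_apply] at this
    exact this
  have h1 := wdk_diag_cob hb hχ x (fun τ => by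
    rw [hx' τ, map_sub, Matrix.sub_apply, hz τ, hz' τ, sub_self]) σ
  rw [hx' σ, map_sub, Matrix.sub_apply] at h1
  exact sub_eq_zero.1 h1

/-- **The count for a good frame.** -/
theorem wdk_count (hgb : StmtGBChar) (hunr : StmtUnrLe) (hp2 : p ≠ 2)
    (hb : IsFrame p ρbar b) (hχ : ∃ σ₁, wdfChi hb σ₁ ≠ 1)
    (Fs : Submodule (ZMod p) (H1 (locRep p (ad0Rep p ρbar))))
    (hgood : ∀ x ∈ Fs, ∃ z : cocycles₁ (locRep p (ad0Rep p ρbar)),
        (H1π (locRep p (ad0Rep p ρbar))).hom z = x ∧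
        IsLevel₁ (towerLoc p) (z : GQq p → (ad0Rep p ρbar).V) ∧
        PLev p ρbar (fun τ => ad0Val p ρbar ((z : GQq p → (ad0Rep p ρbar).V) τ)) ∧
        ∀ σ, wdfMat p ρbar b ((z : GQq p → (ad0Rep p ρbar).V) σ) 1 0 = 0) :
    Module.Finite (ZMod p) Fs ∧
      Module.finrank (ZMod p) Fs ≤ Module.finrank (ZMod p) k +
        Module.finrank (ZMod p) (locRep p (ad0Rep p ρbar)).ρ.invariants := by
  classical
  obtain ⟨z₀, -, -, hz₀, -⟩ := hgood 0 Fs.zero_mem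
  -- the unramified homomorphisms
  have hfdk : FiniteDimensional (ZMod p) k := Module.Finite.of_finite
  have hfd1 : FiniteDimensional (ZMod p) (charRep p (1 : GQq p →* kˣ)) := hfdk
  have hsm1 : ∃ U ∈ (towerLoc p).lev, ∀ s ∈ U, (1 : GQq p →* kˣ) s = 1 :=
    ⟨⊤, (towerLoc p).top_mem, fun _ _ => rfl⟩
  obtain ⟨hUfin, hUrank⟩ := hunr p p (charRep p (1 : GQq p →* kˣ)) (wdx_charRep_smooth _ hsm1)
  have hUrank' : Module.finrank (ZMod p) (unrH1 p (charRep p (1 : GQq p →* kˣ))) ≤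
      Module.finrank (ZMod p) k :=
    hUrank.trans (Submodule.finrank_le _)
  obtain ⟨-, hgb1, -⟩ := hgb p hp2 k (1 : GQq p →* kˣ) hsm1
  have hlf1 := hgb1 (wdk_not_cyc_one hp2)
  -- `𝓘`
  obtain ⟨hIfin, hIrank⟩ := wdn_finrank_I hgb hunr hp2 hb hχ _ hz₀
  -- the cocycles
  let 𝒵 : Submodule (ZMod p) (cocycles₁ (locRep p (ad0Rep p ρbar))) :=
    wdmB p ρbar b ⊓ Fs.comap (H1π (locRep p (ad0Rep p ρbar))).hom
  let π : ↥𝒵 →ₗ[ZMod p] H1 (locRep p (ad0Rep p ρbar)) :=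
    (H1π (locRep p (ad0Rep p ρbar))).hom ∘ₗ 𝒵.subtype
  let α : ↥𝒵 →ₗ[ZMod p] H1 (charRep p (1 : GQq p →* kˣ)) :=
    (H1π (charRep p (1 : GQq p →* kˣ))).hom ∘ₗ wdmDiag hb ∘ₗ
      Submodule.inclusion (inf_le_left : 𝒵 ≤ wdmB p ρbar b)
  have hπ : ∀ z : ↥𝒵, π z = (H1π (locRep p (ad0Rep p ρbar))).hom z.1 := fun _ => rfl
  have hα : ∀ z : ↥𝒵, α z = (H1π (charRep p (1 : GQq p →* kˣ))).hom
      (wdcDiag hb z.1 ((mem_wdmB z.1).1 z.2.1)) := fun _ => rfl
  -- good representatives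
  have hrep : ∀ z : ↥𝒵, ∃ z' : cocycles₁ (locRep p (ad0Rep p ρbar)),
      (H1π (locRep p (ad0Rep p ρbar))).hom z' = (H1π (locRep p (ad0Rep p ρbar))).hom z.1 ∧
      IsLevel₁ (towerLoc p) (z' : GQq p → (ad0Rep p ρbar).V) ∧
      PLev p ρbar (fun τ => ad0Val p ρbar ((z' : GQq p → (ad0Rep p ρbar).V) τ)) ∧
      (∀ σ, wdfMat p ρbar b ((z' : GQq p → (ad0Rep p ρbar).V) σ) 1 0 = 0) ∧
      ∀ σ, wdfMat p ρbar b ((z' : GQq p → (ad0Rep p ρbar).V) σ) 0 0 =
        wdfMat p ρbar b ((z.1 : GQq p → (ad0Rep p ρbar).V) σ) 0 0 := by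
    intro z
    obtain ⟨z', h1, h2, h3, h4⟩ := hgood _ z.2.2
    exact ⟨z', h1, h2, h3, h4, wdk_diag_eq hb hχ z' z.1 h4 ((mem_wdmB z.1).1 z.2.1) h1⟩
  -- `α` has values in the unramified classes
  have hU : ∀ z : ↥𝒵, α z ∈ unrH1 p (charRep p (1 : GQq p →* kˣ)) := by
    intro z
    obtain ⟨z', h1, h2, h3, h4, h5⟩ := hrep z
    apply hlf1
    refine (mem_levFlatH1 p _ _).2 ⟨wdcDiag hb z' h4, ?_, ?_⟩
    · refine wdev_mem_levFlat p ρbar _ h3 _ _ ?_ ?_
      · obtain ⟨U, hU, h⟩ := h2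
        refine ⟨U, hU, fun g s hs => ?_⟩
        show wdcVal (wdcDiag hb z' h4) (g * s) = wdcVal (wdcDiag hb z' h4) g
        rw [wdcVal_diag, wdcVal_diag, h g s hs]
      · intro σ _ h0
        show wdcVal (wdcDiag hb z' h4) σ = 0
        rw [wdcVal_diag]
        have : (z' : GQq p → (ad0Rep p ρbar).V) σ = 0 :=
          ad0Val_injective p ρbar (by rw [h0, map_zero])
        rw [this, map_zero]
        rfl
    · rw [hα]
      congr 1
      apply wdcVal_ext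
      intro σ
      rw [wdcVal_diag, wdcVal_diag, h5 σ]
  -- `ker π ≤ ker α`
  have hker : LinearMap.ker π ≤ LinearMap.ker α := by
    intro z hz
    rw [LinearMap.mem_ker] at hz ⊢
    rw [hπ] at hz
    rw [hα]
    obtain ⟨x, hx⟩ := (H1π_eq_zero_iff z.1).1 hz
    have hx' : ∀ τ, (locRep p (ad0Rep p ρbar)).ρ τ x - x =
        (z.1 : GQq p → (ad0Rep p ρbar).V) τ := by
      intro τ
      have := congrFun hx τ
      rw [d₀₁_hom_apply] at this
      exact this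
    have h1 : ∀ σ, wdfMat p ρbar b ((z.1 : GQq p → (ad0Rep p ρbar).V) σ) 0 0 = 0 := by
      intro σ
      have := wdk_diag_cob hb hχ x (fun τ => by rw [hx' τ]; exact (mem_wdmB z.1).1 z.2.1 τ) σ
      rwa [hx' σ] at this
    have h2 : wdcDiag hb z.1 ((mem_wdmB z.1).1 z.2.1) = 0 := by
      apply wdcVal_ext
      intro σ
      rw [wdcVal_diag, h1 σ]
      rfl
    rw [h2, map_zero]
  -- `π (ker α) ⊆ 𝓘`
  have hI : ∀ z : ↥𝒵, α z = 0 → π z ∈ wdnI hb := by
    intro z hz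
    rw [hα] at hz
    obtain ⟨m, hm⟩ := (wdc_H1π_eq_zero_iff _).1 hz
    obtain ⟨z', h1, h2, h3, h4, h5⟩ := hrep z
    have h00 : ∀ σ, wdfMat p ρbar b ((z' : GQq p → (ad0Rep p ρbar).V) σ) 0 0 = 0 := by
      intro σ
      rw [h5 σ]
      have := hm σ
      rw [wdcVal_diag, MonoidHom.one_apply, Units.val_one, sub_self, zero_mul] at this
      exact this
    have hu : wdcUp hb z' h4 h00 ∈ levFlatCocycles p (charRep p (wdfChi hb)) := by
      refine wdev_mem_levFlat p ρbar _ h3 _ _ ?_ ?_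
      · obtain ⟨U, hU, h⟩ := h2
        refine ⟨U, hU, fun g s hs => ?_⟩
        show wdcVal (wdcUp hb z' h4 h00) (g * s) = wdcVal (wdcUp hb z' h4 h00) g
        rw [wdcVal_up, wdcVal_up, h g s hs]
      · intro σ _ h0
        show wdcVal (wdcUp hb z' h4 h00) σ = 0
        rw [wdcVal_up]
        have : (z' : GQq p → (ad0Rep p ρbar).V) σ = 0 :=
          ad0Val_injective p ρbar (by rw [h0, map_zero])
        rw [this, map_zero]
        rfl
    have hJ : wdmJ hb (wdcUp hb z' h4 h00) = z' := by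
      apply Subtype.ext
      funext σ
      show (wdmJ hb (wdcUp hb z' h4 h00) : GQq p → (ad0Rep p ρbar).V) σ =
        (z' : GQq p → (ad0Rep p ρbar).V) σ
      apply wdf_ext (b := b)
      · rw [wdmJ_apply, h00 σ]
        rfl
      · rw [wdmJ_apply]
        rfl
      · rw [wdmJ_apply, h4 σ]
        rfl
    refine ⟨⟨wdcUp hb z' h4 h00, hu⟩, ?_⟩
    rw [wdnTheta_apply, hπ, ← h1]
    show (H1π (locRep p (ad0Rep p ρbar))).hom (wdmJ hb (wdcUp hb z' h4 h00)) = _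
    rw [hJ]
  -- the count
  have := hUfin
  have := hIfin
  obtain ⟨hRfin, hRrank⟩ := wdev_finrank_range_le π α hker
    (unrH1 p (charRep p (1 : GQq p →* kˣ))) hU (wdnI hb) hI
  have hle : Fs ≤ LinearMap.range π := by
    intro x hx
    obtain ⟨z', h1, h2, h3, h4⟩ := hgood x hx
    refine ⟨⟨z', (mem_wdmB z').2 h4, ?_⟩, h1⟩
    show (H1π (locRep p (ad0Rep p ρbar))).hom z' ∈ Fs
    rw [h1]
    exact hx
  have hN : IsNoetherian (ZMod p) (LinearMap.range π) :=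
    @isNoetherian_of_isNoetherianRing_of_finite (ZMod p) _ _ _ _ _ hRfin
  refine ⟨@Module.Finite.of_injective (ZMod p) (ZMod p) _ _ _ _ _ _ _ _ hN _ _ _ _
    (Submodule.inclusion hle) (Submodule.inclusion_injective hle), ?_⟩
  have := @Submodule.finrank_mono (ZMod p) _ _ _ _ _ _ _ hRfin hle
  omega

end Count

end Fermat.Agent.TW.W

end
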