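/-
TW-W / W-dev (helper74), part I: existence of a GOOD frame in the reducible case.
-/
import Fermat.Agent.TW.W.DevCount
import Fermat.Agent.TW.S.Line

set_option autoImplicit false
set_option linter.unusedSectionVars false
set_option linter.unusedVariables false

noncomputable section

namespace Fermat.Agent.TW.W

open CategoryTheory groupCohomology IsLocalRing Polynomial
open Fermat.Agent.PT Fermat.Agent.PT.B Fermat.Agent.TW.L Fermat.Agent.TW.S Fermat.Agent.S53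
  Fermat.Agent.W1 ExtCitation

section Q

variable {p : ℕ} [Fact p.Prime] {k : Type} [Field k] [CharP k p] [Algebra (ZMod p) k] [Finite k]
  {ρbar : ResidualGaloisRep k} {b : Module.Basis (Fin 2) k ρbar.V}

/-- `algebraMap (ZMod p) k a = (a.val : k)` -/
lemma wdq_algebraMap (a : ZMod p) : algebraMap (ZMod p) k a = ((a.val : ℕ) : k) := by
  conv_lhs => rw [← ZMod.natCast_zmod_val a]
  rw [map_natCast]

/-- `det ρ̄ = ω` -/
lemma wdq_det_eq (hdet : (GaloisRepAdic.ofResidualGaloisRep ρbar).DetIsCyclotomic p) (σ : GQ) :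
    LinearMap.det (ρbar.ρ σ) = algebraMap (ZMod p) k ((cycloChar p σ : (ZMod p)ˣ) : ZMod p) := by
  have h1 := hdet.2 1 σ ((cycloChar p σ : (ZMod p)ˣ) : ZMod p).val (fun μ hμ => by
    rw [pow_one] at hμ
    exact sline_cycloChar_spec p σ μ hμ)
  have hρ : (GaloisRepAdic.ofResidualGaloisRep ρbar).ρ σ = ρbar.ρ σ := rfl
  rw [hρ, pow_one, CharP.cast_eq_zero k p, Ideal.mem_span_singleton, zero_dvd_iff,
    sub_eq_zero] at h1
  exact h1.trans (wdq_algebraMap _).symm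

/-- in a frame, `η₁ η₂ = ω` -/
lemma wdq_eta_mul (hdet : (GaloisRepAdic.ofResidualGaloisRep ρbar).DetIsCyclotomic p)
    (hb : IsFrame p ρbar b) (σ : GQq p) :
    wdfM p ρbar b σ 0 0 * wdfM p ρbar b σ 1 1 =
      algebraMap (ZMod p) k ((cycloChar p (localGaloisToGlobal p σ) : (ZMod p)ˣ) : ZMod p) := by
  rw [← wdq_det_eq hdet, ← LinearMap.det_toMatrix b]
  show _ = Matrix.det (wdfM p ρbar b σ)
  rw [Matrix.det_fin_two, hb σ, mul_zero, sub_zero]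

lemma wdq_eta1_smooth (hb : IsFrame p ρbar b) :
    ∃ U ∈ (towerLoc p).lev, ∀ s ∈ U, wdfEta1 hb s = 1 ∧ wdfEta2 hb s = 1 := by
  obtain ⟨U, hU, h⟩ := wdx_smooth p ρbar
  refine ⟨U, hU, fun s hs => ?_⟩
  have h1 := (wdfM_eq_one_iff p ρbar b s).2 (h s hs)
  constructor
  · apply Units.ext
    rw [wdfEta1_coe, h1]; rfl
  · apply Units.ext
    rw [wdfEta2_coe, h1]; rfl

/-- **`χ ≠ 1`** in every frame (`det = ω` is not a square on inertia). -/
theorem wdq_chi_ne_one (hns : StmtNoSqrt) (hp2 : p ≠ 2)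
    (hdet : (GaloisRepAdic.ofResidualGaloisRep ρbar).DetIsCyclotomic p)
    (hb : IsFrame p ρbar b) : ∃ σ₁, wdfChi hb σ₁ ≠ 1 := by
  by_contra hcon0
  have hcon : ∀ σ, wdfChi hb σ = 1 := fun σ => by
    by_contra h
    exact hcon0 ⟨σ, h⟩
  have heq : ∀ σ, wdfM p ρbar b σ 0 0 = wdfM p ρbar b σ 1 1 := by
    intro σ
    have h := wdfChi_mul_eta2 hb σ
    rw [hcon σ, Units.val_one, one_mul] at h
    exact h.symm
  obtain ⟨U, hU, hsm⟩ := wdq_eta1_smooth hb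
  refine hns p hp2 k (wdfEta1 hb) ⟨U, hU, fun s hs => (hsm s hs).1⟩ ?_
  intro σ _
  rw [wdfEta1_coe, ← wdq_eta_mul hdet hb σ, ← heq σ, sq]

/-- the lower triangular nilpotent matrix -/
def wdE10 (m : k) : Matrix (Fin 2) (Fin 2) k := Matrix.of ![![0, 0], ![m, 0]]

lemma wdE10_trace (m : k) : wdE10 m 0 0 + wdE10 m 1 1 = 0 := by
  show (0 : k) + 0 = 0
  rw [add_zero]

/-- **Fixing**: if the lower left entry of `z` is a coboundary, `z` is cohomologous to a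
`B⁰`-valued cocycle, still level and `PLev`. -/
theorem wdq_fix (hb : IsFrame p ρbar b) (z : cocycles₁ (locRep p (ad0Rep p ρbar)))
    (m : k) (hm : ∀ σ, wdfMat p ρbar b ((z : GQq p → (ad0Rep p ρbar).V) σ) 1 0 =
      ((((wdfChi hb)⁻¹ σ : kˣ) : k) - 1) * m)
    (hlev : IsLevel₁ (towerLoc p) (z : GQq p → (ad0Rep p ρbar).V))
    (hplev : PLev p ρbar (fun τ => ad0Val p ρbar ((z : GQq p → (ad0Rep p ρbar).V) τ))) :
    ∃ z' : cocycles₁ (locRep p (ad0Rep p ρbar)),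
      (H1π (locRep p (ad0Rep p ρbar))).hom z' = (H1π (locRep p (ad0Rep p ρbar))).hom z ∧
      IsLevel₁ (towerLoc p) (z' : GQq p → (ad0Rep p ρbar).V) ∧
      PLev p ρbar (fun τ => ad0Val p ρbar ((z' : GQq p → (ad0Rep p ρbar).V) τ)) ∧
      ∀ σ, wdfMat p ρbar b ((z' : GQq p → (ad0Rep p ρbar).V) σ) 1 0 = 0 := by
  obtain ⟨z', h1, h2, h3, h4⟩ := wdx_modify z (wdfOfMat p ρbar b (wdE10 m) (wdE10_trace m))
  refine ⟨z', h2, h3 hlev, h4 hplev, fun σ => ?_⟩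
  rw [h1 σ, map_sub, map_sub, Matrix.sub_apply, Matrix.sub_apply, hb.act10, wdfMat_ofMat, hm σ]
  show _ - (_ * m - m) = 0
  ring

/-- the set `F` has `B⁰`-valued representatives in the frame `b` -/
def WGood (p : ℕ) [Fact p.Prime] {k : Type} [Field k] [CharP k p] (ρbar : ResidualGaloisRep k)
    (b : Module.Basis (Fin 2) k ρbar.V) (F : Set (H1 (locRep p (ad0Rep p ρbar)))) : Prop :=
  ∀ x ∈ F, ∃ z : cocycles₁ (locRep p (ad0Rep p ρbar)),
    (H1π (locRep p (ad0Rep p ρbar))).hom z = x ∧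
    IsLevel₁ (towerLoc p) (z : GQq p → (ad0Rep p ρbar).V) ∧
    PLev p ρbar (fun τ => ad0Val p ρbar ((z : GQq p → (ad0Rep p ρbar).V) τ)) ∧
    ∀ σ, wdfMat p ρbar b ((z : GQq p → (ad0Rep p ρbar).V) σ) 1 0 = 0

/-- the hypothesis of `StmtCount` on `F` -/
def WRep (p : ℕ) [Fact p.Prime] {k : Type} [Field k] [CharP k p] (ρbar : ResidualGaloisRep k)
    (F : Set (H1 (locRep p (ad0Rep p ρbar)))) : Prop :=
  ∀ x ∈ F, ∃ z : cocycles₁ (locRep p (ad0Rep p ρbar)),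
    (H1π (locRep p (ad0Rep p ρbar))).hom z = x ∧
    IsLevel₁ (towerLoc p) (z : GQq p → (ad0Rep p ρbar).V) ∧
    PLev p ρbar (fun τ => ad0Val p ρbar ((z : GQq p → (ad0Rep p ρbar).V) τ)) ∧
    PEt1 p ρbar ∧
    PEt2 p ρbar (fun τ => ad0Val p ρbar ((z : GQq p → (ad0Rep p ρbar).V) τ))

/-- **Case (i)**: `χ⁻¹` is not cyclotomic on inertia. -/
theorem wdq_good_of_not_cyc (hgb : StmtGBChar) (hunr : StmtUnrLe) (hp2 : p ≠ 2)
    (hb : IsFrame p ρbar b) (hχ : ∃ σ₁, wdfChi hb σ₁ ≠ 1)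
    (hncyc : ¬ IsCycOnInertia p (wdfChi hb)⁻¹)
    (F : Set (H1 (locRep p (ad0Rep p ρbar)))) (hrep : WRep p ρbar F) : WGood p ρbar b F := by
  intro x hx
  obtain ⟨z, hzx, hlev, hplev, -, -⟩ := hrep x hx
  have hmem : wdcLow hb z ∈ levFlatCocycles p (charRep p (wdfChi hb)⁻¹) := by
    refine wdev_mem_levFlat p ρbar _ hplev _ _ ?_ ?_
    · obtain ⟨U, hU, h⟩ := hlev
      refine ⟨U, hU, fun g s hs => ?_⟩
      show wdcVal (wdcLow hb z) (g * s) = wdcVal (wdcLow hb z) g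
      rw [wdcVal_low, wdcVal_low, h g s hs]
    · intro σ _ h0
      show wdcVal (wdcLow hb z) σ = 0
      rw [wdcVal_low]
      have : (z : GQq p → (ad0Rep p ρbar).V) σ = 0 :=
        ad0Val_injective p ρbar (by rw [h0, map_zero])
      rw [this, map_zero]
      rfl
  have hne : ∃ σ₁, (wdfChi hb)⁻¹ σ₁ ≠ 1 := by
    obtain ⟨σ₁, h⟩ := hχ
    refine ⟨σ₁, fun h' => h ?_⟩
    rw [MonoidHom.inv_apply, inv_eq_one] at h'
    exact h'
  obtain ⟨m, hm⟩ := wdx_vanish hgb hunr hp2 (wdfChi hb)⁻¹ (wdx_chi_inv_smooth hb) hne hncyc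
    (wdcLow hb z) hmem
  obtain ⟨z', h1, h2, h3, h4⟩ := wdq_fix hb z m (fun σ => (wdcVal_low hb z σ).symm.trans (hm σ))
    hlev hplev
  exact ⟨z', h1.trans hzx, h2, h3, h4⟩

/-- **Shape (O)**: `η₂ = 1` on inertia, `η₁ ≠ 1` on inertia. -/
theorem wdq_good_of_ord (hO : StmtDevO) (hb : IsFrame p ρbar b)
    (h2 : ∀ σ ∈ inertiaQ p, wdfM p ρbar b σ 1 1 = 1)
    (h1 : ∃ σ₀ ∈ inertiaQ p, wdfM p ρbar b σ₀ 0 0 ≠ 1)
    (F : Set (H1 (locRep p (ad0Rep p ρbar)))) (hrep : WRep p ρbar F) : WGood p ρbar b F := by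
  intro x hx
  obtain ⟨z, hzx, hlev, hplev, -, het2⟩ := hrep x hx
  obtain ⟨m, hm⟩ := hO p k ρbar b hb h2 h1 z het2
  obtain ⟨z', h1', h2', h3', h4'⟩ := wdq_fix hb z m hm hlev hplev
  exact ⟨z', h1'.trans hzx, h2', h3', h4'⟩

end Q

end Fermat.Agent.TW.W

end
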