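/-
TW-W / W-dev (helper74), part J: ASSEMBLY of the dévissage.

`stmtDev2_of : StmtDevO → StmtDevAO → StmtDevSwap → StmtDev2Tors → StmtDevFrame → StmtDev2`,
i.e. `StmtCount` from (GB) for characters, (GB) in the irreducible case, `TW.L.StmtUnrLe`,
`StmtNoSqrt` and the five sub-pieces of `TW/W/DevPlan.lean`.
-/
import Fermat.Agent.TW.W.DevQ

set_option autoImplicit false
set_option linter.unusedSectionVars false
set_option linter.unusedVariables false

noncomputable section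

namespace Fermat.Agent.TW.W

open CategoryTheory groupCohomology IsLocalRing Polynomial
open Fermat.Agent.PT Fermat.Agent.PT.B Fermat.Agent.TW.L Fermat.Agent.TW.S Fermat.Agent.S53
  Fermat.Agent.W1 ExtCitation

section Final

variable {p : ℕ} [Fact p.Prime] {k : Type} [Field k] [CharP k p] [Algebra (ZMod p) k] [Finite k]
  {ρbar : ResidualGaloisRep k} {b : Module.Basis (Fin 2) k ρbar.V}

/-- `n = (χ - 1) m` means `β = (η₁ - η₂) m` -/
lemma wdz_beta_of_n (hb : IsFrame p ρbar b) (m : k)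
    (hm : ∀ σ, wdcVal (wdcN hb) σ = (((wdfChi hb σ : kˣ) : k) - 1) * m) (σ : GQq p) :
    wdfM p ρbar b σ 0 1 = (wdfM p ρbar b σ 0 0 - wdfM p ρbar b σ 1 1) * m := by
  have h1 := wdf_eta2_ne_zero hb σ
  have h2 := hm σ
  rw [wdcVal_N] at h2
  have h3 : wdfM p ρbar b σ 0 1 =
      (wdfM p ρbar b σ 0 1 * (wdfM p ρbar b σ 1 1)⁻¹) * wdfM p ρbar b σ 1 1 := by
    rw [mul_assoc, inv_mul_cancel₀ h1, mul_one]
  rw [h3, h2, ← wdfChi_mul_eta2 hb σ]
  ring

/-- there is an element of inertia on which `ω = -1` -/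
lemma wdz_omega_neg_one (p : ℕ) [Fact p.Prime] (k : Type) [Field k] [Algebra (ZMod p) k] :
    ∃ τ ∈ inertiaQ p,
      algebraMap (ZMod p) k ((cycloChar p (localGaloisToGlobal p τ) : (ZMod p)ˣ) : ZMod p) =
        -1 := by
  obtain ⟨τ, hτ, hτa⟩ := wstr_cyclo_inertiaQ_surjective p (-1 : (ZMod p)ˣ)
  refine ⟨τ, hτ, ?_⟩
  rw [hτa, Units.val_neg, Units.val_one, map_neg, map_one]

lemma wdz_neg_one_ne_one (hp2 : p ≠ 2) : (-1 : k) ≠ 1 := by
  intro h
  apply wdk_two_ne_zero (k := k) hp2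
  have : (2 : k) = 1 + 1 := by norm_num
  rw [this]
  nth_rewrite 1 [← h]
  rw [neg_add_cancel]

/-- `IsCycOnInertia` only depends on the values -/
lemma wdz_cyc_congr {ψ ψ' : GQq p →* kˣ} (h : ∀ σ, ((ψ σ : kˣ) : k) = ((ψ' σ : kˣ) : k)) :
    IsCycOnInertia p ψ ↔ IsCycOnInertia p ψ' := by
  unfold IsCycOnInertia
  constructor
  · intro h1 σ hσ
    rw [← h σ]
    exact h1 σ hσ
  · intro h1 σ hσ
    rw [h σ]
    exact h1 σ hσ

/-- after a swap, `χ' ⁻¹ = χ` -/
lemma wdz_chi_swap {b' : Module.Basis (Fin 2) k ρbar.V} (hb : IsFrame p ρbar b)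
    (hb' : IsFrame p ρbar b')
    (h : ∀ σ : GQq p, wdfM p ρbar b' σ 0 0 = wdfM p ρbar b σ 1 1 ∧
        wdfM p ρbar b' σ 1 1 = wdfM p ρbar b σ 0 0 ∧ wdfM p ρbar b' σ 0 1 = 0) (σ : GQq p) :
    ((((wdfChi hb')⁻¹) σ : kˣ) : k) = ((wdfChi hb σ : kˣ) : k) := by
  have h1 := wdfChi_inv_mul_eta1 hb' σ
  have h2 := wdfChi_mul_eta2 hb σ
  rw [(h σ).1, (h σ).2.1] at h1
  have h3 := wdf_eta2_ne_zero hb σ
  apply mul_right_cancel₀ h3
  rw [h1, h2]

/-- **Existence of a good frame** (reducible case, `F` nonempty). -/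
theorem wdz_exists_good (hO : StmtDevO) (hAO : StmtDevAO) (hsw : StmtDevSwap)
    (h2t : StmtDev2Tors) (hgb : StmtGBChar) (hunr : StmtUnrLe) (hns : StmtNoSqrt)
    (hp2 : p ≠ 2) (hdet : (GaloisRepAdic.ofResidualGaloisRep ρbar).DetIsCyclotomic p)
    (hb : IsFrame p ρbar b) (F : Set (H1 (locRep p (ad0Rep p ρbar))))
    (hrep : WRep p ρbar F) (hne : F.Nonempty) :
    ∃ (b' : Module.Basis (Fin 2) k ρbar.V) (hb' : IsFrame p ρbar b'), WGood p ρbar b' F := by
  obtain ⟨x₀, hx₀⟩ := hne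
  obtain ⟨z₀, -, -, hz₀, het1, -⟩ := hrep x₀ hx₀
  have hχ := wdq_chi_ne_one hns hp2 hdet hb
  by_cases hc1 : IsCycOnInertia p (wdfChi hb)⁻¹
  · by_cases hc2 : IsCycOnInertia p (wdfChi hb)
    · -- both cyclotomic on inertia
      obtain ⟨τ, hτ, hτω⟩ := wdz_omega_neg_one p k
      have hω : ∀ σ ∈ inertiaQ p, wdfM p ρbar b σ 0 0 =
          algebraMap (ZMod p) k ((cycloChar p (localGaloisToGlobal p σ) : (ZMod p)ˣ) : ZMod p) *
            wdfM p ρbar b σ 1 1 := by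
        intro σ hσ
        rw [← hc2 σ hσ, wdfChi_mul_eta2]
      have hω' : ∀ σ ∈ inertiaQ p, wdfM p ρbar b σ 1 1 =
          algebraMap (ZMod p) k ((cycloChar p (localGaloisToGlobal p σ) : (ZMod p)ˣ) : ZMod p) *
            wdfM p ρbar b σ 0 0 := by
        intro σ hσ
        rw [← hc1 σ hσ, wdfChi_inv_mul_eta1]
      have hω0 : ∀ σ : GQq p, algebraMap (ZMod p) k
          ((cycloChar p (localGaloisToGlobal p σ) : (ZMod p)ˣ) : ZMod p) ≠ 0 := by
        intro σ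
        rw [← wdq_eta_mul hdet hb σ]
        exact mul_ne_zero (wdf_eta1_ne_zero hb σ) (wdf_eta2_ne_zero hb σ)
      have hsq : ∀ σ ∈ inertiaQ p, wdfEta1 hb σ ^ 2 = 1 ∧ wdfEta2 hb σ ^ 2 = 1 := by
        intro σ hσ
        have e := wdq_eta_mul hdet hb σ
        constructor
        · apply Units.ext
          rw [Units.val_pow_eq_pow_val, wdfEta1_coe, Units.val_one]
          have e1 := hω' σ hσ
          have e2 : algebraMap (ZMod p) k
              ((cycloChar p (localGaloisToGlobal p σ) : (ZMod p)ˣ) : ZMod p) *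
              (wdfM p ρbar b σ 0 0 ^ 2) = algebraMap (ZMod p) k
              ((cycloChar p (localGaloisToGlobal p σ) : (ZMod p)ˣ) : ZMod p) * 1 := by
            linear_combination e - wdfM p ρbar b σ 0 0 * e1
          exact mul_left_cancel₀ (hω0 σ) e2
        · apply Units.ext
          rw [Units.val_pow_eq_pow_val, wdfEta2_coe, Units.val_one]
          have e1 := hω σ hσ
          have e2 : algebraMap (ZMod p) k
              ((cycloChar p (localGaloisToGlobal p σ) : (ZMod p)ˣ) : ZMod p) *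
              (wdfM p ρbar b σ 1 1 ^ 2) = algebraMap (ZMod p) k
              ((cycloChar p (localGaloisToGlobal p σ) : (ZMod p)ˣ) : ZMod p) * 1 := by
            linear_combination e - wdfM p ρbar b σ 1 1 * e1
          exact mul_left_cancel₀ (hω0 σ) e2
      rcases h2t p hp2 k (wdfEta1 hb) (wdfEta2 hb) (wdq_eta1_smooth hb) hsq with h | h | h
      · -- `η₁ = 1` on inertia: anti-ordinary shape, swap
        have h1 : ∀ σ ∈ inertiaQ p, wdfM p ρbar b σ 0 0 = 1 := by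
          intro σ hσ
          rw [← wdfEta1_coe hb, h σ hσ, Units.val_one]
        have h2 : ∃ σ₀ ∈ inertiaQ p, wdfM p ρbar b σ₀ 1 1 ≠ 1 := by
          refine ⟨τ, hτ, ?_⟩
          rw [hω' τ hτ, h1 τ hτ, mul_one, hτω]
          exact wdz_neg_one_ne_one hp2
        obtain ⟨m, hm⟩ := hAO p k ρbar b hb h1 h2 het1
        obtain ⟨b', hb', hsw'⟩ := hsw p k ρbar b hb ⟨m, hm⟩
        refine ⟨b', hb', wdq_good_of_ord hO hb' ?_ ?_ F hrep⟩
        · intro σ hσ
          rw [(hsw' σ).2.1, h1 σ hσ]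
        · obtain ⟨σ₀, hσ₀, hne⟩ := h2
          exact ⟨σ₀, hσ₀, by rw [(hsw' σ₀).1]; exact hne⟩
      · -- `η₂ = 1` on inertia: ordinary shape
        have h2 : ∀ σ ∈ inertiaQ p, wdfM p ρbar b σ 1 1 = 1 := by
          intro σ hσ
          rw [← wdfEta2_coe hb, h σ hσ, Units.val_one]
        refine ⟨b, hb, wdq_good_of_ord hO hb h2 ⟨τ, hτ, ?_⟩ F hrep⟩
        rw [hω τ hτ, h2 τ hτ, mul_one, hτω]
        exact wdz_neg_one_ne_one hp2
      · -- `η₁ = η₂` on inertia: impossible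
        exfalso
        have e1 := hω τ hτ
        have e2 : wdfM p ρbar b τ 0 0 = wdfM p ρbar b τ 1 1 := by
          rw [← wdfEta1_coe hb, ← wdfEta2_coe hb, h τ hτ]
        rw [e2, hτω] at e1
        have e3 : (1 : k) * wdfM p ρbar b τ 1 1 = -1 * wdfM p ρbar b τ 1 1 := by
          rw [one_mul]; exact e1
        have e4 := mul_right_cancel₀ (wdf_eta2_ne_zero hb τ) e3
        exact wdz_neg_one_ne_one (k := k) hp2 e4.symm
    · -- `χ⁻¹` cyclotomic, `χ` not: `ρ̄` is split, swap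
      obtain ⟨m, hm⟩ := wdx_vanish hgb hunr hp2 (wdfChi hb) (wdx_chi_smooth hb) hχ hc2
        (wdmN hb 1) (wdn_N_mem hb _ hz₀ 1)
      have hm' : ∀ σ, wdcVal (wdcN hb) σ = (((wdfChi hb σ : kˣ) : k) - 1) * m := by
        intro σ
        have := hm σ
        have e : wdcVal (wdmN hb 1) σ = (((wdfChi hb σ : kˣ) : k) - 1) * m := this
        rw [wdcVal_wdmN, one_mul] at e
        exact e
      obtain ⟨b', hb', hsw'⟩ := hsw p k ρbar b hb ⟨m, wdz_beta_of_n hb m hm'⟩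
      have hχ' := wdq_chi_ne_one hns hp2 hdet hb'
      refine ⟨b', hb', wdq_good_of_not_cyc hgb hunr hp2 hb' hχ' ?_ F hrep⟩
      rw [wdz_cyc_congr (wdz_chi_swap hb hb' hsw')]
      exact hc2
  · exact ⟨b, hb, wdq_good_of_not_cyc hgb hunr hp2 hb hχ hc1 F hrep⟩

end Final

/-- **W-dev.** -/
theorem stmtDev2_of (hO : StmtDevO) (hAO : StmtDevAO) (hsw : StmtDevSwap)
    (h2t : StmtDev2Tors) (hfr : StmtDevFrame) : StmtDev2 := by
  intro hgb hirr hunr hns p _ hp2 k _ _ _ _ ρbar hdet hsplit F hadd hrep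
  by_cases hne : F.Nonempty
  swap
  · rw [Set.not_nonempty_iff_eq_empty.1 hne, Submodule.span_empty]
    refine ⟨inferInstance, ?_⟩
    rw [finrank_bot]
    exact Nat.zero_le _
  by_cases hI : IsLocIrr p ρbar
  · exact wdev_count_irr hirr p hp2 k ρbar hdet hsplit hI F hrep
  obtain ⟨Fs, hFs⟩ := wdev_exists_submodule p F hadd hne
  have hspan : Submodule.span (ZMod p) F = Fs := by
    rw [← hFs]
    exact Submodule.span_eq Fs
  obtain ⟨b₀, hb₀⟩ := hfr p k ρbar hI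
  obtain ⟨b, hb, hgood⟩ := wdz_exists_good hO hAO hsw h2t hgb hunr hns hp2 hdet hb₀ F hrep hne
  have hχ := wdq_chi_ne_one hns hp2 hdet hb
  rw [hspan]
  refine wdk_count hgb hunr hp2 hb hχ Fs ?_
  intro x hx
  have hx' : x ∈ F := by
    rw [← hFs]
    exact hx
  exact hgood x hx'

end Fermat.Agent.TW.W

end
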