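/-
TW-W / W-dev, piece DEV-frame (helper86): `stmtDevFrame : StmtDevFrame`.

A `G_p`-stable line gives a frame (`TW.L.gord_exists_basis`).
-/
import Fermat.Agent.TW.W.DevPlan
import Fermat.Agent.TW.L.AdOrd

set_option autoImplicit false
set_option linter.style.haveILetI false

noncomputable section

namespace Fermat.Agent.TW.W

open Fermat.Agent.PT Fermat.Agent.PT.B Fermat.Agent.TW.L

/-- A proper nonzero subspace of a plane is a line. -/
theorem wdevf_finrank_eq_one {k : Type*} [Field k] {V : Type*} [AddCommGroup V] [Module k V]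
    (hV : Module.finrank k V = 2) (W : Submodule k V) (h0 : W ≠ ⊥) (h1 : W ≠ ⊤) :
    Module.finrank k W = 1 := by
  haveI : Module.Finite k V := Module.finite_of_finrank_eq_succ hV
  have hpos : 0 < Module.finrank k W := by
    rw [Module.finrank_pos_iff_exists_ne_zero]
    obtain ⟨x, hx, hx0⟩ := (Submodule.ne_bot_iff W).mp h0
    exact ⟨⟨x, hx⟩, fun h => hx0 (congrArg Subtype.val h)⟩
  have hlt : Module.finrank k W < 2 := by
    rw [← hV]
    exact Submodule.finrank_lt h1
  omega

/-- A stable line gives a frame. -/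
theorem wdevf_frame_of_line (p : ℕ) [Fact p.Prime] {k : Type} [Field k]
    (ρbar : ResidualGaloisRep k) (W : Submodule k ρbar.V)
    (hW : ∀ σ : GQq p, ∀ x ∈ W, rhoLoc p ρbar σ x ∈ W) (h1 : Module.finrank k W = 1) :
    ∃ b : Module.Basis (Fin 2) k ρbar.V, IsFrame p ρbar b ∧ ∀ v : ρbar.V, v ∈ W ↔ b.repr v 1 = 0 := by
  obtain ⟨b, hb⟩ := gord_exists_basis ρbar.finrank_eq W h1
  refine ⟨b, fun σ => ?_, hb⟩
  have hb0 : b 0 ∈ W := by
    rw [hb, Module.Basis.repr_self, Finsupp.single_apply, if_neg (by decide)]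
  have h2 := (hb _).mp (hW σ _ hb0)
  rw [wdfM, LinearMap.toMatrix_apply]
  exact h2

/-- **DEV-frame.** -/
theorem stmtDevFrame : StmtDevFrame := by
  intro p _ k _ ρbar hirr
  unfold IsLocIrr at hirr
  push Not at hirr
  obtain ⟨W, hW, h0, h1⟩ := hirr
  obtain ⟨b, hb, -⟩ := wdevf_frame_of_line p ρbar W hW
    (wdevf_finrank_eq_one ρbar.finrank_eq W h0 h1)
  exact ⟨b, hb⟩

end Fermat.Agent.TW.W

end
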