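/-
TW-W / W-dev, piece DEV-swap (helper86): `stmtDevSwap : StmtDevSwap`.

A split frame can be swapped: if `β = (η₁ - η₂) m` then `b' = (b₁ - m b₀, b₀)` is a frame in which
`ρ̄|_{G_p}` is diagonal, with the characters `η₂, η₁`.
-/
import Fermat.Agent.TW.W.DevPlan

set_option autoImplicit false
set_option linter.style.haveILetI false

noncomputable section

namespace Fermat.Agent.TW.W

open Fermat.Agent.PT Fermat.Agent.PT.B Fermat.Agent.TW.L

section LinAlg

variable {k : Type*} [Field k] {V : Type*} [AddCommGroup V] [Module k V]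

/-- the columns of the matrix of `f` -/
theorem wdevs_apply_basis (f : Module.End k V) (b : Module.Basis (Fin 2) k V) (j : Fin 2) :
    f (b j) = LinearMap.toMatrix b b f 0 j • b 0 + LinearMap.toMatrix b b f 1 j • b 1 := by
  conv_lhs => rw [← b.sum_repr (f (b j))]
  rw [Fin.sum_univ_two, LinearMap.toMatrix_apply, LinearMap.toMatrix_apply]

/-- the matrix of `f` in a basis of eigenvectors -/
theorem wdevs_toMatrix_of_eigen (f : Module.End k V) (b : Module.Basis (Fin 2) k V) (c : Fin 2 → k)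
    (h : ∀ j, f (b j) = c j • b j) (i j : Fin 2) :
    LinearMap.toMatrix b b f i j = if i = j then c j else 0 := by
  rw [LinearMap.toMatrix_apply, h j, map_smul, Module.Basis.repr_self, Finsupp.smul_apply,
    Finsupp.single_apply, smul_eq_mul]
  by_cases hij : i = j
  · rw [if_pos hij, if_pos hij.symm, mul_one]
  · rw [if_neg hij, if_neg (fun h' => hij h'.symm), mul_zero]

/-- `(b₁ - m b₀, b₀)` is a basis -/
theorem wdevs_swap_li (b : Module.Basis (Fin 2) k V) (m : k) :
    LinearIndependent k ![b 1 - m • b 0, b 0] := by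
  rw [LinearIndependent.pair_iff]
  intro s t hst
  have h1 : (t - s * m) • b 0 + s • b 1 = 0 := by
    rw [← hst, smul_sub, smul_smul, sub_smul]
    abel
  have h2 := b.linearIndependent
  rw [Fintype.linearIndependent_iff] at h2
  have h3 := h2 ![t - s * m, s] (by
    rw [Fin.sum_univ_two]
    simpa using h1)
  have hs : s = 0 := by simpa using h3 1
  have ht : t - s * m = 0 := by simpa using h3 0
  rw [hs, zero_mul, sub_zero] at ht
  exact ⟨hs, ht⟩

end LinAlg

/-- **DEV-swap.** -/
theorem stmtDevSwap : StmtDevSwap := by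
  intro p _ k _ ρbar b hb hsplit
  obtain ⟨m, hm⟩ := hsplit
  have hli := wdevs_swap_li b m
  have hcard : Fintype.card (Fin 2) = Module.finrank k ρbar.V := by
    rw [ρbar.finrank_eq, Fintype.card_fin]
  let b' : Module.Basis (Fin 2) k ρbar.V := basisOfLinearIndependentOfCardEqFinrank hli hcard
  have hb'0 : b' 0 = b 1 - m • b 0 := by
    show basisOfLinearIndependentOfCardEqFinrank hli hcard 0 = _
    rw [coe_basisOfLinearIndependentOfCardEqFinrank]
    rfl
  have hb'1 : b' 1 = b 0 := by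
    show basisOfLinearIndependentOfCardEqFinrank hli hcard 1 = _
    rw [coe_basisOfLinearIndependentOfCardEqFinrank]
    rfl
  have hcol0 : ∀ σ : GQq p, rhoLoc p ρbar σ (b 0) = wdfM p ρbar b σ 0 0 • b 0 := by
    intro σ
    have h := wdevs_apply_basis (rhoLoc p ρbar σ) b 0
    have h10 : LinearMap.toMatrix b b (rhoLoc p ρbar σ) 1 0 = 0 := hb σ
    rw [h10, zero_smul, add_zero] at h
    exact h
  have hcol1 : ∀ σ : GQq p, rhoLoc p ρbar σ (b 1) =
      wdfM p ρbar b σ 0 1 • b 0 + wdfM p ρbar b σ 1 1 • b 1 := fun σ =>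
    wdevs_apply_basis (rhoLoc p ρbar σ) b 1
  have heig : ∀ σ : GQq p, ∀ j : Fin 2, rhoLoc p ρbar σ (b' j) =
      (![wdfM p ρbar b σ 1 1, wdfM p ρbar b σ 0 0] j) • b' j := by
    intro σ j
    fin_cases j
    · show rhoLoc p ρbar σ (b' 0) = wdfM p ρbar b σ 1 1 • b' 0
      rw [hb'0, map_sub, map_smul, hcol0, hcol1, hm σ]
      module
    · show rhoLoc p ρbar σ (b' 1) = wdfM p ρbar b σ 0 0 • b' 1
      rw [hb'1, hcol0]
  have hmat : ∀ (σ : GQq p) (i j : Fin 2), wdfM p ρbar b' σ i j =
      if i = j then (![wdfM p ρbar b σ 1 1, wdfM p ρbar b σ 0 0] j) else 0 := fun σ i j =>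
    wdevs_toMatrix_of_eigen (rhoLoc p ρbar σ) b' _ (heig σ) i j
  refine ⟨b', fun σ => ?_, fun σ => ⟨?_, ?_, ?_⟩⟩
  · rw [hmat σ 1 0, if_neg (by decide)]
  · rw [hmat σ 0 0, if_pos rfl]
    rfl
  · rw [hmat σ 1 1, if_pos rfl]
    rfl
  · rw [hmat σ 0 1, if_neg (by decide)]

end Fermat.Agent.TW.W

end
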