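/-
TW-W / W-dev, piece DEV-AO (helper86): `stmtDevAO : StmtDevAO`.

Anti-ordinary shape (`η₁ = 1` on inertia, `η₂ ≠ 1` on inertia): if `(I_aug V̄)^I = 0` (`PEt1`) then
`ρ̄|_{G_p}` is split, `β = (η₁ - η₂) m`.

Proof.  `I_aug V̄` is a `G_p`-stable `k`-subspace (inertia is normal).  It contains
`u = (σ₀ - 1)(c⁻¹ b₁) = b₁ - m b₀`, `c = η₂(σ₀) - 1`.  For `g ∈ G_p`:
`g u - η₂(g) u = d(g) b₀` with `d(g) = β(g) - (η₁(g) - η₂(g)) m`, an element of `I_aug V̄` fixed by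
inertia; so `d(g) = 0`.
-/
import Fermat.Agent.TW.W.DevSwap
import Fermat.Agent.TW.L.LTw

set_option autoImplicit false
set_option linter.style.haveILetI false

noncomputable section

namespace Fermat.Agent.TW.W

open Fermat.Agent.PT Fermat.Agent.PT.B Fermat.Agent.TW.L

section Aug

variable (p : ℕ) [Fact p.Prime] {k : Type} [Field k] (ρbar : ResidualGaloisRep k)

/-- `I_aug V̄` is stable under scalars. -/
theorem wdevao_smul_mem (a : k) {v : ρbar.V} (hv : v ∈ iAugBar p ρbar) :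
    a • v ∈ iAugBar p ρbar := by
  unfold iAugBar at hv ⊢
  induction hv using AddSubgroup.closure_induction with
  | mem x hx =>
    obtain ⟨σ, hσ, w, rfl⟩ := hx
    apply AddSubgroup.subset_closure
    exact ⟨σ, hσ, a • w, by rw [smul_sub, map_smul]⟩
  | zero => rw [smul_zero]; exact zero_mem _
  | add x y _ _ hx hy => rw [smul_add]; exact add_mem hx hy
  | neg x _ hx => rw [smul_neg]; exact neg_mem hx

/-- `I_aug V̄` is stable under `G_p`. -/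
theorem wdevao_act_mem (g : GQq p) {v : ρbar.V} (hv : v ∈ iAugBar p ρbar) :
    rhoLoc p ρbar g v ∈ iAugBar p ρbar := by
  unfold iAugBar at hv ⊢
  induction hv using AddSubgroup.closure_induction with
  | mem x hx =>
    obtain ⟨σ, hσ, w, rfl⟩ := hx
    apply AddSubgroup.subset_closure
    refine ⟨g * σ * g⁻¹, ltw_conj_mem_inertiaQ g hσ, rhoLoc p ρbar g w, ?_⟩
    have h1 : rhoLoc p ρbar (g * σ * g⁻¹) (rhoLoc p ρbar g w) = rhoLoc p ρbar g (rhoLoc p ρbar σ w) := by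
      rw [wdf_rhoLoc_mul, wdf_rhoLoc_mul, Module.End.mul_apply, Module.End.mul_apply,
        ← Module.End.mul_apply (rhoLoc p ρbar g⁻¹), wdf_rhoLoc_inv_mul, Module.End.one_apply]
    rw [h1, map_sub]
  | zero => rw [map_zero]; exact zero_mem _
  | add x y _ _ hx hy => rw [map_add]; exact add_mem hx hy
  | neg x _ hx => rw [map_neg]; exact neg_mem hx

/-- the generators of `I_aug V̄` -/
theorem wdevao_gen_mem {σ : GQq p} (hσ : σ ∈ inertiaQ p) (w : ρbar.V) :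
    rhoLoc p ρbar σ w - w ∈ iAugBar p ρbar :=
  AddSubgroup.subset_closure ⟨σ, hσ, w, rfl⟩

variable {p ρbar}

/-- first column of a frame -/
theorem wdev_col0 {b : Module.Basis (Fin 2) k ρbar.V} (hb : IsFrame p ρbar b) (σ : GQq p) :
    rhoLoc p ρbar σ (b 0) = wdfM p ρbar b σ 0 0 • b 0 := by
  have h := wdevs_apply_basis (rhoLoc p ρbar σ) b 0
  have h10 : LinearMap.toMatrix b b (rhoLoc p ρbar σ) 1 0 = 0 := hb σ
  rw [h10, zero_smul, add_zero] at h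
  exact h

/-- second column of a frame -/
theorem wdev_col1 (b : Module.Basis (Fin 2) k ρbar.V) (σ : GQq p) :
    rhoLoc p ρbar σ (b 1) = wdfM p ρbar b σ 0 1 • b 0 + wdfM p ρbar b σ 1 1 • b 1 :=
  wdevs_apply_basis (rhoLoc p ρbar σ) b 1

end Aug

/-- **DEV-AO.** -/
theorem stmtDevAO : StmtDevAO := by
  intro p _ k _ _ ρbar b hb h1 hex hE1
  obtain ⟨σ₀, hσ₀, hne⟩ := hex
  have hc0 : wdfM p ρbar b σ₀ 1 1 - 1 ≠ 0 := sub_ne_zero.mpr hne
  obtain ⟨c, hc⟩ : ∃ c : k, c = wdfM p ρbar b σ₀ 1 1 - 1 := ⟨_, rfl⟩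
  have hcc : c⁻¹ * (wdfM p ρbar b σ₀ 1 1 - 1) = 1 := by
    rw [← hc]
    exact inv_mul_cancel₀ (hc ▸ hc0)
  obtain ⟨m, hm⟩ : ∃ m : k, m = -(c⁻¹ * wdfM p ρbar b σ₀ 0 1) := ⟨_, rfl⟩
  -- `u = b₁ - m b₀ ∈ I_aug V̄`
  have hu : b 1 - m • b 0 ∈ iAugBar p ρbar := by
    have e : b 1 - m • b 0 = rhoLoc p ρbar σ₀ (c⁻¹ • b 1) - c⁻¹ • b 1 := by
      rw [map_smul, wdev_col1 b σ₀]
      have e1 : c⁻¹ • (wdfM p ρbar b σ₀ 0 1 • b 0 + wdfM p ρbar b σ₀ 1 1 • b 1) - c⁻¹ • b 1 =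
          (c⁻¹ * wdfM p ρbar b σ₀ 0 1) • b 0 + (c⁻¹ * (wdfM p ρbar b σ₀ 1 1 - 1)) • b 1 := by
        module
      rw [e1, hcc, hm]
      module
    rw [e]
    exact wdevao_gen_mem p ρbar hσ₀ _
  refine ⟨m, fun g => ?_⟩
  obtain ⟨d, hd⟩ : ∃ d : k, d = wdfM p ρbar b g 0 1 -
      (wdfM p ρbar b g 0 0 - wdfM p ρbar b g 1 1) * m := ⟨_, rfl⟩
  have hdmem : d • b 0 ∈ iAugBar p ρbar := by
    have e : d • b 0 = rhoLoc p ρbar g (b 1 - m • b 0) -
        wdfM p ρbar b g 1 1 • (b 1 - m • b 0) := by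
      rw [map_sub, map_smul, wdev_col0 hb, wdev_col1, hd]
      module
    rw [e]
    exact sub_mem (wdevao_act_mem p ρbar g hu) (wdevao_smul_mem p ρbar _ hu)
  have hfix : ∀ σ ∈ inertiaQ p, rhoLoc p ρbar σ (d • b 0) = d • b 0 := by
    intro σ hσ
    rw [map_smul, wdev_col0 hb, h1 σ hσ, one_smul]
  have h0 := hE1 _ hdmem hfix
  have hd0 : d = 0 := (smul_eq_zero.mp h0).resolve_right (b.ne_zero 0)
  rw [hd] at hd0
  exact sub_eq_zero.mp hd0

end Fermat.Agent.TW.W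

end
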