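/-
TW-W / W-dev, piece DEV-O (helper86): `stmtDevO : StmtDevO`.

Ordinary shape (`η₂ = 1` on inertia, `η₁ ≠ 1` on inertia): if `PEt2 z` then the lower left entry
`c'` of `z` is a coboundary of `k(χ⁻¹)`.

Proof.  `I_aug V̄ ⊆ k b₀` (inertia acts trivially on `V̄ / k b₀`).  For `σ ∈ I` the element
`g_σ = vcAct σ (b₀, 0) - (b₀, 0) = ((η₁(σ) - 1) b₀, η₁(σ) z(σ) b₀)` lies in `I_aug V_c`, a
`k`-subspace; `(η₁(σ₀) - 1) g_σ - (η₁(σ) - 1) g_{σ₀} = (0, w)`, so by `PEt2` the `b₁`-coefficient of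
`w` vanishes: `(η₁(σ₀) - 1) η₁(σ) c'(σ) = (η₁(σ) - 1) η₁(σ₀) c'(σ₀)`, i.e.
`c'(σ) = (χ⁻¹(σ) - 1) m` on `I`.  Then `c'' = c' - ∂ m` is a cocycle of `k(χ⁻¹)` which vanishes on
`I`, and `0 = c''(g σ₀ g⁻¹) = (1 - χ⁻¹(σ₀)) c''(g)` for `g ∈ G_p`.
-/
import Fermat.Agent.TW.W.DevAO

set_option autoImplicit false
set_option linter.style.haveILetI false

noncomputable section

namespace Fermat.Agent.TW.W

open CategoryTheory groupCohomology
open Fermat.Agent.PT Fermat.Agent.PT.B Fermat.Agent.TW.L Fermat.Agent.TW.S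

section Abstract

variable {G : Type*} [Group G] {k : Type*} [Field k]

/-- A cocycle of `k(X)` which vanishes on a normal subgroup `I` containing an element `σ₀` with
`X σ₀ ≠ 1` vanishes. -/
theorem wdevo_coc_vanish (X : G →* kˣ) (c : G → k)
    (hc : ∀ σ τ, c (σ * τ) = (X σ : k) * c τ + c σ) (I : Subgroup G)
    (hI : ∀ (g : G) (σ : G), σ ∈ I → g * σ * g⁻¹ ∈ I) (hcI : ∀ σ ∈ I, c σ = 0)
    {σ₀ : G} (hσ₀ : σ₀ ∈ I) (hX : (X σ₀ : k) ≠ 1) (g : G) : c g = 0 := by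
  have h1 : c 1 = 0 := hcI 1 I.one_mem
  have h2 : (X g : k) * c g⁻¹ = - c g := by
    have h := hc g g⁻¹
    rw [mul_inv_cancel, h1] at h
    exact eq_neg_of_add_eq_zero_left h.symm
  have h3 : c (g * σ₀ * g⁻¹) = 0 := hcI _ (hI g σ₀ hσ₀)
  rw [hc (g * σ₀) g⁻¹, hc g σ₀, hcI σ₀ hσ₀, mul_zero, zero_add, map_mul, Units.val_mul,
    mul_comm (X g : k), mul_assoc, h2] at h3
  have h4 : (1 - (X σ₀ : k)) * c g = 0 := by
    rw [← h3]; ring
  rcases mul_eq_zero.mp h4 with h | h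
  · exact absurd (sub_eq_zero.mp h).symm hX
  · exact h

/-- A cocycle of `k(X)` which is the coboundary of `m` on a normal subgroup `I` containing an
element `σ₀` with `X σ₀ ≠ 1` is the coboundary of `m`. -/
theorem wdevo_coc_cob (X : G →* kˣ) (c : G → k)
    (hc : ∀ σ τ, c (σ * τ) = (X σ : k) * c τ + c σ) (I : Subgroup G)
    (hI : ∀ (g : G) (σ : G), σ ∈ I → g * σ * g⁻¹ ∈ I) (m : k)
    (hcI : ∀ σ ∈ I, c σ = ((X σ : k) - 1) * m)
    {σ₀ : G} (hσ₀ : σ₀ ∈ I) (hX : (X σ₀ : k) ≠ 1) (g : G) : c g = ((X g : k) - 1) * m := by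
  have h := wdevo_coc_vanish X (fun σ => c σ - ((X σ : k) - 1) * m) (fun σ τ => by
    show c (σ * τ) - ((X (σ * τ) : k) - 1) * m =
      (X σ : k) * (c τ - ((X τ : k) - 1) * m) + (c σ - ((X σ : k) - 1) * m)
    rw [hc σ τ, map_mul, Units.val_mul]
    ring) I hI (fun σ hσ => by
    show c σ - ((X σ : k) - 1) * m = 0
    rw [hcI σ hσ, sub_self]) hσ₀ hX g
  exact sub_eq_zero.mp h

end Abstract

section Aug

variable (p : ℕ) [Fact p.Prime] {k : Type} [Field k] (ρbar : ResidualGaloisRep k)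

/-- `vcAct` is `k`-linear. -/
theorem wdevo_vcAct_smul (c : GQq p → Module.End k ρbar.V) (σ : GQq p) (a : k)
    (x : ρbar.V × ρbar.V) : vcAct p ρbar c σ (a • x) = a • vcAct p ρbar c σ x := by
  unfold vcAct
  ext
  · simp
  · simp [smul_add]

/-- `I_aug V_c` is stable under scalars. -/
theorem wdevo_smul_mem (c : GQq p → Module.End k ρbar.V) (a : k) {x : ρbar.V × ρbar.V}
    (hx : x ∈ iAugVc p ρbar c) : a • x ∈ iAugVc p ρbar c := by
  unfold iAugVc at hx ⊢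
  induction hx using AddSubgroup.closure_induction with
  | mem x hx =>
    obtain ⟨σ, hσ, y, rfl⟩ := hx
    apply AddSubgroup.subset_closure
    exact ⟨σ, hσ, a • y, by rw [smul_sub, wdevo_vcAct_smul]⟩
  | zero => rw [smul_zero]; exact zero_mem _
  | add x y _ _ hx hy => rw [smul_add]; exact add_mem hx hy
  | neg x _ hx => rw [smul_neg]; exact neg_mem hx

/-- the generators of `I_aug V_c` -/
theorem wdevo_gen_mem (c : GQq p → Module.End k ρbar.V) {σ : GQq p} (hσ : σ ∈ inertiaQ p)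
    (y : ρbar.V × ρbar.V) : vcAct p ρbar c σ y - y ∈ iAugVc p ρbar c :=
  AddSubgroup.subset_closure ⟨σ, hσ, y, rfl⟩

variable {p ρbar}

/-- the `b₁`-coordinate of `f w` -/
theorem wdevo_repr_one (b : Module.Basis (Fin 2) k ρbar.V) (f : Module.End k ρbar.V)
    (w : ρbar.V) :
    b.repr (f w) 1 = LinearMap.toMatrix b b f 1 0 * b.repr w 0 +
      LinearMap.toMatrix b b f 1 1 * b.repr w 1 := by
  have h := congrFun (LinearMap.toMatrix_mulVec_repr b b f w) 1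
  rw [Matrix.mulVec, dotProduct, Fin.sum_univ_two] at h
  exact h.symm

/-- if inertia acts trivially on `V̄ / k b₀` then `I_aug V̄ ⊆ k b₀` -/
theorem wdevo_iAugBar_le {b : Module.Basis (Fin 2) k ρbar.V} (hb : IsFrame p ρbar b)
    (h2 : ∀ σ ∈ inertiaQ p, wdfM p ρbar b σ 1 1 = 1) {v : ρbar.V}
    (hv : v ∈ iAugBar p ρbar) : b.repr v 1 = 0 := by
  unfold iAugBar at hv
  induction hv using AddSubgroup.closure_induction with
  | mem x hx =>
    obtain ⟨σ, hσ, w, rfl⟩ := hx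
    have h10 : LinearMap.toMatrix b b (rhoLoc p ρbar σ) 1 0 = 0 := hb σ
    have h11 : LinearMap.toMatrix b b (rhoLoc p ρbar σ) 1 1 = 1 := h2 σ hσ
    rw [map_sub, Finsupp.sub_apply, wdevo_repr_one, h10, h11, zero_mul, zero_add, one_mul,
      sub_self]
  | zero => rw [map_zero]; rfl
  | add x y _ _ hx hy => rw [map_add, Finsupp.add_apply, hx, hy, add_zero]
  | neg x _ hx => rw [map_neg, Finsupp.neg_apply, hx, neg_zero]

end Aug

/-- **DEV-O.** -/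
theorem stmtDevO : StmtDevO := by
  intro p _ k _ _ _ ρbar b hb h2 hex z hE2
  obtain ⟨σ₀, hσ₀, hne⟩ := hex
  -- notation
  obtain ⟨c, hc⟩ : ∃ c : GQq p → Module.End k ρbar.V,
      c = fun τ => ad0Val p ρbar ((z : GQq p → (ad0Rep p ρbar).V) τ) := ⟨_, rfl⟩
  rw [← hc] at hE2
  have hcmat : ∀ σ : GQq p, b.repr (c σ (b 0)) 1 =
      wdfMat p ρbar b ((z : GQq p → (ad0Rep p ρbar).V) σ) 1 0 := by
    intro σ
    rw [wdfMat_apply, LinearMap.toMatrix_apply, hc]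
  -- the cocycle identity of the lower left entry
  have hcoc : ∀ σ τ : GQq p,
      wdfMat p ρbar b ((z : GQq p → (ad0Rep p ρbar).V) (σ * τ)) 1 0 =
        (((wdfChi hb)⁻¹ σ : kˣ) : k) * wdfMat p ρbar b ((z : GQq p → (ad0Rep p ρbar).V) τ) 1 0 +
          wdfMat p ρbar b ((z : GQq p → (ad0Rep p ρbar).V) σ) 1 0 := by
    intro σ τ
    rw [wdc_coc z σ τ, map_add, Matrix.add_apply, hb.act10]
  -- `χ⁻¹ η₁ = 1` on inertia
  have hX : ∀ σ ∈ inertiaQ p, (((wdfChi hb)⁻¹ σ : kˣ) : k) * wdfM p ρbar b σ 0 0 = 1 := by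
    intro σ hσ
    rw [wdfChi_inv_mul_eta1 hb σ, h2 σ hσ]
  have hXσ₀ : (((wdfChi hb)⁻¹ σ₀ : kˣ) : k) ≠ 1 := by
    intro h
    have := hX σ₀ hσ₀
    rw [h, one_mul] at this
    exact hne this
  -- the elements `g_σ`
  have hg : ∀ σ ∈ inertiaQ p,
      (((wdfM p ρbar b σ 0 0 - 1) • b 0, wdfM p ρbar b σ 0 0 • c σ (b 0)) : ρbar.V × ρbar.V) ∈
        iAugVc p ρbar c := by
    intro σ hσ
    have e : (((wdfM p ρbar b σ 0 0 - 1) • b 0, wdfM p ρbar b σ 0 0 • c σ (b 0)) :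
        ρbar.V × ρbar.V) = vcAct p ρbar c σ (b 0, 0) - (b 0, 0) := by
      unfold vcAct
      ext
      · simp only [Prod.fst_sub, wdev_col0 hb σ]
        module
      · simp only [Prod.snd_sub, wdev_col0 hb σ, map_zero, zero_add, sub_zero, map_smul]
    rw [e]
    exact wdevo_gen_mem p ρbar c hσ _
  -- the relation on inertia
  have hrel : ∀ σ ∈ inertiaQ p,
      (wdfM p ρbar b σ₀ 0 0 - 1) * (wdfM p ρbar b σ 0 0 *
          wdfMat p ρbar b ((z : GQq p → (ad0Rep p ρbar).V) σ) 1 0) =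
        (wdfM p ρbar b σ 0 0 - 1) * (wdfM p ρbar b σ₀ 0 0 *
          wdfMat p ρbar b ((z : GQq p → (ad0Rep p ρbar).V) σ₀) 1 0) := by
    intro σ hσ
    have hmem : ((0, (wdfM p ρbar b σ₀ 0 0 - 1) • (wdfM p ρbar b σ 0 0 • c σ (b 0)) -
        (wdfM p ρbar b σ 0 0 - 1) • (wdfM p ρbar b σ₀ 0 0 • c σ₀ (b 0))) : ρbar.V × ρbar.V) ∈
          iAugVc p ρbar c := by
      have e : ((0, (wdfM p ρbar b σ₀ 0 0 - 1) • (wdfM p ρbar b σ 0 0 • c σ (b 0)) -
          (wdfM p ρbar b σ 0 0 - 1) • (wdfM p ρbar b σ₀ 0 0 • c σ₀ (b 0))) : ρbar.V × ρbar.V) =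
          (wdfM p ρbar b σ₀ 0 0 - 1) •
            (((wdfM p ρbar b σ 0 0 - 1) • b 0, wdfM p ρbar b σ 0 0 • c σ (b 0)) :
              ρbar.V × ρbar.V) -
          (wdfM p ρbar b σ 0 0 - 1) •
            (((wdfM p ρbar b σ₀ 0 0 - 1) • b 0, wdfM p ρbar b σ₀ 0 0 • c σ₀ (b 0)) :
              ρbar.V × ρbar.V) := by
        ext
        · simp only [Prod.fst_sub, Prod.smul_fst]
          module
        · simp only [Prod.snd_sub, Prod.smul_snd]
      rw [e]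
      exact sub_mem (wdevo_smul_mem p ρbar c _ (hg σ hσ)) (wdevo_smul_mem p ρbar c _ (hg σ₀ hσ₀))
    have h0 := wdevo_iAugBar_le hb h2 (hE2 _ hmem)
    rw [map_sub, map_smul, map_smul, map_smul, map_smul, Finsupp.sub_apply, Finsupp.smul_apply,
      Finsupp.smul_apply, Finsupp.smul_apply, Finsupp.smul_apply, hcmat, hcmat, smul_eq_mul,
      smul_eq_mul, smul_eq_mul, smul_eq_mul] at h0
    exact sub_eq_zero.mp h0
  -- the constant `m`
  have hd0 : wdfM p ρbar b σ₀ 0 0 - 1 ≠ 0 := sub_ne_zero.mpr hne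
  obtain ⟨m, hm⟩ : ∃ m : k, m = -((wdfM p ρbar b σ₀ 0 0 - 1)⁻¹ * (wdfM p ρbar b σ₀ 0 0 *
      wdfMat p ρbar b ((z : GQq p → (ad0Rep p ρbar).V) σ₀) 1 0)) := ⟨_, rfl⟩
  have hI : ∀ σ ∈ inertiaQ p, wdfMat p ρbar b ((z : GQq p → (ad0Rep p ρbar).V) σ) 1 0 =
      ((((wdfChi hb)⁻¹ σ : kˣ) : k) - 1) * m := by
    intro σ hσ
    have h1 := hrel σ hσ
    have h3 : wdfM p ρbar b σ 0 0 *
        wdfMat p ρbar b ((z : GQq p → (ad0Rep p ρbar).V) σ) 1 0 =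
          (wdfM p ρbar b σ 0 0 - 1) * (-m) := by
      rw [hm, neg_neg]
      field_simp
      linear_combination h1
    have h4 := hX σ hσ
    calc wdfMat p ρbar b ((z : GQq p → (ad0Rep p ρbar).V) σ) 1 0
        = ((((wdfChi hb)⁻¹ σ : kˣ) : k) * wdfM p ρbar b σ 0 0) *
            wdfMat p ρbar b ((z : GQq p → (ad0Rep p ρbar).V) σ) 1 0 := by rw [h4, one_mul]
      _ = (((wdfChi hb)⁻¹ σ : kˣ) : k) * (wdfM p ρbar b σ 0 0 *
            wdfMat p ρbar b ((z : GQq p → (ad0Rep p ρbar).V) σ) 1 0) := by ring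
      _ = (((wdfChi hb)⁻¹ σ : kˣ) : k) * ((wdfM p ρbar b σ 0 0 - 1) * (-m)) := by rw [h3]
      _ = ((((wdfChi hb)⁻¹ σ : kˣ) : k) * wdfM p ρbar b σ 0 0 - (((wdfChi hb)⁻¹ σ : kˣ) : k)) *
            (-m) := by ring
      _ = ((((wdfChi hb)⁻¹ σ : kˣ) : k) - 1) * m := by rw [h4]; ring
  exact ⟨m, fun g => wdevo_coc_cob (wdfChi hb)⁻¹
    (fun σ => wdfMat p ρbar b ((z : GQq p → (ad0Rep p ρbar).V) σ) 1 0) hcoc (inertiaQ p)
    (fun g σ hσ => ltw_conj_mem_inertiaQ g hσ) m hI hσ₀ hXσ₀ g⟩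

end Fermat.Agent.TW.W

end
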