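/-
TW-W / W-dev (helper74): the dévissage, unconditional modulo (GB).

`stmtDev2 : StmtDev2` and
`stmtCount_of : StmtGBChar → StmtGBIrr → StmtCount`.
-/
import Fermat.Agent.TW.W.DevFinal
import Fermat.Agent.TW.W.DevO
import Fermat.Agent.TW.W.Dev2Tors
import Fermat.Agent.TW.W.DevFrameEx
import Fermat.Agent.TW.L.Final

set_option autoImplicit false

namespace Fermat.Agent.TW.W

/-- **W-dev**: the count from (GB) for characters and (GB) in the irreducible case. -/
theorem stmtDev2 : StmtDev2 :=
  stmtDev2_of stmtDevO stmtDevAO stmtDevSwap stmtDev2Tors stmtDevFrame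

/-- **W-count**, modulo the two (GB) statements. -/
theorem stmtCount_of (h1 : StmtGBChar) (h2 : StmtGBIrr) : StmtCount :=
  stmtDev2 h1 h2 Fermat.Agent.TW.L.stmtUnrLe stmtNoSqrt

end Fermat.Agent.TW.W
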