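import Fermat.Agent.TW.W.T2
import Fermat.Agent.W1.DescentBasic
import Fermat.Agent.W1.RatLocPID

/-!
# TW-W (T2) over `ℤ_(p)`: no small torsion, for a place of `ℚ̄` over `p`

Specialisation of `T2.lean` to `R = GaloisRep.ratLocalizedAt p` and a valuation subring
`A ⊂ ℚ̄` with `A.LiesOverPrime p`; divisibility forms of the hypotheses.
-/

set_option autoImplicit false
set_option linter.unusedSectionVars false

namespace Fermat.Agent.TW.W

open Fermat.Agent.W1 GaloisRep

local notation "Qb" => AlgebraicClosure ℚ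

/-- `ℤ_(p) ⊂ A` for a valuation subring over `p`. -/
theorem tww_ratLoc_mem {p : ℕ} (hp : p.Prime) (A : ValuationSubring Qb)
    (hA : A.LiesOverPrime p) (r : ratLocalizedAt p) : algebraMap (ratLocalizedAt p) Qb r ∈ A := by
  have h1 : algebraMap (ratLocalizedAt p) Qb r = algebraMap ℚ Qb (r : ℚ) := rfl
  rw [h1, desc_rat_mem_iff hp A hA]
  exact r.2

/-- Divisibility in `A` in terms of the valuation. -/
theorem tww_val_le_iff {K : Type*} [Field K] (A : ValuationSubring K) (x c : K) :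
    A.valuation x ≤ A.valuation c ↔ ∃ s ∈ A, x = c * s := by
  constructor
  · intro h
    by_cases hc : c = 0
    · subst hc
      rw [map_zero] at h
      have : x = 0 := (Valuation.zero_iff _).mp (le_antisymm h zero_le)
      exact ⟨0, A.zero_mem, by simp [this]⟩
    · refine ⟨x / c, ?_, by field_simp⟩
      rw [← A.valuation_le_one_iff, map_div₀]
      have hvc : A.valuation c ≠ 0 := (Valuation.ne_zero_iff _).mpr hc
      exact (div_le_one₀ (zero_lt_iff.mpr hvc)).mpr h
  · rintro ⟨s, hs, rfl⟩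
    rw [map_mul]
    calc A.valuation c * A.valuation s ≤ A.valuation c * 1 :=
          mul_le_mul' le_rfl ((A.valuation_le_one_iff s).mpr hs)
      _ = A.valuation c := mul_one _

section T2Loc

variable {p : ℕ} {M : Type} [AddCommGroup M] [Finite M]
  {act : (Qb ≃ₐ[ℚ] Qb) → M → M} {H : Subalgebra (ratLocalizedAt p) (M → Qb)}

/-- **(T2) over `ℤ_(p)`, two points, divisibility form.**  `c ^ (p - 1) = p t`, `t ∈ 𝔪_A`. -/
theorem tww_t2_eq_loc [Fact p.Prime] (hH : IsHopfLattice (ratLocalizedAt p) act H)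
    (A : ValuationSubring Qb) (hA : A.LiesOverPrime p)
    (c t : Qb) (hct : c ^ (p - 1) = (p : Qb) * t) (ht : t ∈ A.nonunits)
    (m m' : M) (hpm : p • m = 0) (hpm' : p • m' = 0)
    (hm : ∀ h ∈ H, ∃ s ∈ A, h m - h m' = c * s) : m = m' :=
  tww_t2_eq hH A (tww_ratLoc_mem (Fact.out) A hA) p Fact.out c t hct ht m m' hpm hpm'
    (fun h hh => (tww_val_le_iff A _ _).mpr (hm h hh))

/-- **(T2) over `ℤ_(p)`, divisibility form.** -/
theorem tww_t2_zero_loc [Fact p.Prime] (hH : IsHopfLattice (ratLocalizedAt p) act H)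
    (A : ValuationSubring Qb) (hA : A.LiesOverPrime p)
    (c t : Qb) (hct : c ^ (p - 1) = (p : Qb) * t) (ht : t ∈ A.nonunits)
    (m : M) (hpm : p • m = 0)
    (hm : ∀ h ∈ H, h 0 = 0 → ∃ s ∈ A, h m = c * s) : m = 0 :=
  tww_t2_zero hH A (tww_ratLoc_mem (Fact.out) A hA) p Fact.out c t hct ht m hpm
    (fun h hh h0 => (tww_val_le_iff A _ _).mpr (hm h hh h0))

/-- **(T2) for `c = p`** (`p` odd): a point killed by `p` all of whose coordinates `h m`
(`h ∈ H`, `h 0 = 0`) are divisible by `p` in `A` is zero.  [This is what (RED) uses for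
inertia-fixed points.] -/
theorem tww_t2_zero_p [Fact p.Prime] (hp2 : p ≠ 2) (hH : IsHopfLattice (ratLocalizedAt p) act H)
    (A : ValuationSubring Qb) (hA : A.LiesOverPrime p)
    (m : M) (hpm : p • m = 0)
    (hm : ∀ h ∈ H, h 0 = 0 → ∃ s ∈ A, h m = (p : Qb) * s) : m = 0 := by
  have hp : p.Prime := Fact.out
  have h3 : 3 ≤ p := by
    have := hp.two_le
    omega
  refine tww_t2_zero_loc hH A hA (p : Qb) ((p : Qb) ^ (p - 2)) ?_ ?_ m hpm hm
  · rw [← pow_succ', show p - 2 + 1 = p - 1 by omega]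
  · have hpA : (p : Qb) ∈ A.nonunits := hA
    rw [ValuationSubring.mem_nonunits_iff] at hpA ⊢
    rw [map_pow]
    exact pow_lt_one' hpA (by omega)

end T2Loc

end Fermat.Agent.TW.W
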