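import Fermat.Agent.TW.W.LocBase
import Fermat.Agent.TW.W.T2Loc
import Fermat.Agent.UNIP.Beta0Ext

/-!
# TW-W (W-et), local lattices 4: the local lattice of a Hopf lattice over `ℤ_(p)`

`A ⊂ ℚ̄` a valuation subring over `p`, `I` its inertia group, `E₀ = ℚ̄^I`.

* `twwlocRing A`     : `A₀ = A ∩ E₀` as a subring of `ℚ̄` (a PID: `twwlocRing_isPID`);
* `twwlocBase A`     : `(I, A₀)` is a local base;
* `twwlocOfGlob A H` : the `A₀`-algebra `A₀ · H` generated by a lattice `H` over `ℤ_(p)`;
* `twwloc_ofGlob`    : `A₀ · H` is a local Hopf lattice if `H` is a Hopf lattice over `ℤ_(p)`.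
-/

set_option autoImplicit false
set_option linter.unusedSectionVars false
set_option linter.style.haveILetI false

namespace Fermat.Agent.TW.W

open Fermat.Agent.W1 GaloisRep Fermat.Agent.UNIP

local notation "Qb" => AlgebraicClosure ℚ

/-- `A₀ = A ∩ ℚ̄^I`, as a subring of `ℚ̄`. -/
noncomputable def twwlocRing (A : ValuationSubring Qb) : Subring Qb :=
  A.toSubring ⊓ (beta0Field A).toSubring

theorem mem_twwlocRing {A : ValuationSubring Qb} {x : Qb} :
    x ∈ twwlocRing A ↔ x ∈ A ∧ x ∈ beta0Field A := Iff.rfl

theorem twwlocRing_algebraMap (A : ValuationSubring Qb) (r : twwlocRing A) :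
    algebraMap (twwlocRing A) Qb r = (r : Qb) := rfl

theorem twwlocRing_mem (A : ValuationSubring Qb) (r : twwlocRing A) :
    algebraMap (twwlocRing A) Qb r ∈ A := r.2.1

/-- `(I, A₀)` is a local base. -/
theorem twwlocBase (A : ValuationSubring Qb) :
    TwwLocBase (A.inertiaSubgroupIn ℚ) (twwlocRing A) where
  inj := Subtype.val_injective
  fixes := fun r σ hσ => (mem_beta0Field.mp r.2.2) σ hσ
  frac := by
    intro x hx
    have hxE : x ∈ beta0Field A := mem_beta0Field.mpr hx
    rcases A.mem_or_inv_mem x with h | h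
    · exact ⟨⟨x, h, hxE⟩, 1, one_ne_zero, by
        rw [twwlocRing_algebraMap, twwlocRing_algebraMap]; simp⟩
    · by_cases hx0 : x = 0
      · exact ⟨0, 1, one_ne_zero, by simp [hx0]⟩
      · refine ⟨1, ⟨x⁻¹, h, (beta0Field A).inv_mem hxE⟩, ?_, ?_⟩
        · intro h0
          have := congrArg Subtype.val h0
          exact inv_ne_zero hx0 this
        · rw [twwlocRing_algebraMap, twwlocRing_algebraMap]
          show x⁻¹ * x = 1
          exact inv_mul_cancel₀ hx0

/-- `A₀` is a principal ideal domain. -/
theorem twwlocRing_isPID {p : ℕ} (hp : p.Prime) (A : ValuationSubring Qb)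
    (hA : A.LiesOverPrime p) : IsPrincipalIdealRing (twwlocRing A) := by
  haveI := beta0_isDVR hp hA
  let f : ↥(A.comap (algebraMap (beta0Field A) Qb)) →+* twwlocRing A :=
    { toFun := fun x => ⟨algebraMap (beta0Field A) Qb x.1, x.2, x.1.2⟩
      map_one' := rfl
      map_mul' := fun _ _ => rfl
      map_zero' := rfl
      map_add' := fun _ _ => rfl }
  refine IsPrincipalIdealRing.of_surjective f ?_
  rintro ⟨y, hy1, hy2⟩
  exact ⟨⟨⟨y, hy2⟩, hy1⟩, rfl⟩

/-- `ℤ_(p) ⊂ A₀`. -/
theorem twwloc_ratLoc_mem {p : ℕ} (hp : p.Prime) (A : ValuationSubring Qb)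
    (hA : A.LiesOverPrime p) (r : ratLocalizedAt p) :
    algebraMap (ratLocalizedAt p) Qb r ∈ twwlocRing A := by
  refine ⟨tww_ratLoc_mem hp A hA r, ?_⟩
  have h1 : algebraMap (ratLocalizedAt p) Qb r = algebraMap ℚ Qb (r : ℚ) := rfl
  rw [h1]
  exact (beta0Field A).algebraMap_mem _

section OfGlob

variable {p : ℕ} {M : Type}

/-- The local lattice `A₀ · H` generated by a lattice `H` over `ℤ_(p)`. -/
noncomputable def twwlocOfGlob (A : ValuationSubring Qb)
    (H : Subalgebra (ratLocalizedAt p) (M → Qb)) : Subalgebra (twwlocRing A) (M → Qb) :=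
  Algebra.adjoin (twwlocRing A) (H : Set (M → Qb))

theorem twwlocOfGlob_toSubmodule (A : ValuationSubring Qb)
    (H : Subalgebra (ratLocalizedAt p) (M → Qb)) :
    Subalgebra.toSubmodule (twwlocOfGlob A H) =
      Submodule.span (twwlocRing A) (H : Set (M → Qb)) := by
  rw [twwlocOfGlob, Algebra.adjoin_eq_span]
  congr 1
  have h1 : ((H.toSubsemiring.toSubmonoid : Submonoid (M → Qb)) : Set (M → Qb)) =
      (H : Set (M → Qb)) := rfl
  rw [← h1, Submonoid.closure_eq]

theorem mem_twwlocOfGlob_iff (A : ValuationSubring Qb)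
    (H : Subalgebra (ratLocalizedAt p) (M → Qb)) (f : M → Qb) :
    f ∈ twwlocOfGlob A H ↔ f ∈ Submodule.span (twwlocRing A) (H : Set (M → Qb)) := by
  rw [← twwlocOfGlob_toSubmodule]
  exact Iff.rfl

theorem subset_twwlocOfGlob (A : ValuationSubring Qb)
    (H : Subalgebra (ratLocalizedAt p) (M → Qb)) {h : M → Qb} (hh : h ∈ H) :
    h ∈ twwlocOfGlob A H := Algebra.subset_adjoin hh

/-- Induction principle for the local lattice: a property of functions which holds on `H`, at
`0`, and is stable under addition and multiplication by scalars of `A₀`, holds on `A₀ · H`. -/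
theorem twwlocOfGlob_induction (A : ValuationSubring Qb)
    (H : Subalgebra (ratLocalizedAt p) (M → Qb)) {C : (M → Qb) → Prop}
    (hmem : ∀ h ∈ H, C h) (hzero : C 0) (hadd : ∀ f g, C f → C g → C (f + g))
    (hsmul : ∀ (r : Qb), r ∈ twwlocRing A → ∀ f, C f → C (fun P => r * f P))
    {f : M → Qb} (hf : f ∈ twwlocOfGlob A H) : C f := by
  rw [mem_twwlocOfGlob_iff] at hf
  induction hf using Submodule.span_induction with
  | mem h hh => exact hmem h hh
  | zero => exact hzero
  | add f g _ _ hf hg => exact hadd f g hf hg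
  | smul r f _ hf =>
    have e : r • f = fun P => (r : Qb) * f P := by
      funext P
      rw [Pi.smul_apply, Algebra.smul_def, twwlocRing_algebraMap]
    rw [e]
    exact hsmul _ r.2 f hf

variable [AddCommGroup M] {act : (Qb ≃ₐ[ℚ] Qb) → M → M}
  {H : Subalgebra (ratLocalizedAt p) (M → Qb)}

/-- The values of the local lattice lie in `A`. -/
theorem twwlocOfGlob_val_mem (hp : p.Prime) (hH : IsHopfLattice (ratLocalizedAt p) act H)
    (A : ValuationSubring Qb) (hA : A.LiesOverPrime p) {f : M → Qb}
    (hf : f ∈ twwlocOfGlob A H) (m : M) : f m ∈ A := by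
  refine twwlocOfGlob_induction A H (C := fun f => f m ∈ A) ?_ ?_ ?_ ?_ hf
  · intro h hh
    exact tww_t2_val_mem hH A (tww_ratLoc_mem hp A hA) h hh m
  · exact A.zero_mem
  · intro f g hf hg
    exact A.add_mem _ _ hf hg
  · intro r hr f hf
    exact A.mul_mem _ _ hr.1 hf

/-- **The local lattice of a Hopf lattice over `ℤ_(p)`.** -/
theorem twwloc_ofGlob (hp : p.Prime) (hH : IsHopfLattice (ratLocalizedAt p) act H)
    (A : ValuationSubring Qb) (hA : A.LiesOverPrime p) :
    TwwLocLattice (A.inertiaSubgroupIn ℚ) act (twwlocOfGlob A H) where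
  fg := by
    rw [twwlocOfGlob_toSubmodule]
    obtain ⟨S, hS⟩ := hH.fg
    refine ⟨S, le_antisymm (Submodule.span_mono ?_) (Submodule.span_le.2 ?_)⟩
    · intro s hs
      have : s ∈ Submodule.span (ratLocalizedAt p) (S : Set (M → Qb)) :=
        Submodule.subset_span hs
      rw [hS] at this
      exact this
    · intro h hh
      have hh' : h ∈ Submodule.span (ratLocalizedAt p) (S : Set (M → Qb)) := by
        rw [hS]; exact hh
      clear hh
      induction hh' using Submodule.span_induction with
      | mem s hs => exact Submodule.subset_span hs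
      | zero => exact Submodule.zero_mem _
      | add f g _ _ hf hg => exact Submodule.add_mem _ hf hg
      | smul r f _ hf =>
        have e : r • f = (⟨algebraMap (ratLocalizedAt p) Qb r,
            twwloc_ratLoc_mem hp A hA r⟩ : twwlocRing A) • f := by
          funext P
          rw [Pi.smul_apply, Pi.smul_apply, Algebra.smul_def, Algebra.smul_def,
            twwlocRing_algebraMap]
        rw [e]
        exact Submodule.smul_mem _ _ hf
  equivariant := by
    intro f hf σ hσ P
    refine twwlocOfGlob_induction A H (C := fun f => f (act σ P) = σ (f P)) ?_ ?_ ?_ ?_ hf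
    · intro h hh
      exact hH.equivariant h hh σ P
    · simp
    · intro f g hf hg
      rw [Pi.add_apply, Pi.add_apply, hf, hg, map_add]
    · intro r hr f hf
      show r * f (act σ P) = σ (r * f P)
      rw [map_mul, hf, (mem_beta0Field.mp hr.2) σ hσ]
  separates := by
    intro P Q hPQ
    exact hH.separates P Q fun h hh => hPQ h (subset_twwlocOfGlob A H hh)
  comul_mem := by
    intro f hf
    refine twwlocOfGlob_induction A H
      (C := fun f => (fun PQ : M × M => f (PQ.1 + PQ.2)) ∈
        Submodule.span (twwlocRing A) {F : M × M → Qb |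
          ∃ a ∈ twwlocOfGlob A H, ∃ b ∈ twwlocOfGlob A H, F = fun PQ => a PQ.1 * b PQ.2})
      ?_ ?_ ?_ ?_ hf
    · intro h hh
      have key : ∀ F ∈ Submodule.span (ratLocalizedAt p) {F : M × M → Qb |
          ∃ a ∈ H, ∃ b ∈ H, F = fun PQ => a PQ.1 * b PQ.2},
          F ∈ Submodule.span (twwlocRing A) {F : M × M → Qb |
            ∃ a ∈ twwlocOfGlob A H, ∃ b ∈ twwlocOfGlob A H,
              F = fun PQ => a PQ.1 * b PQ.2} := by
        intro F h1
        induction h1 using Submodule.span_induction with
        | mem F hF =>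
          obtain ⟨a, ha, b, hb, rfl⟩ := hF
          exact Submodule.subset_span
            ⟨a, subset_twwlocOfGlob A H ha, b, subset_twwlocOfGlob A H hb, rfl⟩
        | zero => exact Submodule.zero_mem _
        | add F G _ _ hF hG => exact Submodule.add_mem _ hF hG
        | smul r F _ hF =>
          have e : r • F = (⟨algebraMap (ratLocalizedAt p) Qb r,
              twwloc_ratLoc_mem hp A hA r⟩ : twwlocRing A) • F := by
            funext P
            rw [Pi.smul_apply, Pi.smul_apply, Algebra.smul_def, Algebra.smul_def,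
              twwlocRing_algebraMap]
          rw [e]
          exact Submodule.smul_mem _ _ hF
      exact key _ (hH.comul_mem h hh)
    · exact Submodule.zero_mem _
    · intro f g hf hg
      exact Submodule.add_mem _ hf hg
    · intro r hr f hf
      have e : (fun PQ : M × M => (fun P => r * f P) (PQ.1 + PQ.2)) =
          (⟨r, hr⟩ : twwlocRing A) • (fun PQ : M × M => f (PQ.1 + PQ.2)) := by
        funext PQ
        rw [Pi.smul_apply, Algebra.smul_def, twwlocRing_algebraMap]
      rw [e]
      exact Submodule.smul_mem _ _ hf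

end OfGlob

end Fermat.Agent.TW.W
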