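import Fermat.Agent.TW.W.LocBase

/-!
# TW-W (W-et), local lattices 2: quotients of local Hopf lattices

`twwloc_quot`: if `L` is a local Hopf lattice on the finite group `M` over the base `(Γ, R₀)` and
`π : M → M''` is a surjective `Γ`-equivariant additive map, then
`L'' = {φ : M'' → ℚ̄ | φ ∘ π ∈ L}` is a local Hopf lattice on `M''`.
(Port of `W1.sq_quot` from the base `(G_ℚ, R ⊂ ℚ)` to a local base.)
-/

set_option autoImplicit false
set_option linter.unusedSectionVars false
set_option linter.unusedSimpArgs false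
set_option linter.style.haveILetI false

namespace Fermat.Agent.TW.W

local notation "Qb" => AlgebraicClosure ℚ

section Quot

variable {Γ : Subgroup (Qb ≃ₐ[ℚ] Qb)} {R₀ : Type} [CommRing R₀] [IsDomain R₀] [Algebra R₀ Qb]
  {M M'' : Type} [AddCommGroup M] [AddCommGroup M'']
  {act : (Qb ≃ₐ[ℚ] Qb) → M → M} {act'' : (Qb ≃ₐ[ℚ] Qb) → M'' → M''}
  {L : Subalgebra R₀ (M → Qb)}

/-- Pull-back along a surjective map is injective. -/
theorem twwloc_pull_injective {π : M → M''} (hπ : Function.Surjective π) :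
    Function.Injective (twwlocPull R₀ π) := by
  intro f g hfg
  funext P''
  obtain ⟨P, rfl⟩ := hπ P''
  exact congrFun hfg P

theorem twwloc_mem_comap {π : M → M''} {φ : M'' → Qb} :
    φ ∈ L.comap (twwlocPull R₀ π) ↔ (fun P => φ (π P)) ∈ L := Iff.rfl

/-- The action is by permutations (1). -/
theorem twwloc_act_inv_act
    (hequiv : ∀ h ∈ L, ∀ σ ∈ Γ, ∀ P : M, h (act σ P) = σ (h P))
    (hsep : ∀ P Q : M, (∀ h ∈ L, h P = h Q) → P = Q)
    {σ : Qb ≃ₐ[ℚ] Qb} (hσ : σ ∈ Γ) (P : M) : act σ⁻¹ (act σ P) = P := by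
  refine hsep _ _ fun h hh => ?_
  rw [hequiv h hh _ (Γ.inv_mem hσ), hequiv h hh _ hσ, twwloc_inv_apply_apply]

/-- The action is by permutations (2). -/
theorem twwloc_act_act_inv
    (hequiv : ∀ h ∈ L, ∀ σ ∈ Γ, ∀ P : M, h (act σ P) = σ (h P))
    (hsep : ∀ P Q : M, (∀ h ∈ L, h P = h Q) → P = Q)
    {σ : Qb ≃ₐ[ℚ] Qb} (hσ : σ ∈ Γ) (P : M) : act σ (act σ⁻¹ P) = P := by
  refine hsep _ _ fun h hh => ?_
  rw [hequiv h hh _ hσ, hequiv h hh _ (Γ.inv_mem hσ), twwloc_apply_inv_apply]

/-- The sum of a function over the fibres of `π`. -/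
noncomputable def twwlocTrace [Fintype M] [DecidableEq M''] (π : M → M'')
    (h : M → Qb) : M'' → Qb :=
  fun P'' => ∑ x ∈ Finset.univ.filter (fun x => π x = P''), h x

/-- The trace of an element of `L` is equivariant. -/
theorem twwloc_trace_equivariant [Fintype M] [DecidableEq M'']
    (hequiv : ∀ h ∈ L, ∀ σ ∈ Γ, ∀ P : M, h (act σ P) = σ (h P))
    (hsep : ∀ P Q : M, (∀ h ∈ L, h P = h Q) → P = Q)
    {π : M → M''} (hπ : Function.Surjective π)
    (hπequiv : ∀ σ ∈ Γ, ∀ P, π (act σ P) = act'' σ (π P))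
    (h : M → Qb) (hh : h ∈ L) {σ : Qb ≃ₐ[ℚ] Qb} (hσ : σ ∈ Γ) (P'' : M'') :
    twwlocTrace π h (act'' σ P'') = σ (twwlocTrace π h P'') := by
  unfold twwlocTrace
  rw [map_sum]
  symm
  have hσ' : σ⁻¹ ∈ Γ := Γ.inv_mem hσ
  refine Finset.sum_nbij' (fun x => act σ x) (fun y => act σ⁻¹ y) ?_ ?_ ?_ ?_ ?_
  · intro a ha
    simp only [Finset.mem_filter, Finset.mem_univ, true_and] at ha ⊢
    rw [hπequiv σ hσ, ha]
  · intro y hy
    simp only [Finset.mem_filter, Finset.mem_univ, true_and] at hy ⊢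
    obtain ⟨x₀, rfl⟩ := hπ P''
    rw [hπequiv _ hσ', hy, ← hπequiv _ hσ, ← hπequiv _ hσ', twwloc_act_inv_act hequiv hsep hσ]
  · intro a _
    exact twwloc_act_inv_act hequiv hsep hσ a
  · intro y _
    exact twwloc_act_act_inv hequiv hsep hσ y
  · intro a _
    exact (hequiv h hh σ hσ a).symm

variable [IsPrincipalIdealRing R₀]

/-- The quotient lattice is finitely generated. -/
theorem twwloc_quot_fg (hfg : (Subalgebra.toSubmodule L).FG) {π : M → M''}
    (hπ : Function.Surjective π) :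
    (Subalgebra.toSubmodule (L.comap (twwlocPull R₀ π))).FG := by
  haveI : IsNoetherian R₀ (Subalgebra.toSubmodule L) := isNoetherian_of_fg_of_noetherian _ hfg
  refine Submodule.fg_of_fg_map_injective (twwlocPull R₀ π).toLinearMap
    (twwloc_pull_injective (R₀ := R₀) hπ) ?_
  have hle : (Subalgebra.toSubmodule (L.comap (twwlocPull R₀ π))).map
      (twwlocPull R₀ π).toLinearMap ≤ Subalgebra.toSubmodule L := by
    rintro _ ⟨f, hf, rfl⟩
    exact hf
  exact isNoetherian_submodule.1 inferInstance _ hle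

/-- The quotient lattice is equivariant. -/
theorem twwloc_quot_equivariant
    (hequiv : ∀ h ∈ L, ∀ σ ∈ Γ, ∀ P : M, h (act σ P) = σ (h P))
    {π : M → M''} (hπ : Function.Surjective π)
    (hπequiv : ∀ σ ∈ Γ, ∀ P, π (act σ P) = act'' σ (π P)) :
    ∀ φ ∈ L.comap (twwlocPull R₀ π), ∀ σ ∈ Γ, ∀ P : M'', φ (act'' σ P) = σ (φ P) := by
  intro φ hφ σ hσ P''
  obtain ⟨P, rfl⟩ := hπ P''
  rw [← hπequiv σ hσ]
  exact hequiv _ hφ σ hσ P

/-- The quotient lattice separates points. -/
theorem twwloc_quot_separates [Finite M] (hB : TwwLocBase Γ R₀)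
    (hfg : (Subalgebra.toSubmodule L).FG)
    (hequiv : ∀ h ∈ L, ∀ σ ∈ Γ, ∀ P : M, h (act σ P) = σ (h P))
    (hsep : ∀ P Q : M, (∀ h ∈ L, h P = h Q) → P = Q)
    {π : M → M''} (hπ : Function.Surjective π)
    (hπequiv : ∀ σ ∈ Γ, ∀ P, π (act σ P) = act'' σ (π P)) :
    ∀ P Q : M'', (∀ φ ∈ L.comap (twwlocPull R₀ π), φ P = φ Q) → P = Q := by
  classical
  haveI : Fintype M := Fintype.ofFinite M
  intro P'' Q'' hPQ
  by_contra hne
  -- traces agree
  have htr : ∀ h ∈ L, twwlocTrace π h P'' = twwlocTrace π h Q'' := by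
    intro h hh
    have he : ∀ σ ∈ Γ, ∀ P : M,
        (fun P => twwlocTrace π h (π P)) (act σ P) = σ ((fun P => twwlocTrace π h (π P)) P) := by
      intro σ hσ P
      show twwlocTrace π h (π (act σ P)) = σ (twwlocTrace π h (π P))
      rw [hπequiv σ hσ]
      exact twwloc_trace_equivariant hequiv hsep hπ hπequiv h hh hσ (π P)
    obtain ⟨d, hd0, hd⟩ := twwloc_exists_smul_mem hB hfg hequiv hsep
      (fun P => twwlocTrace π h (π P)) he
    have h1 : d • twwlocTrace π h ∈ L.comap (twwlocPull R₀ π) := by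
      rw [twwloc_mem_comap]
      exact hd
    have h2 := hPQ _ h1
    simp only [Pi.smul_apply, Algebra.smul_def] at h2
    have hdK : algebraMap R₀ Qb d ≠ 0 := fun h0 => hd0 (hB.inj (by rw [h0, map_zero]))
    exact mul_left_cancel₀ hdK h2
  -- the linear functional
  let Λ : (M → Qb) →ₗ[Qb] Qb :=
    { toFun := fun f => twwlocTrace π f P'' - twwlocTrace π f Q''
      map_add' := by
        intro f g
        simp only [twwlocTrace, Pi.add_apply, Finset.sum_add_distrib]
        ring
      map_smul' := by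
        intro c f
        simp only [twwlocTrace, Pi.smul_apply, smul_eq_mul, ← Finset.mul_sum, RingHom.id_apply]
        ring }
  have hΛ : Submodule.span Qb (L : Set (M → Qb)) ≤ LinearMap.ker Λ := by
    rw [Submodule.span_le]
    intro h hh
    rw [SetLike.mem_coe, LinearMap.mem_ker]
    show twwlocTrace π h P'' - twwlocTrace π h Q'' = 0
    rw [htr h hh, sub_self]
  rw [twwloc_span_top L hsep] at hΛ
  have h3 : Λ (fun x => if π x = P'' then 1 else 0) = 0 :=
    LinearMap.mem_ker.1 (hΛ trivial)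
  have h4 : Λ (fun x => if π x = P'' then 1 else 0) =
      ((Finset.univ.filter (fun x => π x = P'')).card : Qb) := by
    show twwlocTrace π _ P'' - twwlocTrace π _ Q'' = _
    have h5 : twwlocTrace π (fun x => if π x = P'' then (1 : Qb) else 0) P'' =
        ((Finset.univ.filter (fun x => π x = P'')).card : Qb) := by
      unfold twwlocTrace
      rw [Finset.sum_congr rfl (g := fun _ => (1 : Qb))]
      · simp
      · intro x hx
        simp only [Finset.mem_filter, Finset.mem_univ, true_and] at hx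
        show (if π x = P'' then (1 : Qb) else 0) = 1
        rw [if_pos hx]
    have h6 : twwlocTrace π (fun x => if π x = P'' then (1 : Qb) else 0) Q'' = 0 := by
      unfold twwlocTrace
      refine Finset.sum_eq_zero fun x hx => ?_
      simp only [Finset.mem_filter, Finset.mem_univ, true_and] at hx
      show (if π x = P'' then (1 : Qb) else 0) = 0
      rw [if_neg]
      intro h7
      exact hne (h7.symm.trans hx)
    rw [h5, h6, sub_zero]
  rw [h4] at h3
  obtain ⟨x₀, hx₀⟩ := hπ P''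
  have h8 : (Finset.univ.filter (fun x => π x = P'')).card ≠ 0 := by
    refine Finset.card_ne_zero.2 ⟨x₀, ?_⟩
    simp [hx₀]
  exact h8 (Nat.cast_eq_zero.1 h3)

omit [IsDomain R₀] [IsPrincipalIdealRing R₀] [AddCommGroup M] in
/-- Comparison of coefficients with respect to a linearly independent family. -/
theorem twwloc_coeff_eq {X Y : Type} {n : ℕ} (v : Fin n → Y → Qb)
    (hv : LinearIndependent Qb v)
    (g : Fin n → X → Qb) (x x' : X)
    (h : ∀ y, ∑ j, g j x * v j y = ∑ j, g j x' * v j y) : ∀ j, g j x = g j x' := by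
  have h1 : ∑ j, (g j x - g j x') • v j = 0 := by
    funext y
    simp only [Finset.sum_apply, Pi.smul_apply, smul_eq_mul, Pi.zero_apply, sub_mul,
      Finset.sum_sub_distrib]
    rw [h y, sub_self]
  intro j
  exact sub_eq_zero.1 (Fintype.linearIndependent_iff.1 hv _ h1 j)

omit [IsDomain R₀] [IsPrincipalIdealRing R₀] in
/-- A function invariant under translation by the kernel of `π` factors through `π`. -/
theorem twwloc_descend (π : M →+ M'') (hπ : Function.Surjective π)
    (g : M → Qb) (hinv : ∀ P m, π m = 0 → g (P + m) = g P) :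
    ∃ g'' : M'' → Qb, ∀ P, g'' (π P) = g P := by
  refine ⟨fun P'' => g (Function.surjInv hπ P''), fun P => ?_⟩
  have h1 : π (Function.surjInv hπ (π P)) = π P := Function.surjInv_eq hπ _
  have h2 : π (P - Function.surjInv hπ (π P)) = 0 := by rw [map_sub, h1, sub_self]
  have h3 := hinv (Function.surjInv hπ (π P)) _ h2
  rw [add_sub_cancel] at h3
  exact h3.symm

/-- The quotient lattice is closed under the comultiplication. -/
theorem twwloc_quot_comul [Finite M] (hB : TwwLocBase Γ R₀) (hL : TwwLocLattice Γ act L)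
    (π : M →+ M'') (hπ : Function.Surjective π)
    (hπequiv : ∀ σ ∈ Γ, ∀ P, π (act σ P) = act'' σ (π P)) :
    ∀ φ ∈ L.comap (twwlocPull R₀ π), (fun PQ : M'' × M'' => φ (PQ.1 + PQ.2)) ∈
      Submodule.span R₀ {F : M'' × M'' → Qb |
        ∃ a ∈ L.comap (twwlocPull R₀ π), ∃ b ∈ L.comap (twwlocPull R₀ π),
          F = fun PQ => a PQ.1 * b PQ.2} := by
  classical
  intro φ hφ
  obtain ⟨n, y, hy⟩ := twwloc_exists_basis hB hL.fg hL.equivariant
  have hfg'' := twwloc_quot_fg hL.fg hπ
  have hequiv'' := twwloc_quot_equivariant (act'' := act'') hL.equivariant hπ hπequiv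
  obtain ⟨k, u, hu⟩ := twwloc_exists_basis hB hfg'' hequiv''
  -- the pulled back basis of `L''` is linearly independent on `M`
  have hu' : LinearIndependent Qb
      (fun i => fun P : M => ((u i : L.comap (twwlocPull R₀ π)) : M'' → Qb) (π P)) := by
    have h1 := hu.map' (LinearMap.funLeft Qb Qb π)
      (LinearMap.ker_eq_bot.2 (LinearMap.funLeft_injective_of_surjective _ _ π hπ))
    exact h1
  -- Step 1: expansion of `F` in the second variable
  have hstep1 : ∀ F ∈ Submodule.span R₀ {F : M × M → Qb |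
      ∃ a ∈ L, ∃ b ∈ L, F = fun PQ => a PQ.1 * b PQ.2},
      ∃ g : Fin n → M → Qb, (∀ j, g j ∈ L) ∧
        ∀ P Q, F (P, Q) = ∑ j, g j P * ((y j : L) : M → Qb) Q := by
    intro F hF
    induction hF using Submodule.span_induction with
    | mem F hF =>
      obtain ⟨a, ha, b, hb, rfl⟩ := hF
      refine ⟨fun j => y.repr ⟨b, hb⟩ j • a, fun j => L.smul_mem ha _, fun P Q => ?_⟩
      have h1 : (⟨b, hb⟩ : L) = ∑ j, y.repr ⟨b, hb⟩ j • y j := (y.sum_repr _).symm
      have h2 := congrArg (fun x : L => (x : M → Qb) Q) h1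
      simp only [AddSubmonoidClass.coe_finsetSum, Finset.sum_apply] at h2
      show a P * b Q = _
      rw [h2, Finset.mul_sum]
      refine Finset.sum_congr rfl fun j _ => ?_
      rw [twwloc_coe_smul_apply]
      show _ = (y.repr ⟨b, hb⟩ j • a) P * _
      rw [Pi.smul_apply, Algebra.smul_def]
      ring
    | zero =>
      exact ⟨fun _ => 0, fun _ => L.zero_mem, fun P Q => by simp⟩
    | add F G _ _ hF hG =>
      obtain ⟨g, hg, hgF⟩ := hF
      obtain ⟨g', hg', hgG⟩ := hG
      refine ⟨fun j => g j + g' j, fun j => L.add_mem (hg j) (hg' j), fun P Q => ?_⟩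
      simp only [Pi.add_apply, hgF, hgG, add_mul, Finset.sum_add_distrib]
    | smul r F _ hF =>
      obtain ⟨g, hg, hgF⟩ := hF
      refine ⟨fun j => r • g j, fun j => L.smul_mem (hg j) _, fun P Q => ?_⟩
      simp only [Pi.smul_apply, hgF, Algebra.smul_def]
      rw [Finset.mul_sum]
      refine Finset.sum_congr rfl fun j _ => ?_
      ring
  obtain ⟨g, hg, hgF⟩ := hstep1 _ (hL.comul_mem _ hφ)
  have hF : ∀ P Q : M, φ (π (P + Q)) = ∑ j, g j P * ((y j : L) : M → Qb) Q :=
    fun P Q => hgF P Q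
  -- Step 2: the `g j` are invariant under the kernel
  have hginv : ∀ j P m, π m = 0 → g j (P + m) = g j P := by
    intro j P m hm
    refine twwloc_coeff_eq _ hy g (P + m) P (fun Q => ?_) j
    rw [← hF, ← hF]
    congr 1
    rw [map_add, map_add, map_add, hm, add_zero]
  choose g'' hg'' using fun j => twwloc_descend π hπ (g j) (hginv j)
  have hg''mem : ∀ j, g'' j ∈ L.comap (twwlocPull R₀ π) := by
    intro j
    rw [twwloc_mem_comap]
    have : (fun P => g'' j (π P)) = g j := funext (hg'' j)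
    rw [this]
    exact hg j
  -- Step 3: expansion in the basis of `L''`
  have hexp : ∀ j (P'' : M''), g'' j P'' =
      ∑ i, algebraMap R₀ Qb (u.repr ⟨g'' j, hg''mem j⟩ i) *
        ((u i : L.comap (twwlocPull R₀ π)) : M'' → Qb) P'' := by
    intro j P''
    have h1 : (⟨g'' j, hg''mem j⟩ : L.comap (twwlocPull R₀ π)) =
        ∑ i, u.repr ⟨g'' j, hg''mem j⟩ i • u i := (u.sum_repr _).symm
    have h2 := congrArg
      (fun x : L.comap (twwlocPull R₀ π) => (x : M'' → Qb) P'') h1
    simp only [AddSubmonoidClass.coe_finsetSum, Finset.sum_apply] at h2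
    refine h2.trans ?_
    refine Finset.sum_congr rfl fun i _ => ?_
    exact twwloc_coe_smul_apply _ _ _ _
  set kk : Fin k → M → Qb := fun i =>
    ∑ j, u.repr ⟨g'' j, hg''mem j⟩ i • ((y j : L) : M → Qb) with hkk
  have hkkmem : ∀ i, kk i ∈ L := fun i =>
    L.sum_mem fun j _ => L.smul_mem (y j).2 _
  have hF2 : ∀ P Q : M, φ (π (P + Q)) =
      ∑ i, kk i Q * ((u i : L.comap (twwlocPull R₀ π)) : M'' → Qb) (π P) := by
    intro P Q
    rw [hF]
    have h1 : ∀ j, g j P = ∑ i, algebraMap R₀ Qb (u.repr ⟨g'' j, hg''mem j⟩ i) *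
        ((u i : L.comap (twwlocPull R₀ π)) : M'' → Qb) (π P) := by
      intro j
      rw [← hg'' j P, hexp]
    simp only [h1, hkk, Finset.sum_apply, Pi.smul_apply, Algebra.smul_def, Finset.sum_mul]
    rw [Finset.sum_comm]
    refine Finset.sum_congr rfl fun i _ => ?_
    refine Finset.sum_congr rfl fun j _ => ?_
    rw [Pi.mul_apply, Pi.algebraMap_apply]
    ring
  -- Step 4: the `kk i` are invariant under the kernel
  have hkinv : ∀ i Q m, π m = 0 → kk i (Q + m) = kk i Q := by
    intro i Q m hm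
    refine twwloc_coeff_eq _ hu' kk (Q + m) Q (fun P => ?_) i
    show ∑ i, kk i (Q + m) * ((u i : L.comap (twwlocPull R₀ π)) : M'' → Qb) (π P) =
      ∑ i, kk i Q * ((u i : L.comap (twwlocPull R₀ π)) : M'' → Qb) (π P)
    rw [← hF2, ← hF2]
    congr 1
    rw [map_add, map_add, map_add, hm, add_zero]
  choose k'' hk'' using fun i => twwloc_descend π hπ (kk i) (hkinv i)
  have hk''mem : ∀ i, k'' i ∈ L.comap (twwlocPull R₀ π) := by
    intro i
    rw [twwloc_mem_comap]
    have : (fun P => k'' i (π P)) = kk i := funext (hk'' i)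
    rw [this]
    exact hkkmem i
  -- Step 5
  have hfinal : (fun PQ : M'' × M'' => φ (PQ.1 + PQ.2)) =
      ∑ i, (fun PQ : M'' × M'' =>
        ((u i : L.comap (twwlocPull R₀ π)) : M'' → Qb) PQ.1 * k'' i PQ.2) := by
    funext ⟨P'', Q''⟩
    obtain ⟨P, rfl⟩ := hπ P''
    obtain ⟨Q, rfl⟩ := hπ Q''
    rw [Finset.sum_apply]
    show φ (π P + π Q) = _
    rw [← map_add, hF2]
    refine Finset.sum_congr rfl fun i _ => ?_
    rw [hk'' i Q, mul_comm]
  rw [hfinal]
  exact Submodule.sum_mem _ fun i _ =>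
    Submodule.subset_span ⟨_, (u i).2, _, hk''mem i, rfl⟩

/-- **(local SQ2)** The quotient of a local Hopf lattice by a `Γ`-equivariant surjection is a
local Hopf lattice. -/
theorem twwloc_quot [Finite M] (hB : TwwLocBase Γ R₀) (hL : TwwLocLattice Γ act L)
    (π : M →+ M'') (hπ : Function.Surjective π)
    (hπequiv : ∀ σ ∈ Γ, ∀ P, π (act σ P) = act'' σ (π P)) :
    TwwLocLattice Γ act'' (L.comap (twwlocPull R₀ π)) where
  fg := twwloc_quot_fg hL.fg hπ
  equivariant := twwloc_quot_equivariant hL.equivariant hπ hπequiv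
  separates := twwloc_quot_separates hB hL.fg hL.equivariant hL.separates hπ hπequiv
  comul_mem := twwloc_quot_comul hB hL π hπ hπequiv

end Quot

end Fermat.Agent.TW.W
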