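import Fermat.Agent.TW.W.T2Loc
import Fermat.Agent.UNIP.Beta0Abs
import Fermat.Agent.S05.Inertia

/-!
# TW-W (RED), (CE): the connected part of a Hopf lattice killed by `p`

`H ⊂ Map(M, ℚ̄)` a Hopf lattice over `ℤ_(p)` (`W1.IsHopfLattice`), `A ⊂ ℚ̄` a valuation subring over
`p`, `D ⊃ I` its decomposition and inertia groups.

* `TwwCong H A m m'` : `h m ≡ h m'` modulo `𝔪_A` for all `h ∈ H` (a congruence on the group `M`);
* `twwRedZero hH A hA : AddSubgroup M` : `M⁰ = {m | m ≡ 0}`;
* `tww_red_decomp_stable` : `M⁰` is `D`-stable;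
* `tww_red_inertia_sub_mem` : `I` acts trivially on `M / M⁰`;
* `tww_red_inter_fixed` : `M⁰ ∩ M^I = 0` (`p` odd, `p M = 0`);
* `tww_red_isCompl` (**CE**): if `U ⊂ M^I` is a subgroup and `M / U` has no nonzero `D`-quotient with
  trivial `I`-action, then `M = U ⊕ M⁰`.
-/

set_option autoImplicit false
set_option linter.unusedSectionVars false

namespace Fermat.Agent.TW.W

open Fermat.Agent.W1 GaloisRep

local notation "Qb" => AlgebraicClosure ℚ

section Cong

variable {p : ℕ} {M : Type} [AddCommGroup M]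
  {act : (Qb ≃ₐ[ℚ] Qb) → M → M} {H : Subalgebra (ratLocalizedAt p) (M → Qb)}

/-- `m ≡ m'`: all functions of the lattice take congruent values modulo `𝔪_A`. -/
def TwwCong (H : Subalgebra (ratLocalizedAt p) (M → Qb)) (A : ValuationSubring Qb)
    (m m' : M) : Prop :=
  ∀ h ∈ H, h m - h m' ∈ A.nonunits

theorem tww_nonunits_add {A : ValuationSubring Qb} {x y : Qb} (hx : x ∈ A.nonunits)
    (hy : y ∈ A.nonunits) : x + y ∈ A.nonunits := by
  rw [ValuationSubring.mem_nonunits_iff] at hx hy ⊢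
  exact lt_of_le_of_lt (A.valuation.map_add x y) (max_lt hx hy)

theorem tww_nonunits_neg {A : ValuationSubring Qb} {x : Qb} (hx : x ∈ A.nonunits) :
    -x ∈ A.nonunits := by
  rw [ValuationSubring.mem_nonunits_iff] at hx ⊢
  rwa [Valuation.map_neg]

theorem tww_nonunits_zero (A : ValuationSubring Qb) : (0 : Qb) ∈ A.nonunits := by
  rw [ValuationSubring.mem_nonunits_iff, map_zero]
  exact zero_lt_one

theorem tww_nonunits_mul_left {A : ValuationSubring Qb} {x y : Qb} (hx : x ∈ A)
    (hy : y ∈ A.nonunits) : x * y ∈ A.nonunits := by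
  rw [ValuationSubring.mem_nonunits_iff] at hy ⊢
  rw [map_mul]
  calc A.valuation x * A.valuation y ≤ 1 * A.valuation y :=
        mul_le_mul' ((A.valuation_le_one_iff x).mpr hx) le_rfl
    _ = A.valuation y := one_mul _
    _ < 1 := hy

theorem tww_nonunits_mul_right {A : ValuationSubring Qb} {x y : Qb} (hx : x ∈ A.nonunits)
    (hy : y ∈ A) : x * y ∈ A.nonunits := by
  rw [mul_comm]; exact tww_nonunits_mul_left hy hx

theorem TwwCong.refl (A : ValuationSubring Qb) (m : M) : TwwCong H A m m := fun h _ => by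
  rw [sub_self]; exact tww_nonunits_zero A

theorem TwwCong.symm {A : ValuationSubring Qb} {m m' : M} (h : TwwCong H A m m') :
    TwwCong H A m' m := fun f hf => by
  have := tww_nonunits_neg (h f hf)
  rwa [neg_sub] at this

theorem TwwCong.trans {A : ValuationSubring Qb} {m m' m'' : M} (h : TwwCong H A m m')
    (h' : TwwCong H A m' m'') : TwwCong H A m m'' := fun f hf => by
  have := tww_nonunits_add (h f hf) (h' f hf)
  rwa [sub_add_sub_cancel] at this

variable [Fact p.Prime]

/-- The congruence is compatible with the addition of `M`. -/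
theorem TwwCong.add (hH : IsHopfLattice (ratLocalizedAt p) act H) {A : ValuationSubring Qb}
    (hA : A.LiesOverPrime p) {m₁ m₁' m₂ m₂' : M} (h₁ : TwwCong H A m₁ m₁')
    (h₂ : TwwCong H A m₂ m₂') : TwwCong H A (m₁ + m₂) (m₁' + m₂') := by
  intro f hf
  have hRA := tww_ratLoc_mem (Fact.out : p.Prime) A hA
  -- the property `F (m₁, m₂) - F (m₁', m₂') ∈ 𝔪` is linear in `F`
  have key : ∀ F ∈ Submodule.span (ratLocalizedAt p) {F : M × M → Qb |
      ∃ a ∈ H, ∃ b ∈ H, F = fun PQ => a PQ.1 * b PQ.2},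
      F (m₁, m₂) - F (m₁', m₂') ∈ A.nonunits := by
    intro F hF
    induction hF using Submodule.span_induction with
    | mem F hF =>
      obtain ⟨a, ha, b, hb, rfl⟩ := hF
      have e : a m₁ * b m₂ - a m₁' * b m₂' =
          (a m₁ - a m₁') * b m₂ + a m₁' * (b m₂ - b m₂') := by ring
      show a m₁ * b m₂ - a m₁' * b m₂' ∈ A.nonunits
      rw [e]
      exact tww_nonunits_add
        (tww_nonunits_mul_right (h₁ a ha) (tww_t2_val_mem hH A hRA b hb m₂))
        (tww_nonunits_mul_left (tww_t2_val_mem hH A hRA a ha m₁') (h₂ b hb))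
    | zero =>
      show (0 : Qb) - 0 ∈ A.nonunits
      rw [sub_zero]; exact tww_nonunits_zero A
    | add F G _ _ hF hG =>
      have e : (F + G) (m₁, m₂) - (F + G) (m₁', m₂') =
          (F (m₁, m₂) - F (m₁', m₂')) + (G (m₁, m₂) - G (m₁', m₂')) := by
        simp only [Pi.add_apply]; ring
      rw [e]; exact tww_nonunits_add hF hG
    | smul r F _ hF =>
      have e : (r • F) (m₁, m₂) - (r • F) (m₁', m₂') =
          algebraMap (ratLocalizedAt p) Qb r * (F (m₁, m₂) - F (m₁', m₂')) := by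
        simp only [Pi.smul_apply, Algebra.smul_def]; ring
      rw [e]; exact tww_nonunits_mul_left (hRA r) hF
  exact key _ (hH.comul_mem f hf)

/-- The congruence is compatible with negation. -/
theorem TwwCong.neg (hH : IsHopfLattice (ratLocalizedAt p) act H) {A : ValuationSubring Qb}
    {m m' : M} (h : TwwCong H A m m') : TwwCong H A (-m) (-m') := fun f hf =>
  h _ (hH.antipode_mem f hf)

theorem TwwCong.sub (hH : IsHopfLattice (ratLocalizedAt p) act H) {A : ValuationSubring Qb}
    (hA : A.LiesOverPrime p) {m₁ m₁' m₂ m₂' : M} (h₁ : TwwCong H A m₁ m₁')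
    (h₂ : TwwCong H A m₂ m₂') : TwwCong H A (m₁ - m₂) (m₁' - m₂') := by
  rw [sub_eq_add_neg, sub_eq_add_neg]
  exact h₁.add hH hA (h₂.neg hH)

/-- The decomposition group respects the congruence. -/
theorem TwwCong.act_decomp (hH : IsHopfLattice (ratLocalizedAt p) act H)
    {A : ValuationSubring Qb} {σ : Qb ≃ₐ[ℚ] Qb} (hσ : σ ∈ A.decompositionSubgroup ℚ)
    {m m' : M} (h : TwwCong H A m m') : TwwCong H A (act σ m) (act σ m') := fun f hf => by
  rw [hH.equivariant f hf, hH.equivariant f hf, ← map_sub]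
  exact (Fermat.Agent.S05.apply_mem_nonunits_iff_of_mem_decomposition hσ _).mpr (h f hf)

/-- The inertia group acts trivially modulo the congruence. -/
theorem TwwCong.act_inertia (hH : IsHopfLattice (ratLocalizedAt p) act H)
    {A : ValuationSubring Qb} (hA : A.LiesOverPrime p) {σ : Qb ≃ₐ[ℚ] Qb}
    (hσ : σ ∈ A.inertiaSubgroupIn ℚ) (m : M) : TwwCong H A (act σ m) m := fun f hf => by
  rw [hH.equivariant f hf]
  exact Fermat.Agent.S05.inertia_apply_sub_mem_nonunits hσ
    (tww_t2_val_mem hH A (tww_ratLoc_mem (Fact.out : p.Prime) A hA) f hf m)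

/-- **(RED)** The connected part `M⁰ = {m | m ≡ 0}`. -/
def twwRedZero (hH : IsHopfLattice (ratLocalizedAt p) act H) (A : ValuationSubring Qb)
    (hA : A.LiesOverPrime p) : AddSubgroup M where
  carrier := {m | TwwCong H A m 0}
  zero_mem' := TwwCong.refl A 0
  add_mem' := by
    intro a b ha hb
    have := TwwCong.add hH hA ha hb
    rwa [add_zero] at this
  neg_mem' := by
    intro a ha
    have := TwwCong.neg hH ha
    rwa [neg_zero] at this

theorem mem_twwRedZero (hH : IsHopfLattice (ratLocalizedAt p) act H) (A : ValuationSubring Qb)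
    (hA : A.LiesOverPrime p) (m : M) : m ∈ twwRedZero hH A hA ↔ TwwCong H A m 0 := Iff.rfl

/-- Membership in `M⁰` in terms of the augmentation ideal. -/
theorem mem_twwRedZero_iff (hH : IsHopfLattice (ratLocalizedAt p) act H)
    (A : ValuationSubring Qb) (hA : A.LiesOverPrime p) (m : M) :
    m ∈ twwRedZero hH A hA ↔ ∀ h ∈ H, h 0 = 0 → h m ∈ A.nonunits := by
  constructor
  · intro hm h hh h0
    have := hm h hh
    rwa [h0, sub_zero] at this
  · intro hm h hh
    obtain ⟨r, hr⟩ := hH.counit_mem h hh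
    have h1 : h - algebraMap (ratLocalizedAt p) (M → Qb) r ∈ H :=
      H.sub_mem hh (H.algebraMap_mem r)
    have h2 : (h - algebraMap (ratLocalizedAt p) (M → Qb) r) 0 = 0 := by
      rw [Pi.sub_apply, hr]
      simp [Pi.algebraMap_apply]
    have h3 := hm _ h1 h2
    have h4 : (h - algebraMap (ratLocalizedAt p) (M → Qb) r) m = h m - h 0 := by
      rw [Pi.sub_apply, hr]
      simp [Pi.algebraMap_apply]
    rwa [h4] at h3

/-- `m ≡ m'` iff `m - m' ∈ M⁰`. -/
theorem twwCong_iff_sub_mem (hH : IsHopfLattice (ratLocalizedAt p) act H)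
    (A : ValuationSubring Qb) (hA : A.LiesOverPrime p) (m m' : M) :
    TwwCong H A m m' ↔ m - m' ∈ twwRedZero hH A hA := by
  constructor
  · intro h
    have := TwwCong.sub hH hA h (TwwCong.refl (H := H) A m')
    rwa [sub_self] at this
  · intro h
    have := TwwCong.add hH hA h (TwwCong.refl (H := H) A m')
    rwa [sub_add_cancel, zero_add] at this

/-- **(RED)** `M⁰` is stable under the decomposition group. -/
theorem tww_red_decomp_stable (hH : IsHopfLattice (ratLocalizedAt p) act H)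
    (A : ValuationSubring Qb) (hA : A.LiesOverPrime p)
    (hact0 : ∀ σ, act σ 0 = 0) {σ : Qb ≃ₐ[ℚ] Qb} (hσ : σ ∈ A.decompositionSubgroup ℚ)
    {m : M} (hm : m ∈ twwRedZero hH A hA) : act σ m ∈ twwRedZero hH A hA := by
  have := TwwCong.act_decomp hH hσ hm
  rwa [hact0] at this

/-- **(RED)** The inertia group acts trivially on `M / M⁰`. -/
theorem tww_red_inertia_sub_mem (hH : IsHopfLattice (ratLocalizedAt p) act H)
    (A : ValuationSubring Qb) (hA : A.LiesOverPrime p) {σ : Qb ≃ₐ[ℚ] Qb}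
    (hσ : σ ∈ A.inertiaSubgroupIn ℚ) (m : M) : act σ m - m ∈ twwRedZero hH A hA :=
  (twwCong_iff_sub_mem hH A hA _ _).mp (TwwCong.act_inertia hH hA hσ m)

variable [Finite M]

/-- **(RED)** `M⁰ ∩ M^I = 0` for `p` odd and `M` killed by `p`. -/
theorem tww_red_inter_fixed (hp2 : p ≠ 2) (hH : IsHopfLattice (ratLocalizedAt p) act H)
    (A : ValuationSubring Qb) (hA : A.LiesOverPrime p) (m : M) (hpm : p • m = 0)
    (hm : m ∈ twwRedZero hH A hA) (hfix : ∀ σ ∈ A.inertiaSubgroupIn ℚ, act σ m = m) :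
    m = 0 := by
  have hp : p.Prime := Fact.out
  refine tww_t2_zero_p hp2 hH A hA m hpm ?_
  intro h hh h0
  have h1 : h m ∈ A.nonunits := (mem_twwRedZero_iff hH A hA m).mp hm h hh h0
  have h2 : h m ∈ Fermat.Agent.UNIP.beta0Field A := by
    rw [Fermat.Agent.UNIP.mem_beta0Field]
    intro σ hσ
    rw [← hH.equivariant h hh, hfix σ hσ]
  have h3 := Fermat.Agent.UNIP.beta0_div_mem hp hA h2 h1
  have hp0 : (p : Qb) ≠ 0 := by exact_mod_cast hp.ne_zero
  exact ⟨_, h3, by field_simp⟩

/-- **(CE)** connected–étale splitting.  `U ⊂ M^I` a subgroup; if every `D`-stable subgroup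
`N ⊇ U` with trivial `I`-action on `M / N` is all of `M`, then `M = U ⊕ M⁰`. -/
theorem tww_red_isCompl (hp2 : p ≠ 2) (hH : IsHopfLattice (ratLocalizedAt p) act H)
    (A : ValuationSubring Qb) (hA : A.LiesOverPrime p)
    (hadd : ∀ σ P Q, act σ (P + Q) = act σ P + act σ Q)
    (hpM : ∀ m : M, p • m = 0) (U : AddSubgroup M)
    (hUD : ∀ σ ∈ A.decompositionSubgroup ℚ, ∀ u ∈ U, act σ u ∈ U)
    (hUI : ∀ σ ∈ A.inertiaSubgroupIn ℚ, ∀ u ∈ U, act σ u = u)
    (hquot : ∀ N : AddSubgroup M, U ≤ N →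
      (∀ σ ∈ A.decompositionSubgroup ℚ, ∀ n ∈ N, act σ n ∈ N) →
      (∀ σ ∈ A.inertiaSubgroupIn ℚ, ∀ m : M, act σ m - m ∈ N) → N = ⊤) :
    IsCompl U (twwRedZero hH A hA) := by
  have hact0 : ∀ σ, act σ 0 = 0 := by
    intro σ
    have := hadd σ 0 0
    rw [add_zero] at this
    exact (add_eq_left.1 this.symm)
  constructor
  · rw [disjoint_iff, AddSubgroup.eq_bot_iff_forall]
    rintro m ⟨hmU, hm0⟩
    exact tww_red_inter_fixed hp2 hH A hA m (hpM m) hm0 (fun σ hσ => hUI σ hσ m hmU)
  · rw [codisjoint_iff]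
    apply hquot _ le_sup_left
    · intro σ hσ n hn
      rw [AddSubgroup.mem_sup] at hn ⊢
      obtain ⟨u, hu, z, hz, rfl⟩ := hn
      exact ⟨act σ u, hUD σ hσ u hu, act σ z, tww_red_decomp_stable hH A hA hact0 hσ hz,
        (hadd σ u z).symm⟩
    · intro σ hσ m
      exact AddSubgroup.mem_sup_right (tww_red_inertia_sub_mem hH A hA hσ m)

end Cong

end Fermat.Agent.TW.W
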