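import Fermat.Agent.TW.W.Plan
import Fermat.Agent.TW.W.Red
import Fermat.Agent.TW.W.LocQuot
import Fermat.Agent.TW.W.LocT2
import Fermat.Agent.TW.W.LocGlob
import Fermat.Agent.W1.SubQuotBasic

/-!
# TW-W / W-et: the étale quotient is the maximal unramified quotient

`(M, act, H)` a Hopf lattice over `ℤ_(p)`, `p` odd, `p M = 0`; `A ⊂ ℚ̄` a valuation subring over
`p`, `I` its inertia group, `M⁰ = twwRedZero` the connected part.

* `wet_redZero_le` (**(∗)**): `M⁰ ⊆ Y` for every subgroup `Y ⊆ M` such that `I` acts trivially on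
  `M / Y`.  (Quotient lattice of `M / Y` over `A₀ = A ∩ ℚ̄^I` (`twwloc_quot`); for `n ∈ M⁰` the
  coordinates `φ (n̄) - φ (0)`, `φ` in the quotient lattice, lie in `𝔪_A ∩ ℚ̄^I = p A₀`; (T2) for the
  quotient lattice (`twwloc_t2`).)
* `wet_redZero_eq` : `M⁰ = I_aug · M`;
* `stmtEt1 : StmtEt1`, `stmtEt2 : StmtEt2`.
-/

set_option autoImplicit false
set_option linter.unusedSectionVars false
set_option linter.style.haveILetI false

namespace Fermat.Agent.TW.W

open Fermat.Agent.W1 GaloisRep Fermat.Agent.UNIP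

local notation "Qb" => AlgebraicClosure ℚ

/-- The place `padicPlace p` of `ℚ̄` lies over `p`. -/
theorem wet_padicPlace_liesOver (q : ℕ) [hq : Fact q.Prime] : (padicPlace q).LiesOverPrime q := by
  have hq0 : ((q : ℕ) : Qb) ≠ 0 := by exact_mod_cast hq.out.ne_zero
  have hnorm : ‖padicEmbedding q ((q : ℕ) : Qb)‖ = (q : ℝ)⁻¹ := by
    rw [map_natCast, ← map_natCast (algebraMap ℚ_[q] (PadicAlgCl q)), PadicAlgCl.norm_extends,
      Padic.norm_p]
  have hq1 : (1 : ℝ) < q := by exact_mod_cast hq.out.one_lt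
  change ((q : ℕ) : Qb) ∈ (padicPlace q).nonunits
  rw [ValuationSubring.mem_nonunits_iff]
  refine lt_of_not_ge (fun h => ?_)
  have h1 : (padicPlace q).valuation (((q : ℕ) : Qb))⁻¹ ≤ 1 :=
    ((padicPlace q).valuation.one_le_val_iff hq0).mp h
  rw [ValuationSubring.valuation_le_one_iff, mem_padicPlace_iff, map_inv₀] at h1
  have h2 : ‖(padicEmbedding q ((q : ℕ) : Qb))⁻¹‖ ≤ 1 := by exact_mod_cast h1
  rw [norm_inv, hnorm, inv_inv] at h2
  linarith

section Core

variable {p : ℕ} [Fact p.Prime] {M : Type} [AddCommGroup M]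
  {act : (Qb ≃ₐ[ℚ] Qb) → M → M} {H : Subalgebra (ratLocalizedAt p) (M → Qb)}

/-- The functions of the local lattice take congruent values at congruent points. -/
theorem wet_cong_loc (A : ValuationSubring Qb) {m m' : M} (hm : TwwCong H A m m') {f : M → Qb}
    (hf : f ∈ twwlocOfGlob A H) : f m - f m' ∈ A.nonunits := by
  refine twwlocOfGlob_induction A H (C := fun f => f m - f m' ∈ A.nonunits) ?_ ?_ ?_ ?_ hf
  · intro h hh
    exact hm h hh
  · show (0 : Qb) - 0 ∈ A.nonunits
    rw [sub_zero]; exact tww_nonunits_zero A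
  · intro f g hf hg
    have e : (f + g) m - (f + g) m' = (f m - f m') + (g m - g m') := by
      simp only [Pi.add_apply]; ring
    rw [e]; exact tww_nonunits_add hf hg
  · intro r hr f hf
    have e : r * f m - r * f m' = r * (f m - f m') := by ring
    show r * f m - r * f m' ∈ A.nonunits
    rw [e]; exact tww_nonunits_mul_left hr.1 hf

variable [Finite M]

/-- **(∗)** The connected part is contained in every subgroup `Y` such that the inertia group
acts trivially on `M / Y`: the étale quotient is the maximal unramified quotient. -/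
theorem wet_redZero_le (hp2 : p ≠ 2) (hH : IsHopfLattice (ratLocalizedAt p) act H)
    (A : ValuationSubring Qb) (hA : A.LiesOverPrime p) (hpM : ∀ m : M, p • m = 0)
    (Y : AddSubgroup M) (hY : ∀ σ ∈ A.inertiaSubgroupIn ℚ, ∀ m : M, act σ m - m ∈ Y) :
    twwRedZero hH A hA ≤ Y := by
  classical
  have hp : p.Prime := Fact.out
  have h3 : 3 ≤ p := by
    have := hp.two_le
    omega
  intro n hn
  haveI : IsPrincipalIdealRing (twwlocRing A) := twwlocRing_isPID hp A hA
  have hB := twwlocBase A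
  have hL := twwloc_ofGlob hp hH A hA
  set π : M →+ M ⧸ Y := QuotientAddGroup.mk' Y with hπdef
  have hπ : Function.Surjective π := QuotientAddGroup.mk'_surjective Y
  have hπequiv : ∀ σ ∈ A.inertiaSubgroupIn ℚ, ∀ P,
      π (act σ P) = (fun _ q => q : (Qb ≃ₐ[ℚ] Qb) → M ⧸ Y → M ⧸ Y) σ (π P) := by
    intro σ hσ P
    show π (act σ P) = π P
    rw [← sub_eq_zero, ← map_sub]
    exact (QuotientAddGroup.eq_zero_iff _).2 (hY σ hσ P)
  have hL'' := twwloc_quot (act'' := fun _ q => q) hB hL π hπ hπequiv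
  have hpK : (p : Qb) ≠ 0 := by exact_mod_cast hp.ne_zero
  have hq : π n = 0 := by
    refine twwloc_t2 A (twwlocRing_mem A)
      (Subalgebra.toSubmodule ((twwlocOfGlob A H).comap (twwlocPull (twwlocRing A) π)))
      hL''.fg ?_ hL''.comul_mem hL''.separates p hp hpK (p : Qb) ((p : Qb) ^ (p - 2)) ?_ ?_
      (π n) ?_ ?_
    · -- values in `A`
      intro φ hφ P
      obtain ⟨m, rfl⟩ := hπ P
      exact twwlocOfGlob_val_mem hp hH A hA (f := fun P => φ (π P)) hφ m
    · rw [← pow_succ', show p - 2 + 1 = p - 1 by omega]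
    · have hpA : (p : Qb) ∈ A.nonunits := hA
      rw [ValuationSubring.mem_nonunits_iff] at hpA ⊢
      rw [map_pow]
      exact pow_lt_one' hpA (by omega)
    · rw [← map_nsmul, hpM, map_zero]
    · intro φ hφ
      have hφ' : (fun P => φ (π P)) ∈ twwlocOfGlob A H := hφ
      have h1 : φ (π n) - φ 0 ∈ A.nonunits := by
        have := wet_cong_loc A hn hφ'
        simpa using this
      have h2 : φ (π n) - φ 0 ∈ beta0Field A := by
        rw [mem_beta0Field]
        intro σ hσ
        rw [map_sub, ← hL''.equivariant φ hφ σ hσ (π n), ← hL''.equivariant φ hφ σ hσ 0]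
      have h4 := beta0_div_mem hp hA h2 h1
      exact (tww_val_le_iff A _ _).mpr ⟨_, h4, by field_simp⟩
  exact (QuotientAddGroup.eq_zero_iff n).1 hq

/-- The subgroup `I_aug · M` generated by the `σ m - m`, `σ` in the inertia group of `A`. -/
def wetAug (A : ValuationSubring Qb) (act : (Qb ≃ₐ[ℚ] Qb) → M → M) : AddSubgroup M :=
  AddSubgroup.closure {x | ∃ σ ∈ A.inertiaSubgroupIn ℚ, ∃ m : M, x = act σ m - m}

omit [Finite M] in
theorem wetAug_le_redZero (hH : IsHopfLattice (ratLocalizedAt p) act H)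
    (A : ValuationSubring Qb) (hA : A.LiesOverPrime p) : wetAug A act ≤ twwRedZero hH A hA := by
  unfold wetAug
  rw [AddSubgroup.closure_le]
  rintro x ⟨σ, hσ, m, rfl⟩
  exact tww_red_inertia_sub_mem hH A hA hσ m

/-- **(∗)** `M⁰ = I_aug · M`. -/
theorem wet_redZero_eq (hp2 : p ≠ 2) (hH : IsHopfLattice (ratLocalizedAt p) act H)
    (A : ValuationSubring Qb) (hA : A.LiesOverPrime p) (hpM : ∀ m : M, p • m = 0) :
    twwRedZero hH A hA = wetAug A act :=
  le_antisymm
    (wet_redZero_le hp2 hH A hA hpM _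
      (fun σ hσ m => AddSubgroup.subset_closure ⟨σ, hσ, m, rfl⟩))
    (wetAug_le_redZero hH A hA)

end Core

/-- **W-et1**: `(I_aug M)^I = 0`. -/
theorem stmtEt1 : StmtEt1 := by
  intro p _ hp2 M _ _ act H hH hpM m hm hfix
  have hA := wet_padicPlace_liesOver p
  have h1 : m ∈ twwRedZero hH (padicPlace p) hA := wetAug_le_redZero hH _ hA hm
  exact tww_red_inter_fixed hp2 hH _ hA m (hpM m) h1 hfix

/-- **W-et2**: `X ∩ I_aug M = I_aug X` for a Galois stable subgroup `X ⊆ M`. -/
theorem stmtEt2 : StmtEt2 := by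
  intro p _ hp2 M _ _ act H hH hpM X hX x hxX hx
  have hA := wet_padicPlace_liesOver p
  -- the restricted lattice on `X`
  let act' : (Qb ≃ₐ[ℚ] Qb) → X → X := fun σ y => ⟨act σ y.1, hX σ y.1 y.2⟩
  have hH' : IsHopfLattice (ratLocalizedAt p) act' (H.map (pullFn (ratLocalizedAt p) X.subtype)) :=
    sq_sub (act' := act') hH X.subtype Subtype.val_injective (fun σ P => rfl)
  have hpX : ∀ m : X, p • m = 0 := fun m => Subtype.ext (by
    rw [AddSubgroup.coe_nsmul, hpM]; rfl)
  have key := wet_redZero_le hp2 hH' (padicPlace p) hA hpX (wetAug (padicPlace p) act')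
    (fun σ hσ m => AddSubgroup.subset_closure ⟨σ, hσ, m, rfl⟩)
  -- `x ∈ X⁰`
  have hxM : x ∈ twwRedZero hH (padicPlace p) hA := wetAug_le_redZero hH _ hA hx
  have hx0 : (⟨x, hxX⟩ : X) ∈ twwRedZero hH' (padicPlace p) hA := by
    rintro f ⟨h, hh, rfl⟩
    exact hxM h hh
  have hxY := key hx0
  -- transfer to `M`
  have hle : (wetAug (padicPlace p) act').map X.subtype ≤
      AddSubgroup.closure
        {y | ∃ σ ∈ (padicPlace p).inertiaSubgroupIn ℚ, ∃ m ∈ X, y = act σ m - m} := by
    unfold wetAug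
    rw [AddMonoidHom.map_closure]
    apply AddSubgroup.closure_mono
    rintro _ ⟨y, ⟨σ, hσ, m, rfl⟩, rfl⟩
    exact ⟨σ, hσ, m.1, m.2, rfl⟩
  exact hle ⟨⟨x, hxX⟩, hxY, rfl⟩

end Fermat.Agent.TW.W
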