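/-
TW-W, block (GB), piece GB-ALG (helper79): general linear-algebra tools for the abstract count
(`StmtGBAlg` of `TW/W/GBAbs.lean`).  Mathlib only.

* `wgba_linearIndependent`, `wgba_finrank_fixed_le` : semilinear descent, UNBUNDLED form
  (a family of additive maps `A γ`, semilinear over ring maps `g γ` of `L` with common fixed
  field `K`; no group action is needed);
* `wgbaR`, `wgbaR_tmul`, `wgbaR_surjective` : `F ⊗ W ≅ Hom(F^∨, W)`;
* `wgba_exists_tensor`, `wgba_exists_tensor_group` : a map factoring linearly through a family of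
  functionals on a finite-dimensional space is represented by a tensor;
* `wgba_average` : Maschke averaging over `G ⧸ N`;
* `wgba_step` : the rank–nullity step of the dévissage.
-/
import Mathlib

set_option autoImplicit false

open scoped TensorProduct

namespace Fermat.Agent.TW.W

open Module

/-! ### Semilinear descent (unbundled) -/

section Semilinear

variable {K L : Type*} [Field K] [Field L] [Algebra K L]
  {Γ : Type*} {V : Type*} [AddCommGroup V] [Module K V] [Module L V] [IsScalarTower K L V]

/-- **Semilinear descent, unbundled.**  `A γ : V → V` additive and `g γ`-semilinear, the common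
fixed points of the `g γ` in `L` are `K`: then `K`-linearly independent vectors fixed by all
`A γ` are `L`-linearly independent. -/
theorem wgba_linearIndependent (g : Γ → L → L) (A : Γ → V →+ V)
    (hg1 : ∀ γ, g γ 1 = 1)
    (hK : ∀ x : L, (∀ γ : Γ, g γ x = x) → ∃ c : K, algebraMap K L c = x)
    (hsemi : ∀ (γ : Γ) (a : L) (v : V), A γ (a • v) = g γ a • A γ v)
    {ι : Type*} (v : ι → V) (hfix : ∀ (γ : Γ) (i : ι), A γ (v i) = v i)
    (hind : LinearIndependent K v) : LinearIndependent L v := by
  classical
  rw [linearIndependent_iff']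
  intro s
  induction s using Finset.strongInduction with
  | H s ih =>
    intro c hc i₀ hi₀
    by_contra hne
    set c' : ι → L := fun i => (c i₀)⁻¹ * c i with hc'
    have hc'0 : c' i₀ = 1 := inv_mul_cancel₀ hne
    have hsum' : ∑ i ∈ s, c' i • v i = 0 := by
      have h : ∑ i ∈ s, c' i • v i = (c i₀)⁻¹ • ∑ i ∈ s, c i • v i := by
        rw [Finset.smul_sum]
        refine Finset.sum_congr rfl (fun i _ => ?_)
        rw [hc', mul_smul]
      rw [h, hc, smul_zero]
    have hfixg : ∀ γ : Γ, ∀ i ∈ s, g γ (c' i) = c' i := by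
      intro γ
      have h1 : ∑ i ∈ s, (g γ (c' i)) • v i = 0 := by
        have h := congrArg (fun x => A γ x) hsum'
        simp only [map_sum, map_zero, hsemi, hfix] at h
        exact h
      have h2 : ∑ i ∈ s.erase i₀, (g γ (c' i) - c' i) • v i = 0 := by
        have h3 : ∑ i ∈ s, (g γ (c' i) - c' i) • v i = 0 := by
          simp only [sub_smul, Finset.sum_sub_distrib, h1, hsum', sub_zero]
        rw [← Finset.add_sum_erase s _ hi₀, hc'0, hg1, sub_self, zero_smul, zero_add] at h3
        exact h3
      have h4 := ih (s.erase i₀) (Finset.erase_ssubset hi₀) (fun i => g γ (c' i) - c' i) h2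
      intro i hi
      by_cases hii : i = i₀
      · rw [hii, hc'0, hg1]
      · exact sub_eq_zero.1 (h4 i (Finset.mem_erase.2 ⟨hii, hi⟩))
    choose! d hd using fun i (hi : i ∈ s) => hK (c' i) (fun γ => hfixg γ i hi)
    have hK0 : ∑ i ∈ s, d i • v i = 0 := by
      rw [← hsum']
      refine Finset.sum_congr rfl (fun i hi => ?_)
      rw [← hd i hi, algebraMap_smul]
    have h0 := (linearIndependent_iff'.1 hind) s d hK0 i₀ hi₀
    have h5 := hd i₀ hi₀
    rw [h0, map_zero, hc'0] at h5
    exact zero_ne_one h5

/-- **Semilinear descent, dimension form**: a `K`-subspace `Z` of vectors fixed by all `A γ`,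
contained in an `L`-subspace `E` of a finite-dimensional `L`-space, is finite-dimensional with
`dim_K Z ≤ dim_L E`. -/
theorem wgba_finrank_fixed_le [Module.Finite L V] (g : Γ → L → L) (A : Γ → V →+ V)
    (hg1 : ∀ γ, g γ 1 = 1)
    (hK : ∀ x : L, (∀ γ : Γ, g γ x = x) → ∃ c : K, algebraMap K L c = x)
    (hsemi : ∀ (γ : Γ) (a : L) (v : V), A γ (a • v) = g γ a • A γ v)
    (Z : Submodule K V) (E : Submodule L V) (hZfix : ∀ z ∈ Z, ∀ γ, A γ z = z)
    (hZE : ∀ z ∈ Z, z ∈ E) :
    Module.Finite K Z ∧ finrank K Z ≤ finrank L E := by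
  classical
  set b := Basis.ofVectorSpace K Z with hb
  have hindK : LinearIndependent K (fun i => ((b i : Z) : V)) :=
    b.linearIndependent.map' Z.subtype (Submodule.ker_subtype _)
  have hindL : LinearIndependent L (fun i => ((b i : Z) : V)) :=
    wgba_linearIndependent g A hg1 hK hsemi _ (fun γ i => hZfix _ (b i).2 γ) hindK
  have hindE : LinearIndependent L (fun i => (⟨(b i : V), hZE _ (b i).2⟩ : E)) := by
    refine LinearIndependent.of_comp E.subtype ?_
    exact hindL
  have hfin : Finite (Basis.ofVectorSpaceIndex K Z) := hindL.finite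
  have := Fintype.ofFinite (Basis.ofVectorSpaceIndex K Z)
  refine ⟨Module.Finite.of_basis b, ?_⟩
  rw [Module.finrank_eq_card_basis b]
  exact hindE.fintype_card_le_finrank

end Semilinear

/-! ### `F ⊗ W ≅ Hom(F^∨, W)` -/

section Repr

variable {k : Type*} [Field k] {F W : Type*} [AddCommGroup F] [Module k F]
  [AddCommGroup W] [Module k W]

/-- `R : F ⊗ W → Hom(F^∨, W)`, `R (a ⊗ w) d = d a • w`. -/
noncomputable def wgbaR (k F W : Type*) [Field k] [AddCommGroup F] [Module k F]
    [AddCommGroup W] [Module k W] : F ⊗[k] W →ₗ[k] (Module.Dual k F →ₗ[k] W) :=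
  (dualTensorHom k (Module.Dual k F) W).comp
    (TensorProduct.map (Module.Dual.eval k F) LinearMap.id)

lemma wgbaR_tmul (a : F) (w : W) (d : Module.Dual k F) :
    wgbaR k F W (a ⊗ₜ[k] w) d = d a • w := by
  rw [wgbaR, LinearMap.comp_apply, TensorProduct.map_tmul, dualTensorHom_apply,
    Module.Dual.eval_apply, LinearMap.id_apply]

lemma wgbaR_surjective [FiniteDimensional k F] : Function.Surjective (wgbaR k F W) := by
  have h1 : Function.Surjective (dualTensorHom k (Module.Dual k F) W) :=
    (dualTensorHomEquiv k (Module.Dual k F) W).surjective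
  have h2 : Function.Surjective
      (TensorProduct.map (Module.Dual.eval k F) (LinearMap.id : W →ₗ[k] W)) :=
    TensorProduct.map_surjective (Module.evalEquiv k F).surjective Function.surjective_id
  exact h1.comp h2

/-- A family `h : X → W` which factors linearly through a family of functionals `D : X → F^∨`
on a finite-dimensional `F` is represented by a tensor. -/
theorem wgba_exists_tensor [FiniteDimensional k F] {X : Type*} (D : X → Module.Dual k F)
    (h : X → W)
    (hker : ∀ l : X →₀ k, Finsupp.linearCombination k D l = 0 →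
      Finsupp.linearCombination k h l = 0) :
    ∃ z : F ⊗[k] W, ∀ x, wgbaR k F W z (D x) = h x := by
  classical
  set LD := Finsupp.linearCombination k D with hLD
  set Lh := Finsupp.linearCombination k h with hLh
  have hle : LinearMap.ker LD ≤ LinearMap.ker Lh := fun l hl => hker l hl
  -- the induced map on the range of `LD`
  set hbar : LinearMap.range LD →ₗ[k] W :=
    ((LinearMap.ker LD).liftQ Lh hle).comp LD.quotKerEquivRange.symm.toLinearMap with hhbar
  have hbar_apply : ∀ l : X →₀ k, hbar ⟨LD l, LinearMap.mem_range_self LD l⟩ = Lh l := by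
    intro l
    have h1 : LD.quotKerEquivRange.symm ⟨LD l, LinearMap.mem_range_self LD l⟩ =
        Submodule.Quotient.mk l := by
      rw [LinearEquiv.symm_apply_eq]
      exact Subtype.ext (LinearMap.quotKerEquivRange_apply_mk LD l).symm
    rw [hhbar, LinearMap.comp_apply, LinearEquiv.coe_coe, h1, Submodule.liftQ_apply]
  obtain ⟨φ, hφ⟩ := LinearMap.exists_extend hbar
  obtain ⟨z, hz⟩ := wgbaR_surjective (k := k) (F := F) (W := W) φ
  refine ⟨z, fun x => ?_⟩
  rw [hz]
  have h2 := hbar_apply (Finsupp.single x 1)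
  have h3 : LD (Finsupp.single x 1) = D x := by
    rw [hLD, Finsupp.linearCombination_single, one_smul]
  have h4 : Lh (Finsupp.single x 1) = h x := by
    rw [hLh, Finsupp.linearCombination_single, one_smul]
  have h5 := LinearMap.congr_fun hφ ⟨LD (Finsupp.single x 1), LinearMap.mem_range_self LD _⟩
  rw [LinearMap.comp_apply, Submodule.subtype_apply] at h5
  rw [h2, h4] at h5
  rw [← h3]
  exact h5

end Repr

/-! ### The group form of representability -/

section ReprGroup

variable {p : ℕ} [Fact p.Prime] {F W : Type*} [AddCommGroup F] [Module (ZMod p) F]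
  [AddCommGroup W] [Module (ZMod p) W] {G : Type*} [Group G]

/-- An additive map on a subgroup `H`, with values in a `ZMod p`-module. -/
lemma wgba_map_pow {M : Type*} [AddCommGroup M] (H : Subgroup G) (D : G → M)
    (hD : ∀ σ ∈ H, ∀ τ ∈ H, D (σ * τ) = D σ + D τ) (x : G) (hx : x ∈ H) (n : ℕ) :
    D (x ^ n) = n • D x := by
  have h1 : D 1 = 0 := by
    have h := hD 1 H.one_mem 1 H.one_mem
    rw [mul_one] at h
    exact left_eq_add.mp h
  induction n with
  | zero => rw [pow_zero, h1, zero_smul]
  | succ n ih =>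
    rw [pow_succ, hD _ (H.pow_mem hx n) _ hx, ih, succ_nsmul]

/-- A map `h : G → W`, additive on the subgroup `H`, whose kernel on `H` contains the kernel of
a family of functionals `D : G → F^∨` additive on `H`, is represented on `H` by a tensor. -/
theorem wgba_exists_tensor_group [FiniteDimensional (ZMod p) F] (H : Subgroup G)
    (D : G → Module.Dual (ZMod p) F) (h : G → W)
    (hD : ∀ σ ∈ H, ∀ τ ∈ H, D (σ * τ) = D σ + D τ)
    (hh : ∀ σ ∈ H, ∀ τ ∈ H, h (σ * τ) = h σ + h τ)
    (hker : ∀ τ ∈ H, D τ = 0 → h τ = 0) :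
    ∃ z : F ⊗[ZMod p] W, ∀ τ ∈ H, wgbaR (ZMod p) F W z (D τ) = h τ := by
  classical
  have key : ∀ l : H →₀ ZMod p, ∃ x : H,
      Finsupp.linearCombination (ZMod p) (fun τ : H => D τ.1) l = D x.1 ∧
      Finsupp.linearCombination (ZMod p) (fun τ : H => h τ.1) l = h x.1 := by
    intro l
    induction l using Finsupp.induction_linear with
    | zero =>
      refine ⟨1, ?_, ?_⟩
      · rw [map_zero]
        have := wgba_map_pow H D hD 1 H.one_mem 0
        rw [pow_zero, zero_smul] at this
        exact this.symm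
      · rw [map_zero]
        have := wgba_map_pow H h hh 1 H.one_mem 0
        rw [pow_zero, zero_smul] at this
        exact this.symm
    | add f g hf hg =>
      obtain ⟨x, hx1, hx2⟩ := hf
      obtain ⟨y, hy1, hy2⟩ := hg
      refine ⟨x * y, ?_, ?_⟩
      · rw [map_add, hx1, hy1, Subgroup.coe_mul, hD _ x.2 _ y.2]
      · rw [map_add, hx2, hy2, Subgroup.coe_mul, hh _ x.2 _ y.2]
    | single a c =>
      refine ⟨a ^ c.val, ?_, ?_⟩
      · rw [Finsupp.linearCombination_single, Subgroup.coe_pow,
          wgba_map_pow H D hD a.1 a.2, ← Nat.cast_smul_eq_nsmul (ZMod p), ZMod.natCast_zmod_val]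
      · rw [Finsupp.linearCombination_single, Subgroup.coe_pow,
          wgba_map_pow H h hh a.1 a.2, ← Nat.cast_smul_eq_nsmul (ZMod p), ZMod.natCast_zmod_val]
  obtain ⟨z, hz⟩ := wgba_exists_tensor (k := ZMod p) (F := F) (W := W)
    (fun τ : H => D τ.1) (fun τ : H => h τ.1) (by
      intro l hl
      obtain ⟨x, hx1, hx2⟩ := key l
      rw [hx2]
      exact hker x.1 x.2 (by rw [← hx1]; exact hl))
  exact ⟨z, fun τ hτ => hz ⟨τ, hτ⟩⟩

end ReprGroup

/-! ### Maschke averaging over `G ⧸ N` -/

section Average

variable {k : Type*} [Field k] {G : Type*} [Group G] {B Y : Type*} [AddCommGroup B] [Module k B]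
  [AddCommGroup Y] [Module k Y]

/-- **Averaging.**  `A : G → End B` multiplicative and trivial on `N` of finite index invertible in
`k`; `ℓ : B → Y` linear with `ℓ (A γ z₀) = ℓ z₀` for all `γ`.  Then there is an `A`-invariant `z`
with `ℓ z = ℓ z₀`. -/
theorem wgba_average (A : G → B →ₗ[k] B) (hmul : ∀ γ δ z, A (γ * δ) z = A γ (A δ z))
    (N : Subgroup G) (hN : ∀ ν ∈ N, ∀ z, A ν z = z) (hidx : N.index ≠ 0)
    (hcard : (N.index : k) ≠ 0) (ℓ : B →ₗ[k] Y) (z₀ : B) (hℓ : ∀ γ, ℓ (A γ z₀) = ℓ z₀) :
    ∃ z, (∀ γ, A γ z = z) ∧ ℓ z = ℓ z₀ := by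
  classical
  have : N.FiniteIndex := ⟨hidx⟩
  have : Finite (G ⧸ N) := Subgroup.finite_quotient_of_finiteIndex
  have := Fintype.ofFinite (G ⧸ N)
  -- `A` depends only on the left coset
  have hcoset : ∀ γ δ : G, (γ : G ⧸ N) = δ → ∀ z, A γ z = A δ z := by
    intro γ δ hγδ z
    have h1 : γ⁻¹ * δ ∈ N := QuotientGroup.eq.1 hγδ
    have h2 : δ = γ * (γ⁻¹ * δ) := by group
    rw [h2, hmul, hN _ h1]
  have hcardq : (Fintype.card (G ⧸ N) : k) ≠ 0 := by
    rw [← Nat.card_eq_fintype_card]
    exact hcard
  refine ⟨(Fintype.card (G ⧸ N) : k)⁻¹ • ∑ q : G ⧸ N, A q.out z₀, fun δ => ?_, ?_⟩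
  · rw [map_smul, map_sum]
    congr 1
    refine Fintype.sum_equiv (MulAction.toPerm δ) _ _ (fun q => ?_)
    rw [← hmul]
    refine hcoset _ _ ?_ z₀
    rw [MulAction.toPerm_apply, QuotientGroup.out_eq']
    conv_rhs => rw [← QuotientGroup.out_eq' q]
    rfl
  · rw [map_smul, map_sum, Finset.sum_congr rfl (fun q _ => hℓ q.out), Finset.sum_const,
      Finset.card_univ, ← Nat.cast_smul_eq_nsmul k, smul_smul, inv_mul_cancel₀ hcardq, one_smul]

end Average

/-! ### The rank–nullity step -/

section Step

variable {k : Type*} [Field k] {V Y : Type*} [AddCommGroup V] [Module k V]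
  [AddCommGroup Y] [Module k Y]

/-- `Q ≤ P` subspaces of `V`, `res : V → Y` linear with `P ∩ ker res ⊆ Q` and `res P ⊆ ℓ(Z)` for a
finite-dimensional `Z`; `Q` finite-dimensional.  Then `P` is finite-dimensional and
`dim P ≤ dim Q + dim Z`. -/
theorem wgba_step {B : Type*} [AddCommGroup B] [Module k B] (P Q : Submodule k V)
    (res : V →ₗ[k] Y) (hker : ∀ v ∈ P, res v = 0 → v ∈ Q)
    (Z : Submodule k B) (ℓ : B →ₗ[k] Y) [Module.Finite k Z]
    (hrange : ∀ v ∈ P, ∃ z ∈ Z, ℓ z = res v) [Module.Finite k Q] :
    Module.Finite k P ∧ finrank k P ≤ finrank k Q + finrank k Z := by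
  set T : Submodule k Y := Z.map ℓ with hT
  have : Module.Finite k T := by rw [hT]; infer_instance
  have hTle : finrank k T ≤ finrank k Z := Submodule.finrank_map_le ℓ Z
  set f : P →ₗ[k] T := (res.comp P.subtype).codRestrict T (fun v => by
    obtain ⟨z, hz, hzv⟩ := hrange v.1 v.2
    exact ⟨z, hz, hzv⟩) with hf
  -- the kernel of `f` embeds in `Q`
  set j : LinearMap.ker f →ₗ[k] Q := (P.subtype.comp (LinearMap.ker f).subtype).codRestrict Q
    (fun v => by
      refine hker v.1.1 v.1.2 ?_
      have h := v.2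
      rw [LinearMap.mem_ker] at h
      exact congrArg Subtype.val h) with hj
  have hjinj : Function.Injective j := by
    intro a b hab
    have h := congrArg Subtype.val hab
    exact Subtype.ext (Subtype.ext h)
  have : Module.Finite k (LinearMap.ker f) := Module.Finite.of_injective j hjinj
  have hkerle : finrank k (LinearMap.ker f) ≤ finrank k Q :=
    LinearMap.finrank_le_finrank_of_injective hjinj
  have : Module.Finite k (LinearMap.range f) := inferInstance
  have : Module.Finite k (P ⧸ LinearMap.ker f) :=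
    Module.Finite.equiv f.quotKerEquivRange.symm
  have : Module.Finite k P := Module.Finite.of_submodule_quotient (LinearMap.ker f)
  refine ⟨inferInstance, ?_⟩
  have h1 := LinearMap.finrank_range_add_finrank_ker f
  have h2 : finrank k (LinearMap.range f) ≤ finrank k T := Submodule.finrank_le _
  omega

end Step

end Fermat.Agent.TW.W
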