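/-
TW-W, block (GB), piece GB-ALG (helper79): the structure behind the abstract count.

From `GBAbsKum` + `GBAbsTame` (`TW/W/GBAbs.lean`):
* `wgbaK t` : the subgroup `{τ ∈ J | κ τ = 0 on Fil t}` of `G` (increasing in `t`, normal,
  `wgbaK 0 ⊆ 𝒩`, `wgbaK e' = J`);
* `wgbaA t γ` : the twisted operator `a ⊗ w ↦ (u γ ^ t · γ a) ⊗ ω(γ)⁻¹ ρ(γ) w` on `F ⊗ W`
  (multiplicative in `γ`, trivial on `N`, `actF γ`-semilinear, and on inertia its fixed vectors lie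
  in `E_{e' - t}`);
* `wgba_exists_D` : the functionals `D τ ∈ F^∨`, `D τ (r t x) = κ τ x` (`τ ∈ wgbaK (t + 1)`).
-/
import Fermat.Agent.TW.W.GBAbs
import Fermat.Agent.TW.W.GBAlgA

set_option autoImplicit false

open scoped TensorProduct

namespace Fermat.Agent.TW.W

open Module

section Tame

variable {p : ℕ} {G Ω : Type} [Group G] [AddCommGroup Ω] [DistribMulAction G Ω]
  {N I : Subgroup G} {ω : G →* (ZMod p)ˣ}
  {F : Type} [Field F] [Algebra (ZMod p) F] {actF : G →* RingAut F} {u : G → F} {e' : ℕ}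
  {Fil : ℕ → AddSubgroup Ω} {r : ℕ → Ω → F}

lemma wgba_fil_mono (hT : GBAbsTame p N I ω F actF u e' Fil r) {s t : ℕ} (hst : s ≤ t) :
    Fil t ≤ Fil s := by
  induction t with
  | zero =>
    have : s = 0 := Nat.le_zero.1 hst
    rw [this]
  | succ t ih =>
    rcases Nat.lt_or_ge s (t + 1) with h | h
    · exact (hT.anti t).trans (ih (Nat.lt_succ_iff.1 h))
    · have : s = t + 1 := le_antisymm hst h
      rw [this]

lemma wgba_r_zero (hT : GBAbsTame p N I ω F actF u e' Fil r) {t : ℕ} (ht : t < e') :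
    r t 0 = 0 := by
  have h := hT.r_add t ht 0 (Fil t).zero_mem 0 (Fil t).zero_mem
  rw [add_zero] at h
  exact left_eq_add.mp h

lemma wgba_r_sub (hT : GBAbsTame p N I ω F actF u e' Fil r) {t : ℕ} (ht : t < e')
    {x y : Ω} (hx : x ∈ Fil t) (hy : y ∈ Fil t) : r t (x - y) = r t x - r t y := by
  have h := hT.r_add t ht (x - y) ((Fil t).sub_mem hx hy) y hy
  rw [sub_add_cancel] at h
  rw [h, add_sub_cancel_right]

lemma wgba_sub_mem (hT : GBAbsTame p N I ω F actF u e' Fil r) {t : ℕ} (ht : t < e')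
    {x y : Ω} (hx : x ∈ Fil t) (hy : y ∈ Fil t) (hxy : r t x = r t y) :
    x - y ∈ Fil (t + 1) := by
  rw [← hT.r_ker t ht _ ((Fil t).sub_mem hx hy), wgba_r_sub hT ht hx hy, hxy, sub_self]

lemma wgba_u_one (hT : GBAbsTame p N I ω F actF u e' Fil r) {t : ℕ} (ht : t < e') :
    u 1 ^ t = 1 := by
  obtain ⟨x, hx, hx1⟩ := hT.r_surj t ht 1
  have h := hT.r_smul 1 t ht x hx
  rw [one_smul, hx1, map_one, mul_one] at h
  exact h.symm

lemma wgba_u_mul (hT : GBAbsTame p N I ω F actF u e' Fil r) {t : ℕ} (ht : t < e') (γ δ : G) :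
    u (γ * δ) ^ t = u γ ^ t * actF γ (u δ ^ t) := by
  obtain ⟨x, hx, hx1⟩ := hT.r_surj t ht 1
  have h1 := hT.r_smul (γ * δ) t ht x hx
  have h2 := hT.r_smul γ t ht (δ • x) (hT.stable δ t x hx)
  have h3 := hT.r_smul δ t ht x hx
  rw [mul_smul, h2, h3, hx1] at h1
  simp only [map_one, mul_one] at h1
  exact h1.symm

lemma wgba_u_N (hT : GBAbsTame p N I ω F actF u e' Fil r) {t : ℕ} (ht : t < e') {ν : G}
    (hν : ν ∈ N) (a : F) : u ν ^ t * actF ν a = a := by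
  obtain ⟨x, hx, hxa⟩ := hT.r_surj t ht a
  have h := hT.r_smul ν t ht x hx
  rw [hT.fixN ν hν x (wgba_fil_mono hT (Nat.zero_le t) hx), hxa] at h
  exact h.symm

lemma wgba_u_ne_zero [Fact p.Prime] (hT : GBAbsTame p N I ω F actF u e' Fil r) {σ : G}
    (hσ : σ ∈ I)
    (he : 0 < e') : u σ ≠ 0 := by
  intro h0
  have h := hT.omega σ hσ
  rw [h0, zero_pow he.ne'] at h
  have h1 : (((ω σ : (ZMod p)ˣ) : ZMod p)) = 0 :=
    (algebraMap (ZMod p) F).injective (by rw [h, map_zero])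
  exact (ω σ).ne_zero h1

end Tame

/-! ### The subgroups `wgbaK t` -/

section Kum

variable {p : ℕ} {G Ω : Type} [Group G] [AddCommGroup Ω] [DistribMulAction G Ω]
  {N I 𝒩 : Subgroup G} {ω : G →* (ZMod p)ˣ} {κ : G → Ω → ZMod p}
  {F : Type} [Field F] [Algebra (ZMod p) F] {actF : G →* RingAut F} {u : G → F} {e' : ℕ}
  {Fil : ℕ → AddSubgroup Ω} {r : ℕ → Ω → F}

lemma wgba_kappa_one (hK : GBAbsKum p (I ⊓ N) 𝒩 (Fil 0) (Fil e') ω κ) {x : Ω} (hx : x ∈ Fil 0) :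
    κ 1 x = 0 := by
  have h := hK.mul_left 1 (I ⊓ N).one_mem 1 (I ⊓ N).one_mem x hx
  rw [mul_one] at h
  exact left_eq_add.mp h

lemma wgba_kappa_inv (hK : GBAbsKum p (I ⊓ N) 𝒩 (Fil 0) (Fil e') ω κ) {τ : G}
    (hτ : τ ∈ I ⊓ N) {x : Ω} (hx : x ∈ Fil 0) : κ τ⁻¹ x = - κ τ x := by
  have h := hK.mul_left τ⁻¹ ((I ⊓ N).inv_mem hτ) τ hτ x hx
  rw [inv_mul_cancel, wgba_kappa_one hK hx] at h
  exact eq_neg_of_add_eq_zero_left h.symm

/-- `wgbaK t = {τ ∈ J | κ τ = 0 on Fil t}`. -/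
def wgbaK (hK : GBAbsKum p (I ⊓ N) 𝒩 (Fil 0) (Fil e') ω κ)
    (hT : GBAbsTame p N I ω F actF u e' Fil r) (t : ℕ) : Subgroup G where
  carrier := {τ | τ ∈ I ⊓ N ∧ ∀ x ∈ Fil t, κ τ x = 0}
  mul_mem' := by
    rintro σ τ ⟨hσ, hσ'⟩ ⟨hτ, hτ'⟩
    refine ⟨(I ⊓ N).mul_mem hσ hτ, fun x hx => ?_⟩
    rw [hK.mul_left σ hσ τ hτ x (wgba_fil_mono hT (Nat.zero_le t) hx), hσ' x hx, hτ' x hx,
      add_zero]
  one_mem' := ⟨(I ⊓ N).one_mem, fun x hx =>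
    wgba_kappa_one hK (wgba_fil_mono hT (Nat.zero_le t) hx)⟩
  inv_mem' := by
    rintro τ ⟨hτ, hτ'⟩
    refine ⟨(I ⊓ N).inv_mem hτ, fun x hx => ?_⟩
    rw [wgba_kappa_inv hK hτ (wgba_fil_mono hT (Nat.zero_le t) hx), hτ' x hx, neg_zero]

lemma mem_wgbaK (hK : GBAbsKum p (I ⊓ N) 𝒩 (Fil 0) (Fil e') ω κ)
    (hT : GBAbsTame p N I ω F actF u e' Fil r) (t : ℕ) (τ : G) :
    τ ∈ wgbaK hK hT t ↔ τ ∈ I ⊓ N ∧ ∀ x ∈ Fil t, κ τ x = 0 := Iff.rfl

lemma wgbaK_mono (hK : GBAbsKum p (I ⊓ N) 𝒩 (Fil 0) (Fil e') ω κ)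
    (hT : GBAbsTame p N I ω F actF u e' Fil r) {s t : ℕ} (hst : s ≤ t) :
    wgbaK hK hT s ≤ wgbaK hK hT t := by
  rintro τ ⟨hτ, hτ'⟩
  exact ⟨hτ, fun x hx => hτ' x (wgba_fil_mono hT hst hx)⟩

lemma wgbaK_zero_le (hK : GBAbsKum p (I ⊓ N) 𝒩 (Fil 0) (Fil e') ω κ)
    (hT : GBAbsTame p N I ω F actF u e' Fil r) : wgbaK hK hT 0 ≤ 𝒩 := by
  rintro τ ⟨hτ, hτ'⟩
  exact hK.detect τ hτ hτ'

lemma wgbaK_top (hK : GBAbsKum p (I ⊓ N) 𝒩 (Fil 0) (Fil e') ω κ)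
    (hT : GBAbsTame p N I ω F actF u e' Fil r) {τ : G} (hτ : τ ∈ I ⊓ N) :
    τ ∈ wgbaK hK hT e' :=
  ⟨hτ, fun x hx => hK.vanish τ hτ x hx⟩

lemma wgba_smul_mem (hT : GBAbsTame p N I ω F actF u e' Fil r) (γ : G) {t : ℕ} {x : Ω}
    (hx : x ∈ Fil t) : γ • x ∈ Fil t := hT.stable γ t x hx

lemma wgbaK_conj (hK : GBAbsKum p (I ⊓ N) 𝒩 (Fil 0) (Fil e') ω κ)
    (hT : GBAbsTame p N I ω F actF u e' Fil r) (hN : N.Normal) (hI : I.Normal) {t : ℕ}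
    (γ : G) {τ : G} (hτ : τ ∈ wgbaK hK hT t) : γ * τ * γ⁻¹ ∈ wgbaK hK hT t := by
  obtain ⟨hτJ, hτ'⟩ := hτ
  refine ⟨⟨hI.conj_mem τ hτJ.1 γ, hN.conj_mem τ hτJ.2 γ⟩, fun x hx => ?_⟩
  have h1 : γ⁻¹ • x ∈ Fil t := hT.stable γ⁻¹ t x hx
  have h2 := hK.conj γ τ hτJ (γ⁻¹ • x) (wgba_fil_mono hT (Nat.zero_le t) h1)
  rw [smul_inv_smul] at h2
  rw [h2, hτ' _ h1, mul_zero]

/-- two elements of `Fil t` with the same image under `r t` have the same symbol against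
`τ ∈ wgbaK (t + 1)` -/
lemma wgba_kappa_eq (hK : GBAbsKum p (I ⊓ N) 𝒩 (Fil 0) (Fil e') ω κ)
    (hT : GBAbsTame p N I ω F actF u e' Fil r) {t : ℕ} (ht : t < e') {τ : G}
    (hτ : τ ∈ wgbaK hK hT (t + 1)) {x y : Ω} (hx : x ∈ Fil t) (hy : y ∈ Fil t)
    (hxy : r t x = r t y) : κ τ x = κ τ y := by
  have h1 : x - y ∈ Fil (t + 1) := wgba_sub_mem hT ht hx hy hxy
  have h2 := hK.add_right τ hτ.1 (x - y) (wgba_fil_mono hT (Nat.zero_le _) h1) y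
    (wgba_fil_mono hT (Nat.zero_le _) hy)
  rw [sub_add_cancel, hτ.2 _ h1, zero_add] at h2
  exact h2

/-- **The functionals `D τ`.** -/
theorem wgba_exists_D [Fact p.Prime] (hK : GBAbsKum p (I ⊓ N) 𝒩 (Fil 0) (Fil e') ω κ)
    (hT : GBAbsTame p N I ω F actF u e' Fil r) {t : ℕ} (ht : t < e') :
    ∃ D : G → Module.Dual (ZMod p) F,
      ∀ τ ∈ wgbaK hK hT (t + 1), ∀ x ∈ Fil t, D τ (r t x) = κ τ x := by
  classical
  have key : ∀ τ : G, ∃ d : Module.Dual (ZMod p) F,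
      τ ∈ wgbaK hK hT (t + 1) → ∀ x ∈ Fil t, d (r t x) = κ τ x := by
    intro τ
    by_cases hτ : τ ∈ wgbaK hK hT (t + 1)
    · choose lift hlift hlift' using hT.r_surj t ht
      have hval : ∀ x ∈ Fil t, κ τ (lift (r t x)) = κ τ x := fun x hx =>
        wgba_kappa_eq hK hT ht hτ (hlift _) hx (hlift' _)
      have hadd : ∀ a b : F, κ τ (lift (a + b)) = κ τ (lift a) + κ τ (lift b) := by
        intro a b
        have h1 : r t (lift (a + b)) = r t (lift a + lift b) := by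
          rw [hT.r_add t ht _ (hlift a) _ (hlift b), hlift', hlift', hlift']
        rw [wgba_kappa_eq hK hT ht hτ (hlift _) ((Fil t).add_mem (hlift a) (hlift b)) h1,
          hK.add_right τ hτ.1 _ (wgba_fil_mono hT (Nat.zero_le _) (hlift a)) _
            (wgba_fil_mono hT (Nat.zero_le _) (hlift b))]
      have hzero : κ τ (lift 0) = 0 := by
        have h := hadd 0 0
        rw [add_zero] at h
        exact left_eq_add.mp h
      refine ⟨AddMonoidHom.toZModLinearMap p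
        { toFun := fun a => κ τ (lift a), map_zero' := hzero, map_add' := hadd }, fun _ x hx => ?_⟩
      exact hval x hx
    · exact ⟨0, fun h => absurd h hτ⟩
  choose D hD using key
  exact ⟨D, hD⟩

end Kum

/-! ### The twisted operators on `F ⊗ W` -/

section Op

variable {p : ℕ} {G : Type} [Group G]
  {F : Type} [Field F] [Algebra (ZMod p) F]
  {W : Type} [AddCommGroup W] [Module (ZMod p) W]

/-- `a ↦ u γ ^ t * γ a` as a `ZMod p`-linear map. -/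
def wgbaM (p : ℕ) {G F : Type} [Group G] [Field F] [Algebra (ZMod p) F]
    (actF : G →* RingAut F) (u : G → F) (t : ℕ) (γ : G) : F →ₗ[ZMod p] F :=
  AddMonoidHom.toZModLinearMap p
    ((AddMonoidHom.mulLeft (u γ ^ t)).comp (RingEquiv.toRingHom (actF γ)).toAddMonoidHom)

lemma wgbaM_apply (actF : G →* RingAut F) (u : G → F) (t : ℕ) (γ : G) (a : F) :
    wgbaM p actF u t γ a = u γ ^ t * actF γ a := rfl

/-- the twisted operator `a ⊗ w ↦ (u γ ^ t · γ a) ⊗ ω(γ)⁻¹ ρ(γ) w` -/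
def wgbaA (p : ℕ) {G F W : Type} [Group G] [Field F] [Algebra (ZMod p) F]
    [AddCommGroup W] [Module (ZMod p) W]
    (actF : G →* RingAut F) (u : G → F) (ω : G →* (ZMod p)ˣ) (ρ : Representation (ZMod p) G W)
    (t : ℕ) (γ : G) : F ⊗[ZMod p] W →ₗ[ZMod p] F ⊗[ZMod p] W :=
  TensorProduct.map (wgbaM p actF u t γ) ((((ω γ)⁻¹ : (ZMod p)ˣ) : ZMod p) • ρ γ)

lemma wgbaA_tmul (actF : G →* RingAut F) (u : G → F) (ω : G →* (ZMod p)ˣ)
    (ρ : Representation (ZMod p) G W) (t : ℕ) (γ : G) (a : F) (w : W) :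
    wgbaA p actF u ω ρ t γ (a ⊗ₜ[ZMod p] w) =
      (u γ ^ t * actF γ a) ⊗ₜ[ZMod p] ((((ω γ)⁻¹ : (ZMod p)ˣ) : ZMod p) • ρ γ w) := by
  rw [wgbaA, TensorProduct.map_tmul, wgbaM_apply, LinearMap.smul_apply]

/-- semilinearity -/
lemma wgbaA_semi (actF : G →* RingAut F) (u : G → F) (ω : G →* (ZMod p)ˣ)
    (ρ : Representation (ZMod p) G W) (t : ℕ) (γ : G) (c : F) (z : F ⊗[ZMod p] W) :
    wgbaA p actF u ω ρ t γ (c • z) = actF γ c • wgbaA p actF u ω ρ t γ z := by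
  induction z using TensorProduct.induction_on with
  | zero => rw [smul_zero, map_zero, smul_zero]
  | tmul a w =>
    rw [TensorProduct.smul_tmul', wgbaA_tmul, wgbaA_tmul, TensorProduct.smul_tmul', smul_eq_mul,
      smul_eq_mul, map_mul]
    congr 1
    ring
  | add x y hx hy => rw [smul_add, map_add, hx, hy, map_add, smul_add]

end Op

section OpTame

variable {p : ℕ} [Fact p.Prime] {G Ω : Type} [Group G] [AddCommGroup Ω] [DistribMulAction G Ω]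
  {N I 𝒩 : Subgroup G} {ω : G →* (ZMod p)ˣ} {κ : G → Ω → ZMod p}
  {F : Type} [Field F] [Algebra (ZMod p) F] {actF : G →* RingAut F} {u : G → F} {e' : ℕ}
  {Fil : ℕ → AddSubgroup Ω} {r : ℕ → Ω → F}
  {W : Type} [AddCommGroup W] [Module (ZMod p) W]

lemma wgbaA_mul (hT : GBAbsTame p N I ω F actF u e' Fil r) (ρ : Representation (ZMod p) G W)
    {t : ℕ} (ht : t < e') (γ δ : G) (z : F ⊗[ZMod p] W) :
    wgbaA p actF u ω ρ t (γ * δ) z =
      wgbaA p actF u ω ρ t γ (wgbaA p actF u ω ρ t δ z) := by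
  induction z using TensorProduct.induction_on with
  | zero => rw [map_zero, map_zero, map_zero]
  | tmul a w =>
    rw [wgbaA_tmul, wgbaA_tmul, wgbaA_tmul, wgba_u_mul hT ht, map_mul actF, RingAut.mul_apply,
      map_mul (actF γ), map_mul ω, mul_inv, Units.val_mul, map_mul ρ, Module.End.mul_apply,
      map_smul, smul_smul, mul_assoc]
  | add x y hx hy => rw [map_add, map_add, map_add, hx, hy]

lemma wgbaA_N (hT : GBAbsTame p N I ω F actF u e' Fil r) (ρ : Representation (ZMod p) G W)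
    (hρ : ∀ γ ∈ N, ρ γ = 1) {t : ℕ} (ht : t < e') {ν : G} (hν : ν ∈ N)
    (z : F ⊗[ZMod p] W) : wgbaA p actF u ω ρ t ν z = z := by
  induction z using TensorProduct.induction_on with
  | zero => rw [map_zero]
  | tmul a w =>
    rw [wgbaA_tmul, wgba_u_N hT ht hν, hT.omegaN ν hν, inv_one, Units.val_one, one_smul, hρ ν hν,
      Module.End.one_apply]
  | add x y hx hy => rw [map_add, hx, hy]

lemma wgbaA_inert (hT : GBAbsTame p N I ω F actF u e' Fil r) (ρ : Representation (ZMod p) G W)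
    (t : ℕ) {σ : G} (hσ : σ ∈ I) (z : F ⊗[ZMod p] W) :
    wgbaA p actF u ω ρ t σ z =
      (algebraMap (ZMod p) F (((ω σ)⁻¹ : (ZMod p)ˣ) : ZMod p) * u σ ^ t) •
        (ρ σ).baseChange F z := by
  induction z using TensorProduct.induction_on with
  | zero => rw [map_zero, map_zero, smul_zero]
  | tmul a w =>
    rw [wgbaA_tmul, LinearMap.baseChange_tmul, hT.act_inert σ hσ, RingAut.one_apply,
      TensorProduct.tmul_smul, ← algebraMap_smul F, TensorProduct.smul_tmul',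
      TensorProduct.smul_tmul', smul_eq_mul, smul_eq_mul, mul_assoc]
  | add x y hx hy => rw [map_add, map_add, hx, hy, smul_add]

/-- a vector fixed by the twisted operators of inertia lies in `E_{e' - t}` -/
lemma wgbaA_fixed_mem (hT : GBAbsTame p N I ω F actF u e' Fil r)
    (ρ : Representation (ZMod p) G W) {t : ℕ} (ht : t < e') (z : F ⊗[ZMod p] W)
    (hz : ∀ σ ∈ I, wgbaA p actF u ω ρ t σ z = z) : z ∈ gbEig p F ρ I u (e' - t) := by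
  intro σ hσ
  have h1 := hz σ hσ
  rw [wgbaA_inert hT ρ t hσ] at h1
  have hu : u σ ≠ 0 := wgba_u_ne_zero hT hσ (lt_of_le_of_lt (Nat.zero_le t) ht)
  have h2 : algebraMap (ZMod p) F (((ω σ)⁻¹ : (ZMod p)ˣ) : ZMod p) * u σ ^ e' = 1 := by
    rw [← hT.omega σ hσ, ← map_mul, Units.inv_mul, map_one]
  have h3 : u σ ^ (e' - t) * (algebraMap (ZMod p) F (((ω σ)⁻¹ : (ZMod p)ˣ) : ZMod p) * u σ ^ t)
      = 1 := by
    rw [← h2, mul_left_comm, ← pow_add, Nat.sub_add_cancel ht.le]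
  calc (ρ σ).baseChange F z
      = (u σ ^ (e' - t) * (algebraMap (ZMod p) F (((ω σ)⁻¹ : (ZMod p)ˣ) : ZMod p) * u σ ^ t)) •
          (ρ σ).baseChange F z := by rw [h3, one_smul]
    _ = u σ ^ (e' - t) • z := by rw [mul_smul, h1]

end OpTame

/-! ### Equivariance of `D` and the invariant lift -/

section Lift

variable {p : ℕ} [Fact p.Prime] {G Ω : Type} [Group G] [AddCommGroup Ω] [DistribMulAction G Ω]
  {N I 𝒩 : Subgroup G} {ω : G →* (ZMod p)ˣ} {κ : G → Ω → ZMod p}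
  {F : Type} [Field F] [Algebra (ZMod p) F] {actF : G →* RingAut F} {u : G → F} {e' : ℕ}
  {Fil : ℕ → AddSubgroup Ω} {r : ℕ → Ω → F}
  {W : Type} [AddCommGroup W] [Module (ZMod p) W]

lemma wgba_D_mul (hK : GBAbsKum p (I ⊓ N) 𝒩 (Fil 0) (Fil e') ω κ)
    (hT : GBAbsTame p N I ω F actF u e' Fil r) {t : ℕ} (ht : t < e')
    (D : G → Module.Dual (ZMod p) F)
    (hD : ∀ τ ∈ wgbaK hK hT (t + 1), ∀ x ∈ Fil t, D τ (r t x) = κ τ x)
    {σ τ : G} (hσ : σ ∈ wgbaK hK hT (t + 1)) (hτ : τ ∈ wgbaK hK hT (t + 1)) :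
    D (σ * τ) = D σ + D τ := by
  refine LinearMap.ext (fun a => ?_)
  obtain ⟨x, hx, rfl⟩ := hT.r_surj t ht a
  rw [LinearMap.add_apply, hD _ ((wgbaK hK hT (t + 1)).mul_mem hσ hτ) x hx, hD σ hσ x hx,
    hD τ hτ x hx, hK.mul_left σ hσ.1 τ hτ.1 x (wgba_fil_mono hT (Nat.zero_le t) hx)]

lemma wgba_D_eq_zero (hK : GBAbsKum p (I ⊓ N) 𝒩 (Fil 0) (Fil e') ω κ)
    (hT : GBAbsTame p N I ω F actF u e' Fil r) {t : ℕ}
    (D : G → Module.Dual (ZMod p) F)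
    (hD : ∀ τ ∈ wgbaK hK hT (t + 1), ∀ x ∈ Fil t, D τ (r t x) = κ τ x)
    {τ : G} (hτ : τ ∈ wgbaK hK hT (t + 1)) (h0 : D τ = 0) : τ ∈ wgbaK hK hT t := by
  refine ⟨hτ.1, fun x hx => ?_⟩
  rw [← hD τ hτ x hx, h0, LinearMap.zero_apply]

lemma wgba_D_conj (hK : GBAbsKum p (I ⊓ N) 𝒩 (Fil 0) (Fil e') ω κ)
    (hT : GBAbsTame p N I ω F actF u e' Fil r) (hN : N.Normal) (hI : I.Normal)
    {t : ℕ} (ht : t < e') (D : G → Module.Dual (ZMod p) F)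
    (hD : ∀ τ ∈ wgbaK hK hT (t + 1), ∀ x ∈ Fil t, D τ (r t x) = κ τ x)
    (γ : G) {τ : G} (hτ : τ ∈ wgbaK hK hT (t + 1)) (a : F) :
    D (γ⁻¹ * τ * γ⁻¹⁻¹) a =
      (((ω γ)⁻¹ : (ZMod p)ˣ) : ZMod p) * D τ (u γ ^ t * actF γ a) := by
  obtain ⟨x, hx, rfl⟩ := hT.r_surj t ht a
  have hy : γ • x ∈ Fil t := hT.stable γ t x hx
  have h1 := hK.conj γ⁻¹ τ hτ.1 (γ • x) (wgba_fil_mono hT (Nat.zero_le t) hy)
  rw [inv_smul_smul, map_inv] at h1
  rw [hD _ (wgbaK_conj hK hT hN hI γ⁻¹ hτ) x hx, h1, ← hT.r_smul γ t ht x hx, hD τ hτ _ hy]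

/-- `R (A γ z) (D τ) = ρ γ (R z (D (γ⁻¹ τ γ)))` -/
lemma wgbaR_A (hK : GBAbsKum p (I ⊓ N) 𝒩 (Fil 0) (Fil e') ω κ)
    (hT : GBAbsTame p N I ω F actF u e' Fil r) (hN : N.Normal) (hI : I.Normal)
    (ρ : Representation (ZMod p) G W)
    {t : ℕ} (ht : t < e') (D : G → Module.Dual (ZMod p) F)
    (hD : ∀ τ ∈ wgbaK hK hT (t + 1), ∀ x ∈ Fil t, D τ (r t x) = κ τ x)
    (γ : G) {τ : G} (hτ : τ ∈ wgbaK hK hT (t + 1)) (z : F ⊗[ZMod p] W) :
    wgbaR (ZMod p) F W (wgbaA p actF u ω ρ t γ z) (D τ) =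
      ρ γ (wgbaR (ZMod p) F W z (D (γ⁻¹ * τ * γ⁻¹⁻¹))) := by
  induction z using TensorProduct.induction_on with
  | zero => simp only [map_zero, LinearMap.zero_apply]
  | tmul a w =>
    rw [wgbaA_tmul, wgbaR_tmul, wgbaR_tmul, wgba_D_conj hK hT hN hI ht D hD γ hτ, map_smul,
      smul_smul, mul_comm]
  | add x y hx hy => simp only [map_add, LinearMap.add_apply, hx, hy]

/-- **The invariant lift** (duality + Maschke).  A function `h`, additive on `J`, equivariant,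
vanishing on `wgbaK t`, is on `wgbaK (t + 1)` of the form `τ ↦ R z (D τ)` for a vector `z` fixed by
all twisted operators. -/
theorem wgba_lift [Module.Finite (ZMod p) F]
    (hK : GBAbsKum p (I ⊓ N) 𝒩 (Fil 0) (Fil e') ω κ)
    (hT : GBAbsTame p N I ω F actF u e' Fil r) (hN : N.Normal) (hI : I.Normal)
    (hidx : N.index ≠ 0) (hp : ¬ p ∣ N.index)
    (ρ : Representation (ZMod p) G W) (hρ : ∀ γ ∈ N, ρ γ = 1)
    {t : ℕ} (ht : t < e') (D : G → Module.Dual (ZMod p) F)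
    (hD : ∀ τ ∈ wgbaK hK hT (t + 1), ∀ x ∈ Fil t, D τ (r t x) = κ τ x)
    (h : G → W)
    (hadd : ∀ σ τ, σ ∈ I ⊓ N → τ ∈ I ⊓ N → h (σ * τ) = h σ + h τ)
    (hequiv : ∀ (γ τ : G), τ ∈ I ⊓ N → h (γ * τ * γ⁻¹) = ρ γ (h τ))
    (hvan : ∀ τ ∈ wgbaK hK hT t, h τ = 0) :
    ∃ z : F ⊗[ZMod p] W, (∀ γ, wgbaA p actF u ω ρ t γ z = z) ∧
      ∀ τ ∈ wgbaK hK hT (t + 1), wgbaR (ZMod p) F W z (D τ) = h τ := by
  obtain ⟨z₀, hz₀⟩ := wgba_exists_tensor_group (wgbaK hK hT (t + 1)) D h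
    (fun σ hσ τ hτ => wgba_D_mul hK hT ht D hD hσ hτ)
    (fun σ hσ τ hτ => hadd σ τ hσ.1 hτ.1)
    (fun τ hτ h0 => hvan τ (wgba_D_eq_zero hK hT D hD hτ h0))
  set ℓ : F ⊗[ZMod p] W →ₗ[ZMod p] (wgbaK hK hT (t + 1) → W) :=
    LinearMap.pi (fun τ => (LinearMap.applyₗ (D τ.1)).comp (wgbaR (ZMod p) F W)) with hℓ
  have hℓ_apply : ∀ z (τ : wgbaK hK hT (t + 1)), ℓ z τ = wgbaR (ZMod p) F W z (D τ.1) :=
    fun z τ => rfl
  have hcard : ((N.index : ℕ) : ZMod p) ≠ 0 := by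
    rw [Ne, ZMod.natCast_eq_zero_iff]
    exact hp
  obtain ⟨z, hzfix, hzℓ⟩ := wgba_average (wgbaA p actF u ω ρ t)
    (fun γ δ z => wgbaA_mul hT ρ ht γ δ z) N (fun ν hν z => wgbaA_N hT ρ hρ ht hν z)
    hidx hcard ℓ z₀ (by
      intro γ
      funext τ
      rw [hℓ_apply, hℓ_apply, wgbaR_A hK hT hN hI ρ ht D hD γ τ.2,
        hz₀ _ (wgbaK_conj hK hT hN hI γ⁻¹ τ.2), hz₀ _ τ.2, hequiv γ⁻¹ τ.1 τ.2.1,
        ← Module.End.mul_apply, ← map_mul, mul_inv_cancel, map_one, Module.End.one_apply])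
  refine ⟨z, hzfix, fun τ hτ => ?_⟩
  have h1 := congrFun hzℓ ⟨τ, hτ⟩
  rw [hℓ_apply, hℓ_apply] at h1
  rw [h1, hz₀ τ hτ]

end Lift

end Fermat.Agent.TW.W
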