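/-
TW-W, block (GB), piece GB-ALG (helper79): **the abstract count** `stmtGBAlg : StmtGBAlg`
(`TW/W/GBAbs.lean`).

Dévissage along `wgbaK 0 ≤ wgbaK 1 ≤ … ≤ wgbaK e' = J` (`wgbaK t = {τ ∈ J | κ τ = 0 on Fil t}`):
`S_t = {h ∈ S | h = 0 on wgbaK t}`, `S_0 = S`, `S_{e'} = 0`, and
`dim S_t ≤ dim S_{t+1} + dim_F E_{e' - t}`:
the restriction of `h ∈ S_t` to `wgbaK (t + 1)` is `τ ↦ R z (D τ)` for a vector `z ∈ F ⊗ W` fixed
by the twisted operators (`wgba_lift`: duality + Maschke), and the space of such `z` has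
`𝔽_p`-dimension `≤ dim_F E_{e' - t}` (semilinear descent, `wgba_finrank_fixed_le`).
-/
import Fermat.Agent.TW.W.GBAlgB

set_option autoImplicit false

open scoped TensorProduct

namespace Fermat.Agent.TW.W

open Module

section Main

variable {p : ℕ} [Fact p.Prime] {G Ω : Type} [Group G] [AddCommGroup Ω] [DistribMulAction G Ω]
  {N I 𝒩 : Subgroup G} {ω : G →* (ZMod p)ˣ} {κ : G → Ω → ZMod p}
  {F : Type} [Field F] [Algebra (ZMod p) F] {actF : G →* RingAut F} {u : G → F} {e' : ℕ}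
  {Fil : ℕ → AddSubgroup Ω} {r : ℕ → Ω → F}
  {W : Type} [AddCommGroup W] [Module (ZMod p) W]

/-- the functions `G → W` vanishing on a subgroup -/
def wgbaVan (p : ℕ) {G : Type} [Group G] (W : Type) [AddCommGroup W] [Module (ZMod p) W]
    (H : Subgroup G) : Submodule (ZMod p) (G → W) where
  carrier := {h | ∀ τ ∈ H, h τ = 0}
  add_mem' := fun {a b} ha hb τ hτ => by rw [Pi.add_apply, ha τ hτ, hb τ hτ, add_zero]
  zero_mem' := fun _ _ => rfl
  smul_mem' := fun c a ha τ hτ => by rw [Pi.smul_apply, ha τ hτ, smul_zero]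

/-- the vectors of `F ⊗ W` fixed by the twisted operators -/
def wgbaInv (p : ℕ) {G F W : Type} [Group G] [Field F] [Algebra (ZMod p) F]
    [AddCommGroup W] [Module (ZMod p) W]
    (actF : G →* RingAut F) (u : G → F) (ω : G →* (ZMod p)ˣ) (ρ : Representation (ZMod p) G W)
    (t : ℕ) : Submodule (ZMod p) (F ⊗[ZMod p] W) where
  carrier := {z | ∀ γ, wgbaA p actF u ω ρ t γ z = z}
  add_mem' := fun {a b} ha hb γ => by rw [map_add, ha γ, hb γ]
  zero_mem' := fun γ => map_zero _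
  smul_mem' := fun c a ha γ => by rw [map_smul, ha γ]

/-- **semilinear descent** for the twisted operators -/
theorem wgbaInv_finrank_le [Module.Finite (ZMod p) W]
    (hT : GBAbsTame p N I ω F actF u e' Fil r) (ρ : Representation (ZMod p) G W)
    {t : ℕ} (ht : t < e') :
    Module.Finite (ZMod p) (wgbaInv p actF u ω ρ t) ∧
      finrank (ZMod p) (wgbaInv p actF u ω ρ t) ≤ finrank F (gbEig p F ρ I u (e' - t)) := by
  refine wgba_finrank_fixed_le (K := ZMod p) (L := F) (V := F ⊗[ZMod p] W) (Γ := G)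
    (fun γ a => actF γ a) (fun γ => (wgbaA p actF u ω ρ t γ).toAddMonoidHom)
    (fun γ => map_one _) (fun x hx => hT.act_fix x hx)
    (fun γ a v => wgbaA_semi actF u ω ρ t γ a v)
    (wgbaInv p actF u ω ρ t) (gbEig p F ρ I u (e' - t)) (fun z hz γ => hz γ)
    (fun z hz => wgbaA_fixed_mem hT ρ ht z (fun σ _ => hz σ))

/-- **the step of the dévissage** -/
theorem wgba_step_main [Module.Finite (ZMod p) W]
    (hK : GBAbsKum p (I ⊓ N) 𝒩 (Fil 0) (Fil e') ω κ)
    (hT : GBAbsTame p N I ω F actF u e' Fil r) (hN : N.Normal) (hI : I.Normal)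
    (hidx : N.index ≠ 0) (hp : ¬ p ∣ N.index)
    (ρ : Representation (ZMod p) G W) (hρ : ∀ γ ∈ N, ρ γ = 1)
    (S : Submodule (ZMod p) (G → W))
    (hS : ∀ h ∈ S, (∀ σ, σ ∉ I ⊓ N → h σ = 0) ∧
        (∀ σ τ, σ ∈ I ⊓ N → τ ∈ I ⊓ N → h (σ * τ) = h σ + h τ) ∧
        (∀ τ ∈ 𝒩, h τ = 0) ∧
        ∀ (γ τ : G), τ ∈ I ⊓ N → h (γ * τ * γ⁻¹) = ρ γ (h τ))
    {t : ℕ} (ht : t < e')
    (hfin : Module.Finite (ZMod p) ↥(S ⊓ wgbaVan p W (wgbaK hK hT (t + 1)))) :
    Module.Finite (ZMod p) ↥(S ⊓ wgbaVan p W (wgbaK hK hT t)) ∧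
      finrank (ZMod p) ↥(S ⊓ wgbaVan p W (wgbaK hK hT t)) ≤
        finrank (ZMod p) ↥(S ⊓ wgbaVan p W (wgbaK hK hT (t + 1))) +
          finrank F (gbEig p F ρ I u (e' - t)) := by
  have := hT.finite
  have : Module.Finite (ZMod p) F := Module.Finite.of_finite
  obtain ⟨D, hD⟩ := wgba_exists_D hK hT ht
  obtain ⟨hZfin, hZle⟩ := wgbaInv_finrank_le (W := W) hT ρ ht
  have key := wgba_step (k := ZMod p) (S ⊓ wgbaVan p W (wgbaK hK hT t))
    (S ⊓ wgbaVan p W (wgbaK hK hT (t + 1)))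
    (LinearMap.funLeft (ZMod p) W (Subtype.val : wgbaK hK hT (t + 1) → G))
    (fun v hv hres => ⟨hv.1, fun τ hτ => congrFun hres ⟨τ, hτ⟩⟩)
    (wgbaInv p actF u ω ρ t)
    (LinearMap.pi (fun τ : wgbaK hK hT (t + 1) =>
      (LinearMap.applyₗ (D τ.1)).comp (wgbaR (ZMod p) F W)))
    (fun v hv => by
      obtain ⟨hv1, hv2, -, hv4⟩ := hS v hv.1
      obtain ⟨z, hzfix, hz⟩ := wgba_lift hK hT hN hI hidx hp ρ hρ ht D hD v hv2 hv4 hv.2
      refine ⟨z, hzfix, ?_⟩
      funext τ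
      exact hz τ.1 τ.2)
  refine ⟨key.1, key.2.trans ?_⟩
  omega

end Main

/-- **GB-ALG, the abstract count.** -/
theorem stmtGBAlg : StmtGBAlg := by
  intro p _ G Ω _ _ _ N I 𝒩 hN hI hidx hp ω κ F _ _ actF u e' Fil r hK hT W _ _ _ ρ hρ S hS
  -- the induction along the filtration
  have main : ∀ s t : ℕ, s + t = e' →
      Module.Finite (ZMod p) ↥(S ⊓ wgbaVan p W (wgbaK hK hT t)) ∧
        finrank (ZMod p) ↥(S ⊓ wgbaVan p W (wgbaK hK hT t)) ≤
          ∑ i ∈ Finset.Icc 1 s, finrank F (gbEig p F ρ I u i) := by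
    intro s
    induction s with
    | zero =>
      intro t ht
      have hbot : S ⊓ wgbaVan p W (wgbaK hK hT t) = ⊥ := by
        rw [eq_bot_iff]
        rintro h ⟨hhS, hhV⟩
        rw [Submodule.mem_bot]
        funext σ
        by_cases hσ : σ ∈ I ⊓ N
        · have h1 : σ ∈ wgbaK hK hT t := by
            have : t = e' := by omega
            rw [this]
            exact wgbaK_top hK hT hσ
          exact hhV σ h1
        · exact (hS h hhS).1 σ hσ
      rw [hbot]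
      refine ⟨inferInstance, ?_⟩
      rw [finrank_bot]
      exact Nat.zero_le _
    | succ s ih =>
      intro t ht
      have ht' : t < e' := by omega
      obtain ⟨hfin, hle⟩ := ih (t + 1) (by omega)
      obtain ⟨h1, h2⟩ := wgba_step_main hK hT hN hI hidx hp ρ hρ S hS ht' hfin
      refine ⟨h1, ?_⟩
      have h3 : e' - t = s + 1 := by omega
      rw [h3] at h2
      rw [Finset.sum_Icc_succ_top (by omega : 1 ≤ s + 1)]
      omega
  have hle : S ≤ wgbaVan p W (wgbaK hK hT 0) := by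
    intro h hhS τ hτ
    exact (hS h hhS).2.2.1 τ (wgbaK_zero_le hK hT hτ)
  have h0 := main e' 0 (add_zero e')
  rw [inf_eq_left.2 hle] at h0
  exact h0

end Fermat.Agent.TW.W
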