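/-
TW-W / CHAR-T (helper48): the good field cut out by a level character `ψ : G_p → kˣ` and the
mod `p` cyclotomic character `ω`.

`wgbctT p ψ := ` the fixed field of `ker ψ ⊓ ker ω`.  For `ψ` level (trivial on a member of
`towerLoc p`), `k` finite of characteristic `p`:

* `wgbct_fixingSubgroup`  : `G_T = ker ψ ⊓ ker ω`;
* `wgbct_isGoodField`     : `T` is a good field (finite Galois of degree prime to `p`, `ζ_p ∈ T`);
* `wgbct_rho_eq_one`      : `G_T` acts trivially on `k(ψ) = charRep p ψ`;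
* `wgbct_smooth`, `wgbct_finiteDimensional` : `k(ψ)` is smooth and finite-dimensional;
* `wgbct_pow_pred`        : `ψ(σ)^(p-1) = 1` for `σ` in inertia (from `StmtTameGen`);
* `wgbct_pow_mem`         : `σ^(p-1) ∈ G_T` for `σ` in inertia (so `e(T/ℚ_p) ∣ p - 1`);
* `wgbct_invariants_eq_bot`, `wgbct_invariants_of_cyc` : `h⁰(k(ψ)) = 0` if `ψ ≠ 1`, e.g. if
  `ψ = ω` on inertia (`p` odd);
* `wgbct_exists_inertia_om` : `ω ≠ 1` on `inertiaQ p` (`p` odd).
-/
import Fermat.Agent.TW.W.Plan3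
import Fermat.Agent.TW.L.LTw
import Fermat.Agent.PT.B.LocalLevel
import Fermat.Agent.PT.B.CycloField
import Fermat.Agent.TW.L.FrobExistsFinal
import Fermat.Agent.TW.S.CycloRam

set_option autoImplicit false
set_option linter.style.haveILetI false
set_option linter.unusedSectionVars false

noncomputable section

namespace Fermat.Agent.TW.W

open CategoryTheory groupCohomology
open Fermat.Agent.PT Fermat.Agent.PT.B Fermat.Agent.TW.L Fermat.Agent.TW.S ExtCitation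

section

variable (p : ℕ) [Fact p.Prime]

/-- the mod `p` cyclotomic character on `G_p` -/
def wgbctOm : GQq p →* (ZMod p)ˣ := (cycloChar p).comp (localGaloisToGlobal p)

lemma wgbctOm_apply (σ : GQq p) : wgbctOm p σ = cycloChar p (localGaloisToGlobal p σ) := rfl

variable {k : Type} [Field k]

/-- `ker ψ ⊓ ker ω` -/
def wgbctH (ψ : GQq p →* kˣ) : Subgroup (GQq p) := ψ.ker ⊓ (wgbctOm p).ker

lemma wgbct_mem_H (ψ : GQq p →* kˣ) (σ : GQq p) :
    σ ∈ wgbctH p ψ ↔ ψ σ = 1 ∧ cycloChar p (localGaloisToGlobal p σ) = 1 := Iff.rfl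

instance wgbctH_normal (ψ : GQq p →* kˣ) : (wgbctH p ψ).Normal := by
  unfold wgbctH
  infer_instance

/-- the field cut out by `ψ` and `ω` -/
def wgbctT (ψ : GQq p →* kˣ) : IntermediateField ℚ_[p] (PadicAlgCl p) :=
  IntermediateField.fixedField (wgbctH p ψ)

/-- `ker ψ ⊓ ker ω` contains `Gal(ℚ̄_p/E)` for a finite extension `E/ℚ_p`. -/
theorem wgbct_exists_le (ψ : GQq p →* kˣ)
    (hψ : ∃ U ∈ (towerLoc p).lev, ∀ s ∈ U, ψ s = 1) :
    ∃ E : IntermediateField ℚ_[p] (PadicAlgCl p), FiniteDimensional ℚ_[p] E ∧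
      E.fixingSubgroup ≤ wgbctH p ψ := by
  obtain ⟨_, ⟨F, hF, rfl⟩, hU⟩ := hψ
  haveI := hF
  haveI : NeZero p := ⟨(Fact.out : p.Prime).ne_zero⟩
  refine ⟨localField p (F ⊔ cycloField p),
    stmtLocalFinite p _ (IntermediateField.finiteDimensional_sup F (cycloField p)),
    fun σ hσ => ?_⟩
  have h1 : localGaloisToGlobal p σ ∈ (F ⊔ cycloField p).fixingSubgroup :=
    (stmtLocalLevel p _ σ).2 hσ
  rw [IntermediateField.fixingSubgroup_sup] at h1
  exact ⟨MonoidHom.mem_ker.2 (hU σ h1.1),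
    MonoidHom.mem_ker.2 ((cycloChar_eq_one_iff p _).2 h1.2)⟩

/-- `G_T = ker ψ ⊓ ker ω`. -/
theorem wgbct_fixingSubgroup (ψ : GQq p →* kˣ)
    (hψ : ∃ U ∈ (towerLoc p).lev, ∀ s ∈ U, ψ s = 1) :
    (wgbctT p ψ).fixingSubgroup = wgbctH p ψ := by
  obtain ⟨E, hE, hle⟩ := wgbct_exists_le p ψ hψ
  haveI := hE
  have hopen : IsOpen (wgbctH p ψ : Set (GQq p)) :=
    Subgroup.isOpen_mono hle E.fixingSubgroup_isOpen
  have hclosed : IsClosed (wgbctH p ψ : Set (GQq p)) := Subgroup.isClosed_of_isOpen _ hopen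
  exact InfiniteGalois.fixingSubgroup_fixedField ⟨wgbctH p ψ, hclosed⟩

lemma wgbct_mem_fixingSubgroup (ψ : GQq p →* kˣ)
    (hψ : ∃ U ∈ (towerLoc p).lev, ∀ s ∈ U, ψ s = 1) (σ : GQq p) :
    σ ∈ (wgbctT p ψ).fixingSubgroup ↔
      ψ σ = 1 ∧ cycloChar p (localGaloisToGlobal p σ) = 1 := by
  rw [wgbct_fixingSubgroup p ψ hψ]
  exact wgbct_mem_H p ψ σ

/-- `p ∤ |k| - 1`. -/
theorem wgbct_not_dvd_card_units [CharP k p] [Finite k] : ¬ p ∣ Nat.card kˣ := by
  classical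
  letI : Fintype k := Fintype.ofFinite k
  obtain ⟨n, hn⟩ := FiniteField.card k p
  have hcard : Nat.card kˣ = Fintype.card k - 1 := by
    rw [Nat.card_eq_fintype_card, Fintype.card_units]
  rw [hcard, hn.2]
  intro h
  have hpos : 0 < p ^ (n : ℕ) := pow_pos (Fact.out : p.Prime).pos _
  have h1 : p ∣ p ^ (n : ℕ) := dvd_pow_self p n.ne_zero
  have h2 : p ∣ p ^ (n : ℕ) - (p ^ (n : ℕ) - 1) := Nat.dvd_sub h1 h
  have h3 : p ^ (n : ℕ) - (p ^ (n : ℕ) - 1) = 1 := by omega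
  rw [h3] at h2
  exact (Fact.out : p.Prime).one_lt.ne' (Nat.dvd_one.1 h2)

/-- `p ∤ [G_p : ker ψ ⊓ ker ω]`. -/
theorem wgbct_not_dvd_index [CharP k p] [Finite k] (ψ : GQq p →* kˣ) :
    ¬ p ∣ (wgbctH p ψ).index := by
  have hker : wgbctH p ψ = (ψ.prod (wgbctOm p)).ker := (MonoidHom.ker_prod _ _).symm
  rw [hker, Subgroup.index_ker]
  intro h
  have h1 : Nat.card ↥(ψ.prod (wgbctOm p)).range ∣ Nat.card (kˣ × (ZMod p)ˣ) :=
    Subgroup.card_subgroup_dvd_card _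
  have h2 : Nat.card (kˣ × (ZMod p)ˣ) = Nat.card kˣ * (p - 1) := by
    rw [Nat.card_prod]
    congr 1
    rw [Nat.card_eq_fintype_card, ZMod.card_units]
  rw [h2] at h1
  rcases (Nat.Prime.dvd_mul (Fact.out : p.Prime)).1 (h.trans h1) with h3 | h3
  · exact wgbct_not_dvd_card_units p h3
  · have hp1 : 1 < p := (Fact.out : p.Prime).one_lt
    have := Nat.le_of_dvd (by omega) h3
    omega

/-- **(1)** `T` is a good field. -/
theorem wgbct_isGoodField [CharP k p] [Finite k] (ψ : GQq p →* kˣ)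
    (hψ : ∃ U ∈ (towerLoc p).lev, ∀ s ∈ U, ψ s = 1) : IsGoodField p (wgbctT p ψ) := by
  obtain ⟨E, hE, hle⟩ := wgbct_exists_le p ψ hψ
  haveI := hE
  have hfix := wgbct_fixingSubgroup p ψ hψ
  have hTE : wgbctT p ψ ≤ E := by
    have h1 : IntermediateField.fixedField (wgbctH p ψ) ≤
        IntermediateField.fixedField E.fixingSubgroup := IntermediateField.fixedField_le hle
    rwa [InfiniteGalois.fixedField_fixingSubgroup] at h1
  have hfin : FiniteDimensional ℚ_[p] (wgbctT p ψ) :=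
    FiniteDimensional.of_injective (IntermediateField.inclusion hTE).toLinearMap
      (IntermediateField.inclusion hTE).injective
  have hnormal : ((wgbctT p ψ).fixingSubgroup : Subgroup (GQq p)).Normal := by
    rw [hfix]
    infer_instance
  refine ⟨hfin, (InfiniteGalois.normal_iff_isGalois _).1 hnormal, ?_, ?_⟩
  · rw [IntermediateField.finrank_eq_fixingSubgroup_index (PadicAlgCl p) (wgbctT p ψ), hfix]
    exact wgbct_not_dvd_index p ψ
  · haveI : NeZero p := ⟨(Fact.out : p.Prime).ne_zero⟩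
    obtain ⟨ζ₀, hζ₀⟩ := cycloField_exists_primitiveRoot p
    refine ⟨padicEmbedding p ζ₀, ?_, ?_, ?_⟩
    · rw [wgbctT, IntermediateField.mem_fixedField_iff]
      intro σ hσ
      have h2 := (cycloChar_eq_one_iff p _).1 ((wgbct_mem_H p ψ σ).1 hσ).2
      have h3 := (mem_fixingSubgroup_cycloField_iff _).1 h2 ζ₀ hζ₀.pow_eq_one
      rw [← padicEmbedding_localGaloisToGlobal, h3]
    · intro h
      have hinj : Function.Injective (padicEmbedding p) := (padicEmbedding p).toRingHom.injective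
      have h1 : ζ₀ = 1 := hinj (by rw [h, map_one])
      exact hζ₀.ne_one (Fact.out : p.Prime).one_lt h1
    · rw [← map_pow, hζ₀.pow_eq_one, map_one]

variable [Algebra (ZMod p) k]

/-- **(2)** `G_T` acts trivially on `k(ψ)`. -/
theorem wgbct_rho_eq_one (ψ : GQq p →* kˣ)
    (hψ : ∃ U ∈ (towerLoc p).lev, ∀ s ∈ U, ψ s = 1) :
    ∀ σ ∈ (wgbctT p ψ).fixingSubgroup, (charRep p ψ).ρ σ = 1 := by
  intro σ hσ
  have h1 : ψ σ = 1 := ((wgbct_mem_fixingSubgroup p ψ hψ σ).1 hσ).1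
  refine LinearMap.ext fun x => ?_
  have h2 : ∀ y : k, (charRep p ψ).ρ σ y = y := by
    intro y
    rw [charRep_ρ_apply, h1, Units.val_one, one_mul]
  exact h2 x

/-- **(3a)** `k(ψ)` is smooth. -/
theorem wgbct_smooth (ψ : GQq p →* kˣ)
    (hψ : ∃ U ∈ (towerLoc p).lev, ∀ s ∈ U, ψ s = 1) : IsSmoothQ p (charRep p ψ) := by
  obtain ⟨U, hU, h⟩ := hψ
  refine ⟨U, hU, fun s hs => LinearMap.ext fun x => ?_⟩
  have h2 : ∀ y : k, (charRep p ψ).ρ s y = y := by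
    intro y
    rw [charRep_ρ_apply, h s hs, Units.val_one, one_mul]
  exact h2 x

/-- **(3b)** `k(ψ)` is finite-dimensional. -/
theorem wgbct_finiteDimensional [Finite k] (ψ : GQq p →* kˣ) :
    FiniteDimensional (ZMod p) (charRep p ψ) :=
  (Module.Finite.of_finite : Module.Finite (ZMod p) k)

/-- **(4)** `ψ^(p-1) = 1` on inertia. -/
theorem wgbct_pow_pred [CharP k p] [Finite k] (hTG : StmtTameGen) (ψ : GQq p →* kˣ)
    (hψ : ∃ U ∈ (towerLoc p).lev, ∀ s ∈ U, ψ s = 1) :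
    ∀ σ ∈ inertiaQ p, ψ σ ^ (p - 1) = 1 := by
  obtain ⟨V, hV, hψV⟩ := hψ
  have hcop : Nat.Coprime p (Nat.card kˣ) :=
    (Nat.Prime.coprime_iff_not_dvd (Fact.out : p.Prime)).2 (wgbct_not_dvd_card_units p)
  obtain ⟨t, ht⟩ := hTG p (Nat.card kˣ) hcop V hV
  obtain ⟨h1, h2⟩ := ht kˣ (ψ.comp (inertiaQ p).subtype) (fun a => pow_card_eq_one')
    (fun x hx => hψV x hx)
  obtain ⟨φ, hφ⟩ := stmtFrobExists p
  have h3 : ψ (φ * (t : GQq p) * φ⁻¹) = ψ (t : GQq p) ^ p :=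
    h2 φ hφ (ltw_conj_mem_inertiaQ φ t.2)
  have h4 : ψ (φ * (t : GQq p) * φ⁻¹) = ψ (t : GQq p) := by
    rw [map_mul, map_mul, map_inv, mul_comm (ψ φ), mul_assoc, mul_inv_cancel, mul_one]
  have hp1 : p = (p - 1) + 1 := by
    have := (Fact.out : p.Prime).one_lt
    omega
  have h5 : ψ (t : GQq p) ^ (p - 1) = 1 := by
    have h6 : ψ (t : GQq p) ^ (p - 1) * ψ (t : GQq p) = 1 * ψ (t : GQq p) := by
      rw [← pow_succ, ← hp1, ← h3, h4, one_mul]
    exact mul_right_cancel h6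
  intro σ hσ
  obtain ⟨m, hm⟩ := h1 ⟨σ, hσ⟩
  have hm' : ψ σ = ψ (t : GQq p) ^ m := hm
  rw [hm', ← pow_mul, mul_comm, pow_mul, h5, one_pow]

/-- **(4′)** `σ^(p-1) ∈ G_T` for `σ` in inertia: the ramification index of `T/ℚ_p` divides
`p - 1`. -/
theorem wgbct_pow_mem [CharP k p] [Finite k] (hTG : StmtTameGen) (ψ : GQq p →* kˣ)
    (hψ : ∃ U ∈ (towerLoc p).lev, ∀ s ∈ U, ψ s = 1) :
    ∀ σ ∈ inertiaQ p, σ ^ (p - 1) ∈ (wgbctT p ψ).fixingSubgroup := by
  intro σ hσ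
  rw [wgbct_mem_fixingSubgroup p ψ hψ]
  refine ⟨by rw [map_pow]; exact wgbct_pow_pred p hTG ψ hψ σ hσ, ?_⟩
  rw [map_pow, map_pow]
  have h1 : Nat.card (ZMod p)ˣ = p - 1 := by
    rw [Nat.card_eq_fintype_card, ZMod.card_units]
  rw [← h1]
  exact pow_card_eq_one'

/-- **(5)** `h⁰(k(ψ)) = 0` if `ψ ≠ 1`. -/
theorem wgbct_invariants_eq_bot (ψ : GQq p →* kˣ) {σ : GQq p} (hσ : ψ σ ≠ 1) :
    (charRep p ψ).ρ.invariants = ⊥ := by
  rw [Submodule.eq_bot_iff]
  intro x hx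
  have h1 : (charRep p ψ).ρ σ x = x := hx σ
  have key : ∀ y : k, (charRep p ψ).ρ σ y = y → y = 0 := by
    intro y hy
    rw [charRep_ρ_apply] at hy
    by_contra hy0
    have h3 : ((ψ σ : kˣ) : k) = 1 := mul_right_cancel₀ hy0 (hy.trans (one_mul y).symm)
    exact hσ (Units.ext h3)
  exact key x h1

/-- `ω ≠ 1` on `inertiaQ p` (`p` odd). -/
theorem wgbct_exists_inertia_om (hp2 : p ≠ 2) :
    ∃ σ ∈ inertiaQ p, cycloChar p (localGaloisToGlobal p σ) ≠ 1 := by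
  obtain ⟨σ, hσ, hne⟩ := stmtCycloRam p hp2
  have hdec : σ ∈ (padicPlace p).decompositionSubgroup ℚ := by
    obtain ⟨τ', _, rfl⟩ := hσ
    exact τ'.2
  obtain ⟨τ, rfl⟩ := stmtDecFull p σ hdec
  exact ⟨τ, hσ, hne⟩

/-- **(5′)** `h⁰(k(ψ)) = 0` if `ψ = ω` on inertia (`p` odd). -/
theorem wgbct_invariants_of_cyc (hp2 : p ≠ 2) (ψ : GQq p →* kˣ) (hcyc : IsCycOnInertia p ψ) :
    (charRep p ψ).ρ.invariants = ⊥ := by
  obtain ⟨σ, hσ, hne⟩ := wgbct_exists_inertia_om p hp2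
  refine wgbct_invariants_eq_bot p ψ (σ := σ) (fun h => hne ?_)
  have h1 := hcyc σ hσ
  rw [h, Units.val_one] at h1
  have hinj : Function.Injective (algebraMap (ZMod p) k) := (algebraMap (ZMod p) k).injective
  have h2 : ((cycloChar p (localGaloisToGlobal p σ) : (ZMod p)ˣ) : ZMod p) = 1 :=
    hinj (by rw [← h1, map_one])
  exact Units.ext h2

end

end Fermat.Agent.TW.W

end
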