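/-
TW-W / CHAR-T (helper48): `stmtGBCharT : StmtGBCharT` (interface `TW/W/GBPlan.lean`), assembled from
`TW/W/GBCharT.lean` (`wgbct_*`) and `stmtTameGen` (helper86, `TW/W/StrTame.lean`).
-/
import Fermat.Agent.TW.W.GBPlan
import Fermat.Agent.TW.W.GBCharT
import Fermat.Agent.TW.W.StrTame

set_option autoImplicit false
set_option linter.style.haveILetI false

noncomputable section

namespace Fermat.Agent.TW.W

open CategoryTheory groupCohomology
open Fermat.Agent.PT Fermat.Agent.PT.B Fermat.Agent.TW.L Fermat.Agent.TW.S ExtCitation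

/-- **CHAR-T**. -/
theorem stmtGBCharT : StmtGBCharT := by
  intro p _ hp2 k _ _ _ _ ψ hψ
  refine ⟨⟨wgbctT p ψ, wgbct_isGoodField p ψ hψ, wgbct_rho_eq_one p ψ hψ⟩, wgbct_smooth p ψ hψ,
    wgbct_finiteDimensional p ψ, fun σ hσ => ?_, fun hcyc => ?_⟩
  · have h := wgbct_pow_pred p stmtTameGen ψ hψ σ hσ
    rw [← Units.val_pow_eq_pow_val, h, Units.val_one]
  · rw [wgbct_invariants_of_cyc p hp2 ψ hcyc]
    exact finrank_bot _ _

end Fermat.Agent.TW.W

end
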