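/-
TW-W, block (GB) (helper67): the final assemblies

  `stmtGBChar_of : StmtGBGen → StmtGBCharCount → StmtGBChar`
  `stmtGBIrr_of  : StmtGBGen → StmtGBIrrStr → StmtGBIrrCount → StmtGBIrr`

(`stmtGBRed`, `stmtGoodIndex` (GB1), `stmtGBCharT` (CHAR-T) and `TW.L.stmtUnrLe` are used
directly.)
-/
import Fermat.Agent.TW.W.GBPlan
import Fermat.Agent.TW.W.GB1
import Fermat.Agent.TW.W.GBCharTStmt
import Fermat.Agent.TW.L.Final
import Fermat.Agent.TW.L.AdMin
import Fermat.Agent.TW.L.AdSmooth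

set_option autoImplicit false
set_option linter.unusedSectionVars false
set_option linter.style.haveILetI false

namespace Fermat.Agent.TW.W

open CategoryTheory groupCohomology Polynomial
open Fermat.Agent.PT Fermat.Agent.PT.B Fermat.Agent.TW.L Fermat.Agent.TW.S ExtCitation

/-- a finite-dimensional subspace of dimension `0` is trivial -/
theorem gbasm_eq_bot {K V : Type*} [Field K] [AddCommGroup V] [Module K V] (S : Submodule K V)
    [Module.Finite K S] (h : Module.finrank K S = 0) : S = ⊥ :=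
  Submodule.finrank_eq_zero.1 h

/-- **(GB) for characters**. -/
theorem stmtGBChar_of (hGen : StmtGBGen) (hCount : StmtGBCharCount) : StmtGBChar := by
  intro p _ hp2 k _ _ _ _ ψ hψ
  obtain ⟨⟨T, hT, hTW⟩, hsm, hfin, hpow, hinv⟩ := stmtGBCharT p hp2 k ψ hψ
  obtain ⟨F, instF, instA, u, e', hω, hfaith, hgen⟩ := hGen p hp2 T hT
  haveI : FiniteDimensional (ZMod p) (charRep p ψ) := hfin
  obtain ⟨hgbfin, hgble⟩ := hgen (charRep p ψ) hTW
  obtain ⟨hcnt, hzero⟩ := hCount p hp2 k ψ hpow F u e' hω hfaith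
  obtain ⟨⟨hH1fin, hH1le⟩, hbot⟩ :=
    stmtGBRed stmtUnrLe stmtGoodIndex p (charRep p ψ) hsm T hT hTW hgbfin
  refine ⟨hH1fin, fun hncyc => ?_, fun hcyc => ?_⟩
  · apply hbot
    haveI := hgbfin
    apply gbasm_eq_bot
    apply Nat.le_zero.1
    refine hgble.trans (le_of_eq ?_)
    apply Finset.sum_eq_zero
    intro i hi
    rw [hzero hncyc i hi]
    exact finrank_bot F (TensorProduct (ZMod p) F (charRep p ψ))
  · calc Module.finrank (ZMod p) (levFlatH1 p (charRep p ψ))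
        ≤ Module.finrank (ZMod p) (charRep p ψ).ρ.invariants +
            Module.finrank (ZMod p) (gbHom p T (charRep p ψ)) := hH1le
      _ = Module.finrank (ZMod p) (gbHom p T (charRep p ψ)) := by rw [hinv hcyc, zero_add]
      _ ≤ _ := hgble
      _ ≤ Module.finrank (ZMod p) k := hcnt

/-- `G_T` acts trivially on `ad⁰ ρ̄` if it acts trivially on `V̄`. -/
theorem gbasm_ad0_trivial (p : ℕ) [Fact p.Prime] {k : Type} [Field k] [CharP k p]
    (ρbar : ResidualGaloisRep k) (σ : GQq p) (h : rhoLoc p ρbar σ = 1) :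
    (locRep p (ad0Rep p ρbar)).ρ σ = 1 := by
  have h1 : ρbar.ρ (localGaloisToGlobal p σ) = 1 := h
  have h2 : ρbar.ρ (localGaloisToGlobal p σ)⁻¹ = 1 := by
    have h3 : ρbar.ρ (localGaloisToGlobal p σ) * ρbar.ρ (localGaloisToGlobal p σ)⁻¹ = 1 := by
      rw [← map_mul, mul_inv_cancel, map_one]
    rw [h1, one_mul] at h3
    exact h3
  apply LinearMap.ext
  intro x
  apply ad0Val_injective p ρbar
  change ad0Val p ρbar ((ad0Rep p ρbar).ρ (localGaloisToGlobal p σ) x) = ad0Val p ρbar x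
  rw [ad0Val_ρ, h1, h2, one_mul, mul_one]

/-- **(GB) in the irreducible case**. -/
theorem stmtGBIrr_of (hGen : StmtGBGen) (hStr : StmtGBIrrStr) (hCount : StmtGBIrrCount) :
    StmtGBIrr := by
  intro p _ hp2 k _ _ _ _ ρbar hdet hsplit hirr
  obtain ⟨⟨T, hT, hTρ⟩, hsm, hinv, hstr⟩ := hStr p hp2 k ρbar hdet hsplit hirr
  obtain ⟨F, instF, instA, u, e', hω, hfaith, hgen⟩ := hGen p hp2 T hT
  haveI : FiniteDimensional (ZMod p) (locRep p (ad0Rep p ρbar)) :=
    gmin_finiteDimensional p ρbar p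
  have hTW : ∀ σ ∈ T.fixingSubgroup, (locRep p (ad0Rep p ρbar)).ρ σ = 1 :=
    fun σ hσ => gbasm_ad0_trivial p ρbar σ (hTρ σ hσ)
  obtain ⟨hgbfin, hgble⟩ := hgen (locRep p (ad0Rep p ρbar)) hTW
  have hcnt := hCount p hp2 k ρbar hstr F u e' hω hfaith
  obtain ⟨⟨hH1fin, hH1le⟩, -⟩ :=
    stmtGBRed stmtUnrLe stmtGoodIndex p (locRep p (ad0Rep p ρbar)) hsm T hT hTW hgbfin
  refine ⟨hH1fin, ?_⟩
  calc Module.finrank (ZMod p) (levFlatH1 p (locRep p (ad0Rep p ρbar)))
      ≤ Module.finrank (ZMod p) (locRep p (ad0Rep p ρbar)).ρ.invariants +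
          Module.finrank (ZMod p) (gbHom p T (locRep p (ad0Rep p ρbar))) := hH1le
    _ = Module.finrank (ZMod p) (gbHom p T (locRep p (ad0Rep p ρbar))) := by
        rw [hinv, zero_add]
    _ ≤ _ := hgble
    _ ≤ Module.finrank (ZMod p) k := hcnt

end Fermat.Agent.TW.W
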