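/-
TW-W / IRR-STR (helper48), part 1: the linear algebra (Mathlib only).

`V` a `2`-dimensional vector space over a field `k` of characteristic `p`; `g, h ∈ End V` with
`h g = g ^ p h`, `g ^ N = 1`, `p ∤ N`, split characteristic polynomials, and no line stable under
`g` and `h`.  Then (`wgis_structure`) `g` has two eigenlines `k v₁`, `k v₂` with eigenvalues
`α ≠ β`, `β = α ^ p`, `α = β ^ p`, swapped by `h`.  Consequences: every product of powers of `g`
and `h` is monomial in the basis `v₁, v₂` (`wgis_mono_*`), so has order dividing `2 (|k| - 1)`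
(`wgis_pow_eq_one`), and only `0` is a trace zero endomorphism commuting with `g` and `h`
(`wgis_comm_zero`).
-/
import Mathlib

set_option autoImplicit false
set_option linter.style.haveILetI false
set_option linter.unusedSectionVars false

namespace Fermat.Agent.TW.W

open Polynomial

section Alg

variable {k : Type*} [Field k] {V : Type*} [AddCommGroup V] [Module k V]

/-- Cayley–Hamilton for a split characteristic polynomial, on vectors. -/
theorem wgis_cayley [Module.Finite k V] (g : Module.End k V) (α β : k)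
    (hchar : g.charpoly = (X - C α) * (X - C β)) (w : V) :
    g (g w - β • w) = α • (g w - β • w) := by
  have h1 := LinearMap.aeval_self_charpoly g
  rw [hchar] at h1
  have h2 := congrArg (fun f : Module.End k V => f w) h1
  simp only [map_mul, map_sub, aeval_X, aeval_C, Module.End.mul_apply, LinearMap.sub_apply,
    Module.algebraMap_end_apply, LinearMap.zero_apply] at h2
  rw [sub_eq_zero, sub_eq_sub_iff_add_eq_add] at h2
  rw [map_sub, smul_sub, sub_eq_sub_iff_add_eq_add, h2, add_comm]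

/-- the same with the two roots exchanged -/
theorem wgis_cayley' [Module.Finite k V] (g : Module.End k V) (α β : k)
    (hchar : g.charpoly = (X - C α) * (X - C β)) (w : V) :
    g (g w - α • w) = β • (g w - α • w) :=
  wgis_cayley g β α (by rw [hchar, mul_comm]) w

/-- an eigenvector for `α`, unless `g = β` -/
theorem wgis_exists_eigen [Module.Finite k V] (g : Module.End k V) (α β : k)
    (hchar : g.charpoly = (X - C α) * (X - C β)) (hβ : ∃ w : V, g w ≠ β • w) :
    ∃ v : V, v ≠ 0 ∧ g v = α • v := by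
  obtain ⟨w, hw⟩ := hβ
  exact ⟨g w - β • w, sub_ne_zero.2 hw, wgis_cayley g α β hchar w⟩

/-- some eigenvector -/
theorem wgis_exists_eigen_some [Module.Finite k V] [Nontrivial V] (g : Module.End k V) (α β : k)
    (hchar : g.charpoly = (X - C α) * (X - C β)) :
    ∃ (v : V) (c : k), v ≠ 0 ∧ g v = c • v := by
  by_cases hβ : ∃ w : V, g w ≠ β • w
  · obtain ⟨v, hv, hv'⟩ := wgis_exists_eigen g α β hchar hβ
    exact ⟨v, α, hv, hv'⟩
  · obtain ⟨v, hv⟩ := exists_ne (0 : V)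
    refine ⟨v, β, hv, ?_⟩
    by_contra h
    exact hβ ⟨v, h⟩

/-- powers of an operator on an eigenvector -/
theorem wgis_pow_eigen (g : Module.End k V) {v : V} {a : k} (hv : g v = a • v) (n : ℕ) :
    (g ^ n) v = a ^ n • v := by
  induction n with
  | zero => simp
  | succ n ih =>
    rw [pow_succ, Module.End.mul_apply, hv, map_smul, ih, smul_smul, pow_succ, mul_comm]

/-- a non-semisimple `g` with a double eigenvalue has order divisible by the characteristic -/
theorem wgis_not_double (g : Module.End k V) (α : k) {w : V} (hw : g w - α • w ≠ 0)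
    (hu : g (g w - α • w) = α • (g w - α • w)) (N : ℕ) (hN : (N : k) ≠ 0) (hgN : g ^ N = 1) :
    False := by
  set u : V := g w - α • w with hudef
  have hgw : g w = α • w + u := by rw [hudef]; abel
  have hN0 : N ≠ 0 := by
    rintro rfl
    exact hN Nat.cast_zero
  obtain ⟨j, rfl⟩ := Nat.exists_eq_succ_of_ne_zero hN0
  have key : ∀ n : ℕ, (g ^ (n + 1)) w = α ^ (n + 1) • w + (((n + 1 : ℕ) : k) * α ^ n) • u := by
    intro n
    induction n with
    | zero => simp [hgw]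
    | succ n ih =>
      rw [pow_succ', Module.End.mul_apply, ih, map_add, map_smul, map_smul, hgw, hu]
      simp only [smul_add, smul_smul, pow_succ]
      push_cast
      module
  have h1 : (g ^ (j + 1)) u = α ^ (j + 1) • u := wgis_pow_eigen g hu (j + 1)
  rw [hgN, Module.End.one_apply] at h1
  have hα : α ^ (j + 1) = 1 := by
    have h2 : (α ^ (j + 1) - 1) • u = 0 := by rw [sub_smul, one_smul, ← h1, sub_self]
    rcases smul_eq_zero.1 h2 with h3 | h3
    · exact sub_eq_zero.1 h3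
    · exact absurd h3 hw
  have hα0 : α ≠ 0 := by
    rintro rfl
    rw [zero_pow (Nat.succ_ne_zero j)] at hα
    exact zero_ne_one hα
  have h3 := key j
  rw [hgN, Module.End.one_apply, hα, one_smul] at h3
  have h4 : (((j + 1 : ℕ) : k) * α ^ j) • u = 0 := by
    have := h3.symm
    rwa [add_eq_left] at this
  rcases smul_eq_zero.1 h4 with h5 | h5
  · rcases mul_eq_zero.1 h5 with h6 | h6
    · exact hN h6
    · exact hα0 (pow_eq_zero_iff (n := j) (by
        rintro rfl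
        rw [pow_zero] at h6
        exact one_ne_zero h6) |>.1 h6)
  · exact hw h5

/-- **L1**: `g` of order prime to the characteristic with split characteristic polynomial is
scalar or has two eigenvectors with distinct eigenvalues. -/
theorem wgis_eigen_split [Module.Finite k V] (g : Module.End k V) (α β : k)
    (hchar : g.charpoly = (X - C α) * (X - C β)) (N : ℕ) (hN : (N : k) ≠ 0)
    (hgN : g ^ N = 1) :
    (∃ c : k, ∀ w : V, g w = c • w) ∨
      (α ≠ β ∧ ∃ v₁ v₂ : V, v₁ ≠ 0 ∧ v₂ ≠ 0 ∧ g v₁ = α • v₁ ∧ g v₂ = β • v₂) := by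
  by_cases hα : ∀ w : V, g w = α • w
  · exact Or.inl ⟨α, hα⟩
  by_cases hβ : ∀ w : V, g w = β • w
  · exact Or.inl ⟨β, hβ⟩
  right
  have hα' : ∃ w : V, g w ≠ α • w := by
    by_contra h
    exact hα (fun w => by
      by_contra h'
      exact h ⟨w, h'⟩)
  have hβ' : ∃ w : V, g w ≠ β • w := by
    by_contra h
    exact hβ (fun w => by
      by_contra h'
      exact h ⟨w, h'⟩)
  have hne : α ≠ β := by
    rintro rfl
    obtain ⟨w, hw⟩ := hα'
    exact wgis_not_double g α (sub_ne_zero.2 hw) (wgis_cayley g α α hchar w) N hN hgN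
  obtain ⟨v₁, hv₁, hv₁'⟩ := wgis_exists_eigen g α β hchar hβ'
  obtain ⟨v₂, hv₂, hv₂'⟩ := wgis_exists_eigen g β α (by rw [hchar, mul_comm]) hα'
  exact ⟨hne, v₁, v₂, hv₁, hv₂, hv₁', hv₂'⟩

/-- eigenvectors for distinct eigenvalues are linearly independent -/
theorem wgis_linearIndependent (g : Module.End k V) {α β : k} (hne : α ≠ β) {v₁ v₂ : V}
    (hv₁ : v₁ ≠ 0) (hv₂ : v₂ ≠ 0) (h₁ : g v₁ = α • v₁) (h₂ : g v₂ = β • v₂) :
    LinearIndependent k ![v₁, v₂] := by
  rw [LinearIndependent.pair_iff]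
  intro s t hst
  have h1 : g (s • v₁ + t • v₂) = 0 := by rw [hst, map_zero]
  rw [map_add, map_smul, map_smul, h₁, h₂] at h1
  have h2 : (t * (β - α)) • v₂ = 0 := by
    have h3 : s • α • v₁ + t • β • v₂ - α • (s • v₁ + t • v₂) = 0 := by
      rw [h1, hst, smul_zero, sub_zero]
    rw [← h3]
    module
  have ht : t = 0 := by
    rcases smul_eq_zero.1 h2 with h3 | h3
    · rcases mul_eq_zero.1 h3 with h4 | h4
      · exact h4
      · exact absurd (sub_eq_zero.1 h4).symm hne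
    · exact absurd h3 hv₂
  rw [ht, zero_smul, add_zero] at hst
  rcases smul_eq_zero.1 hst with h3 | h3
  · exact ⟨h3, ht⟩
  · exact absurd h3 hv₁

/-- two independent vectors span a plane -/
theorem wgis_span_two [Module.Finite k V] (hfr : Module.finrank k V = 2) {v₁ v₂ : V}
    (hli : LinearIndependent k ![v₁, v₂]) (x : V) : ∃ a b : k, x = a • v₁ + b • v₂ := by
  have hcard : Fintype.card (Fin 2) = Module.finrank k V := by rw [hfr]; rfl
  let b := basisOfLinearIndependentOfCardEqFinrank hli hcard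
  have h1 := b.sum_repr x
  rw [Fin.sum_univ_two] at h1
  refine ⟨b.repr x 0, b.repr x 1, ?_⟩
  have hb0 : b 0 = v₁ := by simp [b]
  have hb1 : b 1 = v₂ := by simp [b]
  rw [hb0, hb1] at h1
  exact h1.symm

/-- uniqueness of coordinates -/
theorem wgis_coord_unique {v₁ v₂ : V} (hli : LinearIndependent k ![v₁, v₂]) {a b a' b' : k}
    (h : a • v₁ + b • v₂ = a' • v₁ + b' • v₂) : a = a' ∧ b = b' := by
  rw [LinearIndependent.pair_iff] at hli
  have h1 : (a - a') • v₁ + (b - b') • v₂ = 0 := by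
    rw [sub_smul, sub_smul]
    have := sub_eq_zero.2 h
    rw [← this]
    abel
  obtain ⟨h2, h3⟩ := hli _ _ h1
  exact ⟨sub_eq_zero.1 h2, sub_eq_zero.1 h3⟩

/-- an endomorphism is determined by its values on two independent vectors -/
theorem wgis_ext_two [Module.Finite k V] (hfr : Module.finrank k V = 2) {v₁ v₂ : V}
    (hli : LinearIndependent k ![v₁, v₂]) {x y : Module.End k V} (h₁ : x v₁ = y v₁)
    (h₂ : x v₂ = y v₂) : x = y := by
  refine LinearMap.ext fun w => ?_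
  obtain ⟨a, b, rfl⟩ := wgis_span_two hfr hli w
  rw [map_add, map_add, map_smul, map_smul, map_smul, map_smul, h₁, h₂]

/-- a line `k w` stable under `g` and `h` contradicts irreducibility -/
theorem wgis_no_stable_line [Module.Finite k V] (hfr : Module.finrank k V = 2)
    (g h : Module.End k V)
    (hirr : ∀ W : Submodule k V, (∀ w ∈ W, g w ∈ W) → (∀ w ∈ W, h w ∈ W) → W = ⊥ ∨ W = ⊤)
    {w : V} (hw : w ≠ 0) {c d : k} (hg : g w = c • w) (hh : h w = d • w) : False := by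
  have hst : ∀ (f : Module.End k V) (e : k), f w = e • w →
      ∀ x ∈ Submodule.span k {w}, f x ∈ Submodule.span k {w} := by
    intro f e hf x hx
    obtain ⟨a, rfl⟩ := Submodule.mem_span_singleton.1 hx
    rw [map_smul, hf]
    exact Submodule.smul_mem _ _ (Submodule.smul_mem _ _ (Submodule.mem_span_singleton_self w))
  rcases hirr (Submodule.span k {w}) (hst g c hg) (hst h d hh) with h1 | h1
  · exact hw (Submodule.span_singleton_eq_bot.1 h1)
  · have h2 : Module.finrank k (Submodule.span k {w}) = 1 := finrank_span_singleton hw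
    rw [h1, finrank_top, hfr] at h2
    omega

/-- **L2** (the structure): two eigenlines of `g` swapped by `h`. -/
theorem wgis_structure [Module.Finite k V] (hfr : Module.finrank k V = 2) (p : ℕ)
    (g h : Module.End k V)
    (hirr : ∀ W : Submodule k V, (∀ w ∈ W, g w ∈ W) → (∀ w ∈ W, h w ∈ W) → W = ⊥ ∨ W = ⊤)
    (hcomm : h * g = g ^ p * h) (N : ℕ) (hN : (N : k) ≠ 0) (hgN : g ^ N = 1)
    (α β : k) (hg : g.charpoly = (X - C α) * (X - C β))
    (μ ν : k) (hh : h.charpoly = (X - C μ) * (X - C ν)) :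
    α ≠ β ∧ β = α ^ p ∧ α = β ^ p ∧ ∃ v₁ v₂ : V, LinearIndependent k ![v₁, v₂] ∧
      g v₁ = α • v₁ ∧ g v₂ = β • v₂ ∧ (∃ b : k, h v₁ = b • v₂) ∧ ∃ c : k, h v₂ = c • v₁ := by
  haveI : Nontrivial V := Module.nontrivial_of_finrank_pos (R := k) (by rw [hfr]; norm_num)
  rcases wgis_eigen_split g α β hg N hN hgN with ⟨c, hc⟩ | ⟨hne, v₁, v₂, hv₁, hv₂, h₁, h₂⟩
  · exfalso
    obtain ⟨w, d, hw, hhw⟩ := wgis_exists_eigen_some h μ ν hh
    exact wgis_no_stable_line hfr g h hirr hw (hc w) hhw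
  have hli := wgis_linearIndependent g hne hv₁ hv₂ h₁ h₂
  obtain ⟨a, b, hab⟩ := wgis_span_two hfr hli (h v₁)
  obtain ⟨c, d, hcd⟩ := wgis_span_two hfr hli (h v₂)
  have hgp : ∀ x y : k, (g ^ p) (x • v₁ + y • v₂) = (x * α ^ p) • v₁ + (y * β ^ p) • v₂ := by
    intro x y
    rw [map_add, map_smul, map_smul, wgis_pow_eigen g h₁, wgis_pow_eigen g h₂, smul_smul,
      smul_smul]
  have key1 : (a * α ^ p) • v₁ + (b * β ^ p) • v₂ = (α * a) • v₁ + (α * b) • v₂ := by
    have e1 : (g ^ p) (h v₁) = α • h v₁ := by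
      rw [← Module.End.mul_apply, ← hcomm, Module.End.mul_apply, h₁, map_smul]
    rw [hab, hgp] at e1
    rw [e1, smul_add, smul_smul, smul_smul]
  have key2 : (c * α ^ p) • v₁ + (d * β ^ p) • v₂ = (β * c) • v₁ + (β * d) • v₂ := by
    have e1 : (g ^ p) (h v₂) = β • h v₂ := by
      rw [← Module.End.mul_apply, ← hcomm, Module.End.mul_apply, h₂, map_smul]
    rw [hcd, hgp] at e1
    rw [e1, smul_add, smul_smul, smul_smul]
  obtain ⟨ka, kb⟩ := wgis_coord_unique hli key1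
  obtain ⟨kc, kd⟩ := wgis_coord_unique hli key2
  have hb : b ≠ 0 := by
    rintro rfl
    rw [zero_smul, add_zero] at hab
    exact wgis_no_stable_line hfr g h hirr hv₁ h₁ hab
  have hc : c ≠ 0 := by
    rintro rfl
    rw [zero_smul, zero_add] at hcd
    exact wgis_no_stable_line hfr g h hirr hv₂ h₂ hcd
  have hβp : β ^ p = α := by
    have : b * β ^ p = b * α := by rw [kb, mul_comm]
    exact mul_left_cancel₀ hb this
  have hαp : α ^ p = β := by
    have : c * α ^ p = c * β := by rw [kc, mul_comm]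
    exact mul_left_cancel₀ hc this
  have ha : a = 0 := by
    rw [hαp] at ka
    have h3 : a * (β - α) = 0 := by rw [mul_sub, ka]; ring
    rcases mul_eq_zero.1 h3 with h4 | h4
    · exact h4
    · exact absurd (sub_eq_zero.1 h4).symm hne
  have hd : d = 0 := by
    rw [hβp] at kd
    have h3 : d * (α - β) = 0 := by rw [mul_sub, kd]; ring
    rcases mul_eq_zero.1 h3 with h4 | h4
    · exact h4
    · exact absurd (sub_eq_zero.1 h4) hne
  refine ⟨hne, hαp.symm, hβp.symm, v₁, v₂, hli, h₁, h₂, ⟨b, ?_⟩, ⟨c, ?_⟩⟩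
  · rw [hab, ha, zero_smul, zero_add]
  · rw [hcd, hd, zero_smul, add_zero]

/-! ### Monomial endomorphisms -/

/-- diagonal or anti-diagonal with respect to `v₁, v₂` -/
def WgisMono (v₁ v₂ : V) (x : Module.End k V) : Prop :=
  ((∃ a : k, x v₁ = a • v₁) ∧ ∃ d : k, x v₂ = d • v₂) ∨
    ((∃ b : k, x v₁ = b • v₂) ∧ ∃ c : k, x v₂ = c • v₁)

theorem wgisMono_one (v₁ v₂ : V) : WgisMono v₁ v₂ (1 : Module.End k V) :=
  Or.inl ⟨⟨1, by simp⟩, ⟨1, by simp⟩⟩

theorem wgisMono_mul {v₁ v₂ : V} {x y : Module.End k V} (hx : WgisMono v₁ v₂ x)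
    (hy : WgisMono v₁ v₂ y) : WgisMono v₁ v₂ (x * y) := by
  rcases hx with ⟨⟨a, ha⟩, ⟨d, hd⟩⟩ | ⟨⟨b, hb⟩, ⟨c, hc⟩⟩ <;>
  rcases hy with ⟨⟨a', ha'⟩, ⟨d', hd'⟩⟩ | ⟨⟨b', hb'⟩, ⟨c', hc'⟩⟩
  · exact Or.inl ⟨⟨a' * a, by rw [Module.End.mul_apply, ha', map_smul, ha, smul_smul]⟩,
      ⟨d' * d, by rw [Module.End.mul_apply, hd', map_smul, hd, smul_smul]⟩⟩
  · exact Or.inr ⟨⟨b' * d, by rw [Module.End.mul_apply, hb', map_smul, hd, smul_smul]⟩,
      ⟨c' * a, by rw [Module.End.mul_apply, hc', map_smul, ha, smul_smul]⟩⟩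
  · exact Or.inr ⟨⟨a' * b, by rw [Module.End.mul_apply, ha', map_smul, hb, smul_smul]⟩,
      ⟨d' * c, by rw [Module.End.mul_apply, hd', map_smul, hc, smul_smul]⟩⟩
  · exact Or.inl ⟨⟨b' * c, by rw [Module.End.mul_apply, hb', map_smul, hc, smul_smul]⟩,
      ⟨c' * b, by rw [Module.End.mul_apply, hc', map_smul, hb, smul_smul]⟩⟩

theorem wgisMono_pow {v₁ v₂ : V} {x : Module.End k V} (hx : WgisMono v₁ v₂ x) (n : ℕ) :
    WgisMono v₁ v₂ (x ^ n) := by
  induction n with
  | zero => rw [pow_zero]; exact wgisMono_one v₁ v₂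
  | succ n ih => rw [pow_succ]; exact wgisMono_mul ih hx

/-- the square of a monomial endomorphism is diagonal -/
theorem wgisMono_sq {v₁ v₂ : V} {x : Module.End k V} (hx : WgisMono v₁ v₂ x) :
    (∃ a : k, (x * x) v₁ = a • v₁) ∧ ∃ d : k, (x * x) v₂ = d • v₂ := by
  rcases hx with ⟨⟨a, ha⟩, ⟨d, hd⟩⟩ | ⟨⟨b, hb⟩, ⟨c, hc⟩⟩
  · exact ⟨⟨a * a, by rw [Module.End.mul_apply, ha, map_smul, ha, smul_smul]⟩,
      ⟨d * d, by rw [Module.End.mul_apply, hd, map_smul, hd, smul_smul]⟩⟩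
  · exact ⟨⟨b * c, by rw [Module.End.mul_apply, hb, map_smul, hc, smul_smul]⟩,
      ⟨c * b, by rw [Module.End.mul_apply, hc, map_smul, hb, smul_smul]⟩⟩

/-- **L3**: an injective monomial endomorphism has order dividing `2 E`, `E` an exponent of
`kˣ`. -/
theorem wgis_pow_eq_one [Module.Finite k V] (hfr : Module.finrank k V = 2) {v₁ v₂ : V}
    (hli : LinearIndependent k ![v₁, v₂]) (E : ℕ) (hE : ∀ a : k, a ≠ 0 → a ^ E = 1)
    {x : Module.End k V} (hx : WgisMono v₁ v₂ x) (hinj : Function.Injective x) :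
    x ^ (2 * E) = 1 := by
  have hv₁ : v₁ ≠ 0 := hli.ne_zero 0
  have hv₂ : v₂ ≠ 0 := hli.ne_zero 1
  obtain ⟨⟨a, ha⟩, ⟨d, hd⟩⟩ := wgisMono_sq hx
  have hinj2 : Function.Injective (x * x) := by
    intro u v huv
    rw [Module.End.mul_apply, Module.End.mul_apply] at huv
    exact hinj (hinj huv)
  have ha0 : a ≠ 0 := by
    rintro rfl
    rw [zero_smul] at ha
    exact hv₁ (hinj2 (ha.trans (map_zero _).symm))
  have hd0 : d ≠ 0 := by
    rintro rfl
    rw [zero_smul] at hd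
    exact hv₂ (hinj2 (hd.trans (map_zero _).symm))
  rw [pow_mul, pow_two]
  refine wgis_ext_two hfr hli ?_ ?_
  · rw [wgis_pow_eigen _ ha, hE a ha0, one_smul, Module.End.one_apply]
  · rw [wgis_pow_eigen _ hd, hE d hd0, one_smul, Module.End.one_apply]

/-- **L4**: only `0` is a trace zero endomorphism commuting with `g` and `h`. -/
theorem wgis_comm_zero [Module.Finite k V] (hfr : Module.finrank k V = 2) {v₁ v₂ : V}
    (hli : LinearIndependent k ![v₁, v₂]) {α β : k} (hne : α ≠ β) (g h : Module.End k V)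
    (h₁ : g v₁ = α • v₁) (h₂ : g v₂ = β • v₂) {b : k} (hb : b ≠ 0) (hhv : h v₁ = b • v₂)
    (h2 : (2 : k) ≠ 0) (Y : Module.End k V) (hYg : Y * g = g * Y) (hYh : Y * h = h * Y)
    (htr : LinearMap.trace k V Y = 0) : Y = 0 := by
  obtain ⟨a, b', hab⟩ := wgis_span_two hfr hli (Y v₁)
  obtain ⟨c', d, hcd⟩ := wgis_span_two hfr hli (Y v₂)
  have e1 : g (Y v₁) = α • Y v₁ := by
    rw [← Module.End.mul_apply, ← hYg, Module.End.mul_apply, h₁, map_smul]
  have e2 : g (Y v₂) = β • Y v₂ := by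
    rw [← Module.End.mul_apply, ← hYg, Module.End.mul_apply, h₂, map_smul]
  rw [hab, map_add, map_smul, map_smul, h₁, h₂, smul_add, smul_smul, smul_smul, smul_smul,
    smul_smul] at e1
  rw [hcd, map_add, map_smul, map_smul, h₁, h₂, smul_add, smul_smul, smul_smul, smul_smul,
    smul_smul] at e2
  obtain ⟨-, k1⟩ := wgis_coord_unique hli e1
  obtain ⟨k2, -⟩ := wgis_coord_unique hli e2
  have hb' : b' = 0 := by
    have h3 : b' * (β - α) = 0 := by rw [mul_sub, k1]; ring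
    rcases mul_eq_zero.1 h3 with h4 | h4
    · exact h4
    · exact absurd (sub_eq_zero.1 h4).symm hne
  have hc' : c' = 0 := by
    have h3 : c' * (α - β) = 0 := by rw [mul_sub, k2]; ring
    rcases mul_eq_zero.1 h3 with h4 | h4
    · exact h4
    · exact absurd (sub_eq_zero.1 h4) hne
  rw [hb', zero_smul, add_zero] at hab
  rw [hc', zero_smul, zero_add] at hcd
  -- `d = a`
  have e3 : Y (h v₁) = h (Y v₁) := by
    rw [← Module.End.mul_apply, hYh, Module.End.mul_apply]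
  rw [hhv, map_smul, hcd, hab, map_smul, hhv, smul_smul, smul_smul] at e3
  have hv₂ : v₂ ≠ 0 := hli.ne_zero 1
  have hda : d = a := by
    have h3 : (b * d - a * b) • v₂ = 0 := by rw [sub_smul, e3, sub_self]
    rcases smul_eq_zero.1 h3 with h4 | h4
    · have h5 : b * (d - a) = 0 := by rw [mul_sub]; rw [← h4]; ring
      rcases mul_eq_zero.1 h5 with h6 | h6
      · exact absurd h6 hb
      · exact sub_eq_zero.1 h6
    · exact absurd h4 hv₂
  -- the trace
  have hcard : Fintype.card (Fin 2) = Module.finrank k V := by rw [hfr]; rfl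
  let bs := basisOfLinearIndependentOfCardEqFinrank hli hcard
  have hb0 : bs 0 = v₁ := by simp [bs]
  have hb1 : bs 1 = v₂ := by simp [bs]
  have htr' : LinearMap.trace k V Y = a + d := by
    rw [LinearMap.trace_eq_matrix_trace k bs Y, Matrix.trace_fin_two,
      LinearMap.toMatrix_apply, LinearMap.toMatrix_apply, hb0, hb1, hab, hcd, ← hb0, ← hb1]
    simp
  rw [htr, hda] at htr'
  have ha : a = 0 := by
    have h3 : (2 : k) * a = 0 := by rw [two_mul]; exact htr'.symm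
    rcases mul_eq_zero.1 h3 with h4 | h4
    · exact absurd h4 h2
    · exact h4
  refine wgis_ext_two hfr hli ?_ ?_
  · rw [hab, ha, zero_smul, LinearMap.zero_apply]
  · rw [hcd, hda, ha, zero_smul, LinearMap.zero_apply]

end Alg

/-! ### The group theory -/

section Grp

/-- a group of operators of `p`-power order on a nonzero finite vector space of characteristic `p`
has a nonzero fixed vector -/
theorem wgis_exists_fixed {k : Type*} [Field k] [Finite k] (p : ℕ) [Fact p.Prime] [CharP k p]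
    {V : Type*} [AddCommGroup V] [Module k V] [Module.Finite k V] [Nontrivial V]
    {J : Type*} [Group J] (ρ : J →* Module.End k V) (K : Subgroup J)
    (hK : ∀ y ∈ K, ∃ m : ℕ, ρ y ^ (p ^ m) = 1) :
    ∃ v : V, v ≠ 0 ∧ ∀ y ∈ K, ρ y v = v := by
  classical
  haveI : Finite V := Module.finite_of_finite k
  let ρU : J →* (Module.End k V)ˣ := ρ.toHomUnits
  have hρU : ∀ y : J, ((ρU y : (Module.End k V)ˣ) : Module.End k V) = ρ y := fun y => rfl
  let P : Subgroup (Module.End k V)ˣ := K.map ρU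
  have hP : IsPGroup p ↥P := by
    rintro ⟨x, y, hy, rfl⟩
    obtain ⟨m, hm⟩ := hK y hy
    refine ⟨m, Subtype.ext (Units.ext ?_)⟩
    show ((ρU y ^ p ^ m : (Module.End k V)ˣ) : Module.End k V) = 1
    rw [Units.val_pow_eq_pow_val, hρU, hm]
  have hcard : p ∣ Nat.card V := by
    have h1 : Nat.card V = Nat.card k ^ Module.finrank k V := Module.natCard_eq_pow_finrank
    have h2 : p ∣ Nat.card k := by
      letI : Fintype k := Fintype.ofFinite k
      obtain ⟨n, hn⟩ := FiniteField.card k p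
      rw [Nat.card_eq_fintype_card, hn.2]
      exact dvd_pow_self p n.ne_zero
    rw [h1]
    exact dvd_pow h2 (Module.finrank_pos (R := k) (M := V)).ne'
  have h0 : (0 : V) ∈ MulAction.fixedPoints ↥P V := by
    intro x
    show ((x : (Module.End k V)ˣ) : Module.End k V) (0 : V) = 0
    exact map_zero _
  obtain ⟨b, hb, hb0⟩ := hP.exists_fixed_point_of_prime_dvd_card_of_fixed_point V hcard h0
  refine ⟨b, fun h => hb0 h.symm, fun y hy => ?_⟩
  have := hb ⟨ρU y, ⟨y, hy, rfl⟩⟩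
  exact this

variable {k : Type*} [Field k] [Finite k] (p : ℕ) [Fact p.Prime] [CharP k p]
  {V : Type*} [AddCommGroup V] [Module k V] [Module.Finite k V]
  {G : Type*} [Group G] (ρ : G →* Module.End k V) (I : Subgroup G)
  {B : Type*} [CommGroup B] (Θ : ↥I →* B)

/-- **wild inertia acts trivially** on an irreducible representation -/
theorem wgis_wild_trivial (hfr : Module.finrank k V = 2)
    (hIn : ∀ (γ : G), ∀ σ ∈ I, γ * σ * γ⁻¹ ∈ I) (hB : ∀ b : B, b ^ p = 1 → b = 1) (φ : G)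
    (hθ1 : ∀ y : ↥I, Θ y = 1 → ∃ m : ℕ, ρ (y : G) ^ (p ^ m) = 1)
    (hθ3 : ∀ s s' : ↥I, (s' : G) = φ * (s : G) * φ⁻¹ → Θ s' = Θ s ^ p)
    (hgen : ∀ τ : G, ∃ (j : ℕ) (i : G), i ∈ I ∧ ρ τ = ρ φ ^ j * ρ i)
    (hirr : ∀ W : Submodule k V, (∀ τ : G, ∀ w ∈ W, ρ τ w ∈ W) → W = ⊥ ∨ W = ⊤) :
    ∀ y : ↥I, Θ y = 1 → ρ (y : G) = 1 := by
  haveI : Nontrivial V := Module.nontrivial_of_finrank_pos (R := k) (by rw [hfr]; norm_num)
  let W : Submodule k V :=
    { carrier := {v | ∀ y : ↥I, Θ y = 1 → ρ (y : G) v = v}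
      add_mem' := fun {a b} ha hb y hy => by rw [map_add, ha y hy, hb y hy]
      zero_mem' := fun y _ => map_zero _
      smul_mem' := fun c {a} ha y hy => by rw [map_smul, ha y hy] }
  have hWne : W ≠ ⊥ := by
    obtain ⟨v, hv, hv'⟩ := wgis_exists_fixed p (ρ.comp I.subtype) Θ.ker
      (fun y hy => hθ1 y (MonoidHom.mem_ker.1 hy))
    intro h
    have hvW : v ∈ W := fun y hy => hv' y (MonoidHom.mem_ker.2 hy)
    rw [h, Submodule.mem_bot] at hvW
    exact hv hvW
  have hstI : ∀ i ∈ I, ∀ w ∈ W, ρ i w ∈ W := by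
    intro i hi w hw y hy
    have hy' : Θ ((⟨i, hi⟩ : ↥I)⁻¹ * y * ⟨i, hi⟩) = 1 := by
      rw [map_mul, map_mul, map_inv, hy, mul_one, inv_mul_cancel]
    have h1 := hw _ hy'
    have h2 : (y : G) * i = i * (((⟨i, hi⟩ : ↥I)⁻¹ * y * ⟨i, hi⟩ : ↥I) : G) := by
      show (y : G) * i = i * (i⁻¹ * (y : G) * i)
      group
    rw [← Module.End.mul_apply, ← map_mul, h2, map_mul, Module.End.mul_apply, h1]
  have hstφ : ∀ w ∈ W, ρ φ w ∈ W := by
    intro w hw y hy
    have hmem : φ⁻¹ * (y : G) * φ ∈ I := by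
      have := hIn φ⁻¹ y y.2
      rwa [inv_inv] at this
    have h3 : Θ y = Θ ⟨φ⁻¹ * (y : G) * φ, hmem⟩ ^ p := by
      refine hθ3 ⟨φ⁻¹ * (y : G) * φ, hmem⟩ y ?_
      show (y : G) = φ * (φ⁻¹ * (y : G) * φ) * φ⁻¹
      group
    have hy' : Θ ⟨φ⁻¹ * (y : G) * φ, hmem⟩ = 1 := hB _ (by rw [← h3, hy])
    have h1 := hw _ hy'
    have h2 : (y : G) * φ = φ * (φ⁻¹ * (y : G) * φ) := by group
    rw [← Module.End.mul_apply, ← map_mul, h2, map_mul, Module.End.mul_apply]
    exact congrArg (ρ φ) h1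
  have hst : ∀ τ : G, ∀ w ∈ W, ρ τ w ∈ W := by
    intro τ w hw
    obtain ⟨j, i, hi, hτ⟩ := hgen τ
    rw [hτ, Module.End.mul_apply]
    have hpow : ∀ (n : ℕ), ∀ u ∈ W, (ρ φ ^ n) u ∈ W := by
      intro n
      induction n with
      | zero => intro u hu; simpa using hu
      | succ n ih =>
        intro u hu
        rw [pow_succ, Module.End.mul_apply]
        exact ih _ (hstφ u hu)
    exact hpow j _ (hstI i hi w hw)
  rcases hirr W hst with h | h
  · exact absurd h hWne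
  · intro y hy
    refine LinearMap.ext fun v => ?_
    have hv : v ∈ W := by rw [h]; trivial
    exact hv y hy

/-- **the structure of an irreducible representation of a group with a tame quotient of
inertia** -/
theorem wgis_abstract (hfr : Module.finrank k V = 2)
    (hIn : ∀ (γ : G), ∀ σ ∈ I, γ * σ * γ⁻¹ ∈ I) [Finite B] (hB : ∀ b : B, b ^ p = 1 → b = 1)
    (t : ↥I) (φ : G)
    (hθ1 : ∀ y : ↥I, Θ y = 1 → ∃ m : ℕ, ρ (y : G) ^ (p ^ m) = 1)
    (hθ2 : ∀ x : ↥I, ∃ n : ℕ, Θ x = Θ t ^ n)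
    (hθ3 : ∀ s s' : ↥I, (s' : G) = φ * (s : G) * φ⁻¹ → Θ s' = Θ s ^ p)
    (hgen : ∀ τ : G, ∃ (j : ℕ) (i : G), i ∈ I ∧ ρ τ = ρ φ ^ j * ρ i)
    (hirr : ∀ W : Submodule k V, (∀ τ : G, ∀ w ∈ W, ρ τ w ∈ W) → W = ⊥ ∨ W = ⊤)
    (hsplit : ∀ τ : G, ∃ α β : k, (ρ τ).charpoly = (X - C α) * (X - C β)) :
    ∃ (v₁ v₂ : V) (α β : k), LinearIndependent k ![v₁, v₂] ∧ α ≠ β ∧ β = α ^ p ∧ α = β ^ p ∧
      ρ (t : G) v₁ = α • v₁ ∧ ρ (t : G) v₂ = β • v₂ ∧ (∃ b : k, ρ φ v₁ = b • v₂) ∧
      (∃ c : k, ρ φ v₂ = c • v₁) ∧ (∀ σ ∈ I, ∃ m : ℕ, ρ σ = ρ (t : G) ^ m) ∧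
      ∀ τ : G, ∃ j m : ℕ, ρ τ = ρ φ ^ j * ρ (t : G) ^ m := by
  have hwild := wgis_wild_trivial p ρ I Θ hfr hIn hB φ hθ1 hθ3 hgen hirr
  -- `ρ` factors through `Θ` on `I`
  have hfac : ∀ x y : ↥I, Θ x = Θ y → ρ (x : G) = ρ (y : G) := by
    intro x y hxy
    have h1 : Θ (x * y⁻¹) = 1 := by rw [map_mul, map_inv, hxy, mul_inv_cancel]
    have h2 := hwild _ h1
    have h3 : (x : G) = ((x * y⁻¹ : ↥I) : G) * (y : G) := by
      show (x : G) = (x : G) * (y : G)⁻¹ * (y : G)
      group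
    rw [h3, map_mul, h2, one_mul]
  have hcyc : ∀ σ ∈ I, ∃ m : ℕ, ρ σ = ρ (t : G) ^ m := by
    intro σ hσ
    obtain ⟨n, hn⟩ := hθ2 ⟨σ, hσ⟩
    refine ⟨n, ?_⟩
    have := hfac ⟨σ, hσ⟩ (t ^ n) (by rw [hn, map_pow])
    rw [this, Subgroup.coe_pow, map_pow]
  have hall : ∀ τ : G, ∃ j m : ℕ, ρ τ = ρ φ ^ j * ρ (t : G) ^ m := by
    intro τ
    obtain ⟨j, i, hi, hτ⟩ := hgen τ
    obtain ⟨m, hm⟩ := hcyc i hi
    exact ⟨j, m, by rw [hτ, hm]⟩
  -- the Frobenius relation
  have hcomm : ρ φ * ρ (t : G) = ρ (t : G) ^ p * ρ φ := by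
    have hmem : φ * (t : G) * φ⁻¹ ∈ I := hIn φ t t.2
    have h1 : Θ ⟨φ * (t : G) * φ⁻¹, hmem⟩ = Θ t ^ p := hθ3 t ⟨φ * (t : G) * φ⁻¹, hmem⟩ rfl
    have h2 := hfac ⟨φ * (t : G) * φ⁻¹, hmem⟩ (t ^ p) (by rw [h1, map_pow])
    have h3 : ρ (φ * (t : G) * φ⁻¹) = ρ (t : G) ^ p := by
      rw [show ρ (φ * (t : G) * φ⁻¹) = ρ ((⟨φ * (t : G) * φ⁻¹, hmem⟩ : ↥I) : G) from rfl, h2,
        Subgroup.coe_pow, map_pow]
    rw [← h3, ← map_mul, ← map_mul]
    congr 1
    group
  -- the order of `ρ t` is prime to `p`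
  have hN0 : 0 < orderOf (Θ t) := orderOf_pos (Θ t)
  have hpN : ¬ p ∣ orderOf (Θ t) := by
    rintro ⟨N', hN'⟩
    have h1 : (Θ t ^ N') ^ p = 1 := by
      rw [← pow_mul, mul_comm, ← hN', pow_orderOf_eq_one]
    have h2 := hB _ h1
    have h3 := orderOf_dvd_of_pow_eq_one h2
    have hp1 : 1 < p := (Fact.out : p.Prime).one_lt
    have h4 : N' ≠ 0 := by
      rintro rfl
      rw [mul_zero] at hN'
      omega
    have h5 := Nat.le_of_dvd (Nat.pos_of_ne_zero h4) h3
    have h6 : N' < p * N' := by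
      calc N' = 1 * N' := (one_mul _).symm
        _ < p * N' := Nat.mul_lt_mul_of_pos_right hp1 (Nat.pos_of_ne_zero h4)
    omega
  have hgN : ρ (t : G) ^ orderOf (Θ t) = 1 := by
    have h1 : Θ (t ^ orderOf (Θ t)) = 1 := by rw [map_pow, pow_orderOf_eq_one]
    have h2 := hwild _ h1
    rwa [Subgroup.coe_pow, map_pow] at h2
  have hNk : ((orderOf (Θ t) : ℕ) : k) ≠ 0 := by
    rw [Ne, CharP.cast_eq_zero_iff k p]
    exact hpN
  obtain ⟨α, β, hg⟩ := hsplit (t : G)
  obtain ⟨μ, ν, hh⟩ := hsplit φ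
  have hirr' : ∀ W : Submodule k V, (∀ w ∈ W, ρ (t : G) w ∈ W) → (∀ w ∈ W, ρ φ w ∈ W) →
      W = ⊥ ∨ W = ⊤ := by
    intro W hWg hWh
    refine hirr W (fun τ w hw => ?_)
    obtain ⟨j, m, hτ⟩ := hall τ
    rw [hτ, Module.End.mul_apply]
    have hpow : ∀ (f : Module.End k V), (∀ u ∈ W, f u ∈ W) → ∀ (n : ℕ), ∀ u ∈ W,
        (f ^ n) u ∈ W := by
      intro f hf n
      induction n with
      | zero => intro u hu; simpa using hu
      | succ n ih =>
        intro u hu
        rw [pow_succ, Module.End.mul_apply]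
        exact ih _ (hf u hu)
    exact hpow _ hWh j _ (hpow _ hWg m w hw)
  obtain ⟨hne, hβ, hα, v₁, v₂, hli, h₁, h₂, hb, hc⟩ :=
    wgis_structure hfr p (ρ (t : G)) (ρ φ) hirr' hcomm _ hNk hgN α β hg μ ν hh
  exact ⟨v₁, v₂, α, β, hli, hne, hβ, hα, h₁, h₂, hb, hc, hcyc, hall⟩

end Grp

end Fermat.Agent.TW.W
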