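/-
TW-W / IRR-STR (helper48), part 2: the tame character of the inertia group, global form, WITH its
kernel (wild inertia), and the good field cut out by a representation of exponent prime to `p`.

* `wgis_global_theta` : `Θ : J → B`, `B` a finite commutative group without `q`-torsion, whose
  kernel consists of elements of `q`-power order modulo `Gal(ℚ̄/F)`, with cyclic image, and
  `Θ(φ s φ⁻¹) = Θ(s) ^ q` (from helper86's `wstr_exists_theta` = my `ltame_*`).
* `wgisT p Ψ` : the fixed field of `ker Ψ ⊓ ker ω`; `wgis_isGoodField`: it is a good field if `Ψ` is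
  level and `Ψ(τ) ^ E = 1` for all `τ`, with `p ∤ E`.
-/
import Fermat.Agent.TW.W.GBPlan
import Fermat.Agent.TW.W.StrTame
import Fermat.Agent.PT.B.LocalLevel
import Fermat.Agent.PT.B.CycloField

set_option autoImplicit false
set_option linter.style.haveILetI false
set_option linter.unusedSectionVars false

open NumberField

noncomputable section

namespace Fermat.Agent.TW.W

open Fermat.Agent.PT Fermat.Agent.PT.B Fermat.Agent.Cheb Fermat.Agent.TW.L ExtCitation

section Global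

/-- **The tame character with its kernel, global form.** -/
theorem wgis_global_theta {q : ℕ} (hq : q.Prime) (A : ValuationSubring (AlgebraicClosure ℚ))
    (hA : A.LiesOverPrime q) (F : IntermediateField ℚ (AlgebraicClosure ℚ))
    [FiniteDimensional ℚ F] {J : Type} [Group J]
    (r : J →* (AlgebraicClosure ℚ ≃ₐ[ℚ] AlgebraicClosure ℚ))
    (hr : ∀ y, r y ∈ A.inertiaSubgroupIn ℚ) :
    ∃ (B : Type) (_ : CommGroup B) (_ : Finite B) (Θ : J →* B) (t : J),
      (∀ b : B, b ^ q = 1 → b = 1) ∧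
      (∀ y : J, Θ y = 1 → ∃ m : ℕ, r y ^ (q ^ m) ∈ F.fixingSubgroup) ∧
      (∀ x : J, ∃ n : ℕ, Θ x = Θ t ^ n) ∧
      (∀ (s s' : J) (φ : AlgebraicClosure ℚ ≃ₐ[ℚ] AlgebraicClosure ℚ), A.IsFrobeniusAt φ q →
        r s' = φ * r s * φ⁻¹ → Θ s' = Θ s ^ q) := by
  classical
  haveI : IsAlgClosure ℚ (AlgebraicClosure ℚ) := ⟨inferInstance, AlgebraicClosure.isAlgebraic ℚ⟩
  haveI : Normal ℚ (AlgebraicClosure ℚ) := IsAlgClosure.normal ℚ (AlgebraicClosure ℚ)
  -- the normal closure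
  let F' : IntermediateField ℚ (AlgebraicClosure ℚ) :=
    IntermediateField.normalClosure ℚ F (AlgebraicClosure ℚ)
  have hFF' : F ≤ F' := IntermediateField.le_normalClosure F
  haveI : Normal ℚ F' := normalClosure.normal ℚ F (AlgebraicClosure ℚ)
  haveI : FiniteDimensional ℚ F' := normalClosure.is_finiteDimensional ℚ F (AlgebraicClosure ℚ)
  haveI : NumberField F' := ⟨⟩
  haveI : IsGalois ℚ F' := ⟨⟩
  haveI : Finite (F' ≃ₐ[ℚ] F') := inferInstance
  let P : Ideal (𝓞 F') := ltamePrime F' A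
  have hP0 : P ≠ ⊥ := ltame_prime_ne_bot F' A hq hA
  have hqP : ((q : ℕ) : 𝓞 F') ∈ P := ltame_natCast_mem F' A hA
  have hfaith : ∀ σ : F' ≃ₐ[ℚ] F', (∀ x : 𝓞 F', σ • x = x) → σ = 1 := by
    intro σ hσ
    apply algEquiv_eq_of_toAlgHom_eq F'
    ext x
    have := hσ x
    simpa using congrArg (fun z : 𝓞 F' => (z : F')) this
  let ρ : J →* (F' ≃ₐ[ℚ] F') := (AlgEquiv.restrictNormalHom F').comp r
  have hcomm : ∀ (g : AlgebraicClosure ℚ ≃ₐ[ℚ] AlgebraicClosure ℚ) (x : 𝓞 F'),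
      intEmb F' ((AlgEquiv.restrictNormalHom F' g) • x) = g (intEmb F' x) := by
    intro g x
    exact AlgEquiv.restrictNormal_commutes g F' (x : F')
  have hρ : ∀ y, LtameInert P (ρ y) := by
    intro y x
    have e : intEmb F' (ρ y • x) = (r y) (intEmb F' x) := hcomm (r y) x
    rw [ltame_mem_prime, map_sub, e]
    exact ((mem_inertiaSubgroupIn_iff A (r y)).mp (hr y)).2 _ (intEmb_mem F' A x)
  obtain ⟨Θ, t, hker, hgen, hfrob⟩ := wstr_exists_theta (P := P) hP0 hfaith hq hqP ρ hρ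
  haveI : Finite (𝓞 F' ⧸ P) := Ideal.finiteQuotientOfFreeOfNeBot P hP0
  refine ⟨(𝓞 F' ⧸ P)ˣ, inferInstance, inferInstance, Θ, t, ?_, ?_, hgen, ?_⟩
  · intro b hb
    haveI : Fact q.Prime := ⟨hq⟩
    haveI hchar : CharP (𝓞 F' ⧸ P) q := (CharP.charP_iff_prime_eq_zero hq).2 (by
      rw [← map_natCast (Ideal.Quotient.mk P)]
      exact Ideal.Quotient.eq_zero_iff_mem.2 hqP)
    have h1 : ((b : 𝓞 F' ⧸ P) - 1) ^ q = 0 := by
      rw [sub_pow_char, one_pow, ← Units.val_pow_eq_pow_val, hb, Units.val_one, sub_self]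
    have h2 : (b : 𝓞 F' ⧸ P) - 1 = 0 := (pow_eq_zero_iff hq.ne_zero).1 h1
    exact Units.ext (sub_eq_zero.1 h2)
  · intro y hy
    obtain ⟨m, hm⟩ := hker y hy
    refine ⟨m, ?_⟩
    rw [IntermediateField.mem_fixingSubgroup_iff]
    intro x hx
    have h1 := AlgEquiv.restrictNormal_commutes (r y ^ (q ^ m)) F' ⟨x, hFF' hx⟩
    have h2 : (r y ^ (q ^ m)).restrictNormal F' = 1 := by
      have h3 : AlgEquiv.restrictNormalHom F' (r y ^ (q ^ m)) = 1 := by
        rw [map_pow]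
        exact hm
      exact h3
    rw [h2] at h1
    exact h1.symm
  · intro s s' φ hφ hs'
    refine hfrob s s' (AlgEquiv.restrictNormalHom F' φ) ?_ ?_
    · intro x
      rw [ltame_mem_prime, map_sub, hcomm, map_pow]
      exact sub_pow_mem_nonunits_of_isFrobeniusAt A φ q hφ _ (intEmb_mem F' A x)
    · show AlgEquiv.restrictNormalHom F' (r s') = _
      rw [hs', map_mul, map_mul, map_inv]
      rfl

end Global

/-! ### The good field cut out by a representation of exponent prime to `p` -/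

section Good

variable (p : ℕ) [Fact p.Prime] {M : Type*} [Monoid M]

/-- `ker Ψ ⊓ ker ω` -/
def wgisH (Ψ : GQq p →* M) : Subgroup (GQq p) := Ψ.ker ⊓ (gbOmega p).ker

lemma wgis_mem_H (Ψ : GQq p →* M) (σ : GQq p) :
    σ ∈ wgisH p Ψ ↔ Ψ σ = 1 ∧ cycloChar p (localGaloisToGlobal p σ) = 1 := Iff.rfl

instance wgisH_normal (Ψ : GQq p →* M) : (wgisH p Ψ).Normal := by
  unfold wgisH
  infer_instance

/-- the field cut out by `Ψ` and `ω` -/
def wgisT (Ψ : GQq p →* M) : IntermediateField ℚ_[p] (PadicAlgCl p) :=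
  IntermediateField.fixedField (wgisH p Ψ)

/-- `ker Ψ ⊓ ker ω` contains `Gal(ℚ̄_p/E)` for a finite extension `E/ℚ_p`. -/
theorem wgis_exists_le (Ψ : GQq p →* M)
    (hΨ : ∃ U ∈ (towerLoc p).lev, ∀ s ∈ U, Ψ s = 1) :
    ∃ E : IntermediateField ℚ_[p] (PadicAlgCl p), FiniteDimensional ℚ_[p] E ∧
      E.fixingSubgroup ≤ wgisH p Ψ := by
  obtain ⟨_, ⟨F, hF, rfl⟩, hU⟩ := hΨ
  haveI := hF
  haveI : NeZero p := ⟨(Fact.out : p.Prime).ne_zero⟩
  refine ⟨localField p (F ⊔ cycloField p),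
    stmtLocalFinite p _ (IntermediateField.finiteDimensional_sup F (cycloField p)),
    fun σ hσ => ?_⟩
  have h1 : localGaloisToGlobal p σ ∈ (F ⊔ cycloField p).fixingSubgroup :=
    (stmtLocalLevel p _ σ).2 hσ
  rw [IntermediateField.fixingSubgroup_sup] at h1
  exact ⟨MonoidHom.mem_ker.2 (hU σ h1.1),
    MonoidHom.mem_ker.2 ((cycloChar_eq_one_iff p _).2 h1.2)⟩

/-- `G_T = ker Ψ ⊓ ker ω`. -/
theorem wgis_fixingSubgroup (Ψ : GQq p →* M)
    (hΨ : ∃ U ∈ (towerLoc p).lev, ∀ s ∈ U, Ψ s = 1) :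
    (wgisT p Ψ).fixingSubgroup = wgisH p Ψ := by
  obtain ⟨E, hE, hle⟩ := wgis_exists_le p Ψ hΨ
  haveI := hE
  have hopen : IsOpen (wgisH p Ψ : Set (GQq p)) :=
    Subgroup.isOpen_mono hle E.fixingSubgroup_isOpen
  have hclosed : IsClosed (wgisH p Ψ : Set (GQq p)) := Subgroup.isClosed_of_isOpen _ hopen
  exact InfiniteGalois.fixingSubgroup_fixedField ⟨wgisH p Ψ, hclosed⟩

lemma wgis_mem_fixingSubgroup (Ψ : GQq p →* M)
    (hΨ : ∃ U ∈ (towerLoc p).lev, ∀ s ∈ U, Ψ s = 1) (σ : GQq p) :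
    σ ∈ (wgisT p Ψ).fixingSubgroup ↔
      Ψ σ = 1 ∧ cycloChar p (localGaloisToGlobal p σ) = 1 := by
  rw [wgis_fixingSubgroup p Ψ hΨ]
  exact wgis_mem_H p Ψ σ

/-- `T` is finite over `ℚ_p`. -/
theorem wgis_finiteDimensional (Ψ : GQq p →* M)
    (hΨ : ∃ U ∈ (towerLoc p).lev, ∀ s ∈ U, Ψ s = 1) :
    FiniteDimensional ℚ_[p] (wgisT p Ψ) := by
  obtain ⟨E, hE, hle⟩ := wgis_exists_le p Ψ hΨ
  haveI := hE
  have hTE : wgisT p Ψ ≤ E := by
    have h1 : IntermediateField.fixedField (wgisH p Ψ) ≤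
        IntermediateField.fixedField E.fixingSubgroup := IntermediateField.fixedField_le hle
    rwa [InfiniteGalois.fixedField_fixingSubgroup] at h1
  exact FiniteDimensional.of_injective (IntermediateField.inclusion hTE).toLinearMap
    (IntermediateField.inclusion hTE).injective

/-- `p ∤ [G_p : ker Ψ ⊓ ker ω]` if `Ψ` has exponent prime to `p`. -/
theorem wgis_not_dvd_index (Ψ : GQq p →* M) (hidx : (wgisH p Ψ).index ≠ 0) (E : ℕ)
    (hpE : ¬ p ∣ E) (hE : ∀ τ : GQq p, Ψ τ ^ E = 1) : ¬ p ∣ (wgisH p Ψ).index := by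
  intro hdvd
  haveI : (wgisH p Ψ).FiniteIndex := ⟨hidx⟩
  haveI : Finite (GQq p ⧸ wgisH p Ψ) := Subgroup.finite_quotient_of_finiteIndex
  obtain ⟨x, hx⟩ := exists_prime_orderOf_dvd_card' (G := GQq p ⧸ wgisH p Ψ) p hdvd
  obtain ⟨y, rfl⟩ := QuotientGroup.mk_surjective x
  have hmem : y ^ (E * (p - 1)) ∈ wgisH p Ψ := by
    refine ⟨MonoidHom.mem_ker.2 ?_, MonoidHom.mem_ker.2 ?_⟩
    · rw [map_pow, pow_mul, hE, one_pow]
    · rw [map_pow, mul_comm, pow_mul]
      have h1 : Nat.card (ZMod p)ˣ = p - 1 := by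
        rw [Nat.card_eq_fintype_card, ZMod.card_units]
      rw [← h1, pow_card_eq_one', one_pow]
  have h1 : (QuotientGroup.mk y : GQq p ⧸ wgisH p Ψ) ^ (E * (p - 1)) = 1 := by
    rw [← QuotientGroup.mk_pow]
    exact (QuotientGroup.eq_one_iff _).2 hmem
  have h2 := orderOf_dvd_of_pow_eq_one h1
  rw [hx] at h2
  rcases (Nat.Prime.dvd_mul (Fact.out : p.Prime)).1 h2 with h3 | h3
  · exact hpE h3
  · have hp1 : 1 < p := (Fact.out : p.Prime).one_lt
    have := Nat.le_of_dvd (by omega) h3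
    omega

/-- **`T` is a good field.** -/
theorem wgis_isGoodField (Ψ : GQq p →* M)
    (hΨ : ∃ U ∈ (towerLoc p).lev, ∀ s ∈ U, Ψ s = 1) (E : ℕ) (hpE : ¬ p ∣ E)
    (hE : ∀ τ : GQq p, Ψ τ ^ E = 1) : IsGoodField p (wgisT p Ψ) := by
  have hfix := wgis_fixingSubgroup p Ψ hΨ
  have hfin : FiniteDimensional ℚ_[p] (wgisT p Ψ) := wgis_finiteDimensional p Ψ hΨ
  have hnormal : ((wgisT p Ψ).fixingSubgroup : Subgroup (GQq p)).Normal := by
    rw [hfix]
    infer_instance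
  have hidx : Module.finrank ℚ_[p] (wgisT p Ψ) = (wgisH p Ψ).index := by
    rw [IntermediateField.finrank_eq_fixingSubgroup_index (PadicAlgCl p) (wgisT p Ψ), hfix]
  refine ⟨hfin, (InfiniteGalois.normal_iff_isGalois _).1 hnormal, ?_, ?_⟩
  · rw [hidx]
    refine wgis_not_dvd_index p Ψ ?_ E hpE hE
    rw [← hidx]
    exact (Module.finrank_pos).ne'
  · haveI : NeZero p := ⟨(Fact.out : p.Prime).ne_zero⟩
    obtain ⟨ζ₀, hζ₀⟩ := cycloField_exists_primitiveRoot p
    refine ⟨padicEmbedding p ζ₀, ?_, ?_, ?_⟩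
    · rw [wgisT, IntermediateField.mem_fixedField_iff]
      intro σ hσ
      have h2 := (cycloChar_eq_one_iff p _).1 ((wgis_mem_H p Ψ σ).1 hσ).2
      have h3 := (mem_fixingSubgroup_cycloField_iff _).1 h2 ζ₀ hζ₀.pow_eq_one
      rw [← padicEmbedding_localGaloisToGlobal, h3]
    · intro h
      have hinj : Function.Injective (padicEmbedding p) := (padicEmbedding p).toRingHom.injective
      have h1 : ζ₀ = 1 := hinj (by rw [h, map_one])
      exact hζ₀.ne_one (Fact.out : p.Prime).one_lt h1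
    · rw [← map_pow, hζ₀.pow_eq_one, map_one]

end Good

end Fermat.Agent.TW.W

end
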