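/-
TW-W / IRR-STR (helper48): `stmtGBIrrStr : StmtGBIrrStr` (interface `TW/W/GBPlan.lean`).

`ρ̄|_{G_p}` irreducible, `det ρ̄ = ω`, split characteristic polynomials, `p` odd.  Then
* wild inertia acts trivially and inertia acts through a cyclic group generated by `g = ρ̄(t)`
  of order prime to `p`, `ρ̄(φ) g ρ̄(φ)⁻¹ = g ^ p` (`wgis_global_theta`, `wgis_abstract`);
* `g` has two eigenlines with eigenvalues `α ≠ β = α ^ p`, swapped by `ρ̄(φ)`;
* `ρ̄(G_p)` is monomial, of exponent `2 (|k| - 1)`: the field cut out by `ρ̄|_{G_p}` and `ω` is good;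
* `H⁰(G_p, ad⁰ ρ̄) = 0`.
-/
import Fermat.Agent.TW.W.GBIrrStrAlg
import Fermat.Agent.TW.W.GBIrrStrTheta
import Fermat.Agent.TW.W.GBCharT
import Fermat.Agent.TW.L.FrobGen
import Fermat.Agent.TW.S.Line

set_option autoImplicit false
set_option linter.style.haveILetI false
set_option linter.unusedSectionVars false

noncomputable section

namespace Fermat.Agent.TW.W

open CategoryTheory groupCohomology Polynomial
open Fermat.Agent.PT Fermat.Agent.PT.B Fermat.Agent.TW.L Fermat.Agent.TW.S ExtCitation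

section Aux

variable {k : Type*} [Field k] {V : Type*} [AddCommGroup V] [Module k V]

/-- the determinant of a diagonal endomorphism -/
theorem wgis_det_diag [Module.Finite k V] (hfr : Module.finrank k V = 2) {v₁ v₂ : V}
    (hli : LinearIndependent k ![v₁, v₂]) {x : Module.End k V} {a d : k} (h₁ : x v₁ = a • v₁)
    (h₂ : x v₂ = d • v₂) : LinearMap.det x = a * d := by
  have hcard : Fintype.card (Fin 2) = Module.finrank k V := by rw [hfr]; rfl
  let bs := basisOfLinearIndependentOfCardEqFinrank hli hcard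
  have hb0 : bs 0 = v₁ := by simp [bs]
  have hb1 : bs 1 = v₂ := by simp [bs]
  rw [← LinearMap.det_toMatrix bs, Matrix.det_fin_two, LinearMap.toMatrix_apply,
    LinearMap.toMatrix_apply, LinearMap.toMatrix_apply, LinearMap.toMatrix_apply, hb0, hb1, h₁,
    h₂, ← hb0, ← hb1]
  simp

end Aux

/-- `det ρ̄ = ω` in `k`. -/
theorem wgis_det_eq {k : Type} [Field k] (p : ℕ) [Fact p.Prime] [CharP k p] [Algebra (ZMod p) k]
    (ρbar : ResidualGaloisRep k)
    (hdet : (GaloisRepAdic.ofResidualGaloisRep ρbar).DetIsCyclotomic p) (σ : GQ) :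
    LinearMap.det (ρbar.ρ σ) =
      algebraMap (ZMod p) k ((cycloChar p σ : (ZMod p)ˣ) : ZMod p) := by
  have hp : p.Prime := Fact.out
  haveI : NeZero p := ⟨hp.ne_zero⟩
  have h1 := hdet.2 1 σ ((cycloChar p σ : (ZMod p)ˣ) : ZMod p).val (fun μ hμ => by
    rw [pow_one] at hμ
    exact sline_cycloChar_spec p σ μ hμ)
  have hρ : (GaloisRepAdic.ofResidualGaloisRep ρbar).ρ σ = ρbar.ρ σ := rfl
  rw [hρ, pow_one, CharP.cast_eq_zero k p, Ideal.mem_span_singleton, zero_dvd_iff,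
    sub_eq_zero] at h1
  refine h1.trans ?_
  rw [← map_natCast (algebraMap (ZMod p) k), ZMod.natCast_zmod_val]

/-- **IRR-STR**. -/
theorem stmtGBIrrStr : StmtGBIrrStr := by
  intro p _ hp2 k _ _ _ _ ρbar hdet hsplit hirr
  classical
  have hp : p.Prime := Fact.out
  have hfr := ρbar.finrank_eq
  -- the representation of `G_p`
  let ρ : GQq p →* Module.End k ρbar.V := ρbar.ρ.comp (localGaloisToGlobal p)
  obtain ⟨L, hL, hρL⟩ := ρbar.factorsThroughFiniteLevel
  haveI := hL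
  have hlev : ∃ U ∈ (towerLoc p).lev, ∀ s ∈ U, ρ s = 1 :=
    ⟨L.fixingSubgroup.comap (localGaloisToGlobal p), ⟨L, hL, rfl⟩, fun s hs =>
      hρL _ (fun x hx => (IntermediateField.mem_fixingSubgroup_iff L _).1 hs x hx)⟩
  -- the tame character
  obtain ⟨B, _, _, Θ, t, hB, hθ1, hθ2, hθ3⟩ := wgis_global_theta hp (padicPlace p)
    (lfrobex_liesOverPrime p) L ((localGaloisToGlobal p).comp (inertiaQ p).subtype)
    (fun y => y.2)
  obtain ⟨φ, hφ⟩ := stmtFrobExists p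
  have hθ1' : ∀ y : ↥(inertiaQ p), Θ y = 1 → ∃ m : ℕ, ρ (y : GQq p) ^ (p ^ m) = 1 := by
    intro y hy
    obtain ⟨m, hm⟩ := hθ1 y hy
    refine ⟨m, ?_⟩
    have h1 : ρbar.ρ (localGaloisToGlobal p (y : GQq p) ^ (p ^ m)) = 1 :=
      hρL _ (fun x hx => (IntermediateField.mem_fixingSubgroup_iff L _).1 hm x hx)
    rw [map_pow] at h1
    exact h1
  have hθ3' : ∀ s s' : ↥(inertiaQ p), (s' : GQq p) = φ * (s : GQq p) * φ⁻¹ →
      Θ s' = Θ s ^ p := by
    intro s s' h
    refine hθ3 s s' (localGaloisToGlobal p φ) hφ ?_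
    show localGaloisToGlobal p (s' : GQq p) = _
    rw [h, map_mul, map_mul, map_inv]
    rfl
  have hgen : ∀ τ : GQq p, ∃ (j : ℕ) (i : GQq p), i ∈ inertiaQ p ∧ ρ τ = ρ φ ^ j * ρ i := by
    obtain ⟨U, hU, hρU⟩ := hlev
    intro τ
    obtain ⟨j, i, v, hi, hv, rfl⟩ := stmtFrobGen p φ hφ U hU τ
    exact ⟨j, i, hi, by rw [map_mul, map_mul, map_pow, hρU v hv, mul_one]⟩
  obtain ⟨v₁, v₂, α, β, hli, hne, hβ, hα, h₁, h₂, ⟨b, hb⟩, ⟨c, hc⟩, hcyc, hall⟩ :=
    wgis_abstract p ρ (inertiaQ p) Θ hfr (fun γ σ hσ => ltw_conj_mem_inertiaQ γ hσ) hB t φ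
      hθ1' hθ2 hθ3' hgen hirr (fun τ => hsplit _)
  have hv₁ : v₁ ≠ 0 := hli.ne_zero 0
  have hv₂ : v₂ ≠ 0 := hli.ne_zero 1
  -- `ρ̄(G_p)` is monomial
  have hmono : ∀ τ : GQq p, WgisMono v₁ v₂ (ρ τ) := by
    intro τ
    obtain ⟨j, m, h⟩ := hall τ
    rw [h]
    exact wgisMono_mul (wgisMono_pow (Or.inr ⟨⟨b, hb⟩, ⟨c, hc⟩⟩) j)
      (wgisMono_pow (Or.inl ⟨⟨α, h₁⟩, ⟨β, h₂⟩⟩) m)
  have hinj : ∀ τ : GQq p, Function.Injective (ρ τ) := by
    intro τ
    have h1 : ∀ v, ρ τ⁻¹ (ρ τ v) = v := by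
      intro v
      rw [← Module.End.mul_apply, ← map_mul, inv_mul_cancel, map_one, Module.End.one_apply]
    exact Function.LeftInverse.injective h1
  have hk : ∀ a : k, a ≠ 0 → a ^ (Nat.card k - 1) = 1 := by
    intro a ha
    letI : Fintype k := Fintype.ofFinite k
    rw [Nat.card_eq_fintype_card]
    exact FiniteField.pow_card_sub_one_eq_one a ha
  have hE : ∀ τ : GQq p, ρ τ ^ (2 * (Nat.card k - 1)) = 1 := fun τ =>
    wgis_pow_eq_one hfr hli (Nat.card k - 1) hk (hmono τ) (hinj τ)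
  have hpE : ¬ p ∣ 2 * (Nat.card k - 1) := by
    intro h
    rcases (Nat.Prime.dvd_mul hp).1 h with h3 | h3
    · exact hp2 ((Nat.prime_dvd_prime_iff_eq hp Nat.prime_two).1 h3)
    · refine wgbct_not_dvd_card_units p (k := k) ?_
      letI : Fintype k := Fintype.ofFinite k
      rw [Nat.card_eq_fintype_card, Fintype.card_units, ← Nat.card_eq_fintype_card]
      exact h3
  have h2k : (2 : k) ≠ 0 := by
    have h1 : ((2 : ℕ) : k) ≠ 0 := by
      rw [Ne, CharP.cast_eq_zero_iff k p]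
      intro h
      exact hp2 ((Nat.prime_dvd_prime_iff_eq hp Nat.prime_two).1 h)
    exact_mod_cast h1
  have hb0 : b ≠ 0 := by
    rintro rfl
    rw [zero_smul] at hb
    exact hv₁ (hinj φ (hb.trans (map_zero _).symm))
  refine ⟨⟨wgisT p ρ, wgis_isGoodField p ρ hlev _ hpE hE, fun σ hσ =>
    ((wgis_mem_fixingSubgroup p ρ hlev σ).1 hσ).1⟩, ?_, ?_, ?_⟩
  · -- `ad⁰` is smooth
    obtain ⟨U, hU, hρU⟩ := hlev
    refine ⟨U, hU, fun s hs => LinearMap.ext fun x => ?_⟩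
    apply ad0Val_injective p ρbar
    have h1 : ρbar.ρ (localGaloisToGlobal p s) = 1 := hρU s hs
    have h2 : ρbar.ρ (localGaloisToGlobal p s)⁻¹ = 1 := by
      have := rho_inv_mul ρbar (localGaloisToGlobal p s)
      rwa [h1, mul_one] at this
    show ρbar.ρ (localGaloisToGlobal p s) * ad0Val p ρbar x *
      ρbar.ρ (localGaloisToGlobal p s)⁻¹ = ad0Val p ρbar x
    rw [h1, h2, one_mul, mul_one]
  · -- no invariants
    have hbot : (locRep p (ad0Rep p ρbar)).ρ.invariants = ⊥ := by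
      rw [Submodule.eq_bot_iff]
      intro x hx
      apply ad0Val_injective p ρbar
      rw [map_zero]
      have hcomm : ∀ τ : GQq p, ad0Val p ρbar x * ρ τ = ρ τ * ad0Val p ρbar x := by
        intro τ
        have h1 : (locRep p (ad0Rep p ρbar)).ρ τ x = x := hx τ
        have h2 : ρbar.ρ (localGaloisToGlobal p τ) * ad0Val p ρbar x *
            ρbar.ρ (localGaloisToGlobal p τ)⁻¹ = ad0Val p ρbar x :=
          congrArg (ad0Val p ρbar) h1
        show ad0Val p ρbar x * ρbar.ρ (localGaloisToGlobal p τ) =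
          ρbar.ρ (localGaloisToGlobal p τ) * ad0Val p ρbar x
        calc ad0Val p ρbar x * ρbar.ρ (localGaloisToGlobal p τ)
            = ρbar.ρ (localGaloisToGlobal p τ) * ad0Val p ρbar x *
                ρbar.ρ (localGaloisToGlobal p τ)⁻¹ * ρbar.ρ (localGaloisToGlobal p τ) := by
              rw [h2]
          _ = ρbar.ρ (localGaloisToGlobal p τ) * ad0Val p ρbar x *
                (ρbar.ρ (localGaloisToGlobal p τ)⁻¹ * ρbar.ρ (localGaloisToGlobal p τ)) := by
              rw [mul_assoc]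
          _ = ρbar.ρ (localGaloisToGlobal p τ) * ad0Val p ρbar x := by
              rw [rho_inv_mul, mul_one]
      exact wgis_comm_zero hfr hli hne (ρ (t : GQq p)) (ρ φ) h₁ h₂ hb0 hb h2k _
        (hcomm _) (hcomm _) (trace_ad0Val p ρbar x)
    rw [hbot]
    exact finrank_bot _ _
  · -- the characters on inertia
    have hex : ∀ σ : GQq p, ∃ m : ℕ, σ ∈ inertiaQ p → ρ σ = ρ (t : GQq p) ^ m := by
      intro σ
      by_cases hσ : σ ∈ inertiaQ p
      · obtain ⟨m, hm⟩ := hcyc σ hσ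
        exact ⟨m, fun _ => hm⟩
      · exact ⟨0, fun h => absurd h hσ⟩
    choose m hm using hex
    have hact₁ : ∀ σ ∈ inertiaQ p, rhoLoc p ρbar σ v₁ = α ^ m σ • v₁ := by
      intro σ hσ
      show ρ σ v₁ = _
      rw [hm σ hσ, wgis_pow_eigen _ h₁]
    have hact₂ : ∀ σ ∈ inertiaQ p, rhoLoc p ρbar σ v₂ = β ^ m σ • v₂ := by
      intro σ hσ
      show ρ σ v₂ = _
      rw [hm σ hσ, wgis_pow_eigen _ h₂]
    refine ⟨v₁, v₂, fun σ => α ^ m σ, fun σ => β ^ m σ, hli,
      fun σ hσ => ⟨hact₁ σ hσ, hact₂ σ hσ⟩, ⟨(t : GQq p), t.2, ?_⟩, fun σ _ => ⟨?_, ?_⟩,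
      fun σ hσ => ?_⟩
    · -- `ψ₁ t = α ≠ β = ψ₂ t`
      have e1 : α ^ m (t : GQq p) • v₁ = α • v₁ := by
        rw [← hact₁ _ t.2]
        exact h₁
      have e2 : β ^ m (t : GQq p) • v₂ = β • v₂ := by
        rw [← hact₂ _ t.2]
        exact h₂
      have e1' : α ^ m (t : GQq p) = α := smul_left_injective k hv₁ e1
      have e2' : β ^ m (t : GQq p) = β := smul_left_injective k hv₂ e2
      show α ^ m (t : GQq p) ≠ β ^ m (t : GQq p)
      rw [e1', e2']
      exact hne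
    · show β ^ m σ = (α ^ m σ) ^ p
      rw [hβ, ← pow_mul, ← pow_mul, mul_comm]
    · show α ^ m σ = (β ^ m σ) ^ p
      rw [← pow_mul, mul_comm, pow_mul, ← hα]
    · show α ^ m σ * β ^ m σ = _
      rw [← wgis_det_diag hfr hli (hact₁ σ hσ) (hact₂ σ hσ)]
      exact wgis_det_eq p ρbar hdet (localGaloisToGlobal p σ)

end Fermat.Agent.TW.W

end
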