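/-
TW-W (helper74, sub-captain): the FINAL WIRING of `StmtWFlat`.

  `stmtWFlat_of_gb   : StmtLev → StmtGBChar → StmtGBIrr → StmtWFlat`
  `stmtWFlat_of_open : StmtGBTame → StmtGBCharCount → StmtGBIrrCount → StmtWFlat`

(the second one uses everything which is landed: chain A `stmtLev`, GB-ALG `stmtGBAlg`,
IRR-STR `stmtGBIrrStr`, the assemblies `stmtGBGen_of`, `stmtGBChar_of`, `stmtGBIrr_of`).
-/
import Fermat.Agent.TW.W.Asm
import Fermat.Agent.TW.W.Add
import Fermat.Agent.TW.W.Bridge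
import Fermat.Agent.TW.W.Et
import Fermat.Agent.TW.W.Dev
import Fermat.Agent.TW.W.Lev
import Fermat.Agent.TW.W.GBAlg
import Fermat.Agent.TW.W.GBGen
import Fermat.Agent.TW.W.GBAsm
import Fermat.Agent.TW.W.GBIrrStr

set_option autoImplicit false

namespace Fermat.Agent.TW.W

/-- **W-flat**, modulo chain A (`StmtLev`) and (GB). -/
theorem stmtWFlat_of_gb (hLev : StmtLev) (hChar : StmtGBChar) (hIrr : StmtGBIrr) : StmtWFlat :=
  stmtWFlat_of stmtAdd (stmtBridge_of hLev stmtEt1 stmtEt2) (stmtCount_of hChar hIrr)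

/-- **W-flat**, modulo the three open pieces of (GB): K4 and the two counts. -/
theorem stmtWFlat_of_open (hK4 : StmtGBTame) (hCC : StmtGBCharCount) (hIC : StmtGBIrrCount) :
    StmtWFlat :=
  stmtWFlat_of_gb stmtLev
    (stmtGBChar_of (stmtGBGen_of hK4 stmtGBAlg) hCC)
    (stmtGBIrr_of (stmtGBGen_of hK4 stmtGBAlg) stmtGBIrrStr hIC)

end Fermat.Agent.TW.W
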