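import Mathlib

/-!
# TW-W / K3 (helper86): the abstract linear algebra of the count (GB)

Mathlib only.  Three tools (NOTES/TW-W.md §6, step (3)):

* **semilinear descent** (`wk3_linearIndependent`, `wk3_finrank_fixed_le`): `L/K` fields, `Γ` acting on
  `L` with fixed field `K`, `V` an `L`-vector space with a semilinear `Γ`-action.  Then
  `K`-linearly independent fixed vectors are `L`-linearly independent and
  `dim_K V^Γ ≤ dim_L V`.
* **Maschke** (`wk3_exists_extension`, `wk3_finrank_homInv_le`): `Γ` finite, `|Γ|` invertible in `k`: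
  an equivariant map on a subrepresentation extends, so
  `dim Hom_Γ(X, W) ≤ dim Hom_Γ(Y, W)` for `X ↪ Y`.
* **left exactness of invariants** (`wk3_finrank_inv_le`): for a `Γ`-map `π : B → Q` with kernel
  contained in the image of a `Γ`-map `A → B`: `dim B^Γ ≤ dim A^Γ + dim Q^Γ`.
-/

set_option autoImplicit false

namespace Fermat.Agent.TW.W

open Module

/-! ### Semilinear descent -/

section Semilinear

variable {K L : Type*} [Field K] [Field L] [Algebra K L]
  {Γ : Type*} [Group Γ] [MulSemiringAction Γ L]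
  {V : Type*} [AddCommGroup V] [Module K V] [Module L V] [IsScalarTower K L V]
  [DistribMulAction Γ V]

/-- the `K`-space of `Γ`-fixed vectors of a semilinear representation -/
def wk3Fixed (K : Type*) {L : Type*} [Field K] [Field L] [Algebra K L]
    (Γ : Type*) [Group Γ] [MulSemiringAction Γ L]
    (V : Type*) [AddCommGroup V] [Module K V] [Module L V] [IsScalarTower K L V]
    [DistribMulAction Γ V]
    (hKfix : ∀ (γ : Γ) (c : K), γ • algebraMap K L c = algebraMap K L c)
    (hsemi : ∀ (γ : Γ) (a : L) (v : V), γ • (a • v) = (γ • a) • (γ • v)) : Submodule K V where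
  carrier := {v | ∀ γ : Γ, γ • v = v}
  add_mem' := fun {a b} ha hb γ => by rw [smul_add, ha γ, hb γ]
  zero_mem' := fun γ => smul_zero γ
  smul_mem' := fun c v hv γ => by
    rw [← algebraMap_smul L c v, hsemi, hKfix, hv γ]

lemma wk3_mem_fixed (hKfix : ∀ (γ : Γ) (c : K), γ • algebraMap K L c = algebraMap K L c)
    (hsemi : ∀ (γ : Γ) (a : L) (v : V), γ • (a • v) = (γ • a) • (γ • v)) (v : V) :
    v ∈ wk3Fixed K Γ V hKfix hsemi ↔ ∀ γ : Γ, γ • v = v := Iff.rfl

/-- **Semilinear descent.**  `K`-linearly independent `Γ`-fixed vectors are `L`-linearly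
independent. -/
theorem wk3_linearIndependent
    (hK : ∀ x : L, (∀ γ : Γ, γ • x = x) → ∃ c : K, algebraMap K L c = x)
    (hsemi : ∀ (γ : Γ) (a : L) (v : V), γ • (a • v) = (γ • a) • (γ • v))
    {ι : Type*} (v : ι → V) (hfix : ∀ (γ : Γ) (i : ι), γ • v i = v i)
    (hind : LinearIndependent K v) : LinearIndependent L v := by
  classical
  rw [linearIndependent_iff']
  intro s
  induction s using Finset.strongInduction with
  | H s ih =>
    intro g hg i₀ hi₀
    by_contra hne
    set g' : ι → L := fun i => (g i₀)⁻¹ * g i with hg'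
    have hg'0 : g' i₀ = 1 := inv_mul_cancel₀ hne
    have hsum' : ∑ i ∈ s, g' i • v i = 0 := by
      have h : ∑ i ∈ s, g' i • v i = (g i₀)⁻¹ • ∑ i ∈ s, g i • v i := by
        rw [Finset.smul_sum]
        refine Finset.sum_congr rfl (fun i _ => ?_)
        rw [hg', mul_smul]
      rw [h, hg, smul_zero]
    have hfixg : ∀ γ : Γ, ∀ i ∈ s, γ • g' i = g' i := by
      intro γ
      have h1 : ∑ i ∈ s, (γ • g' i) • v i = 0 := by
        have h := congrArg (fun x => γ • x) hsum'
        simp only [Finset.smul_sum, smul_zero, hsemi, hfix] at h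
        exact h
      have h2 : ∑ i ∈ s.erase i₀, (γ • g' i - g' i) • v i = 0 := by
        have h3 : ∑ i ∈ s, (γ • g' i - g' i) • v i = 0 := by
          simp only [sub_smul, Finset.sum_sub_distrib, h1, hsum', sub_zero]
        rw [← Finset.add_sum_erase s _ hi₀, hg'0, smul_one, sub_self, zero_smul, zero_add] at h3
        exact h3
      have h4 := ih (s.erase i₀) (Finset.erase_ssubset hi₀) (fun i => γ • g' i - g' i) h2
      intro i hi
      by_cases hii : i = i₀
      · rw [hii, hg'0, smul_one]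
      · exact sub_eq_zero.1 (h4 i (Finset.mem_erase.2 ⟨hii, hi⟩))
    choose! c hc using fun i (hi : i ∈ s) => hK (g' i) (fun γ => hfixg γ i hi)
    have hK0 : ∑ i ∈ s, c i • v i = 0 := by
      rw [← hsum']
      refine Finset.sum_congr rfl (fun i hi => ?_)
      rw [← hc i hi, algebraMap_smul]
    have h0 := (linearIndependent_iff'.1 hind) s c hK0 i₀ hi₀
    have h5 := hc i₀ hi₀
    rw [h0, map_zero, hg'0] at h5
    exact zero_ne_one h5

/-- **Semilinear descent, dimension form**: `dim_K V^Γ ≤ dim_L V`. -/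
theorem wk3_finrank_fixed_le [Module.Finite L V]
    (hK : ∀ x : L, (∀ γ : Γ, γ • x = x) → ∃ c : K, algebraMap K L c = x)
    (hKfix : ∀ (γ : Γ) (c : K), γ • algebraMap K L c = algebraMap K L c)
    (hsemi : ∀ (γ : Γ) (a : L) (v : V), γ • (a • v) = (γ • a) • (γ • v)) :
    Module.Finite K (wk3Fixed K Γ V hKfix hsemi) ∧
      finrank K (wk3Fixed K Γ V hKfix hsemi) ≤ finrank L V := by
  classical
  set b := Basis.ofVectorSpace K (wk3Fixed K Γ V hKfix hsemi) with hb
  have hindK : LinearIndependent K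
      (fun i => ((b i : wk3Fixed K Γ V hKfix hsemi) : V)) :=
    b.linearIndependent.map' (wk3Fixed K Γ V hKfix hsemi).subtype (Submodule.ker_subtype _)
  have hindL : LinearIndependent L
      (fun i => ((b i : wk3Fixed K Γ V hKfix hsemi) : V)) :=
    wk3_linearIndependent hK hsemi _ (fun γ i => (b i).2 γ) hindK
  have hfin : Finite (Basis.ofVectorSpaceIndex K (wk3Fixed K Γ V hKfix hsemi)) := hindL.finite
  have := Fintype.ofFinite (Basis.ofVectorSpaceIndex K (wk3Fixed K Γ V hKfix hsemi))
  refine ⟨Module.Finite.of_basis b, ?_⟩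
  rw [Module.finrank_eq_card_basis b]
  exact hindL.fintype_card_le_finrank

end Semilinear

/-! ### Maschke -/

section Maschke

variable {k : Type*} [Field k] {Γ : Type*} [Group Γ]
  {X Y W B Q : Type*} [AddCommGroup X] [Module k X] [AddCommGroup Y] [Module k Y]
  [AddCommGroup W] [Module k W] [AddCommGroup B] [Module k B] [AddCommGroup Q] [Module k Q]

/-- the `k`-space of `Γ`-equivariant linear maps `X → W` -/
def wk3HomInv (ρX : Representation k Γ X) (ρW : Representation k Γ W) :
    Submodule k (X →ₗ[k] W) where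
  carrier := {f | ∀ (γ : Γ) (x : X), f (ρX γ x) = ρW γ (f x)}
  add_mem' := fun {f g} hf hg γ x => by
    rw [LinearMap.add_apply, LinearMap.add_apply, hf, hg, map_add]
  zero_mem' := fun γ x => by
    rw [LinearMap.zero_apply, LinearMap.zero_apply, map_zero]
  smul_mem' := fun c f hf γ x => by
    rw [LinearMap.smul_apply, LinearMap.smul_apply, hf, map_smul]

lemma wk3_mem_homInv (ρX : Representation k Γ X) (ρW : Representation k Γ W)
    (f : X →ₗ[k] W) :
    f ∈ wk3HomInv ρX ρW ↔ ∀ (γ : Γ) (x : X), f (ρX γ x) = ρW γ (f x) := Iff.rfl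

/-- averaging a vector over `Γ` -/
lemma wk3_avg_invariant [Fintype Γ] (ρB : Representation k Γ B) (b : B) (δ : Γ) :
    ρB δ (∑ γ : Γ, ρB γ b) = ∑ γ : Γ, ρB γ b := by
  rw [map_sum]
  refine Fintype.sum_equiv (Equiv.mulLeft δ) _ _ (fun γ => ?_)
  rw [Equiv.coe_mulLeft, map_mul]
  rfl

/-- **Maschke, invariants of a quotient**: an invariant of `Q` lifts to an invariant of `B`
along an equivariant surjection `B → Q`. -/
theorem wk3_exists_invariant_lift [Finite Γ] (hcard : (Nat.card Γ : k) ≠ 0)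
    (ρB : Representation k Γ B) (ρQ : Representation k Γ Q) (π : B →ₗ[k] Q)
    (hπ : ∀ (γ : Γ) (b : B), π (ρB γ b) = ρQ γ (π b)) (hsurj : Function.Surjective π)
    (q : Q) (hq : q ∈ ρQ.invariants) : ∃ b ∈ ρB.invariants, π b = q := by
  classical
  have := Fintype.ofFinite Γ
  obtain ⟨b₀, rfl⟩ := hsurj q
  refine ⟨(Nat.card Γ : k)⁻¹ • ∑ γ : Γ, ρB γ b₀, fun δ => ?_, ?_⟩
  · rw [map_smul, wk3_avg_invariant]
  · rw [map_smul, map_sum]
    have h : ∀ γ : Γ, π (ρB γ b₀) = π b₀ := fun γ => by rw [hπ, hq γ]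
    rw [Finset.sum_congr rfl (fun γ _ => h γ), Finset.sum_const, Finset.card_univ,
      ← Nat.card_eq_fintype_card, ← Nat.cast_smul_eq_nsmul k, smul_smul,
      inv_mul_cancel₀ hcard, one_smul]

/-- `dim Q^Γ ≤ dim B^Γ` for an equivariant surjection `B → Q` (`|Γ|` invertible). -/
theorem wk3_finrank_inv_quot_le [Finite Γ] (hcard : (Nat.card Γ : k) ≠ 0)
    (ρB : Representation k Γ B) (ρQ : Representation k Γ Q) (π : B →ₗ[k] Q)
    (hπ : ∀ (γ : Γ) (b : B), π (ρB γ b) = ρQ γ (π b)) (hsurj : Function.Surjective π)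
    [FiniteDimensional k B] :
    finrank k ρQ.invariants ≤ finrank k ρB.invariants := by
  set φ : ρB.invariants →ₗ[k] ρQ.invariants :=
    (π.comp ρB.invariants.subtype).codRestrict ρQ.invariants (fun b γ => by
      show ρQ γ (π b.1) = π b.1
      rw [← hπ, b.2 γ]) with hφ
  have hφs : Function.Surjective φ := by
    rintro ⟨q, hq⟩
    obtain ⟨b, hb, hbq⟩ := wk3_exists_invariant_lift hcard ρB ρQ π hπ hsurj q hq
    exact ⟨⟨b, hb⟩, Subtype.ext hbq⟩
  exact LinearMap.finrank_le_finrank_of_surjective hφs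

/-- **Maschke, extension of equivariant maps**: an equivariant map on `X ↪ Y` extends to `Y`. -/
theorem wk3_exists_extension [Finite Γ] (hcard : (Nat.card Γ : k) ≠ 0)
    (ρX : Representation k Γ X) (ρY : Representation k Γ Y) (ρW : Representation k Γ W)
    (i : X →ₗ[k] Y) (hi : Function.Injective i)
    (hiΓ : ∀ (γ : Γ) (x : X), i (ρX γ x) = ρY γ (i x))
    (f : X →ₗ[k] W) (hf : f ∈ wk3HomInv ρX ρW) :
    ∃ F ∈ wk3HomInv ρY ρW, ∀ x, F (i x) = f x := by
  classical
  have := Fintype.ofFinite Γ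
  obtain ⟨r₀, hr₀⟩ := LinearMap.exists_leftInverse_of_injective i (LinearMap.ker_eq_bot.2 hi)
  have hr₀' : ∀ x, r₀ (i x) = x := fun x => LinearMap.congr_fun hr₀ x
  set F : Y →ₗ[k] W :=
    (Nat.card Γ : k)⁻¹ • ∑ γ : Γ, (ρW γ) ∘ₗ f ∘ₗ r₀ ∘ₗ (ρY γ⁻¹) with hF
  have hFapp : ∀ y, F y = (Nat.card Γ : k)⁻¹ • ∑ γ : Γ, ρW γ (f (r₀ (ρY γ⁻¹ y))) := by
    intro y
    simp only [hF, LinearMap.smul_apply, LinearMap.sum_apply, LinearMap.comp_apply]
  refine ⟨F, fun δ y => ?_, fun x => ?_⟩
  · rw [hFapp, hFapp, map_smul, map_sum]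
    congr 1
    refine Fintype.sum_equiv (Equiv.mulLeft δ⁻¹) _ _ (fun γ => ?_)
    rw [Equiv.coe_mulLeft, ← LinearMap.comp_apply (ρW δ), ← Module.End.mul_eq_comp, ← map_mul,
      mul_inv_cancel_left, ← LinearMap.comp_apply (ρY γ⁻¹), ← Module.End.mul_eq_comp, ← map_mul,
      mul_inv_rev, inv_inv]
  · rw [hFapp]
    have h : ∀ γ : Γ, ρW γ (f (r₀ (ρY γ⁻¹ (i x)))) = f x := by
      intro γ
      rw [← hiΓ, hr₀', hf, ← LinearMap.comp_apply (ρW γ), ← Module.End.mul_eq_comp, ← map_mul,
        mul_inv_cancel, map_one]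
      rfl
    rw [Finset.sum_congr rfl (fun γ _ => h γ), Finset.sum_const, Finset.card_univ,
      ← Nat.card_eq_fintype_card, ← Nat.cast_smul_eq_nsmul k, smul_smul,
      inv_mul_cancel₀ hcard, one_smul]

/-- `dim Hom_Γ(X, W) ≤ dim Hom_Γ(Y, W)` for an equivariant injection `X ↪ Y`. -/
theorem wk3_finrank_homInv_le [Finite Γ] (hcard : (Nat.card Γ : k) ≠ 0)
    (ρX : Representation k Γ X) (ρY : Representation k Γ Y) (ρW : Representation k Γ W)
    (i : X →ₗ[k] Y) (hi : Function.Injective i)
    (hiΓ : ∀ (γ : Γ) (x : X), i (ρX γ x) = ρY γ (i x))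
    [FiniteDimensional k Y] [FiniteDimensional k W] :
    finrank k (wk3HomInv ρX ρW) ≤ finrank k (wk3HomInv ρY ρW) := by
  set φ : wk3HomInv ρY ρW →ₗ[k] wk3HomInv ρX ρW :=
    ((LinearMap.lcomp k W i).comp (wk3HomInv ρY ρW).subtype).codRestrict (wk3HomInv ρX ρW)
      (fun F γ x => by
        show F.1 (i (ρX γ x)) = ρW γ (F.1 (i x))
        rw [hiΓ, F.2 γ]) with hφ
  have hφs : Function.Surjective φ := by
    rintro ⟨f, hf⟩
    obtain ⟨F, hF, hFf⟩ := wk3_exists_extension hcard ρX ρY ρW i hi hiΓ f hf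
    exact ⟨⟨F, hF⟩, Subtype.ext (LinearMap.ext hFf)⟩
  exact LinearMap.finrank_le_finrank_of_surjective hφs

/-- **Left exactness of invariants**: `dim B^Γ ≤ dim (ker π)^Γ + dim Q^Γ` for an equivariant
map `π : B → Q`. -/
theorem wk3_finrank_inv_le (ρB : Representation k Γ B) (ρQ : Representation k Γ Q)
    (π : B →ₗ[k] Q) (hπ : ∀ (γ : Γ) (b : B), π (ρB γ b) = ρQ γ (π b))
    [FiniteDimensional k B] [FiniteDimensional k Q] :
    finrank k ρB.invariants ≤
      finrank k ↥(ρB.invariants ⊓ LinearMap.ker π) + finrank k ρQ.invariants := by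
  set φ : ρB.invariants →ₗ[k] ρQ.invariants :=
    (π.comp ρB.invariants.subtype).codRestrict ρQ.invariants (fun b γ => by
      show ρQ γ (π b.1) = π b.1
      rw [← hπ, b.2 γ]) with hφ
  have h1 := LinearMap.finrank_range_add_finrank_ker φ
  have h2 : finrank k ↥(LinearMap.range φ) ≤ finrank k ρQ.invariants :=
    Submodule.finrank_le _
  have h3 : finrank k ↥(LinearMap.ker φ) ≤ finrank k ↥(ρB.invariants ⊓ LinearMap.ker π) := by
    refine LinearMap.finrank_le_finrank_of_injective
      (f := (ρB.invariants.subtype.comp (LinearMap.ker φ).subtype).codRestrict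
        (ρB.invariants ⊓ LinearMap.ker π) (fun b => ⟨b.1.2, ?_⟩)) ?_
    · have hb : φ b.1 = 0 := b.2
      have := congrArg Subtype.val hb
      exact this
    · intro a b hab
      have h := congrArg Subtype.val hab
      exact Subtype.ext (Subtype.ext h)
  omega

end Maschke

/-! ### The fixed field of Frobenius -/

/-- In a field which is a `ZMod p`-algebra, the fixed points of `x ↦ x ^ p` are the prime field. -/
theorem wk3_frob_fixed (p : ℕ) [Fact p.Prime] {L : Type*} [Field L] [Algebra (ZMod p) L]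
    (x : L) (hx : x ^ p = x) : ∃ c : ZMod p, algebraMap (ZMod p) L c = x := by
  classical
  have hp1 : 1 < p := (Fact.out : p.Prime).one_lt
  have hP : (Polynomial.X ^ p - Polynomial.X : Polynomial L) ≠ 0 :=
    FiniteField.X_pow_card_sub_X_ne_zero L hp1
  have hdeg : (Polynomial.X ^ p - Polynomial.X : Polynomial L).natDegree = p :=
    FiniteField.X_pow_card_sub_X_natDegree_eq L hp1
  have hroot : ∀ y : L, y ^ p = y →
      y ∈ (Polynomial.X ^ p - Polynomial.X : Polynomial L).roots.toFinset := by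
    intro y hy
    rw [Multiset.mem_toFinset, Polynomial.mem_roots hP, Polynomial.IsRoot.def,
      Polynomial.eval_sub, Polynomial.eval_pow, Polynomial.eval_X, hy, sub_self]
  have hsub : (Finset.univ.image (algebraMap (ZMod p) L)) ⊆
      (Polynomial.X ^ p - Polynomial.X : Polynomial L).roots.toFinset := by
    intro y hy
    obtain ⟨c, -, rfl⟩ := Finset.mem_image.1 hy
    apply hroot
    rw [← map_pow, ZMod.pow_card]
  have hcard : (Polynomial.X ^ p - Polynomial.X : Polynomial L).roots.toFinset.card ≤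
      (Finset.univ.image (algebraMap (ZMod p) L)).card := by
    rw [Finset.card_image_of_injective _ (algebraMap (ZMod p) L).injective, Finset.card_univ,
      ZMod.card]
    calc (Polynomial.X ^ p - Polynomial.X : Polynomial L).roots.toFinset.card
        ≤ Multiset.card (Polynomial.X ^ p - Polynomial.X : Polynomial L).roots :=
          Multiset.toFinset_card_le _
      _ ≤ (Polynomial.X ^ p - Polynomial.X : Polynomial L).natDegree :=
          Polynomial.card_roots' _
      _ = p := hdeg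
  have heq := Finset.eq_of_subset_of_card_le hsub hcard
  have hxmem := hroot x hx
  rw [← heq] at hxmem
  obtain ⟨c, -, hc⟩ := Finset.mem_image.1 hxmem
  exact ⟨c, hc⟩

end Fermat.Agent.TW.W
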