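/-
TW-W, block (GB), piece CHAR-count (helper67): `theorem stmtGBCharCount : StmtGBCharCount`.

For a character `ψ` with `ψ ^ (p - 1) = 1` on inertia, every `σ ∈ I` acts on `k(ψ)` through a
scalar `a_σ ∈ 𝔽_p`, hence on `F ⊗ k(ψ)` through the scalar `a_σ ∈ F`: `E_i` is `0` unless
`u ^ i = ψ` on inertia, which happens for at most one `i ∈ [1, e']` (faithfulness of `u`), and then
`i = e'`, `ψ = ω` on inertia.
-/
import Fermat.Agent.TW.W.GBPlan
import Fermat.Agent.TW.W.K3

set_option autoImplicit false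
set_option linter.unusedSectionVars false
set_option linter.style.haveILetI false

open scoped TensorProduct

namespace Fermat.Agent.TW.W

open CategoryTheory groupCohomology
open Fermat.Agent.PT Fermat.Agent.PT.B Fermat.Agent.TW.L ExtCitation

section

variable (p : ℕ) [Fact p.Prime] {k : Type} [Field k] [Algebra (ZMod p) k]
  {F : Type} [Field F] [Algebra (ZMod p) F]

/-- `σ` acts on `F ⊗ k(ψ)` by the scalar `a` if `ψ(σ) = a ∈ 𝔽_p`. -/
theorem wgcc_baseChange (ψ : GQq p →* kˣ) (σ : GQq p) (a : ZMod p)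
    (ha : algebraMap (ZMod p) k a = ((ψ σ : kˣ) : k)) (v : F ⊗[ZMod p] (charRep p ψ)) :
    ((charRep p ψ).ρ σ).baseChange F v = algebraMap (ZMod p) F a • v := by
  have hρ : (charRep p ψ).ρ σ = a • (LinearMap.id : (charRep p ψ) →ₗ[ZMod p] (charRep p ψ)) := by
    apply LinearMap.ext
    intro x
    have key : ∀ y : k, ((ψ σ : kˣ) : k) * y = a • y := fun y => by
      rw [← ha]
      exact (Algebra.smul_def a y).symm
    exact key x
  rw [hρ, LinearMap.baseChange_smul, LinearMap.baseChange_id, LinearMap.smul_apply,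
    LinearMap.id_apply, algebraMap_smul]

/-- on inertia, `ψ` has values in `𝔽_p` -/
theorem wgcc_exists_scalar (ψ : GQq p →* kˣ) {σ : GQq p}
    (h : ((ψ σ : kˣ) : k) ^ (p - 1) = 1) :
    ∃ a : ZMod p, algebraMap (ZMod p) k a = ((ψ σ : kˣ) : k) := by
  apply wk3_frob_fixed p
  have hp : (p - 1) + 1 = p := by
    have := (Fact.out : p.Prime).one_le
    omega
  have h1 : ((ψ σ : kˣ) : k) ^ ((p - 1) + 1) = ((ψ σ : kˣ) : k) := by
    rw [pow_succ, h, one_mul]
  have h2 : ((ψ σ : kˣ) : k) ^ p = ((ψ σ : kˣ) : k) ^ ((p - 1) + 1) :=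
    congrArg (fun n => ((ψ σ : kˣ) : k) ^ n) hp.symm
  rw [h2, h1]

/-- if `E_i ≠ 0` then `u ^ i = ψ` on inertia -/
theorem wgcc_eq_of_ne_bot (ψ : GQq p →* kˣ) (u : GQq p → F) (i : ℕ)
    (hne : gbEig p F (charRep p ψ).ρ (inertiaQ p) u i ≠ ⊥) {σ : GQq p} (hσ : σ ∈ inertiaQ p)
    (a : ZMod p) (ha : algebraMap (ZMod p) k a = ((ψ σ : kˣ) : k)) :
    algebraMap (ZMod p) F a = u σ ^ i := by
  obtain ⟨v, hv, hv0⟩ := (Submodule.ne_bot_iff _).1 hne
  have h1 := (mem_gbEig p F (charRep p ψ).ρ (inertiaQ p) u i v).1 hv σ hσ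
  rw [wgcc_baseChange p ψ σ a ha v] at h1
  exact smul_left_injective F hv0 h1

end

/-- **CHAR-count**. -/
theorem stmtGBCharCount : StmtGBCharCount := by
  intro p _ hp2 k _ _ _ _ ψ hpow F _ _ u e' hω hfaith
  have hpp : p.Prime := Fact.out
  have hp1 : 1 ≤ p - 1 := by
    have := hpp.two_le
    omega
  -- `u σ ≠ 0` on inertia when `e' ≠ 0`
  have hu0 : e' ≠ 0 → ∀ σ ∈ inertiaQ p, u σ ≠ 0 := by
    intro he σ hσ h0
    have h1 := hω σ hσ
    rw [h0, zero_pow he] at h1
    have h2 : ((gbOmega p σ : (ZMod p)ˣ) : ZMod p) = 0 :=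
      (algebraMap (ZMod p) F).injective (by rw [h1, map_zero])
    exact (Units.ne_zero _) h2
  -- at most one `E_i` is nonzero
  have huniq : ∀ i ∈ Finset.Icc 1 e', ∀ j ∈ Finset.Icc 1 e',
      gbEig p F (charRep p ψ).ρ (inertiaQ p) u i ≠ ⊥ →
      gbEig p F (charRep p ψ).ρ (inertiaQ p) u j ≠ ⊥ → i ≤ j → i = j := by
    intro i hi j hj hEi hEj hij
    by_contra hne
    have hlt : i < j := lt_of_le_of_ne hij hne
    rw [Finset.mem_Icc] at hi hj
    have he : e' ≠ 0 := by omega
    have ht1 : 0 < j - i := by omega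
    have ht2 : j - i < (p - 1) * e' := by
      have : e' ≤ (p - 1) * e' := Nat.le_mul_of_pos_left e' (by omega)
      omega
    obtain ⟨σ, hσ, hσne⟩ := hfaith (j - i) ht1 ht2
    obtain ⟨a, ha⟩ := wgcc_exists_scalar p ψ (hpow σ hσ)
    have h1 := wgcc_eq_of_ne_bot p ψ u i hEi hσ a ha
    have h2 := wgcc_eq_of_ne_bot p ψ u j hEj hσ a ha
    apply hσne
    have h3 : u σ ^ i * u σ ^ (j - i) = u σ ^ i * 1 := by
      rw [← pow_add, mul_one, ← h1]
      have : i + (j - i) = j := by omega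
      rw [this, h2]
    exact mul_left_cancel₀ (pow_ne_zero _ (hu0 he σ hσ)) h3
  have hfinF : Module.finrank F (F ⊗[ZMod p] (charRep p ψ)) = Module.finrank (ZMod p) k :=
    Module.finrank_baseChange
  haveI : Module.Finite (ZMod p) (charRep p ψ) := by
    have : Module.Finite (ZMod p) k := Module.Finite.of_finite
    exact this
  refine ⟨?_, ?_⟩
  · by_cases hall : ∀ i ∈ Finset.Icc 1 e', gbEig p F (charRep p ψ).ρ (inertiaQ p) u i = ⊥
    · rw [Finset.sum_eq_zero (fun i hi => by rw [hall i hi]; exact finrank_bot F _)]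
      exact Nat.zero_le _
    · simp only [not_forall] at hall
      obtain ⟨i₀, hi₀, hEi₀⟩ := hall
      rw [Finset.sum_eq_single_of_mem i₀ hi₀]
      · rw [← hfinF]
        exact Submodule.finrank_le _
      · intro j hj hji
        by_contra hEj
        have hEj' : gbEig p F (charRep p ψ).ρ (inertiaQ p) u j ≠ ⊥ := by
          intro h
          apply hEj
          rw [h]
          exact finrank_bot F _
        rcases le_total i₀ j with h | h
        · exact hji (huniq i₀ hi₀ j hj hEi₀ hEj' h).symm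
        · exact hji (huniq j hj i₀ hi₀ hEj' hEi₀ h)
  · intro hncyc i hi
    by_contra hEi
    apply hncyc
    rw [Finset.mem_Icc] at hi
    have he : e' ≠ 0 := by omega
    -- `u ^ (i (p-1)) = 1` on inertia
    have hall : ∀ σ ∈ inertiaQ p, u σ ^ (i * (p - 1)) = 1 := by
      intro σ hσ
      obtain ⟨a, ha⟩ := wgcc_exists_scalar p ψ (hpow σ hσ)
      have h1 := wgcc_eq_of_ne_bot p ψ u i hEi hσ a ha
      rw [pow_mul, ← h1, ← map_pow]
      have h2 : algebraMap (ZMod p) k (a ^ (p - 1)) = 1 := by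
        rw [map_pow, ha, hpow σ hσ]
      have h3 : a ^ (p - 1) = 1 :=
        (algebraMap (ZMod p) k).injective (by rw [h2, map_one])
      rw [h3, map_one]
    have hie : i = e' := by
      by_contra hne
      have hlt : i < e' := lt_of_le_of_ne hi.2 hne
      have ht1 : 0 < i * (p - 1) := Nat.mul_pos (by omega) (by omega)
      have ht2 : i * (p - 1) < (p - 1) * e' := by
        rw [mul_comm]
        exact Nat.mul_lt_mul_of_pos_left hlt (by omega)
      obtain ⟨σ, hσ, hσne⟩ := hfaith _ ht1 ht2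
      exact hσne (hall σ hσ)
    intro σ hσ
    obtain ⟨a, ha⟩ := wgcc_exists_scalar p ψ (hpow σ hσ)
    have h1 := wgcc_eq_of_ne_bot p ψ u i hEi hσ a ha
    rw [hie, ← hω σ hσ] at h1
    have h2 : a = ((gbOmega p σ : (ZMod p)ˣ) : ZMod p) := (algebraMap (ZMod p) F).injective h1
    rw [← ha, h2]
    rfl

end Fermat.Agent.TW.W
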