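/-
TW-W, block (GB), pieces CHAR-count / IRR-count (helper86): the ABSTRACT part (Mathlib + `GBAbs`).

`R = F ⊗_{𝔽_p} k`, a commutative `F`-algebra of dimension `f = [k : 𝔽_p]`.
* `GbcSep A B` : two `F`-subspaces of `R` killed by comaximal elements;
  `gbc_sum_finrank_le` : pairwise separated subspaces have `Σ dim ≤ dim_F R`;
* `gbcE χ i = {r ∈ R | (1 ⊗ χ(σ)) r = u(σ)^i r for all σ ∈ I}`, and the separation lemmas;
* `gbc_finrank_gbEig_le` : if `W` embeds into `k^A` through maps `π_a` which are eigen for `I` with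
  characters `χ_a`, then `dim_F E_i(W) ≤ Σ_a dim_F gbcE χ_a i`.
-/
import Fermat.Agent.TW.W.GBAbs

set_option autoImplicit false
set_option linter.style.haveILetI false

open scoped TensorProduct

noncomputable section

namespace Fermat.Agent.TW.W

open Module

section Sep

variable {F R : Type*} [Field F] [CommRing R] [Algebra F R]

/-- `A` and `B` are killed by two elements of sum `1`. -/
def GbcSep (A B : Submodule F R) : Prop :=
  ∃ x y : R, x + y = 1 ∧ (∀ r ∈ A, x * r = 0) ∧ (∀ r ∈ B, y * r = 0)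

theorem gbcSep_bot_left (B : Submodule F R) : GbcSep (⊥ : Submodule F R) B := by
  refine ⟨1, 0, add_zero 1, fun r hr => ?_, fun r _ => zero_mul r⟩
  rw [(Submodule.mem_bot F).mp hr, mul_zero]

theorem gbcSep_bot_right (A : Submodule F R) : GbcSep A (⊥ : Submodule F R) := by
  refine ⟨0, 1, zero_add 1, fun r _ => zero_mul r, fun r hr => ?_⟩
  rw [(Submodule.mem_bot F).mp hr, mul_zero]

theorem GbcSep.symm {A B : Submodule F R} (h : GbcSep A B) : GbcSep B A := by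
  obtain ⟨x, y, hxy, hx, hy⟩ := h
  exact ⟨y, x, by rw [add_comm]; exact hxy, hy, hx⟩

variable {ι : Type*} (E : ι → Submodule F R)

/-- an element acting as `1` on `E a₀` and as `0` on the `E b`, `b ∈ t` -/
theorem gbc_exists_y [DecidableEq ι] (a₀ : ι) (t : Finset ι)
    (h : ∀ b ∈ t, GbcSep (E a₀) (E b)) :
    ∃ y : R, (∀ r ∈ E a₀, y * r = r) ∧ ∀ b ∈ t, ∀ r ∈ E b, y * r = 0 := by
  induction t using Finset.induction_on with
  | empty => exact ⟨1, fun r _ => one_mul r, fun b hb => absurd hb (Finset.notMem_empty b)⟩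
  | insert b t hb ih =>
    obtain ⟨y', hy1, hy2⟩ := ih (fun c hc => h c (Finset.mem_insert_of_mem hc))
    obtain ⟨x, y, hxy, hx, hy⟩ := h b (Finset.mem_insert_self b t)
    refine ⟨y' * y, fun r hr => ?_, fun c hc r hr => ?_⟩
    · have e : y = 1 - x := by rw [← hxy]; ring
      rw [mul_assoc, e, sub_mul, one_mul, hx r hr, sub_zero, hy1 r hr]
    · rcases Finset.mem_insert.mp hc with rfl | hc'
      · rw [mul_assoc, hy r hr, mul_zero]
      · rw [mul_comm y' y, mul_assoc, hy2 c hc' r hr, mul_zero]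

/-- `E a₀` is disjoint from the span of the `E b`, `b ∈ t` -/
theorem gbc_disjoint [DecidableEq ι] (a₀ : ι) (t : Finset ι)
    (h : ∀ b ∈ t, GbcSep (E a₀) (E b)) : Disjoint (E a₀) (⨆ b ∈ t, E b) := by
  obtain ⟨y, hy1, hy2⟩ := gbc_exists_y E a₀ t h
  rw [Submodule.disjoint_def]
  intro r hr hr'
  let K : Submodule F R :=
    { carrier := {z | y * z = 0}
      add_mem' := by
        intro a b ha hb
        show y * (a + b) = 0
        rw [mul_add, ha, hb, add_zero]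
      zero_mem' := mul_zero y
      smul_mem' := by
        intro c z hz
        show y * (c • z) = 0
        rw [mul_smul_comm, hz, smul_zero] }
  have hle : (⨆ b ∈ t, E b) ≤ K := by
    refine iSup₂_le ?_
    intro b hb z hz
    exact hy2 b hb z hz
  have h0 : y * r = 0 := hle hr'
  rw [← hy1 r hr, h0]

/-- the dimensions of pairwise separated subspaces add up -/
theorem gbc_finrank_biSup [DecidableEq ι] [Module.Finite F R] (t : Finset ι)
    (hsep : ∀ a ∈ t, ∀ b ∈ t, a ≠ b → GbcSep (E a) (E b)) :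
    ∑ a ∈ t, finrank F (E a) = finrank F ↥(⨆ a ∈ t, E a) := by
  induction t using Finset.induction_on with
  | empty =>
    have h0 : (⨆ a ∈ (∅ : Finset ι), E a) = ⊥ := by simp
    rw [Finset.sum_empty, h0, finrank_bot]
  | insert a t ha ih =>
    rw [Finset.sum_insert ha, Finset.iSup_insert,
      ih (fun b hb c hc hbc => hsep b (Finset.mem_insert_of_mem hb) c
        (Finset.mem_insert_of_mem hc) hbc)]
    have hd : Disjoint (E a) (⨆ b ∈ t, E b) :=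
      gbc_disjoint E a t (fun b hb => hsep a (Finset.mem_insert_self a t) b
        (Finset.mem_insert_of_mem hb) (fun h => ha (h ▸ hb)))
    have h1 := Submodule.finrank_sup_add_finrank_inf_eq (E a) (⨆ b ∈ t, E b)
    rw [hd.eq_bot, finrank_bot, add_zero] at h1
    exact h1.symm

/-- **Pairwise separated subspaces**: `Σ dim ≤ dim R`. -/
theorem gbc_sum_finrank_le [DecidableEq ι] [Module.Finite F R] (t : Finset ι)
    (hsep : ∀ a ∈ t, ∀ b ∈ t, a ≠ b → GbcSep (E a) (E b)) :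
    ∑ a ∈ t, finrank F (E a) ≤ finrank F R := by
  rw [gbc_finrank_biSup E t hsep]
  exact Submodule.finrank_le _

end Sep

section Char

variable (p : ℕ) [Fact p.Prime] {G : Type} [Group G] (F : Type) [Field F] [Algebra (ZMod p) F]
  (k : Type) [Field k] [Algebra (ZMod p) k] (I : Subgroup G) (u : G → F)

/-- `{r ∈ F ⊗ k | (1 ⊗ χ(σ)) r = u(σ)^i r for all σ ∈ I}` -/
def gbcE (χ : G → k) (i : ℕ) : Submodule F (F ⊗[ZMod p] k) where
  carrier := {r | ∀ σ ∈ I, ((1 : F) ⊗ₜ[ZMod p] χ σ) * r = u σ ^ i • r}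
  add_mem' := by
    intro a b ha hb σ hσ
    rw [mul_add, ha σ hσ, hb σ hσ, smul_add]
  zero_mem' := by
    intro σ _
    rw [mul_zero, smul_zero]
  smul_mem' := by
    intro c v hv σ hσ
    rw [mul_smul_comm, hv σ hσ, smul_comm]

variable {p F k I u}

theorem mem_gbcE {χ : G → k} {i : ℕ} {r : F ⊗[ZMod p] k} :
    r ∈ gbcE p F k I u χ i ↔ ∀ σ ∈ I, ((1 : F) ⊗ₜ[ZMod p] χ σ) * r = u σ ^ i • r := Iff.rfl

/-- scalars of `F` as elements of `F ⊗ k` -/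
theorem gbc_smul_eq (c : F) (r : F ⊗[ZMod p] k) : c • r = (c ⊗ₜ[ZMod p] (1 : k)) * r := by
  rw [Algebra.smul_def]
  rfl

/-- elements of the prime field on both sides -/
theorem gbc_tmul_algebraMap (a : ZMod p) :
    ((1 : F) ⊗ₜ[ZMod p] (algebraMap (ZMod p) k a)) = (algebraMap (ZMod p) F a) ⊗ₜ[ZMod p] (1 : k) := by
  rw [Algebra.algebraMap_eq_smul_one, Algebra.algebraMap_eq_smul_one, TensorProduct.tmul_smul,
    TensorProduct.smul_tmul']

/-- the defect element kills `gbcE χ i` -/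
theorem gbc_defect_mul {χ : G → k} {i : ℕ} {σ : G} (hσ : σ ∈ I) {r : F ⊗[ZMod p] k}
    (hr : r ∈ gbcE p F k I u χ i) :
    ((1 : F) ⊗ₜ[ZMod p] χ σ - (u σ ^ i) ⊗ₜ[ZMod p] (1 : k)) * r = 0 := by
  rw [sub_mul, hr σ hσ, gbc_smul_eq, sub_self]

/-- (S1) the same character at two levels `i ≠ j` -/
theorem gbcSep_same (χ : G → k) {i j : ℕ} {σ : G} (hσ : σ ∈ I) (h : u σ ^ i ≠ u σ ^ j) :
    GbcSep (gbcE p F k I u χ i) (gbcE p F k I u χ j) := by
  have hc : u σ ^ j - u σ ^ i ≠ 0 := sub_ne_zero.mpr (Ne.symm h)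
  refine ⟨(u σ ^ j - u σ ^ i)⁻¹ • ((1 : F) ⊗ₜ[ZMod p] χ σ - (u σ ^ i) ⊗ₜ[ZMod p] (1 : k)),
    -((u σ ^ j - u σ ^ i)⁻¹ • ((1 : F) ⊗ₜ[ZMod p] χ σ - (u σ ^ j) ⊗ₜ[ZMod p] (1 : k))), ?_, ?_, ?_⟩
  · rw [← sub_eq_add_neg, ← smul_sub]
    have e : ((1 : F) ⊗ₜ[ZMod p] χ σ - (u σ ^ i) ⊗ₜ[ZMod p] (1 : k)) -
        ((1 : F) ⊗ₜ[ZMod p] χ σ - (u σ ^ j) ⊗ₜ[ZMod p] (1 : k)) =
        (u σ ^ j - u σ ^ i) • (1 : F ⊗[ZMod p] k) := by
      rw [sub_sub_sub_cancel_left, ← TensorProduct.sub_tmul, Algebra.TensorProduct.one_def,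
        TensorProduct.smul_tmul', smul_eq_mul, mul_one]
    rw [e, smul_smul, inv_mul_cancel₀ hc, one_smul]
  · intro r hr
    rw [smul_mul_assoc, gbc_defect_mul hσ hr, smul_zero]
  · intro r hr
    rw [neg_mul, smul_mul_assoc, gbc_defect_mul hσ hr, smul_zero, neg_zero]

/-- (S2) two inverse characters at the levels `i`, `j` with `u ^ (i + j) ≠ 1` -/
theorem gbcSep_inv (χ χ' : G → k) {i j : ℕ} {σ : G} (hσ : σ ∈ I) (hχ : χ σ * χ' σ = 1)
    (h : u σ ^ (i + j) ≠ 1) :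
    GbcSep (gbcE p F k I u χ i) (gbcE p F k I u χ' j) := by
  have hc : 1 - u σ ^ (i + j) ≠ 0 := sub_ne_zero.mpr (Ne.symm h)
  refine ⟨(1 - u σ ^ (i + j))⁻¹ • (((1 : F) ⊗ₜ[ZMod p] χ' σ) *
      ((1 : F) ⊗ₜ[ZMod p] χ σ - (u σ ^ i) ⊗ₜ[ZMod p] (1 : k))),
    (1 - u σ ^ (i + j))⁻¹ • (((u σ ^ i) ⊗ₜ[ZMod p] (1 : k)) *
      ((1 : F) ⊗ₜ[ZMod p] χ' σ - (u σ ^ j) ⊗ₜ[ZMod p] (1 : k))), ?_, ?_, ?_⟩
  · rw [← smul_add]
    have h1 : ((1 : F) ⊗ₜ[ZMod p] χ' σ) * ((1 : F) ⊗ₜ[ZMod p] χ σ) =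
        (1 : F) ⊗ₜ[ZMod p] (1 : k) := by
      rw [Algebra.TensorProduct.tmul_mul_tmul, one_mul, mul_comm, hχ]
    have h2 : ((1 : F) ⊗ₜ[ZMod p] χ' σ) * ((u σ ^ i) ⊗ₜ[ZMod p] (1 : k)) =
        (u σ ^ i) ⊗ₜ[ZMod p] χ' σ := by
      rw [Algebra.TensorProduct.tmul_mul_tmul, one_mul, mul_one]
    have h3 : ((u σ ^ i) ⊗ₜ[ZMod p] (1 : k)) * ((1 : F) ⊗ₜ[ZMod p] χ' σ) =
        (u σ ^ i) ⊗ₜ[ZMod p] χ' σ := by
      rw [Algebra.TensorProduct.tmul_mul_tmul, one_mul, mul_one]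
    have h4 : ((u σ ^ i) ⊗ₜ[ZMod p] (1 : k)) * ((u σ ^ j) ⊗ₜ[ZMod p] (1 : k)) =
        (u σ ^ (i + j)) ⊗ₜ[ZMod p] (1 : k) := by
      rw [Algebra.TensorProduct.tmul_mul_tmul, one_mul, pow_add]
    have e : ((1 : F) ⊗ₜ[ZMod p] χ' σ) *
        ((1 : F) ⊗ₜ[ZMod p] χ σ - (u σ ^ i) ⊗ₜ[ZMod p] (1 : k)) +
        ((u σ ^ i) ⊗ₜ[ZMod p] (1 : k)) *
          ((1 : F) ⊗ₜ[ZMod p] χ' σ - (u σ ^ j) ⊗ₜ[ZMod p] (1 : k)) =
        (1 - u σ ^ (i + j)) • (1 : F ⊗[ZMod p] k) := by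
      rw [mul_sub, mul_sub, h1, h2, h3, h4, sub_smul, one_smul, Algebra.TensorProduct.one_def,
        TensorProduct.smul_tmul', smul_eq_mul, mul_one]
      abel
    rw [e, smul_smul, inv_mul_cancel₀ hc, one_smul]
  · intro r hr
    rw [smul_mul_assoc, mul_assoc, gbc_defect_mul hσ hr, mul_zero, smul_zero]
  · intro r hr
    rw [smul_mul_assoc, mul_assoc, gbc_defect_mul hσ hr, mul_zero, smul_zero]

/-- (Z1) `gbcE χ i = 0` if `χ(σ) = a ∈ 𝔽_p` and `u(σ)^i ≠ a` for some `σ ∈ I` -/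
theorem gbcE_eq_bot_of_prime (χ : G → k) {i : ℕ} {σ : G} (hσ : σ ∈ I) (a : ZMod p)
    (hχ : χ σ = algebraMap (ZMod p) k a) (h : u σ ^ i ≠ algebraMap (ZMod p) F a) :
    gbcE p F k I u χ i = ⊥ := by
  rw [Submodule.eq_bot_iff]
  intro r hr
  have h1 := hr σ hσ
  rw [hχ, gbc_tmul_algebraMap, ← gbc_smul_eq] at h1
  have h2 : (algebraMap (ZMod p) F a - u σ ^ i) • r = 0 := by
    rw [sub_smul, h1, sub_self]
  rcases smul_eq_zero.mp h2 with h3 | h3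
  · exact absurd (sub_eq_zero.mp h3).symm h
  · exact h3

/-- (Z2) `gbcE χ i = 0` if `u(σ)^i = a ∈ 𝔽_p` and `χ(σ) ≠ a` for some `σ ∈ I` -/
theorem gbcE_eq_bot_of_prime' (χ : G → k) {i : ℕ} {σ : G} (hσ : σ ∈ I) (a : ZMod p)
    (hu : u σ ^ i = algebraMap (ZMod p) F a) (h : χ σ ≠ algebraMap (ZMod p) k a) :
    gbcE p F k I u χ i = ⊥ := by
  rw [Submodule.eq_bot_iff]
  intro r hr
  have h1 := hr σ hσ
  rw [hu, gbc_smul_eq, ← gbc_tmul_algebraMap] at h1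
  have hc : χ σ - algebraMap (ZMod p) k a ≠ 0 := sub_ne_zero.mpr h
  have h2 : ((1 : F) ⊗ₜ[ZMod p] (χ σ - algebraMap (ZMod p) k a)) * r = 0 := by
    rw [TensorProduct.tmul_sub, sub_mul, h1, sub_self]
  have h3 : ((1 : F) ⊗ₜ[ZMod p] (χ σ - algebraMap (ZMod p) k a)⁻¹) *
      (((1 : F) ⊗ₜ[ZMod p] (χ σ - algebraMap (ZMod p) k a)) * r) = r := by
    rw [← mul_assoc, Algebra.TensorProduct.tmul_mul_tmul, one_mul, inv_mul_cancel₀ hc,
      ← Algebra.TensorProduct.one_def, one_mul]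
  rw [← h3, h2, mul_zero]

end Char

end Fermat.Agent.TW.W

end
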