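/-
TW-W, block (GB), pieces CHAR-count / IRR-count (helper86): from `gbEig` to the spaces `gbcE`.

* `gbc_gbEig_char`       : `gbEig` of a representation by a character on `k` is `gbcE`;
* `gbc_finrank_gbEig_le` : if `W` embeds into `k^A` through maps `π_a` which are eigen for `I` with
  characters `χ_a`, then `dim_F E_i(W) ≤ Σ_a dim_F gbcE χ_a i`.
-/
import Fermat.Agent.TW.W.GBCountAbs

set_option autoImplicit false
set_option linter.style.haveILetI false

open scoped TensorProduct

noncomputable section

namespace Fermat.Agent.TW.W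

open Module

section Link

variable {p : ℕ} [Fact p.Prime] {G : Type} [Group G] {F : Type} [Field F] [Algebra (ZMod p) F]
  {k : Type} [Field k] [Algebra (ZMod p) k] {I : Subgroup G} {u : G → F}
  {W : Type} [AddCommGroup W] [Module (ZMod p) W]

/-- base change of an eigen-map -/
theorem gbc_baseChange_eig (f : W →ₗ[ZMod p] W) (π : W →ₗ[ZMod p] k) (c : k)
    (h : ∀ w, π (f w) = c * π w) (v : F ⊗[ZMod p] W) :
    π.baseChange F (f.baseChange F v) = ((1 : F) ⊗ₜ[ZMod p] c) * π.baseChange F v := by
  induction v using TensorProduct.induction_on with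
  | zero => simp
  | tmul a w =>
    rw [LinearMap.baseChange_tmul, LinearMap.baseChange_tmul, LinearMap.baseChange_tmul, h,
      Algebra.TensorProduct.tmul_mul_tmul, one_mul]
  | add x y hx hy => rw [map_add, map_add, map_add, hx, hy, mul_add]

/-- base change of the multiplication by `c` -/
theorem gbc_baseChange_mul (f : k →ₗ[ZMod p] k) (c : k) (h : ∀ x, f x = c * x)
    (v : F ⊗[ZMod p] k) : f.baseChange F v = ((1 : F) ⊗ₜ[ZMod p] c) * v := by
  have h1 := gbc_baseChange_eig (F := F) f LinearMap.id c h v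
  rw [LinearMap.baseChange_id] at h1
  exact h1

/-- `gbEig` of a representation through a character on `k` -/
theorem gbc_gbEig_char (ρ : Representation (ZMod p) G k) (χ : G → k)
    (h : ∀ σ ∈ I, ∀ x, ρ σ x = χ σ * x) (i : ℕ) :
    gbEig p F ρ I u i = gbcE p F k I u χ i := by
  ext v
  rw [mem_gbEig, mem_gbcE]
  constructor
  · intro hv σ hσ
    rw [← hv σ hσ, gbc_baseChange_mul (ρ σ) (χ σ) (h σ hσ)]
  · intro hv σ hσ
    rw [← hv σ hσ, gbc_baseChange_mul (ρ σ) (χ σ) (h σ hσ)]

/-- joint injectivity is preserved by base change -/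
theorem gbc_baseChange_jointly_injective {A : Type} [Fintype A] [DecidableEq A]
    (π : A → (W →ₗ[ZMod p] k)) (hinj : ∀ w, (∀ a, π a w = 0) → w = 0) (v : F ⊗[ZMod p] W)
    (hv : ∀ a, (π a).baseChange F v = 0) : v = 0 := by
  let P : W →ₗ[ZMod p] (A → k) := LinearMap.pi π
  have hP : Function.Injective P := by
    rw [injective_iff_map_eq_zero]
    intro w hw
    exact hinj w (fun a => congrFun hw a)
  have hPF : Function.Injective (P.baseChange F) := by
    rw [LinearMap.baseChange_eq_ltensor]
    exact Module.Flat.lTensor_preserves_injective_linearMap P hP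
  have key : ∀ (v : F ⊗[ZMod p] W) (a : A),
      TensorProduct.piRight (ZMod p) F F (fun _ : A => k) (P.baseChange F v) a =
        (π a).baseChange F v := by
    intro v a
    induction v using TensorProduct.induction_on with
    | zero => simp
    | tmul x w =>
      rw [LinearMap.baseChange_tmul, LinearMap.baseChange_tmul, TensorProduct.piRight_apply,
        TensorProduct.piRightHom_tmul]
      rfl
    | add x y hx hy => rw [map_add, map_add, Pi.add_apply, hx, hy, map_add]
  apply hPF
  rw [map_zero]
  apply (TensorProduct.piRight (ZMod p) F F (fun _ : A => k)).injective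
  rw [map_zero]
  ext a
  rw [key, hv a]
  rfl

/-- **The link**: `dim_F E_i(W) ≤ Σ_a dim_F gbcE χ_a i`. -/
theorem gbc_finrank_gbEig_le [Module.Finite (ZMod p) k] (ρ : Representation (ZMod p) G W)
    {A : Type} [Fintype A] [DecidableEq A] (π : A → (W →ₗ[ZMod p] k)) (χ : A → G → k)
    (hinj : ∀ w, (∀ a, π a w = 0) → w = 0)
    (heig : ∀ a, ∀ σ ∈ I, ∀ w, π a (ρ σ w) = χ a σ * π a w) (i : ℕ) :
    finrank F (gbEig p F ρ I u i) ≤ ∑ a, finrank F (gbcE p F k I u (χ a) i) := by
  have hmem : ∀ a, ∀ v ∈ gbEig p F ρ I u i,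
      (π a).baseChange F v ∈ gbcE p F k I u (χ a) i := by
    intro a v hv σ hσ
    rw [← gbc_baseChange_eig (ρ σ) (π a) (χ a σ) (heig a σ hσ), hv σ hσ, map_smul]
  let Ψ : ↥(gbEig p F ρ I u i) →ₗ[F] (∀ a, ↥(gbcE p F k I u (χ a) i)) :=
    LinearMap.pi (fun a => (((π a).baseChange F).comp
      (gbEig p F ρ I u i).subtype).codRestrict (gbcE p F k I u (χ a) i)
        (fun v => hmem a v v.2))
  have hΨ : Function.Injective Ψ := by
    rw [injective_iff_map_eq_zero]
    intro v hv
    apply Subtype.ext
    apply gbc_baseChange_jointly_injective π hinj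
    intro a
    have := congrArg (fun z => ((z a : ↥(gbcE p F k I u (χ a) i)) : F ⊗[ZMod p] k)) hv
    exact this
  calc finrank F ↥(gbEig p F ρ I u i)
      ≤ finrank F (∀ a, ↥(gbcE p F k I u (χ a) i)) :=
        LinearMap.finrank_le_finrank_of_injective hΨ
    _ = ∑ a, finrank F ↥(gbcE p F k I u (χ a) i) := Module.finrank_pi_fintype F

end Link

end Fermat.Agent.TW.W

end
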