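/-
TW-W, block (GB), piece IRR-count (helper86): `stmtGBIrrCount : StmtGBIrrCount`.

If inertia acts on `V̄` through `ψ₁ ≠ ψ₂ = ψ₁^p`, `ψ₁ ψ₂ = ω`, and `(F, u, e')` is as in `StmtGBGen`,
then `Σ_{1 ≤ i ≤ e'} dim_F E_i(ad⁰) ≤ f`.

Proof.  In the basis `(v₁, v₂)` the entries `X₀₀, X₀₁, X₁₀` embed `ad⁰` into `k³`, and inertia acts on
them through `1, η, η⁻¹`, `η = ψ₁/ψ₂`; so `dim E_i(ad⁰) ≤ dim gbcE 1 i + dim gbcE η i + dim gbcE η⁻¹ i`
(`gbc_finrank_gbEig_le`).  `gbcE 1 i = 0` (`u^i ≠ 1`); the spaces `gbcE η^{±1} i`, `1 ≤ i ≤ e'`, are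
pairwise separated in `R = F ⊗ k`: same sign by `u^i ≠ u^j`; opposite signs by `u^{i+j} ≠ 1`, unless
`p = 3`, `i = j = e'`, where `gbcE η e' = 0` because `η = ω = ψ₁ψ₂` on inertia would give `ψ₂² = 1`,
`ψ₁ = ψ₂³ = ψ₂`.  Hence `Σ dim ≤ dim_F R = f` (`gbc_sum_finrank_le`).
-/
import Fermat.Agent.TW.W.GBPlan
import Fermat.Agent.TW.W.GBCountLink
import Fermat.Agent.TW.W.DevSwap

set_option autoImplicit false
set_option linter.style.haveILetI false
set_option linter.unusedSectionVars false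

open scoped TensorProduct

noncomputable section

namespace Fermat.Agent.TW.W

open Module
open Fermat.Agent.PT Fermat.Agent.PT.B Fermat.Agent.TW.L Fermat.Agent.TW.S ExtCitation

section Aux

variable {p : ℕ} [Fact p.Prime] {G : Type} [Group G] {F : Type} [Field F] [Algebra (ZMod p) F]
  {I : Subgroup G} {u : G → F} {e' : ℕ}

/-- `u ≠ 0` on `I` -/
theorem gbc_u_ne_zero (ω : G → (ZMod p)ˣ)
    (hω : ∀ σ ∈ I, algebraMap (ZMod p) F ((ω σ : (ZMod p)ˣ) : ZMod p) = u σ ^ e')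
    (he : e' ≠ 0) {σ : G} (hσ : σ ∈ I) : u σ ≠ 0 := by
  intro h
  have h1 := hω σ hσ
  rw [h, zero_pow he] at h1
  have h2 : ((ω σ : (ZMod p)ˣ) : ZMod p) = 0 := by
    apply (algebraMap (ZMod p) F).injective
    rw [h1, map_zero]
  exact (Units.ne_zero _) h2

/-- distinct levels in `[1, e']` are separated by some `σ ∈ I` -/
theorem gbc_exists_pow_ne
    (hfaith : ∀ t : ℕ, 0 < t → t < (p - 1) * e' → ∃ σ ∈ I, u σ ^ t ≠ 1)
    (hu0 : ∀ σ ∈ I, u σ ≠ 0) {i j : ℕ} (hi : i ∈ Finset.Icc 1 e') (hj : j ∈ Finset.Icc 1 e')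
    (hij : i ≠ j) : ∃ σ ∈ I, u σ ^ i ≠ u σ ^ j := by
  have hp1 : 1 ≤ p - 1 := by
    have := (Fact.out : p.Prime).two_le
    omega
  rw [Finset.mem_Icc] at hi hj
  have hle : e' ≤ (p - 1) * e' := Nat.le_mul_of_pos_left e' hp1
  have key : ∀ a b : ℕ, 1 ≤ a → a < b → b ≤ e' → ∃ σ ∈ I, u σ ^ a ≠ u σ ^ b := by
    intro a b ha hab hb
    obtain ⟨σ, hσ, h⟩ := hfaith (b - a) (by omega) (by omega)
    refine ⟨σ, hσ, fun h' => h ?_⟩
    have e : u σ ^ b = u σ ^ a * u σ ^ (b - a) := by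
      rw [← pow_add]
      congr 1
      omega
    rw [e] at h'
    have h3 : u σ ^ a * 1 = u σ ^ a * u σ ^ (b - a) := by rw [mul_one]; exact h'
    exact (mul_left_cancel₀ (pow_ne_zero a (hu0 σ hσ)) h3).symm
  rcases lt_or_gt_of_ne hij with h | h
  · exact key i j hi.1 h hj.2
  · obtain ⟨σ, hσ, h'⟩ := key j i hj.1 h hi.2
    exact ⟨σ, hσ, fun e => h' e.symm⟩

end Aux

section Entries

variable (p : ℕ) [Fact p.Prime] {k : Type} [Field k] [CharP k p] [Algebra (ZMod p) k]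
  (ρbar : ResidualGaloisRep k) (b : Module.Basis (Fin 2) k ρbar.V)

/-- the entry `(a, c)` of the matrix of `x ∈ ad⁰`, as an `𝔽_p`-linear map -/
def gicEntry (a c : Fin 2) : (ad0Rep p ρbar).V →ₗ[ZMod p] k :=
  AddMonoidHom.toZModLinearMap p
    { toFun := fun x => wdfMat p ρbar b x a c
      map_zero' := by rw [map_zero]; rfl
      map_add' := fun x y => by rw [map_add]; rfl }

lemma gicEntry_apply (a c : Fin 2) (x : (ad0Rep p ρbar).V) :
    gicEntry p ρbar b a c x = wdfMat p ρbar b x a c := rfl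

/-- the action of an element acting diagonally, on the entries -/
theorem gic_entry_act (σ : GQq p) (ψ : Fin 2 → k) (hψ0 : ∀ j, ψ j ≠ 0)
    (hσ : ∀ j, rhoLoc p ρbar σ (b j) = ψ j • b j) (a c : Fin 2) (x : (ad0Rep p ρbar).V) :
    wdfMat p ρbar b ((locRep p (ad0Rep p ρbar)).ρ σ x) a c =
      ψ a * (ψ c)⁻¹ * wdfMat p ρbar b x a c := by
  have hM : ∀ i j : Fin 2, wdfM p ρbar b σ i j = if i = j then ψ j else 0 :=
    wdevs_toMatrix_of_eigen (rhoLoc p ρbar σ) b ψ hσ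
  have h := congrFun (congrFun (wdfMat_act p ρbar b σ x) a) c
  rw [Matrix.mul_apply, Matrix.mul_apply, Finset.sum_eq_single c, Finset.sum_eq_single a,
    hM c c, hM a a, if_pos rfl, if_pos rfl] at h
  · rw [mul_comm (ψ a) (ψ c)⁻¹, mul_assoc, ← h, mul_comm _ (ψ c), ← mul_assoc,
      inv_mul_cancel₀ (hψ0 c), one_mul]
  · intro j _ hj
    rw [hM a j, if_neg (fun e => hj e.symm), zero_mul]
  · intro h'
    exact absurd (Finset.mem_univ a) h'
  · intro j _ hj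
    rw [hM j c, if_neg hj, mul_zero]
  · intro h'
    exact absurd (Finset.mem_univ c) h'

/-- the three entries `X₀₀, X₀₁, X₁₀` determine `x ∈ ad⁰` -/
theorem gic_entries_injective (x : (ad0Rep p ρbar).V) (h00 : wdfMat p ρbar b x 0 0 = 0)
    (h01 : wdfMat p ρbar b x 0 1 = 0) (h10 : wdfMat p ρbar b x 1 0 = 0) : x = 0 := by
  apply wdfMat_injective p ρbar b
  rw [map_zero]
  have h11 : wdfMat p ρbar b x 1 1 = 0 := by rw [wdfMat_11, h00, neg_zero]
  ext i j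
  fin_cases i <;> fin_cases j
  · exact h00
  · exact h01
  · exact h10
  · exact h11

end Entries

/-- the rows of the three entries -/
def gicRow : Fin 3 → Fin 2 := ![0, 0, 1]

/-- the columns of the three entries -/
def gicCol : Fin 3 → Fin 2 := ![0, 1, 0]

/-- **IRR-count.** -/
theorem stmtGBIrrCount : StmtGBIrrCount := by
  intro p _ hp2 k _ _ _ _ ρbar hirr F _ _ u e' hω hfaith
  have hp : p.Prime := Fact.out
  have hp3 : 3 ≤ p := by
    have := hp.two_le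
    omega
  haveI : Module.Finite (ZMod p) k := Module.Finite.of_finite
  obtain ⟨v₁, v₂, ψ₁, ψ₂, hli, hact, ⟨σ₀, hσ₀, hne⟩, hpow, hprod⟩ := hirr
  by_cases he : e' = 0
  · rw [he]
    simp
  have he1 : 1 ≤ e' := Nat.one_le_iff_ne_zero.mpr he
  have hu0 : ∀ σ ∈ inertiaQ p, u σ ≠ 0 := fun σ hσ => gbc_u_ne_zero (gbOmega p) hω he hσ
  -- the basis
  have hcard : Fintype.card (Fin 2) = Module.finrank k ρbar.V := by
    rw [ρbar.finrank_eq, Fintype.card_fin]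
  let b : Module.Basis (Fin 2) k ρbar.V := basisOfLinearIndependentOfCardEqFinrank hli hcard
  have hb0 : b 0 = v₁ := by
    show basisOfLinearIndependentOfCardEqFinrank hli hcard 0 = _
    rw [coe_basisOfLinearIndependentOfCardEqFinrank]
    rfl
  have hb1 : b 1 = v₂ := by
    show basisOfLinearIndependentOfCardEqFinrank hli hcard 1 = _
    rw [coe_basisOfLinearIndependentOfCardEqFinrank]
    rfl
  -- the characters
  obtain ⟨Ψ, hΨ⟩ : ∃ Ψ : Fin 2 → GQq p → k, Ψ = ![ψ₁, ψ₂] := ⟨_, rfl⟩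
  have hΨ0 : Ψ 0 = ψ₁ := by rw [hΨ]; rfl
  have hΨ1 : Ψ 1 = ψ₂ := by rw [hΨ]; rfl
  have hψ1 : ∀ σ ∈ inertiaQ p, ψ₁ σ ≠ 0 := by
    intro σ hσ h
    have h1 := hprod σ hσ
    rw [h, zero_mul] at h1
    have h2 : ((gbOmega p σ : (ZMod p)ˣ) : ZMod p) = 0 := by
      apply (algebraMap (ZMod p) k).injective
      rw [← h1, map_zero]
    exact (Units.ne_zero _) h2
  have hψ2 : ∀ σ ∈ inertiaQ p, ψ₂ σ ≠ 0 := by
    intro σ hσ h
    have h1 := hprod σ hσ
    rw [h, mul_zero] at h1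
    have h2 : ((gbOmega p σ : (ZMod p)ˣ) : ZMod p) = 0 := by
      apply (algebraMap (ZMod p) k).injective
      rw [← h1, map_zero]
    exact (Units.ne_zero _) h2
  have hΨne : ∀ σ ∈ inertiaQ p, ∀ j : Fin 2, Ψ j σ ≠ 0 := by
    intro σ hσ j
    fin_cases j
    · show Ψ 0 σ ≠ 0
      rw [hΨ0]; exact hψ1 σ hσ
    · show Ψ 1 σ ≠ 0
      rw [hΨ1]; exact hψ2 σ hσ
  have hΨact : ∀ σ ∈ inertiaQ p, ∀ j : Fin 2, rhoLoc p ρbar σ (b j) = Ψ j σ • b j := by
    intro σ hσ j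
    fin_cases j
    · show rhoLoc p ρbar σ (b 0) = Ψ 0 σ • b 0
      rw [hΨ0, hb0]; exact (hact σ hσ).1
    · show rhoLoc p ρbar σ (b 1) = Ψ 1 σ • b 1
      rw [hΨ1, hb1]; exact (hact σ hσ).2
  obtain ⟨χ, hχ⟩ : ∃ χ : Fin 3 → GQq p → k,
      χ = fun a σ => Ψ (gicRow a) σ * (Ψ (gicCol a) σ)⁻¹ := ⟨_, rfl⟩
  have hχ0 : ∀ σ ∈ inertiaQ p, χ 0 σ = 1 := by
    intro σ hσ
    rw [hχ]
    show Ψ 0 σ * (Ψ 0 σ)⁻¹ = 1
    exact mul_inv_cancel₀ (hΨne σ hσ 0)
  have hχ1 : ∀ σ, χ 1 σ = ψ₁ σ * (ψ₂ σ)⁻¹ := by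
    intro σ
    rw [hχ]
    show Ψ 0 σ * (Ψ 1 σ)⁻¹ = _
    rw [hΨ0, hΨ1]
  have hχ2 : ∀ σ, χ 2 σ = ψ₂ σ * (ψ₁ σ)⁻¹ := by
    intro σ
    rw [hχ]
    show Ψ 1 σ * (Ψ 0 σ)⁻¹ = _
    rw [hΨ0, hΨ1]
  have hχ12 : ∀ σ ∈ inertiaQ p, χ 1 σ * χ 2 σ = 1 := by
    intro σ hσ
    rw [hχ1, hχ2]
    have h1 := hψ1 σ hσ
    have h2 := hψ2 σ hσ
    field_simp
  -- the link
  have hlink : ∀ i, finrank F (gbEig p F (locRep p (ad0Rep p ρbar)).ρ (inertiaQ p) u i) ≤
      ∑ a : Fin 3, finrank F (gbcE p F k (inertiaQ p) u (χ a) i) := by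
    intro i
    refine gbc_finrank_gbEig_le (W := (ad0Rep p ρbar).V) (locRep p (ad0Rep p ρbar)).ρ
      (fun a => gicEntry p ρbar b (gicRow a) (gicCol a)) χ ?_ ?_ i
    · intro w hw
      exact gic_entries_injective p ρbar b w (hw 0) (hw 1) (hw 2)
    · intro a σ hσ w
      rw [gicEntry_apply, gicEntry_apply, hχ]
      exact gic_entry_act p ρbar b σ (fun j => Ψ j σ) (hΨne σ hσ) (hΨact σ hσ) _ _ w
  -- the trivial character does not occur
  have hE0 : ∀ i ∈ Finset.Icc 1 e', gbcE p F k (inertiaQ p) u (χ 0) i = ⊥ := by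
    intro i hi
    rw [Finset.mem_Icc] at hi
    have hlt : i < (p - 1) * e' := by
      have h2 : 2 * e' ≤ (p - 1) * e' := Nat.mul_le_mul_right e' (by omega)
      omega
    obtain ⟨σ, hσ, h⟩ := hfaith i (by omega) hlt
    refine gbcE_eq_bot_of_prime (χ 0) hσ 1 ?_ ?_
    · rw [hχ0 σ hσ, map_one]
    · rw [map_one]; exact h
  -- separation of `η` and `η⁻¹`
  have hsep12 : ∀ i ∈ Finset.Icc 1 e', ∀ j ∈ Finset.Icc 1 e',
      GbcSep (gbcE p F k (inertiaQ p) u (χ 1) i) (gbcE p F k (inertiaQ p) u (χ 2) j) := by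
    intro i hi j hj
    by_cases hex : ∃ σ ∈ inertiaQ p, u σ ^ (i + j) ≠ 1
    · obtain ⟨σ, hσ, h⟩ := hex
      exact gbcSep_inv (χ 1) (χ 2) hσ (hχ12 σ hσ) h
    · push Not at hex
      rw [Finset.mem_Icc] at hi hj
      have hge : (p - 1) * e' ≤ i + j := by
        by_contra hlt
        push Not at hlt
        obtain ⟨σ, hσ, h⟩ := hfaith (i + j) (by omega) hlt
        exact h (hex σ hσ)
      have hp' : p = 3 := by
        by_contra hp3'
        have h4 : 3 * e' ≤ (p - 1) * e' := Nat.mul_le_mul_right e' (by omega)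
        omega
      subst hp'
      have hie : i = e' := by
        have h2 : (3 - 1) * e' = 2 * e' := by norm_num
        omega
      -- `gbcE η e' = 0`
      have hbot : gbcE 3 F k (inertiaQ 3) u (χ 1) i = ⊥ := by
        by_contra hnb
        have hall : ∀ σ ∈ inertiaQ 3, χ 1 σ =
            algebraMap (ZMod 3) k ((gbOmega 3 σ : (ZMod 3)ˣ) : ZMod 3) := by
          intro σ hσ
          by_contra h
          exact hnb (gbcE_eq_bot_of_prime' (χ 1) hσ _ (by rw [hie]; exact (hω σ hσ).symm) h)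
        apply hne
        have h1 := hall σ₀ hσ₀
        rw [hχ1, ← hprod σ₀ hσ₀] at h1
        have h2 : ψ₂ σ₀ ^ 2 = 1 := by
          have h3 := hψ1 σ₀ hσ₀
          have h4 := hψ2 σ₀ hσ₀
          have h5 : ψ₁ σ₀ * ((ψ₂ σ₀)⁻¹ * ψ₂ σ₀) = ψ₁ σ₀ * (ψ₂ σ₀ * ψ₂ σ₀) := by
            rw [← mul_assoc, h1]; ring
          rw [inv_mul_cancel₀ h4] at h5
          have h6 := mul_left_cancel₀ h3 h5
          rw [pow_two]
          exact h6.symm
        rw [(hpow σ₀ hσ₀).2]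
        calc ψ₂ σ₀ ^ 3 = ψ₂ σ₀ ^ 2 * ψ₂ σ₀ := by ring
          _ = ψ₂ σ₀ := by rw [h2, one_mul]
      rw [hbot]
      exact gbcSep_bot_left _
  -- the family indexed by `(i, a)`, `a ∈ {1, 2}`
  have hfam : ∑ x ∈ Finset.Icc 1 e' ×ˢ ({1, 2} : Finset (Fin 3)),
      finrank F (gbcE p F k (inertiaQ p) u (χ x.2) x.1) ≤ finrank F (F ⊗[ZMod p] k) := by
    refine gbc_sum_finrank_le (fun x : ℕ × Fin 3 => gbcE p F k (inertiaQ p) u (χ x.2) x.1) _ ?_
    rintro ⟨i, a⟩ hx ⟨j, c⟩ hy hxy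
    rw [Finset.mem_product] at hx hy
    obtain ⟨hi, ha⟩ := hx
    obtain ⟨hj, hc⟩ := hy
    simp only [Finset.mem_insert, Finset.mem_singleton] at ha hc
    show GbcSep (gbcE p F k (inertiaQ p) u (χ a) i) (gbcE p F k (inertiaQ p) u (χ c) j)
    by_cases hac : a = c
    · subst hac
      have hij : i ≠ j := fun h => hxy (by rw [h])
      obtain ⟨σ, hσ, h⟩ := gbc_exists_pow_ne hfaith hu0 hi hj hij
      exact gbcSep_same _ hσ h
    · rcases ha with rfl | rfl <;> rcases hc with rfl | rfl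
      · exact absurd rfl hac
      · exact hsep12 i hi j hj
      · exact (hsep12 j hj i hi).symm
      · exact absurd rfl hac
  calc ∑ i ∈ Finset.Icc 1 e',
        finrank F (gbEig p F (locRep p (ad0Rep p ρbar)).ρ (inertiaQ p) u i)
      ≤ ∑ i ∈ Finset.Icc 1 e', ∑ a : Fin 3, finrank F (gbcE p F k (inertiaQ p) u (χ a) i) :=
        Finset.sum_le_sum (fun i _ => hlink i)
    _ = ∑ i ∈ Finset.Icc 1 e', ∑ a ∈ ({1, 2} : Finset (Fin 3)),
          finrank F (gbcE p F k (inertiaQ p) u (χ a) i) := by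
        refine Finset.sum_congr rfl (fun i hi => ?_)
        rw [Fin.sum_univ_three, hE0 i hi, finrank_bot, zero_add,
          Finset.sum_insert (by decide), Finset.sum_singleton]
    _ = ∑ x ∈ Finset.Icc 1 e' ×ˢ ({1, 2} : Finset (Fin 3)),
          finrank F (gbcE p F k (inertiaQ p) u (χ x.2) x.1) := by
        rw [Finset.sum_product]
    _ ≤ finrank F (F ⊗[ZMod p] k) := hfam
    _ = finrank (ZMod p) k := Module.finrank_baseChange

end Fermat.Agent.TW.W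

end
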