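/-
TW-W, block (GB), piece K4 (helper65): `stmtGBTame_of : (ω-θ) → StmtGBTame`
(the final `stmtGBTame : StmtGBTame` is in `TW/W/GBTameFinal.lean`).

`F` := the residue field of `𝒪_T` (`UE.OV p stmtWAdd T`), `wgtRes : ℚ̄_p → F` the residue map
(`0` outside `𝒪_T`), `actF` the action of `G_p` through `Gal(T/ℚ_p)`, `π` a uniformiser,
`u γ = res(γ π / π)`, `r t x = res(x / π ^ t)`.
-/
import Fermat.Agent.TW.W.GBPlan
import Fermat.Agent.TW.W.GrUnr
import Fermat.Agent.TW.W.GrFrob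
import Fermat.Agent.TW.W.Kummer
import Fermat.Agent.TW.W.K3
import Fermat.Agent.PT.L.UnramExists
import Fermat.Agent.TW.L.FrobExistsFinal

set_option autoImplicit false
set_option linter.unusedSectionVars false
set_option linter.style.haveILetI false

noncomputable section

namespace Fermat.Agent.TW.W

open Fermat.Agent.PT.L Fermat.Agent.PT.B Fermat.Agent.TW.L
open scoped Pointwise

section Res

variable (p : ℕ) [Fact p.Prime] (T : IntermediateField ℚ_[p] (PadicAlgCl p))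
  [FiniteDimensional ℚ_[p] T]

/-- the valuation ring of `T` -/
abbrev wgtO : ValuationSubring T := UE.OV p stmtWAdd T

/-- the residue field of `T` -/
abbrev wgtF : Type := IsLocalRing.ResidueField (wgtO p T)

theorem wgt_mem_O (z : T) : z ∈ wgtO p T ↔ ‖(z : PadicAlgCl p)‖ ≤ 1 :=
  (wgr_norm_le_one_iff p T z).symm

theorem wgt_mem_max (z : wgtO p T) :
    z ∈ IsLocalRing.maximalIdeal (wgtO p T) ↔ ‖((z : T) : PadicAlgCl p)‖ < 1 := by
  rw [UE.mem_maximalIdeal_iff]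
  by_cases h0 : (z : T) = 0
  · rw [h0]
    simp
  · rw [wgr_norm_lt_one_iff _ h0]
    constructor
    · rintro (h | h)
      · exact absurd h h0
      · omega
    · intro h
      exact Or.inr (by omega)

/-- the residue map `𝒪_T → F`, extended by `0` to `ℚ̄_p` -/
def wgtRes (z : PadicAlgCl p) : wgtF p T :=
  open Classical in
  if h : z ∈ T ∧ ‖z‖ ≤ 1 then
    IsLocalRing.residue (wgtO p T) ⟨⟨z, h.1⟩, (wgt_mem_O p T ⟨z, h.1⟩).2 h.2⟩
  else 0

variable {p T}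

theorem wgtRes_eq {z : PadicAlgCl p} (hz : z ∈ T) (hz1 : ‖z‖ ≤ 1) :
    wgtRes p T z = IsLocalRing.residue (wgtO p T) ⟨⟨z, hz⟩, (wgt_mem_O p T ⟨z, hz⟩).2 hz1⟩ := by
  unfold wgtRes
  rw [dif_pos ⟨hz, hz1⟩]

theorem wgtRes_coe (a : wgtO p T) :
    wgtRes p T (((a : T) : PadicAlgCl p)) = IsLocalRing.residue (wgtO p T) a := by
  rw [wgtRes_eq (a : T).2 ((wgt_mem_O p T a).1 a.2)]

theorem wgtRes_surj (a : wgtF p T) : ∃ z : PadicAlgCl p, z ∈ T ∧ ‖z‖ ≤ 1 ∧ wgtRes p T z = a := by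
  obtain ⟨x, rfl⟩ := IsLocalRing.residue_surjective a
  exact ⟨((x : T) : PadicAlgCl p), (x : T).2, (wgt_mem_O p T x).1 x.2, wgtRes_coe x⟩

theorem wgtRes_add {x y : PadicAlgCl p} (hx : x ∈ T) (hx1 : ‖x‖ ≤ 1) (hy : y ∈ T)
    (hy1 : ‖y‖ ≤ 1) : wgtRes p T (x + y) = wgtRes p T x + wgtRes p T y := by
  have hxy1 : ‖x + y‖ ≤ 1 := (wgr_norm_add_le p x y).trans (max_le hx1 hy1)
  rw [wgtRes_eq hx hx1, wgtRes_eq hy hy1, wgtRes_eq (add_mem hx hy) hxy1, ← map_add]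
  rfl

theorem wgtRes_mul {x y : PadicAlgCl p} (hx : x ∈ T) (hx1 : ‖x‖ ≤ 1) (hy : y ∈ T)
    (hy1 : ‖y‖ ≤ 1) : wgtRes p T (x * y) = wgtRes p T x * wgtRes p T y := by
  have hxy1 : ‖x * y‖ ≤ 1 := by
    rw [norm_mul]
    exact mul_le_one₀ hx1 (norm_nonneg _) hy1
  rw [wgtRes_eq hx hx1, wgtRes_eq hy hy1, wgtRes_eq (mul_mem hx hy) hxy1, ← map_mul]
  rfl

theorem wgtRes_one : wgtRes p T 1 = 1 := by
  rw [wgtRes_eq (one_mem T) (by rw [norm_one]), ← map_one (IsLocalRing.residue (wgtO p T))]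
  rfl

theorem wgtRes_zero : wgtRes p T 0 = 0 := by
  rw [wgtRes_eq (zero_mem T) (by rw [norm_zero]; exact zero_le_one),
    ← map_zero (IsLocalRing.residue (wgtO p T))]
  rfl

theorem wgtRes_pow {x : PadicAlgCl p} (hx : x ∈ T) (hx1 : ‖x‖ ≤ 1) (n : ℕ) :
    wgtRes p T (x ^ n) = wgtRes p T x ^ n := by
  induction n with
  | zero => rw [pow_zero, pow_zero, wgtRes_one]
  | succ n ih =>
    have h1 : ‖x ^ n‖ ≤ 1 := by
      rw [norm_pow]
      exact pow_le_one₀ (norm_nonneg _) hx1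
    rw [pow_succ, pow_succ, wgtRes_mul (pow_mem hx n) h1 hx hx1, ih]

theorem wgtRes_eq_zero_iff {x : PadicAlgCl p} (hx : x ∈ T) (hx1 : ‖x‖ ≤ 1) :
    wgtRes p T x = 0 ↔ ‖x‖ < 1 := by
  rw [wgtRes_eq hx hx1, IsLocalRing.residue_eq_zero_iff, wgt_mem_max]

theorem wgtRes_neg {x : PadicAlgCl p} (hx : x ∈ T) (hx1 : ‖x‖ ≤ 1) :
    wgtRes p T (-x) = - wgtRes p T x := by
  have h1 : ‖-x‖ ≤ 1 := by rwa [norm_neg]
  have h2 := wgtRes_add hx hx1 (neg_mem hx) h1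
  rw [add_neg_cancel, wgtRes_zero] at h2
  exact (neg_eq_of_add_eq_zero_right h2.symm).symm

theorem wgtRes_eq_iff {x y : PadicAlgCl p} (hx : x ∈ T) (hx1 : ‖x‖ ≤ 1) (hy : y ∈ T)
    (hy1 : ‖y‖ ≤ 1) : wgtRes p T x = wgtRes p T y ↔ ‖x - y‖ < 1 := by
  have hxy1 : ‖x - y‖ ≤ 1 := (wgr_norm_sub_le p x y).trans (max_le hx1 hy1)
  rw [← wgtRes_eq_zero_iff (sub_mem hx hy) hxy1, sub_eq_add_neg,
    wgtRes_add hx hx1 (neg_mem hy) (by rwa [norm_neg]), wgtRes_neg hy hy1, ← sub_eq_add_neg,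
    sub_eq_zero]

theorem wgt_norm_p_lt_one : ‖(p : PadicAlgCl p)‖ < 1 := by
  have h : (p : PadicAlgCl p) = algebraMap ℚ_[p] (PadicAlgCl p) (p : ℚ_[p]) := by
    rw [map_natCast]
  rw [h, norm_algebraMap', Padic.norm_p]
  have hp1 : (1 : ℝ) < p := by exact_mod_cast (Fact.out : p.Prime).one_lt
  exact inv_lt_one_of_one_lt₀ hp1

theorem wgt_norm_natCast_le (n : ℕ) : ‖(n : PadicAlgCl p)‖ ≤ 1 := by
  have h : (n : PadicAlgCl p) = algebraMap ℚ_[p] (PadicAlgCl p) (n : ℚ_[p]) := by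
    rw [map_natCast]
  rw [h, norm_algebraMap']
  have := Padic.norm_int_le_one (p := p) (n : ℤ)
  simpa using this

theorem wgtRes_natCast (n : ℕ) : wgtRes p T (n : PadicAlgCl p) = (n : wgtF p T) := by
  induction n with
  | zero => rw [Nat.cast_zero, Nat.cast_zero, wgtRes_zero]
  | succ n ih =>
    rw [Nat.cast_succ, Nat.cast_succ,
      wgtRes_add (natCast_mem T n) (wgt_norm_natCast_le n) (one_mem T) (by rw [norm_one]), ih,
      wgtRes_one]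

variable (p T) in
/-- the residue field has characteristic `p` -/
theorem wgt_charP : CharP (wgtF p T) p := by
  rw [CharP.charP_iff_prime_eq_zero (Fact.out : p.Prime)]
  rw [← wgtRes_natCast (T := T), wgtRes_eq_zero_iff (natCast_mem T p) (wgt_norm_natCast_le p)]
  exact wgt_norm_p_lt_one

variable (p T) in
/-- the residue field is finite -/
theorem wgt_finite : Finite (wgtF p T) := UE.finite_residueField p stmtWAdd stmtWFinite

end Res

section Act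

variable (p : ℕ) [Fact p.Prime] (T : IntermediateField ℚ_[p] (PadicAlgCl p))
  [FiniteDimensional ℚ_[p] T] [Normal ℚ_[p] T]

theorem wgt_mem_decomp (γ₀ : T ≃ₐ[ℚ_[p]] T) :
    γ₀ ∈ (wgtO p T).decompositionSubgroup ℚ_[p] := by
  rw [MulAction.mem_stabilizer_iff]
  apply SetLike.ext
  intro x
  rw [ValuationSubring.mem_pointwise_smul_iff_inv_smul_mem, AlgEquiv.smul_def]
  show IsInt p (γ₀⁻¹ x) ↔ IsInt p x
  unfold IsInt
  rw [wv_algEquiv, map_eq_zero_iff _ (γ₀⁻¹).injective]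

/-- the action of `G_p` on the residue field of `T` -/
def wgtAct : GQq p →* RingAut (wgtF p T) :=
  (MulSemiringAction.toRingAut ((wgtO p T).decompositionSubgroup ℚ_[p]) (wgtF p T)).comp
    ((AlgEquiv.restrictNormalHom T).codRestrict _ (fun _ => wgt_mem_decomp p T _))

variable {p T}

theorem wgt_restrict_coe (γ : GQq p) (x : T) :
    ((AlgEquiv.restrictNormalHom T γ x : T) : PadicAlgCl p) = γ (x : PadicAlgCl p) :=
  AlgEquiv.restrictNormal_commutes γ T x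

theorem wgt_map_mem (γ : GQq p) {x : PadicAlgCl p} (hx : x ∈ T) : γ x ∈ T := by
  rw [← wgt_restrict_coe γ ⟨x, hx⟩]
  exact (AlgEquiv.restrictNormalHom T γ ⟨x, hx⟩).2

/-- the residue map is equivariant -/
theorem wgtRes_map (γ : GQq p) {z : PadicAlgCl p} (hz : z ∈ T) (hz1 : ‖z‖ ≤ 1) :
    wgtRes p T (γ z) = wgtAct p T γ (wgtRes p T z) := by
  have hγz1 : ‖γ z‖ ≤ 1 := by rwa [wgr_norm_map]
  rw [wgtRes_eq (wgt_map_mem γ hz) hγz1, wgtRes_eq hz hz1]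
  show _ = (⟨AlgEquiv.restrictNormalHom T γ, wgt_mem_decomp p T _⟩ :
    (wgtO p T).decompositionSubgroup ℚ_[p]) • (IsLocalRing.residue (wgtO p T) _)
  rw [← IsLocalRing.ResidueField.residue_smul]
  congr 1
  apply Subtype.ext
  apply Subtype.ext
  show γ z = _
  exact (wgt_restrict_coe γ ⟨z, hz⟩).symm

/-- inertia acts trivially on the residue field -/
theorem wgtAct_inert {σ : GQq p} (hσ : σ ∈ inertiaQ p) : wgtAct p T σ = 1 := by
  ext a
  obtain ⟨z, hz, hz1, rfl⟩ := wgtRes_surj a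
  rw [← wgtRes_map σ hz hz1]
  show wgtRes p T (σ z) = wgtRes p T z
  rw [wgtRes_eq_iff (wgt_map_mem σ hz) (by rwa [wgr_norm_map]) hz hz1]
  exact (wgr_inert_iff p σ).1 hσ z hz1

/-- Frobenius elements act by `a ↦ a ^ p` -/
theorem wgtAct_frob {φ : GQq p} (hφ : IsFrobQ p φ) (a : wgtF p T) : wgtAct p T φ a = a ^ p := by
  obtain ⟨z, hz, hz1, rfl⟩ := wgtRes_surj a
  rw [← wgtRes_map φ hz hz1, ← wgtRes_pow hz hz1,
    wgtRes_eq_iff (wgt_map_mem φ hz) (by rwa [wgr_norm_map]) (pow_mem hz p)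
      (by rw [norm_pow]; exact pow_le_one₀ (norm_nonneg _) hz1)]
  exact wgr_frob_dict p hφ z hz1

end Act

section Tame

variable (p : ℕ) [Fact p.Prime] (T : IntermediateField ℚ_[p] (PadicAlgCl p))
  [FiniteDimensional ℚ_[p] T] [Normal ℚ_[p] T]

/-- `u γ = γ π / π mod 𝔪` -/
def wgtU (π : PadicAlgCl p) (γ : GQq p) : wgtF p T := wgtRes p T (γ π / π)

/-- `r t x = x / π ^ t mod 𝔪` -/
def wgtR (π : PadicAlgCl p) (t : ℕ) (x : PadicAlgCl p) : wgtF p T := wgtRes p T (x / π ^ t)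

variable {p T} {π : PadicAlgCl p} (hπ : wgrIsUnif p T π)

include hπ

theorem wgt_div_mem {t : ℕ} {x : PadicAlgCl p} (hx : x ∈ gbBall p T (π ^ t)) :
    x / π ^ t ∈ T ∧ ‖x / π ^ t‖ ≤ 1 := by
  obtain ⟨hxT, hxn⟩ := hx
  refine ⟨div_mem hxT (pow_mem hπ.1 t), ?_⟩
  rw [norm_div]
  exact div_le_one_of_le₀ hxn (norm_nonneg _)

theorem wgt_u_mem (γ : GQq p) : γ π / π ∈ T ∧ ‖γ π / π‖ ≤ 1 := by
  refine ⟨div_mem (wgt_map_mem γ hπ.1) hπ.1, ?_⟩
  rw [norm_div, wgr_norm_map, div_self (norm_ne_zero_iff.2 hπ.2.1)]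

theorem wgt_anti (t : ℕ) : gbBall p T (π ^ (t + 1)) ≤ gbBall p T (π ^ t) := by
  rintro x ⟨hxT, hxn⟩
  refine ⟨hxT, hxn.trans ?_⟩
  rw [norm_pow, norm_pow, pow_succ]
  exact mul_le_of_le_one_right (pow_nonneg (norm_nonneg _) _) hπ.2.2.1.le

theorem wgt_stable (γ : GQq p) (t : ℕ) {x : PadicAlgCl p} (hx : x ∈ gbBall p T (π ^ t)) :
    γ • x ∈ gbBall p T (π ^ t) := by
  obtain ⟨hxT, hxn⟩ := hx
  refine ⟨wgt_map_mem γ hxT, ?_⟩
  rw [AlgEquiv.smul_def, wgr_norm_map]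
  exact hxn

theorem wgt_r_add (t : ℕ) {x y : PadicAlgCl p} (hx : x ∈ gbBall p T (π ^ t))
    (hy : y ∈ gbBall p T (π ^ t)) :
    wgtR p T π t (x + y) = wgtR p T π t x + wgtR p T π t y := by
  obtain ⟨h1, h2⟩ := wgt_div_mem hπ hx
  obtain ⟨h3, h4⟩ := wgt_div_mem hπ hy
  unfold wgtR
  rw [add_div, wgtRes_add h1 h2 h3 h4]

theorem wgt_r_ker (t : ℕ) {x : PadicAlgCl p} (hx : x ∈ gbBall p T (π ^ t)) :
    wgtR p T π t x = 0 ↔ x ∈ gbBall p T (π ^ (t + 1)) := by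
  obtain ⟨h1, h2⟩ := wgt_div_mem hπ hx
  have hπ0 : 0 < ‖π‖ := norm_pos_iff.2 hπ.2.1
  have hπt : 0 < ‖π‖ ^ t := pow_pos hπ0 t
  unfold wgtR
  rw [wgtRes_eq_zero_iff h1 h2, mem_gbBall]
  have hx' : ‖x‖ = ‖x / π ^ t‖ * ‖π‖ ^ t := by
    rw [norm_div, norm_pow, div_mul_cancel₀ _ hπt.ne']
  constructor
  · intro h
    refine ⟨hx.1, ?_⟩
    have h5 := hπ.2.2.2 _ h1 h
    rw [hx', norm_pow, pow_succ, mul_comm (‖π‖ ^ t)]
    exact mul_le_mul_of_nonneg_right h5 hπt.le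
  · rintro ⟨-, h⟩
    rw [norm_pow, pow_succ, hx', mul_comm (‖π‖ ^ t)] at h
    have h5 : ‖x / π ^ t‖ ≤ ‖π‖ := le_of_mul_le_mul_right h hπt
    exact lt_of_le_of_lt h5 hπ.2.2.1

theorem wgt_r_surj (t : ℕ) (a : wgtF p T) : ∃ x ∈ gbBall p T (π ^ t), wgtR p T π t x = a := by
  obtain ⟨z, hz, hz1, rfl⟩ := wgtRes_surj a
  have hπt : π ^ t ≠ 0 := pow_ne_zero _ hπ.2.1
  refine ⟨z * π ^ t, ⟨mul_mem hz (pow_mem hπ.1 t), ?_⟩, ?_⟩
  · rw [norm_mul]
    exact mul_le_of_le_one_left (norm_nonneg _) hz1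
  · unfold wgtR
    rw [mul_div_assoc, div_self hπt, mul_one]

theorem wgt_r_smul (γ : GQq p) (t : ℕ) {x : PadicAlgCl p} (hx : x ∈ gbBall p T (π ^ t)) :
    wgtR p T π t (γ • x) = wgtU p T π γ ^ t * wgtAct p T γ (wgtR p T π t x) := by
  obtain ⟨h1, h2⟩ := wgt_div_mem hπ hx
  obtain ⟨h3, h4⟩ := wgt_u_mem hπ γ
  have hπ0 : π ≠ 0 := hπ.2.1
  have hγπ : γ π ≠ 0 := by rwa [Ne, map_eq_zero_iff _ γ.injective]
  unfold wgtR wgtU
  rw [← wgtRes_map γ h1 h2, ← wgtRes_pow h3 h4,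
    ← wgtRes_mul (pow_mem h3 t) (by rw [norm_pow]; exact pow_le_one₀ (norm_nonneg _) h4)
      (wgt_map_mem γ h1) (by rwa [wgr_norm_map])]
  congr 1
  rw [AlgEquiv.smul_def, map_div₀, map_pow, div_pow]
  field_simp

end Tame

section Final

variable (p : ℕ) [Fact p.Prime]

/-- the lemma (ω-θ): `(σ π / π) ^ e' ≡ ω(σ) mod 𝔪` on inertia -/
def StmtOmegaTheta : Prop :=
  ∀ {ζ π : PadicAlgCl p}, ζ ≠ 1 → ζ ^ p = 1 → π ≠ 0 → ∀ {e' : ℕ}, ‖π‖ ^ e' = ‖ζ - 1‖ →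
    ∀ {σ : GQq p}, σ ∈ inertiaQ p →
    ‖(σ π / π) ^ e' - ((((gbOmega p σ : (ZMod p)ˣ) : ZMod p).val : ℕ) : PadicAlgCl p)‖ < 1

variable {p}

theorem wgt_algebraMap {F : Type} [Field F] [Algebra (ZMod p) F] (c : ZMod p) :
    algebraMap (ZMod p) F c = ((c.val : ℕ) : F) := by
  haveI : NeZero p := ⟨(Fact.out : p.Prime).ne_zero⟩
  conv_lhs => rw [← ZMod.natCast_zmod_val c]
  rw [map_natCast]

/-- **K4** for one good field, from (ω-θ). -/
theorem wgt_tame_of (hω : StmtOmegaTheta p) (T : IntermediateField ℚ_[p] (PadicAlgCl p))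
    (hT : IsGoodField p T) {ζ : PadicAlgCl p} (hζT : ζ ∈ T) (hζ1 : ζ ≠ 1) (hζp : ζ ^ p = 1) :
    ∃ (F : Type) (_ : Field F) (_ : Algebra (ZMod p) F) (actF : GQq p →* RingAut F)
      (u : GQq p → F) (e' : ℕ) (π : PadicAlgCl p) (r : ℕ → PadicAlgCl p → F),
      GBAbsTame p T.fixingSubgroup (inertiaQ p) (gbOmega p) F actF u e'
        (fun t => gbBall p T (π ^ t)) r ∧
      ‖π‖ ^ e' = ‖ζ - 1‖ ∧
      (∀ t : ℕ, 0 < t → t < (p - 1) * e' → ∃ σ ∈ inertiaQ p, u σ ^ t ≠ 1) ∧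
      (∀ φ : GQq p, IsFrobQ p φ → ∀ a : F, actF φ a = a ^ p) := by
  haveI := hT.finite
  haveI := hT.galois
  haveI : Normal ℚ_[p] T := hT.galois.to_normal
  have hp : p.Prime := Fact.out
  obtain ⟨π, hπ⟩ := wgr_exists_unif p T
  have hπ0 : π ≠ 0 := hπ.2.1
  have hπpos : 0 < ‖π‖ := norm_pos_iff.2 hπ0
  obtain ⟨hlp, hl0, hl1⟩ := wgr_norm_zeta_sub_one p T hζT hζ1 hζp
  have hlT : ζ - 1 ∈ T := sub_mem hζT (one_mem T)
  have hlne : ζ - 1 ≠ 0 := sub_ne_zero.2 hζ1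
  -- `e'`
  obtain ⟨k, hk⟩ := wgr_unif_norm hπ hlT hlne
  have hkpos : 0 < k := by
    by_contra hcon
    have hk0 : k ≤ 0 := not_lt.1 hcon
    have h1 : (1 : ℝ) ≤ ‖π‖ ^ k := by
      have h2 : ‖π‖ ^ k = (‖π‖ ^ (-k).toNat)⁻¹ := by
        rw [← zpow_natCast, Int.toNat_of_nonneg (by omega), zpow_neg, inv_inv]
      rw [h2]
      exact (one_le_inv₀ (pow_pos hπpos _)).2 (pow_le_one₀ hπpos.le hπ.2.2.1.le)
    rw [← hk] at h1
    exact absurd hl1 (not_lt.2 h1)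
  set e' : ℕ := k.toNat with he'
  have hke : ‖π‖ ^ e' = ‖ζ - 1‖ := by
    rw [hk, ← zpow_natCast, he', Int.toNat_of_nonneg hkpos.le]
  have hee : ‖π‖ ^ ((p - 1) * e') = ‖(p : PadicAlgCl p)‖ := by
    rw [mul_comm, pow_mul, hke, hlp]
  letI : CharP (wgtF p T) p := wgt_charP p T
  letI : Algebra (ZMod p) (wgtF p T) := ZMod.algebra (wgtF p T) p
  refine ⟨wgtF p T, inferInstance, inferInstance, wgtAct p T, wgtU p T π, e', π, wgtR p T π,
    ?_, hke, ?_, fun φ hφ a => wgtAct_frob hφ a⟩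
  · refine
      { finite := wgt_finite p T
        anti := fun t => wgt_anti hπ t
        stable := fun γ t x hx => wgt_stable hπ γ t hx
        fixN := ?_
        p_smul := ?_
        r_add := fun t _ x hx y hy => wgt_r_add hπ t hx hy
        r_ker := fun t _ x hx => wgt_r_ker hπ t hx
        r_surj := fun t _ a => wgt_r_surj hπ t a
        r_smul := fun γ t _ x hx => wgt_r_smul hπ γ t hx
        act_inert := fun σ hσ => wgtAct_inert hσ
        act_fix := ?_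
        omega := ?_
        omegaN := ?_ }
    · -- fixN
      intro γ hγ x hx
      rw [AlgEquiv.smul_def]
      exact (IntermediateField.mem_fixingSubgroup_iff _ _).1 hγ x hx.1
    · -- p_smul
      intro x hx
      obtain ⟨hxT, hxn⟩ := hx
      rw [pow_zero, norm_one] at hxn
      refine ⟨nsmul_mem hxT p, ?_⟩
      rw [nsmul_eq_mul, norm_mul, norm_pow, hke, ← hlp]
      have h1 : ‖ζ - 1‖ ^ (p - 1) ≤ ‖ζ - 1‖ := by
        have h2 : p - 1 ≠ 0 := by have := hp.two_le; omega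
        exact pow_le_of_le_one hl0.le hl1.le h2
      calc ‖ζ - 1‖ ^ (p - 1) * ‖x‖ ≤ ‖ζ - 1‖ ^ (p - 1) * 1 :=
            mul_le_mul_of_nonneg_left hxn (pow_nonneg hl0.le _)
        _ ≤ ‖ζ - 1‖ := by rw [mul_one]; exact h1
    · -- act_fix
      intro a ha
      obtain ⟨φ, hφ⟩ := stmtFrobExists p
      have h1 := wgtAct_frob (T := T) hφ a
      rw [ha φ] at h1
      exact wk3_frob_fixed p a h1.symm
    · -- omega
      intro σ hσ
      rw [wgt_algebraMap, ← wgtRes_natCast (T := T)]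
      obtain ⟨h3, h4⟩ := wgt_u_mem hπ σ
      unfold wgtU
      rw [← wgtRes_pow h3 h4, eq_comm,
        wgtRes_eq_iff (pow_mem h3 e') (by rw [norm_pow]; exact pow_le_one₀ (norm_nonneg _) h4)
          (natCast_mem T _) (wgt_norm_natCast_le _)]
      exact hω hζ1 hζp hπ0 hke hσ
    · -- omegaN
      intro γ hγ
      have h1 := twk_omega_spec (p := p) hζp γ
      have h2 : γ ζ = ζ := (IntermediateField.mem_fixingSubgroup_iff _ _).1 hγ ζ hζT
      rw [h2] at h1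
      have h3 : ζ ^ (1 : ZMod p).val = ζ ^ ((gbOmega p γ : (ZMod p)ˣ) : ZMod p).val := by
        haveI : Fact (1 < p) := ⟨hp.one_lt⟩
        rw [ZMod.val_one, pow_one]
        exact h1
      have h4 := wgr_zeta_pow_val_inj hζ1 hζp _ _ h3
      exact Units.ext h4.symm
  · -- (θ3)
    intro t ht0 htlt
    by_contra hcon
    simp only [not_exists, not_and, not_not] at hcon
    have h1 : (p - 1) * e' ∣ t := by
      apply wgr_theta3 p T hT.tame hπ hee t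
      intro σ hσ
      obtain ⟨h3, h4⟩ := wgt_u_mem hπ σ
      have h5 := hcon σ hσ
      unfold wgtU at h5
      rw [← wgtRes_pow h3 h4, ← wgtRes_one (p := p) (T := T),
        wgtRes_eq_iff (pow_mem h3 t) (by rw [norm_pow]; exact pow_le_one₀ (norm_nonneg _) h4)
          (one_mem T) (by rw [norm_one])] at h5
      have h6 : σ (π ^ t) - π ^ t = π ^ t * ((σ π / π) ^ t - 1) := by
        rw [map_pow, div_pow]
        field_simp
      rw [h6, norm_mul, norm_pow]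
      calc ‖π‖ ^ t * ‖(σ π / π) ^ t - 1‖ < ‖π‖ ^ t * 1 :=
            mul_lt_mul_of_pos_left h5 (pow_pos hπpos t)
        _ = ‖π‖ ^ t := mul_one _
    exact absurd (Nat.le_of_dvd ht0 h1) (not_le.2 htlt)

end Final

/-- **K4** = `StmtGBTame`, from the lemma (ω-θ) (`wgr_omega_theta`, `TW/W/GrOmega.lean`). -/
theorem stmtGBTame_of (hω : ∀ (p : ℕ) [Fact p.Prime], StmtOmegaTheta p) : StmtGBTame := by
  intro p _ _ T hT ζ hζT hζ1 hζp
  exact wgt_tame_of (hω p) T hT hζT hζ1 hζp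

end Fermat.Agent.TW.W

end
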