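/-
TW-W, block (GB), piece K4 (helper65): `stmtGBTame : StmtGBTame`
(`stmtGBTame_of` of `GBTame.lean` + the lemma (ω-θ) `wgr_omega_theta` of helper57, `GrOmega.lean`).
-/
import Fermat.Agent.TW.W.GBTame
import Fermat.Agent.TW.W.GrOmega

set_option autoImplicit false

namespace Fermat.Agent.TW.W

/-- **K4**: θ-theory for a good field. -/
theorem stmtGBTame : StmtGBTame :=
  stmtGBTame_of (fun p _ => fun hζ1 hζp hπ _ he' _ hσ => wgr_omega_theta p hζ1 hζp hπ he' hσ)

end Fermat.Agent.TW.W
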