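/-
TW-W (helper74, sub-captain): **`stmtWFlat : StmtWFlat`**, UNCONDITIONAL.

The flat wall at `p` of S56: for `p` odd, `ρ̄` with cyclotomic determinant and split
characteristic polynomials, the flat local condition at `p` cuts out a subspace of
`H¹(G_p, ad⁰ ρ̄)` of dimension `≤ h⁰ + f`.

Inputs (all landed): W-add (`stmtAdd`), W-bridge (`stmtBridge_of`), W-et (`stmtEt1/2`),
chain A (`stmtLev`), W-dev (`stmtCount_of`), (GB) = K1 + K3 + K4 (`stmtGBTame`) + GB-ALG
(`stmtGBAlg`) + GB1 + CHAR-T + CHAR-count (`stmtGBCharCount`) + IRR-STR (`stmtGBIrrStr`) +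
IRR-count (`stmtGBIrrCount`).
-/
import Fermat.Agent.TW.W.FinalPre
import Fermat.Agent.TW.W.GBTameFinal
import Fermat.Agent.TW.W.GBCharCount
import Fermat.Agent.TW.W.GBIrrCount

set_option autoImplicit false

namespace Fermat.Agent.TW.W

/-- (GB-GEN), unconditional. -/
theorem stmtGBGen : StmtGBGen := stmtGBGen_of stmtGBTame stmtGBAlg

/-- (GB) for characters, unconditional. -/
theorem stmtGBChar : StmtGBChar := stmtGBChar_of stmtGBGen stmtGBCharCount

/-- (GB) in the irreducible case, unconditional. -/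
theorem stmtGBIrr : StmtGBIrr := stmtGBIrr_of stmtGBGen stmtGBIrrStr stmtGBIrrCount

/-- W-count, unconditional. -/
theorem stmtCount : StmtCount := stmtCount_of stmtGBChar stmtGBIrr

/-- W-bridge, unconditional. -/
theorem stmtBridge : StmtBridge := stmtBridge_of stmtLev stmtEt1 stmtEt2

/-- **TW-W**: the flat wall at `p`, unconditional. -/
theorem stmtWFlat : StmtWFlat := stmtWFlat_of stmtAdd stmtBridge stmtCount

end Fermat.Agent.TW.W
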