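/-
TW-W chain A, TOWER / INERTIA (helper57): the maximal unramified subextension `K` of a finite
normal `F/ℚ_p` (`F ⊂ ℚ̄_p`): the fixed field of the inertial automorphisms.
`p` is a uniformiser of `K`, `F/K` is totally ramified, `K/ℚ_p` is normal, and every unramified
normal `U ≤ F` lies in `K`.
-/
import Fermat.Agent.TW.W.LvtMid
import Fermat.Agent.PT.L.CompositumNorm
import Fermat.Agent.PT.G3.GBLocNormQUnram

set_option autoImplicit false
set_option linter.unusedSectionVars false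
set_option linter.style.haveILetI false

noncomputable section

namespace Fermat.Agent.TW.W

open Fermat.Agent.PT Fermat.Agent.PT.B Fermat.Agent.PT.L IsLocalRing

section Transport

variable (p : ℕ) [Fact p.Prime] {X Y : Type} [Field X] [Field Y] [Algebra ℚ_[p] X]
  [Algebra ℚ_[p] Y]

theorem lvt_wv_algEquiv (e : X ≃ₐ[ℚ_[p]] Y) (x : X) : wv p (e x) = wv p x := by
  unfold wv
  rw [Algebra.norm_eq_of_algEquiv e x]

theorem lvt_isUnif_algEquiv (e : X ≃ₐ[ℚ_[p]] Y) {x : X} (hx : IsUnif p x) : IsUnif p (e x) := by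
  refine ⟨?_, ?_, ?_⟩
  · rw [Ne, map_eq_zero_iff e e.injective]
    exact hx.1
  · rw [lvt_wv_algEquiv]
    exact hx.2.1
  · intro y hy
    obtain ⟨z, rfl⟩ := e.surjective y
    rw [lvt_wv_algEquiv, lvt_wv_algEquiv]
    apply hx.2.2
    rwa [Ne, map_eq_zero_iff e e.injective] at hy

end Transport

section QpUnif

variable (p : ℕ) [Fact p.Prime]

/-- `p` is a uniformiser of `ℚ_p` -/
theorem lvt_isUnif_p : IsUnif p ((p : ℕ) : ℚ_[p]) := by
  have h1 : wv p ((p : ℕ) : ℚ_[p]) = 1 := by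
    rw [Fermat.Agent.PT.G3.gbq_wv_self]
    exact Padic.valuation_p
  refine ⟨?_, ?_, ?_⟩
  · exact_mod_cast (Fact.out : p.Prime).ne_zero
  · rw [h1]; exact one_pos
  · intro x _
    rw [h1]
    exact one_dvd _

end QpUnif

section TypeLevel

variable (p : ℕ) [Fact p.Prime] (F : Type) [Field F] [Algebra ℚ_[p] F]
  [FiniteDimensional ℚ_[p] F] [IsGalois ℚ_[p] F]

/-- the maximal unramified subextension, type-level form -/
theorem lvt_inertia_type :
    ∃ K₀ : IntermediateField ℚ_[p] F, IsGalois ℚ_[p] K₀ ∧ IsUnif p ((p : ℕ) : K₀) ∧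
      (∃ π : F, IsUnif p π ∧ wv p π = wv p ((p : ℕ) : K₀)) ∧
      ∀ x : F, (∀ σ : F ≃ₐ[ℚ_[p]] F, IsInertial p σ → σ x = x) → x ∈ K₀ := by
  classical
  obtain ⟨C, _, _, ρ, hsurj, hker, hcard⟩ := stmtRes p ℚ_[p] F
  set I : Subgroup (F ≃ₐ[ℚ_[p]] F) := ρ.ker with hI
  set K₀ : IntermediateField ℚ_[p] F := IntermediateField.fixedField I with hK₀
  haveI hgal : IsGalois ℚ_[p] K₀ := IsGalois.of_fixedField_normal_subgroup I
  obtain ⟨πF, hπF⟩ := stmtWUnif p F
  obtain ⟨πK, hπK⟩ := stmtWUnif p K₀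
  -- `|C| = wv πF`
  have hwp : wv p ((p : ℕ) : ℚ_[p]) = 1 := by
    rw [Fermat.Agent.PT.G3.gbq_wv_self]
    exact Padic.valuation_p
  have h1 : (Nat.card C : ℤ) = wv p πF := by
    have := hcard _ πF (lvt_isUnif_p p) hπF
    rw [hwp, mul_one] at this
    exact this
  -- `[K₀ : ℚ_p] = |C|`
  have h2 : Module.finrank ℚ_[p] K₀ = Nat.card C := by
    have e1 : Module.finrank K₀ F = Nat.card I := IntermediateField.finrank_fixedField_eq_card I
    have e2 : Module.finrank ℚ_[p] K₀ * Module.finrank K₀ F = Module.finrank ℚ_[p] F :=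
      Module.finrank_mul_finrank ℚ_[p] K₀ F
    have e3 : Nat.card (F ≃ₐ[ℚ_[p]] F) = Module.finrank ℚ_[p] F :=
      IsGalois.card_aut_eq_finrank ℚ_[p] F
    have e4 : Nat.card (F ≃ₐ[ℚ_[p]] F) = Nat.card ((F ≃ₐ[ℚ_[p]] F) ⧸ I) * Nat.card I :=
      Subgroup.card_eq_card_quotient_mul_card_subgroup I
    have e5 : Nat.card ((F ≃ₐ[ℚ_[p]] F) ⧸ I) = Nat.card C :=
      Nat.card_congr (QuotientGroup.quotientKerEquivOfSurjective ρ hsurj).toEquiv
    have e6 : 0 < Nat.card I := Nat.card_pos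
    rw [e1, ← e3, e4, e5] at e2
    exact Nat.eq_of_mul_eq_mul_right e6 e2
  have h3 : wv p ((p : ℕ) : K₀) = wv p πF := by
    rw [wgr_wv_natCast, h2, h1]
  -- `F/K₀` is totally ramified
  obtain ⟨C', _, _, ρ', hsurj', hker', hcard'⟩ := stmtRes p K₀ F
  have hρ' : ∀ σ : F ≃ₐ[K₀] F, ρ' σ = 1 := by
    intro σ
    rw [hker']
    have hmem : σ.restrictScalars ℚ_[p] ∈ I := by
      have h5 : σ.restrictScalars ℚ_[p] ∈ K₀.fixingSubgroup := by
        rw [IntermediateField.mem_fixingSubgroup_iff]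
        intro x hx
        exact σ.commutes ⟨x, hx⟩
      have hfix : K₀.fixingSubgroup = I := IntermediateField.fixingSubgroup_fixedField I
      rw [← hfix]
      exact h5
    have h6 : IsInertial p (σ.restrictScalars ℚ_[p]) := (hker _).1 (MonoidHom.mem_ker.1 hmem)
    exact h6
  have hC' : Nat.card C' = 1 := by
    haveI : Subsingleton C' := by
      refine ⟨fun a b => ?_⟩
      obtain ⟨σ, rfl⟩ := hsurj' a
      obtain ⟨τ, rfl⟩ := hsurj' b
      rw [hρ' σ, hρ' τ]
    exact Nat.card_unique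
  have h4 : wv p (πK : K₀) = wv p πF := by
    have := hcard' πK πF hπK hπF
    rw [hC'] at this
    push_cast at this
    rw [one_mul] at this
    exact this
  refine ⟨K₀, hgal, ⟨wgr_natCast_ne_zero p, ?_, ?_⟩, ⟨πF, hπF, h3.symm⟩, ?_⟩
  · rw [h3]; exact hπF.2.1
  · intro x hx
    rw [h3, ← h4]
    exact hπK.2.2 x hx
  · intro x hx
    rw [hK₀, IntermediateField.mem_fixedField_iff]
    intro σ hσ
    exact hx σ ((hker σ).1 (MonoidHom.mem_ker.1 hσ))

end TypeLevel

theorem stmtLvtInertia : StmtLvtInertia := by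
  intro p _ F hFf hFn
  haveI := hFf
  haveI := hFn
  haveI : IsGalois ℚ_[p] F := ⟨⟩
  obtain ⟨K₀, hgal, hunif, ⟨πF, hπF, hπFK⟩, hmax⟩ := lvt_inertia_type p F
  haveI := hgal
  have hle : IntermediateField.lift K₀ ≤ F := IntermediateField.lift_le K₀
  have hp0 : IntermediateField.liftAlgEquiv K₀ ((p : ℕ) : K₀) =
      ((p : ℕ) : ↥(IntermediateField.lift K₀)) := map_natCast _ p
  refine ⟨IntermediateField.lift K₀, hle, ?_, ?_, ⟨πF, hπF, ?_⟩, ?_⟩
  · exact Normal.of_algEquiv (IntermediateField.liftAlgEquiv K₀)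
  · rw [← hp0]
    exact lvt_isUnif_algEquiv p _ hunif
  · rw [← hp0, lvt_wv_algEquiv]
    exact hπFK
  · intro U hUF hUn hUu x hx
    haveI := hUn
    haveI hUf : FiniteDimensional ℚ_[p] U := lvt_finite_of_le p hUF
    haveI : IsGalois ℚ_[p] U := ⟨⟩
    letI := twlaAlg p hUF
    haveI := twla_tower p hUF
    haveI : FiniteDimensional U F := FiniteDimensional.right ℚ_[p] U F
    have h1 : (⟨x, hUF hx⟩ : F) ∈ K₀ := by
      apply hmax
      intro σ hσ
      have hcomm : ∀ z : U, algebraMap U F (AlgEquiv.restrictNormal σ U z) =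
          σ (algebraMap U F z) := fun z => AlgEquiv.restrictNormal_commutes σ U z
      have hτ : IsInertial p (AlgEquiv.restrictNormal σ U) :=
        u2_inertial_restrict p (K := U) (L := F) hcomm hσ
      have hτ1 := u2_inertial_eq_one_of_unram p stmtRes hUu (AlgEquiv.restrictNormal σ U) hτ
      have h2 := hcomm ⟨x, hx⟩
      rw [hτ1] at h2
      exact h2.symm
    exact (IntermediateField.mem_lift (⟨x, hUF hx⟩ : F)).2 h1

end Fermat.Agent.TW.W
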