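import Fermat.Agent.TW.W.Add
import Fermat.Agent.TW.S.Unr
import Fermat.Agent.TW.L.DecFull

/-!
# TW-W / W-bridge (helper64): a flat deformation satisfies the Galois-theoretic conditions

`stmtBridge_of : StmtLev → StmtEt1 → StmtEt2 → StmtBridge`.

For a flat deformation `ρ ≅ (1 + εc)ρ̄ =: W` (matrix form, `W.V = k[ε]²`):
* `M := W.V / 0 ≅ V_c` has a Hopf lattice (`sq_lattice_of_model`), `p M = 0`: `StmtLev` gives
  `PLev`, `StmtEt2` (for `X = ε V̄`) gives `PEt2`;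
* `W.V / 𝔪 ≅ V̄` has a Hopf lattice: `StmtEt1` gives `PEt1`;
* global inertia at `padicPlace p` is the image of `inertiaQ p` (`TW.L.stmtDecFull`).
-/

set_option autoImplicit false
set_option linter.unusedSectionVars false
set_option linter.style.haveILetI false

noncomputable section

namespace Fermat.Agent.TW.W

open CategoryTheory groupCohomology IsLocalRing
open Fermat.Agent.PT Fermat.Agent.PT.B Fermat.Agent.TW.L Fermat.Agent.TW.S Fermat.Agent.S53
  Fermat.Agent.W1 ExtCitation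

/-- global inertia at `padicPlace p` comes from local inertia -/
theorem wbr_inertia_lift (p : ℕ) [Fact p.Prime] (σ : GQ)
    (hσ : σ ∈ (padicPlace p).inertiaSubgroupIn ℚ) :
    ∃ τ ∈ inertiaQ p, localGaloisToGlobal p τ = σ := by
  have hdec : σ ∈ (padicPlace p).decompositionSubgroup ℚ := by
    obtain ⟨x, -, rfl⟩ := Subgroup.mem_map.1 hσ
    exact x.2
  obtain ⟨τ, hτ⟩ := stmtDecFull p σ hdec
  refine ⟨τ, ?_, hτ⟩
  rw [mem_inertiaQ, hτ]
  exact hσ

section Dict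

variable {𝒪 : Type} [CommRing 𝒪] [IsLocalRing 𝒪] (p : ℕ) [Fact p.Prime]
  [CharP (ResidueField 𝒪) p] {ρbar : ResidualGaloisRep (ResidueField 𝒪)}
  (D : RigidDatum 𝒪 ρbar)

/-- the vector `v + εw` of `k[ε]²` in the basis `D.b` -/
def wbrPsi (v w : ρbar.V) : Fin 2 → DualNumber (ResidueField 𝒪) :=
  waddEmb (D.b.equivFun v) (D.b.equivFun w)

theorem wbrPsi_add (v w v' w' : ρbar.V) :
    wbrPsi D (v + v') (w + w') = wbrPsi D v w + wbrPsi D v' w' := by
  unfold wbrPsi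
  rw [map_add, map_add, waddEmb_add]

theorem wbrPsi_zero : wbrPsi D (0 : ρbar.V) 0 = 0 := by
  unfold wbrPsi
  rw [map_zero, waddEmb_zero]

theorem wbrPsi_sub (v w v' w' : ρbar.V) :
    wbrPsi D (v - v') (w - w') = wbrPsi D v w - wbrPsi D v' w' := by
  have := wbrPsi_add D (v - v') (w - w') v' w'
  rw [sub_add_cancel, sub_add_cancel] at this
  rw [this, add_sub_cancel_right]

theorem wbrPsi_injective {v w v' w' : ρbar.V} (h : wbrPsi D v w = wbrPsi D v' w') :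
    v = v' ∧ w = w' := by
  obtain ⟨h1, h2⟩ := waddEmb_injective h
  exact ⟨D.b.equivFun.injective h1, D.b.equivFun.injective h2⟩

/-- the action of `(1 + εc)ρ̄` in coordinates -/
theorem wbr_mulVec (C : GQ → (adRep p ρbar).V) (σ : GQ) (v w : ρbar.V) :
    (liftMat p D C σ).mulVec (wbrPsi D v w) =
      wbrPsi D (ρbar.ρ σ v) (ρbar.ρ σ w + adVal p ρbar (C σ) (ρbar.ρ σ v)) := by
  unfold wbrPsi
  rw [wadd_mulVec, dnFst_liftMat, dnSnd_liftMat]
  have h1 : ∀ x : ρbar.V, (D.ρm σ).mulVec (D.b.equivFun x) = D.b.equivFun (ρbar.ρ σ x) := by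
    intro x
    rw [D.ρm_eq σ]
    exact LinearMap.toMatrix_mulVec_repr D.b D.b (ρbar.ρ σ) x
  have h2 : ∀ x : ρbar.V, (adMat p D (C σ)).mulVec (D.b.equivFun x) =
      D.b.equivFun (adVal p ρbar (C σ) x) := by
    intro x
    unfold adMat
    exact LinearMap.toMatrix_mulVec_repr D.b D.b (adVal p ρbar (C σ)) x
  rw [h1, h1, ← Matrix.mulVec_mulVec, h1, h2, map_add]

theorem wbr_natCast_p : ((p : ℕ) : DualNumber (ResidueField 𝒪)) = 0 := by
  refine TrivSqZeroExt.ext ?_ ?_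
  · rw [TrivSqZeroExt.fst_natCast, CharP.cast_eq_zero, TrivSqZeroExt.fst_zero]
  · rw [TrivSqZeroExt.snd_natCast, TrivSqZeroExt.snd_zero]

theorem wbr_nsmul_eq_zero {M : Type} [AddCommGroup M] [Module (DualNumber (ResidueField 𝒪)) M]
    (m : M) : p • m = 0 := by
  rw [← Nat.cast_smul_eq_nsmul (DualNumber (ResidueField 𝒪)) p m, wbr_natCast_p, zero_smul]

theorem wbr_finite_quot [Finite (ResidueField 𝒪)]
    (W : GaloisRepAdic (DualNumber (ResidueField 𝒪)))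
    (hV : W.V = (Fin 2 → DualNumber (ResidueField 𝒪)))
    (J : Ideal (DualNumber (ResidueField 𝒪))) :
    Finite (W.V ⧸ (J • (⊤ : Submodule (DualNumber (ResidueField 𝒪)) W.V))) := by
  haveI : Finite (DualNumber (ResidueField 𝒪)) := wadd_finite_dualNumber
  haveI : Finite W.V := by
    rw [hV]
    infer_instance
  exact Finite.of_surjective _ (Submodule.Quotient.mk_surjective _)

theorem wbr_finite_ringQuot [Finite (ResidueField 𝒪)]
    (J : Ideal (DualNumber (ResidueField 𝒪))) :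
    Finite (DualNumber (ResidueField 𝒪) ⧸ J) := by
  haveI : Finite (DualNumber (ResidueField 𝒪)) := wadd_finite_dualNumber
  exact Finite.of_surjective _ Ideal.Quotient.mk_surjective

/-- **level** -/
theorem wbr_level (C : GQ → (adRep p ρbar).V)
    (ρ : GaloisRepAdic (DualNumber (ResidueField 𝒪))) (hcoc : IsCocOf p D ρ C) :
    IsLevel₁ (towerLoc p) (locFun p C) := by
  obtain ⟨-, F, hF, hF1⟩ := stmtCoc 𝒪 p ρbar D ρ C hcoc
  refine ⟨F.fixingSubgroup.comap (localGaloisToGlobal p), ⟨F, hF, rfl⟩, fun g s hs => ?_⟩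
  unfold locFun
  rw [map_mul]
  exact hF1 _ _ hs

/-- **(LEV)** -/
theorem wbr_plev (hLev : StmtLev) (hp2 : p ≠ 2) [Finite (ResidueField 𝒪)]
    (C : GQ → (adRep p ρbar).V)
    (r : Gal →* M2 (DualNumber (ResidueField 𝒪)))
    (hr : MatCont (DualNumber (ResidueField 𝒪)) r)
    (hrσ : ∀ σ, r σ = liftMat p D C σ) (hW : (ofMatrix r hr).IsFlatAt p) :
    PLev p ρbar (fun τ => adVal p ρbar (C (localGaloisToGlobal p τ))) := by
  intro T hT χ hχ hvan τ hτ
  haveI := wbr_finite_quot (ofMatrix r hr) rfl ⊥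
  have hM := ((sq_isFlatAt_iff _ p).1 hW).2 ⊥ (wbr_finite_ringQuot ⊥)
  obtain ⟨H, hH⟩ := sq_lattice_of_model hM
  have hcocW : IsCocOf p D (ofMatrix r hr) C := ⟨r, hr, ⟨GaloisRepAdic.Equiv.refl _⟩, hrσ⟩
  refine hLev p hp2 _ _ H hH (fun m => wbr_nsmul_eq_zero (𝒪 := 𝒪) p m) T hT χ hχ ?_ τ hτ
  intro σ hσ hact
  have h1 : (ofMatrix r hr).ρ (localGaloisToGlobal p σ) = 1 := by
    apply LinearMap.ext
    intro x
    have h2 := hact (Submodule.Quotient.mk x)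
    have h3 : (Submodule.Quotient.mk ((ofMatrix r hr).ρ (localGaloisToGlobal p σ) x) :
        (ofMatrix r hr).V ⧸ ((⊥ : Ideal (DualNumber (ResidueField 𝒪))) •
          (⊤ : Submodule (DualNumber (ResidueField 𝒪)) (ofMatrix r hr).V))) =
        Submodule.Quotient.mk x := h2
    rw [Submodule.Quotient.eq, Submodule.bot_smul, Submodule.mem_bot, sub_eq_zero] at h3
    rw [h3, Module.End.one_apply]
  obtain ⟨h4, h5⟩ := stmtUnr 𝒪 p ρbar D (ofMatrix r hr) C hcocW _ h1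
  refine hvan σ hσ h4 ?_
  show adVal p ρbar (C (localGaloisToGlobal p σ)) = 0
  rw [h5, map_zero]

/-- the ideal `(ε)` -/
def wbrEps : Ideal (DualNumber (ResidueField 𝒪)) :=
  Ideal.span {(TrivSqZeroExt.inr (1 : ResidueField 𝒪) : DualNumber (ResidueField 𝒪))}

theorem wbr_fst_of_mem_eps {a : DualNumber (ResidueField 𝒪)} (ha : a ∈ wbrEps (𝒪 := 𝒪)) :
    a.fst = 0 := by
  obtain ⟨b, rfl⟩ := Ideal.mem_span_singleton'.1 ha
  rw [TrivSqZeroExt.fst_mul, TrivSqZeroExt.fst_inr, mul_zero]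

theorem wbr_inr_mem_eps (b : ResidueField 𝒪) :
    (TrivSqZeroExt.inr b : DualNumber (ResidueField 𝒪)) ∈ wbrEps (𝒪 := 𝒪) := by
  have h : (TrivSqZeroExt.inr b : DualNumber (ResidueField 𝒪)) =
      TrivSqZeroExt.inl b * TrivSqZeroExt.inr (1 : ResidueField 𝒪) := by
    refine TrivSqZeroExt.ext ?_ ?_
    · simp
    · simp
  rw [h]
  exact Ideal.mul_mem_left _ _ (Ideal.subset_span rfl)

theorem wbr_fst_of_mem_smul_top {y : Fin 2 → DualNumber (ResidueField 𝒪)}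
    (hy : y ∈ wbrEps (𝒪 := 𝒪) •
      (⊤ : Submodule (DualNumber (ResidueField 𝒪)) (Fin 2 → DualNumber (ResidueField 𝒪))))
    (i : Fin 2) : (y i).fst = 0 := by
  refine Submodule.smul_induction_on (p := fun y => (y i).fst = 0) hy ?_ ?_
  · intro a ha x _
    show (a * x i).fst = 0
    rw [TrivSqZeroExt.fst_mul, wbr_fst_of_mem_eps ha, zero_mul]
  · intro x y hx hy
    show (x i + y i).fst = 0
    rw [TrivSqZeroExt.fst_add, hx, hy, add_zero]

theorem wbrPsi_zero_left_mem (w : ρbar.V) :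
    wbrPsi D 0 w ∈ wbrEps (𝒪 := 𝒪) •
      (⊤ : Submodule (DualNumber (ResidueField 𝒪)) (Fin 2 → DualNumber (ResidueField 𝒪))) := by
  apply wadd_mem_smul_top
  intro i
  have h : wbrPsi D 0 w i = TrivSqZeroExt.inr (D.b.equivFun w i) := by
    unfold wbrPsi waddEmb
    rw [map_zero]
    simp
  rw [h]
  exact wbr_inr_mem_eps _

/-- **(E1)** -/
theorem wbr_pet1 (hEt1 : StmtEt1) (hp2 : p ≠ 2) [Finite (ResidueField 𝒪)]
    (C : GQ → (adRep p ρbar).V)
    (r : Gal →* M2 (DualNumber (ResidueField 𝒪)))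
    (hr : MatCont (DualNumber (ResidueField 𝒪)) r)
    (hrσ : ∀ σ, r σ = liftMat p D C σ) (hW : (ofMatrix r hr).IsFlatAt p) :
    PEt1 p ρbar := by
  intro v hv hfix
  haveI := wbr_finite_quot (ofMatrix r hr) rfl (wbrEps (𝒪 := 𝒪))
  have hM := ((sq_isFlatAt_iff _ p).1 hW).2 (wbrEps (𝒪 := 𝒪)) (wbr_finite_ringQuot _)
  obtain ⟨H, hH⟩ := sq_lattice_of_model hM
  -- the map `φ`
  let φ : ρbar.V →+ ((ofMatrix r hr).V ⧸ (wbrEps (𝒪 := 𝒪) •
      (⊤ : Submodule (DualNumber (ResidueField 𝒪)) (ofMatrix r hr).V))) :=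
    { toFun := fun v => Submodule.Quotient.mk (wbrPsi D v 0)
      map_zero' := by
        rw [wbrPsi_zero]
        rfl
      map_add' := by
        intro x y
        have := wbrPsi_add D x 0 y 0
        rw [add_zero] at this
        rw [this]
        rfl }
  have hφ : ∀ x, φ x = Submodule.Quotient.mk (wbrPsi D x 0) := fun x => rfl
  have hequiv : ∀ (σ : GQ) (x : ρbar.V),
      (ofMatrix r hr).levelAction (wbrEps (𝒪 := 𝒪)) σ (φ x) = φ (ρbar.ρ σ x) := by
    intro σ x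
    show Submodule.Quotient.mk ((r σ).mulVec (wbrPsi D x 0)) =
      Submodule.Quotient.mk (wbrPsi D (ρbar.ρ σ x) 0)
    rw [hrσ, wbr_mulVec, map_zero, zero_add, Submodule.Quotient.eq, ← wbrPsi_sub, sub_self,
      sub_zero]
    exact wbrPsi_zero_left_mem D _
  have h0 : φ v = 0 := by
    refine hEt1 p hp2 _ _ H hH (fun m => wbr_nsmul_eq_zero (𝒪 := 𝒪) p m) (φ v) ?_ ?_
    · -- `φ v ∈ I_aug M`
      have hle : iAugBar p ρbar ≤ (iAug p
          (fun σ => ⇑((ofMatrix r hr).levelAction (wbrEps (𝒪 := 𝒪)) σ))).comap φ := by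
        unfold iAugBar
        rw [AddSubgroup.closure_le]
        rintro x ⟨σ, hσ, w, rfl⟩
        show φ (rhoLoc p ρbar σ w - w) ∈ iAug p _
        rw [map_sub]
        unfold rhoLoc
        rw [← hequiv]
        exact AddSubgroup.subset_closure ⟨localGaloisToGlobal p σ, hσ, φ w, rfl⟩
      exact hle hv
    · intro σ hσ
      obtain ⟨τ, hτ, rfl⟩ := wbr_inertia_lift p σ hσ
      show (ofMatrix r hr).levelAction (wbrEps (𝒪 := 𝒪)) (localGaloisToGlobal p τ) (φ v) = φ v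
      rw [hequiv]
      exact congrArg φ (hfix τ hτ)
  rw [hφ, Submodule.Quotient.mk_eq_zero] at h0
  have h1 : D.b.equivFun v = 0 := by
    funext i
    have := wbr_fst_of_mem_smul_top h0 i
    unfold wbrPsi at this
    rw [waddEmb_fst] at this
    exact this
  exact D.b.equivFun.injective (by rw [h1, map_zero])

/-- **(E2)** -/
theorem wbr_pet2 (hEt2 : StmtEt2) (hp2 : p ≠ 2) [Finite (ResidueField 𝒪)]
    (C : GQ → (adRep p ρbar).V)
    (r : Gal →* M2 (DualNumber (ResidueField 𝒪)))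
    (hr : MatCont (DualNumber (ResidueField 𝒪)) r)
    (hrσ : ∀ σ, r σ = liftMat p D C σ) (hW : (ofMatrix r hr).IsFlatAt p) :
    PEt2 p ρbar (fun τ => adVal p ρbar (C (localGaloisToGlobal p τ))) := by
  intro w hw
  haveI := wbr_finite_quot (ofMatrix r hr) rfl ⊥
  have hM := ((sq_isFlatAt_iff _ p).1 hW).2 ⊥ (wbr_finite_ringQuot ⊥)
  obtain ⟨H, hH⟩ := sq_lattice_of_model hM
  -- the dictionary `Ψ : V̄ × V̄ → M`
  let Ψ : (ρbar.V × ρbar.V) →+ ((ofMatrix r hr).V ⧸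
      ((⊥ : Ideal (DualNumber (ResidueField 𝒪))) •
        (⊤ : Submodule (DualNumber (ResidueField 𝒪)) (ofMatrix r hr).V))) :=
    { toFun := fun x => Submodule.Quotient.mk (wbrPsi D x.1 x.2)
      map_zero' := by
        rw [Prod.fst_zero, Prod.snd_zero, wbrPsi_zero]
        rfl
      map_add' := by
        intro x y
        rw [Prod.fst_add, Prod.snd_add, wbrPsi_add]
        rfl }
  have hΨ : ∀ x, Ψ x = Submodule.Quotient.mk (wbrPsi D x.1 x.2) := fun x => rfl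
  have hΨinj : Function.Injective Ψ := by
    intro x y hxy
    rw [hΨ, hΨ, Submodule.Quotient.eq, Submodule.bot_smul, Submodule.mem_bot, sub_eq_zero]
      at hxy
    obtain ⟨h1, h2⟩ := wbrPsi_injective D hxy
    exact Prod.ext h1 h2
  have hequiv : ∀ (σ : GQ) (x : ρbar.V × ρbar.V),
      (ofMatrix r hr).levelAction ⊥ σ (Ψ x) =
        Ψ (ρbar.ρ σ x.1, ρbar.ρ σ x.2 + adVal p ρbar (C σ) (ρbar.ρ σ x.1)) := by
    intro σ x
    show Submodule.Quotient.mk ((r σ).mulVec (wbrPsi D x.1 x.2)) =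
      Submodule.Quotient.mk (wbrPsi D _ _)
    rw [hrσ, wbr_mulVec]
  -- the subgroup `X = ε V̄`
  let ψ₀ : ρbar.V →+ ((ofMatrix r hr).V ⧸
      ((⊥ : Ideal (DualNumber (ResidueField 𝒪))) •
        (⊤ : Submodule (DualNumber (ResidueField 𝒪)) (ofMatrix r hr).V))) :=
    Ψ.comp (AddMonoidHom.inr ρbar.V ρbar.V)
  have hψ₀ : ∀ u, ψ₀ u = Ψ (0, u) := fun u => rfl
  have hequiv₀ : ∀ (σ : GQ) (u : ρbar.V),
      (ofMatrix r hr).levelAction ⊥ σ (ψ₀ u) = ψ₀ (ρbar.ρ σ u) := by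
    intro σ u
    rw [hψ₀, hequiv, hψ₀]
    simp only [map_zero, add_zero]
  have hstab : ∀ σ : GQ, ∀ x ∈ ψ₀.range,
      (fun σ => ⇑((ofMatrix r hr).levelAction ⊥ σ)) σ x ∈ ψ₀.range := by
    rintro σ _ ⟨u, rfl⟩
    exact ⟨ρbar.ρ σ u, (hequiv₀ σ u).symm⟩
  have hmem : Ψ (0, w) ∈ iAug p (fun σ => ⇑((ofMatrix r hr).levelAction ⊥ σ)) := by
    have hle : iAugVc p ρbar (fun τ => adVal p ρbar (C (localGaloisToGlobal p τ))) ≤
        (iAug p (fun σ => ⇑((ofMatrix r hr).levelAction ⊥ σ))).comap Ψ := by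
      unfold iAugVc
      rw [AddSubgroup.closure_le]
      rintro x ⟨σ, hσ, y, rfl⟩
      show Ψ (vcAct p ρbar _ σ y - y) ∈ iAug p _
      rw [map_sub]
      have h1 : Ψ (vcAct p ρbar (fun τ => adVal p ρbar (C (localGaloisToGlobal p τ))) σ y) =
          (ofMatrix r hr).levelAction ⊥ (localGaloisToGlobal p σ) (Ψ y) := by
        rw [hequiv]
        rfl
      rw [h1]
      exact AddSubgroup.subset_closure ⟨localGaloisToGlobal p σ, hσ, Ψ y, rfl⟩
    exact hle hw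
  have h2 := hEt2 p hp2 _ _ H hH (fun m => wbr_nsmul_eq_zero (𝒪 := 𝒪) p m) ψ₀.range hstab
    (Ψ (0, w)) ⟨w, rfl⟩ hmem
  have hle2 : AddSubgroup.closure {y | ∃ σ ∈ (padicPlace p).inertiaSubgroupIn ℚ,
      ∃ m ∈ ψ₀.range, y = (fun σ => ⇑((ofMatrix r hr).levelAction ⊥ σ)) σ m - m} ≤
      (iAugBar p ρbar).map ψ₀ := by
    rw [AddSubgroup.closure_le]
    rintro y ⟨σ, hσ, _, ⟨u, rfl⟩, rfl⟩
    obtain ⟨τ, hτ, rfl⟩ := wbr_inertia_lift p σ hσ
    refine ⟨rhoLoc p ρbar τ u - u, AddSubgroup.subset_closure ⟨τ, hτ, u, rfl⟩, ?_⟩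
    rw [map_sub]
    show ψ₀ (ρbar.ρ (localGaloisToGlobal p τ) u) - ψ₀ u = _
    rw [← hequiv₀]
  obtain ⟨w', hw', hww'⟩ := hle2 h2
  have h3 : ((0, w') : ρbar.V × ρbar.V) = (0, w) := hΨinj hww'
  have h4 : w' = w := congrArg Prod.snd h3
  rw [← h4]
  exact hw'

/-- **W-bridge**, with the general cocycle `C`. -/
theorem wbr_bridge (hLev : StmtLev) (hEt1 : StmtEt1) (hEt2 : StmtEt2) (hp2 : p ≠ 2)
    [Finite (ResidueField 𝒪)] (C : GQ → (adRep p ρbar).V)
    (ρ : GaloisRepAdic (DualNumber (ResidueField 𝒪))) (hcoc : IsCocOf p D ρ C)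
    (hflat : ρ.IsFlatAt p) :
    IsLevel₁ (towerLoc p) (locFun p C) ∧
    PLev p ρbar (fun τ => adVal p ρbar (C (localGaloisToGlobal p τ))) ∧
    PEt1 p ρbar ∧
    PEt2 p ρbar (fun τ => adVal p ρbar (C (localGaloisToGlobal p τ))) := by
  have h1 := wbr_level p D C ρ hcoc
  obtain ⟨r, hr, hequiv, hrσ⟩ := hcoc
  have hW : (ofMatrix r hr).IsFlatAt p := tweq_isFlatAt hequiv p hflat
  exact ⟨h1, wbr_plev p D hLev hp2 C r hr hrσ hW, wbr_pet1 p D hEt1 hp2 C r hr hrσ hW,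
    wbr_pet2 p D hEt2 hp2 C r hr hrσ hW⟩

end Dict

/-- **W-bridge.** -/
theorem stmtBridge_of (hLev : StmtLev) (hEt1 : StmtEt1) (hEt2 : StmtEt2) : StmtBridge := by
  intro p _ hp2 𝒪 _ _ _ _ ρbar D c ⟨ρ, hcoc, _, hflat⟩
  obtain ⟨h1, h2, h3, h4⟩ := wbr_bridge p D hLev hEt1 hEt2 hp2 _ ρ hcoc hflat
  refine ⟨?_, h2, h3, h4⟩
  obtain ⟨U, hU, hU1⟩ := h1
  refine ⟨U, hU, fun g s hs => ?_⟩
  have h5 := hU1 g s hs
  have h6 := congrArg (adVal p ρbar) h5
  exact ad0Val_injective p ρbar h6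

end Fermat.Agent.TW.W

end
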