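/-
TW-W, block (GB) (helper67): the linear algebra behind the two counts (Mathlib only).

`R` a commutative ring, `M` an `R`-module which is a finite-dimensional vector space over a field
`F` (`IsScalarTower F R M`), `D i ⊆ R` sets of elements generating PAIRWISE COMAXIMAL ideals.
Then the annihilators `E i = {v ∈ M | d • v = 0 for all d ∈ D i}` are independent, hence
`Σ_i dim_F E_i ≤ dim_F M`.

* `gbann_finrank_sup`      : `dim (sup of an independent family) = Σ dim`;
* `gbann_sum_finrank_le`   : the statement for the torsion submodules of ideals;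
* `gbann_sum_finrank_le'`  : the statement for subspaces `E i` given by membership.
-/
import Mathlib

set_option autoImplicit false

namespace Fermat.Agent.TW.W

/-- for an independent finite family of subspaces: `dim (sup) = Σ dim` -/
theorem gbann_finrank_sup {K V ι : Type*} [Field K] [AddCommGroup V] [Module K V]
    [Module.Finite K V] [DecidableEq ι] (S : Finset ι) (A : ι → Submodule K V)
    (h : S.SupIndep A) :
    Module.finrank K ↥(S.sup A) = ∑ i ∈ S, Module.finrank K (A i) := by
  induction S using Finset.induction_on with
  | empty => simp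
  | insert a S ha ih =>
    rw [Finset.sup_insert, Finset.sum_insert ha, ← ih (h.subset (Finset.subset_insert _ _))]
    have hd : Disjoint (A a) (S.sup A) :=
      h (Finset.subset_insert a S) (Finset.mem_insert_self a S) ha
    have h2 := Submodule.finrank_sup_add_finrank_inf_eq (A a) (S.sup A)
    rw [hd.eq_bot, finrank_bot, add_zero] at h2
    exact h2

/-- `restrictScalars` commutes with finite sups -/
theorem gbann_sup_restrictScalars {F R M ι : Type*} [Semiring F] [Semiring R] [AddCommMonoid M]
    [Module R M] [Module F M] [SMul F R] [IsScalarTower F R M] (t : Finset ι)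
    (A : ι → Submodule R M) :
    t.sup (fun j => (A j).restrictScalars F) = (t.sup A).restrictScalars F := by
  classical
  induction t using Finset.induction_on with
  | empty => simp
  | insert a t _ ih => rw [Finset.sup_insert, Finset.sup_insert, ih, Submodule.restrictScalars_sup]

/-- the annihilators of pairwise comaximal ideals have dimensions adding up to `≤ dim M` -/
theorem gbann_sum_finrank_le {F R M ι : Type*} [Field F] [CommRing R] [Algebra F R]
    [AddCommGroup M] [Module R M] [Module F M] [IsScalarTower F R M] [Module.Finite F M]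
    (S : Finset ι) (𝔞 : ι → Ideal R)
    (hpair : (S : Set ι).Pairwise fun i j => 𝔞 i ⊔ 𝔞 j = ⊤) :
    ∑ i ∈ S, Module.finrank F ((Submodule.torsionBySet R M (𝔞 i)).restrictScalars F) ≤
      Module.finrank F M := by
  classical
  have hind : S.SupIndep fun i => Submodule.torsionBySet R M (𝔞 i : Set R) :=
    Submodule.supIndep_torsionBySet_ideal hpair
  have hind' : S.SupIndep fun i => (Submodule.torsionBySet R M (𝔞 i : Set R)).restrictScalars F := by
    intro t ht i hi hit
    have h1 := hind ht hi hit
    rw [gbann_sup_restrictScalars (F := F) t (fun i => Submodule.torsionBySet R M (𝔞 i : Set R))]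
    rw [disjoint_iff] at h1 ⊢
    rw [← Submodule.restrictScalars_inf, h1, Submodule.restrictScalars_bot]
  rw [← gbann_finrank_sup S _ hind']
  exact Submodule.finrank_le _

/-- the same, for subspaces `E i` described by membership: `v ∈ E i ↔ ∀ d ∈ D i, d • v = 0`. -/
theorem gbann_sum_finrank_le' {F R M ι : Type*} [Field F] [CommRing R] [Algebra F R]
    [AddCommGroup M] [Module R M] [Module F M] [IsScalarTower F R M] [Module.Finite F M]
    (S : Finset ι) (E : ι → Submodule F M) (D : ι → Set R)
    (hE : ∀ i ∈ S, ∀ v : M, v ∈ E i ↔ ∀ d ∈ D i, d • v = 0)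
    (hpair : (S : Set ι).Pairwise fun i j => Ideal.span (D i) ⊔ Ideal.span (D j) = ⊤) :
    ∑ i ∈ S, Module.finrank F (E i) ≤ Module.finrank F M := by
  have h := gbann_sum_finrank_le (F := F) (M := M) S (fun i => Ideal.span (D i)) hpair
  refine le_of_eq_of_le (Finset.sum_congr rfl fun i hi => ?_) h
  have hEi : E i = (Submodule.torsionBySet R M (Ideal.span (D i) : Set R)).restrictScalars F := by
    ext v
    rw [hE i hi, Submodule.restrictScalars_mem, ← Submodule.torsionBySet_eq_torsionBySet_span,
      Submodule.mem_torsionBySet_iff]
    constructor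
    · intro h a
      exact h a.1 a.2
    · intro h d hd
      exact h ⟨d, hd⟩
  rw [hEi]

/-- an ideal containing the image of a nonzero scalar of the base field is everything -/
theorem gbann_span_eq_top {F R : Type*} [Field F] [CommRing R] [Algebra F R] (𝔞 : Ideal R)
    {c : F} (hc : c ≠ 0) (h : algebraMap F R c ∈ 𝔞) : 𝔞 = ⊤ := by
  rw [Ideal.eq_top_iff_one]
  have h1 : algebraMap F R c⁻¹ * algebraMap F R c ∈ 𝔞 := 𝔞.mul_mem_left _ h
  rwa [← map_mul, inv_mul_cancel₀ hc, map_one] at h1

end Fermat.Agent.TW.W
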