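import Fermat.Agent.TW.W.Inj

/-!
# TW-W (INJ), valuation form: no small `p`-torsion in a convolution ring

`K` a field, `A ⊂ K` a valuation subring (any rank), `v = A.valuation`, `R → A`, `C` a cocommutative
`R`-coalgebra, finitely generated as an `R`-module.  If `x ∈ Hom_R(C, K)` satisfies `x ^ p = 1`
(convolution power) and `v (x h - 1 h) ≤ v c` for all `h`, where `c ^ (p - 1) = p * t` with `t` a
non-unit of `A` (i.e. `v(c) > v(p)/(p-1)` additively), then `x = 1`.

No discreteness, no completeness, no separatedness is needed: the proof looks at a generator of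
`C` where `x - 1` has the largest absolute value.
-/

set_option linter.unusedSectionVars false

namespace Fermat.Agent.TW.W

open WithConv Coalgebra

section Bdd

variable {K : Type*} [Field K] (A : ValuationSubring K)
variable {R C : Type*} [CommRing R] [Algebra R K] [AddCommGroup C] [Module R C] [Coalgebra R C]

/-- `z ∈ Hom_R(C, K)` is bounded by `g`: `v (z h) ≤ g` for all `h`. -/
def TwwBdd (z : WithConv (C →ₗ[R] K)) (g : A.ValueGroup) : Prop :=
  ∀ h : C, A.valuation (z h) ≤ g

variable {A}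

theorem TwwBdd.mono {z : WithConv (C →ₗ[R] K)} {g g' : A.ValueGroup} (hz : TwwBdd A z g)
    (hg : g ≤ g') : TwwBdd A z g' := fun h => (hz h).trans hg

theorem TwwBdd.add {z z' : WithConv (C →ₗ[R] K)} {g : A.ValueGroup} (hz : TwwBdd A z g)
    (hz' : TwwBdd A z' g) : TwwBdd A (z + z') g := fun h =>
  (A.valuation).map_add_le (hz h) (hz' h)

theorem TwwBdd.neg {z : WithConv (C →ₗ[R] K)} {g : A.ValueGroup} (hz : TwwBdd A z g) :
    TwwBdd A (-z) g := fun h => by
  have : (-z) h = -(z h) := rfl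
  rw [this, Valuation.map_neg]; exact hz h

theorem TwwBdd.sub {z z' : WithConv (C →ₗ[R] K)} {g : A.ValueGroup} (hz : TwwBdd A z g)
    (hz' : TwwBdd A z' g) : TwwBdd A (z - z') g := by
  rw [sub_eq_add_neg]; exact hz.add hz'.neg

theorem TwwBdd.zero (g : A.ValueGroup) : TwwBdd A (0 : WithConv (C →ₗ[R] K)) g := fun h => by
  have : (0 : WithConv (C →ₗ[R] K)) h = 0 := rfl
  rw [this, map_zero]; exact zero_le

theorem TwwBdd.mul {z z' : WithConv (C →ₗ[R] K)} {g g' : A.ValueGroup} (hz : TwwBdd A z g)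
    (hz' : TwwBdd A z' g') : TwwBdd A (z * z') (g * g') := fun h => by
  rw [(ℛ R h).convMul_apply]
  refine (A.valuation).map_sum_le fun i _ => ?_
  rw [map_mul]
  exact mul_le_mul' (hz _) (hz' _)

theorem TwwBdd.one (hRA : ∀ r : R, algebraMap R K r ∈ A) :
    TwwBdd A (1 : WithConv (C →ₗ[R] K)) 1 := fun h => by
  rw [LinearMap.convOne_apply]
  exact (A.valuation_le_one_iff _).mpr (hRA _)

theorem TwwBdd.pow (hRA : ∀ r : R, algebraMap R K r ∈ A) {z : WithConv (C →ₗ[R] K)}
    {g : A.ValueGroup} (hz : TwwBdd A z g) (n : ℕ) : TwwBdd A (z ^ n) (g ^ n) := by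
  induction n with
  | zero => simpa using TwwBdd.one hRA
  | succ n ih => rw [pow_succ, pow_succ]; exact ih.mul hz

theorem TwwBdd.smul {z : WithConv (C →ₗ[R] K)} {g : A.ValueGroup} (hz : TwwBdd A z g) (a : K) :
    TwwBdd A (a • z) (A.valuation a * g) := fun h => by
  have : (a • z) h = a * z h := rfl
  rw [this, map_mul]
  exact mul_le_mul' le_rfl (hz h)

variable (A) (R C) in
/-- The subring of `A`-valued elements of the convolution ring. -/
def twwBddSubring [IsCocomm R C] (hRA : ∀ r : R, algebraMap R K r ∈ A) :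
    Subring (WithConv (C →ₗ[R] K)) where
  carrier := {z | TwwBdd A z 1}
  mul_mem' hz hz' := by simpa using TwwBdd.mul hz hz'
  one_mem' := TwwBdd.one hRA
  add_mem' hz hz' := TwwBdd.add hz hz'
  zero_mem' := TwwBdd.zero 1
  neg_mem' hz := TwwBdd.neg hz

theorem mem_twwBddSubring [IsCocomm R C] (hRA : ∀ r : R, algebraMap R K r ∈ A)
    (z : WithConv (C →ₗ[R] K)) : z ∈ twwBddSubring A R C hRA ↔ TwwBdd A z 1 := Iff.rfl

/-- The binomial expansion with an `A`-valued cofactor. -/
theorem tww_injv_binom [IsCocomm R C] (hRA : ∀ r : R, algebraMap R K r ∈ A)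
    (p : ℕ) (hp : p.Prime) (y : WithConv (C →ₗ[R] K)) (hy : TwwBdd A y 1) :
    ∃ c₀ : WithConv (C →ₗ[R] K), TwwBdd A c₀ 1 ∧
      (1 + y) ^ p = 1 + (p : WithConv (C →ₗ[R] K)) * y * (1 + y * c₀) + y ^ p := by
  obtain ⟨c₀, hc₀⟩ := tww_inj_binom p hp (⟨y, hy⟩ : twwBddSubring A R C hRA)
  refine ⟨c₀.1, c₀.2, ?_⟩
  have := congrArg (Subtype.val : twwBddSubring A R C hRA → WithConv (C →ₗ[R] K)) hc₀
  simpa using this

/-- Boundedness can be checked on a spanning set. -/
theorem TwwBdd.of_span (hRA : ∀ r : R, algebraMap R K r ∈ A) {z : WithConv (C →ₗ[R] K)}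
    {g : A.ValueGroup} (S : Set C) (hS : Submodule.span R S = ⊤)
    (hz : ∀ s ∈ S, A.valuation (z s) ≤ g) : TwwBdd A z g := by
  intro h
  have hh : h ∈ Submodule.span R S := by rw [hS]; trivial
  induction hh using Submodule.span_induction with
  | mem s hs => exact hz s hs
  | zero =>
    have : z (0 : C) = 0 := map_zero z.ofConv
    rw [this, map_zero]; exact zero_le
  | add a b _ _ ha hb =>
    have : z (a + b) = z a + z b := map_add z.ofConv a b
    rw [this]; exact (A.valuation).map_add_le ha hb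
  | smul r a _ ha =>
    have : z (r • a) = algebraMap R K r * z a := by
      have := map_smul z.ofConv r a
      rw [Algebra.smul_def] at this
      exact this
    rw [this, map_mul]
    calc A.valuation (algebraMap R K r) * A.valuation (z a) ≤ 1 * g :=
          mul_le_mul' ((A.valuation_le_one_iff _).mpr (hRA r)) ha
      _ = g := one_mul g

end Bdd

section Main

variable {K : Type*} [Field K] (A : ValuationSubring K)
variable {R C : Type*} [CommRing R] [Algebra R K] [AddCommGroup C] [Module R C] [Coalgebra R C]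
  [IsCocomm R C] [Module.Finite R C]

/-- **(INJ), valuation form.**  `x ^ p = 1` and `x ≡ 1` modulo `c`, `c ^ (p - 1) ∈ p 𝔪_A`,
imply `x = 1`. -/
theorem tww_injv_eq_one (hRA : ∀ r : R, algebraMap R K r ∈ A)
    (p : ℕ) (hp : p.Prime) (hpK : (p : K) ≠ 0) (c t : K) (hct : c ^ (p - 1) = (p : K) * t)
    (ht : t ∈ A.nonunits)
    (x : WithConv (C →ₗ[R] K)) (hx : x ^ p = 1)
    (hcong : ∀ h : C, A.valuation (x h - (1 : WithConv (C →ₗ[R] K)) h) ≤ A.valuation c) :
    x = 1 := by
  classical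
  have h2 : 2 ≤ p := hp.two_le
  set v := A.valuation with hv
  have hvp1 : v (p : K) ≤ 1 := (A.valuation_le_one_iff _).mpr (natCast_mem A p)
  have hvp0 : v (p : K) ≠ 0 := (Valuation.ne_zero_iff v).mpr hpK
  have hvt : v t < 1 := (ValuationSubring.mem_nonunits_iff (A := A)).mp ht
  -- `v c < 1`
  have hvc : v c < 1 := by
    by_contra hcon
    rw [not_lt] at hcon
    have h1 : (1 : A.ValueGroup) ≤ v c ^ (p - 1) := one_le_pow_of_one_le' hcon _
    rw [← map_pow, hct, map_mul] at h1
    have h3 : v (p : K) * v t < 1 := by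
      calc v (p : K) * v t ≤ 1 * v t := mul_le_mul' hvp1 le_rfl
        _ = v t := one_mul _
        _ < 1 := hvt
    exact absurd h1 (not_le.mpr h3)
  -- `y = x - 1`
  set y : WithConv (C →ₗ[R] K) := x - 1 with hy
  have hyc : TwwBdd A y (v c) := fun h => hcong h
  have hy1 : TwwBdd A y 1 := hyc.mono hvc.le
  by_contra hne
  have hy0 : y ≠ 0 := fun h => hne (sub_eq_zero.mp h)
  -- a finite spanning set and a point of maximal absolute value
  obtain ⟨S, hS⟩ := (Module.finite_def.mp (inferInstance : Module.Finite R C))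
  have hSne : S.Nonempty := by
    by_contra hcon
    rw [Finset.not_nonempty_iff_eq_empty] at hcon
    apply hy0
    have hb : TwwBdd A y 0 := TwwBdd.of_span hRA (↑S) hS (by simp [hcon])
    ext h
    have := hb h
    have h0 : v (y h) = 0 := le_antisymm this zero_le
    exact (Valuation.zero_iff v).mp h0
  obtain ⟨s₀, hs₀, hmax⟩ := Finset.exists_max_image S (fun s => v (y s)) hSne
  set γ : K := y s₀ with hγ
  have hyγ : TwwBdd A y (v γ) := TwwBdd.of_span hRA (↑S) hS (fun s hs => hmax s hs)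
  have hγ0 : v γ ≠ 0 := by
    intro h0
    apply hy0
    ext h
    have := hyγ h
    rw [h0] at this
    exact (Valuation.zero_iff v).mp (le_antisymm this zero_le)
  have hγc : v γ ≤ v c := hyc s₀
  have hγ1 : v γ < 1 := lt_of_le_of_lt hγc hvc
  -- the binomial relation, evaluated at `s₀`
  obtain ⟨c₀, hc₀, hbin⟩ := tww_injv_binom hRA p hp y hy1
  have hx' : (1 + y) ^ p = 1 := by rw [hy, add_sub_cancel]; exact hx
  rw [hx'] at hbin
  have hrel : (p : WithConv (C →ₗ[R] K)) * y = -((p : WithConv (C →ₗ[R] K)) * (y * y * c₀) + y ^ p) := by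
    linear_combination -hbin
  have hpy : ∀ z : WithConv (C →ₗ[R] K), ((p : WithConv (C →ₗ[R] K)) * z) s₀ = (p : K) * z s₀ := by
    intro z
    have : (p : WithConv (C →ₗ[R] K)) * z = (p : ℕ) • z := by rw [nsmul_eq_mul]
    rw [this]
    have h' : ((p : ℕ) • z) s₀ = (p : ℕ) • z s₀ := rfl
    rw [h', nsmul_eq_mul]
  have heval : (p : K) * γ = -((p : K) * (y * y * c₀) s₀ + (y ^ p) s₀) := by
    have := congrArg (fun z : WithConv (C →ₗ[R] K) => z s₀) hrel
    rw [hpy] at this
    rw [this]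
    have hneg : ∀ z : WithConv (C →ₗ[R] K), (-z) s₀ = -(z s₀) := fun z => rfl
    have hadd : ∀ z z' : WithConv (C →ₗ[R] K), (z + z') s₀ = z s₀ + z' s₀ := fun z z' => rfl
    rw [hneg, hadd, hpy]
  have hb1 : v ((y * y * c₀) s₀) ≤ v γ * v γ := by
    have := ((hyγ.mul hyγ).mul hc₀) s₀
    simpa using this
  have hb2 : v ((y ^ p) s₀) ≤ v γ ^ p := (hyγ.pow hRA p) s₀
  have hle : v (p : K) * v γ ≤ max (v (p : K) * (v γ * v γ)) (v γ ^ p) := by
    have h1 : v ((p : K) * γ) = v (p : K) * v γ := map_mul _ _ _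
    rw [← h1, heval, Valuation.map_neg]
    refine (v.map_add _ _).trans (max_le_max ?_ hb2)
    rw [map_mul]
    exact mul_le_mul' le_rfl hb1
  rcases le_max_iff.mp hle with h1 | h1
  · -- `v p * v γ ≤ v p * v γ ^ 2` forces `1 ≤ v γ`
    have h3 : v (p : K) * v γ * 1 ≤ v (p : K) * v γ * v γ := by
      rw [mul_one, mul_assoc]; exact h1
    have h4 : (1 : A.ValueGroup) ≤ v γ :=
      le_of_mul_le_mul_left h3 (zero_lt_iff.mpr (mul_ne_zero hvp0 hγ0))
    exact absurd h4 (not_le.mpr hγ1)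
  · -- `v p * v γ ≤ v γ ^ p` forces `v p ≤ v γ ^ (p - 1) ≤ v p * v t < v p`
    have hpp : v γ ^ p = v γ ^ (p - 1) * v γ := by
      rw [← pow_succ, show p - 1 + 1 = p by omega]
    rw [hpp] at h1
    have h3 : v (p : K) ≤ v γ ^ (p - 1) :=
      le_of_mul_le_mul_right h1 (zero_lt_iff.mpr hγ0)
    have h4 : v γ ^ (p - 1) ≤ v c ^ (p - 1) := pow_le_pow_left' hγc _
    have h5 : v c ^ (p - 1) = v (p : K) * v t := by rw [← map_pow, hct, map_mul]
    have h6 : v (p : K) * v t < v (p : K) * 1 :=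
      mul_lt_mul_of_pos_left hvt (zero_lt_iff.mpr hvp0)
    rw [mul_one] at h6
    exact absurd (h3.trans (h4.trans h5.le)) (not_le.mpr h6)

/-- **(INJ), valuation form, two elements.** -/
theorem tww_injv_eq (hRA : ∀ r : R, algebraMap R K r ∈ A)
    (p : ℕ) (hp : p.Prime) (hpK : (p : K) ≠ 0) (c t : K) (hct : c ^ (p - 1) = (p : K) * t)
    (ht : t ∈ A.nonunits)
    (x x' x'' : WithConv (C →ₗ[R] K)) (hinv : x' * x'' = 1) (hx'' : TwwBdd A x'' 1)
    (hpow : x ^ p = x' ^ p)
    (hcong : ∀ h : C, A.valuation (x h - x' h) ≤ A.valuation c) : x = x' := by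
  have h1 : (x * x'') ^ p = 1 := by
    rw [mul_pow, hpow, ← mul_pow, hinv, one_pow]
  have h2 : TwwBdd A (x * x'' - 1) (A.valuation c) := by
    have e1 : x * x'' - 1 = (x - x') * x'' := by rw [sub_mul, hinv]
    rw [e1]
    have hd : TwwBdd A (x - x') (A.valuation c) := fun h => hcong h
    simpa using hd.mul hx''
  have h3 := tww_injv_eq_one A hRA p hp hpK c t hct ht (x * x'') h1 (fun h => h2 h)
  calc x = x * (x' * x'') := by rw [hinv, mul_one]
    _ = (x * x'') * x' := by ring
    _ = x' := by rw [h3, one_mul]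

end Main

section Points

variable {K : Type*} [Field K] (A : ValuationSubring K)
variable {R H : Type*} [CommRing R] [Algebra R K] [Ring H] [Bialgebra R H]
  [IsCocomm R H] [Module.Finite R H]

/-- **(INJ), valuation form, points.**  Two `K`-points of a finite cocommutative bialgebra,
both killed by `p`, one of them `A`-valued, which are congruent modulo `c` with
`c ^ (p - 1) ∈ p 𝔪_A`, are equal. -/
theorem tww_injv_algHom (hRA : ∀ r : R, algebraMap R K r ∈ A)
    (p : ℕ) (hp : p.Prime) (hpK : (p : K) ≠ 0) (c t : K) (hct : c ^ (p - 1) = (p : K) * t)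
    (ht : t ∈ A.nonunits)
    (ψ ψ' : WithConv (H →ₐ[R] K)) (hψ : ψ ^ p = 1) (hψ' : ψ' ^ p = 1)
    (hψ'A : ∀ h : H, ψ' h ∈ A)
    (hcong : ∀ h : H, A.valuation (ψ h - ψ' h) ≤ A.valuation c) : ψ = ψ' := by
  apply twwInjLin_injective
  have h2p : 2 ≤ p := hp.two_le
  have hx : twwInjLin ψ ^ p = twwInjLin ψ' ^ p := by
    rw [← twwInjLin_pow, ← twwInjLin_pow, hψ, hψ']
  have hinv : twwInjLin ψ' * twwInjLin ψ' ^ (p - 1) = 1 := by
    rw [← pow_succ', show p - 1 + 1 = p by omega, ← twwInjLin_pow, hψ', twwInjLin_one]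
  have hb : TwwBdd A (twwInjLin ψ') 1 := fun h => (A.valuation_le_one_iff _).mpr (hψ'A h)
  have hb' : TwwBdd A (twwInjLin ψ' ^ (p - 1)) 1 := by
    simpa using hb.pow hRA (p - 1)
  exact tww_injv_eq A hRA p hp hpK c t hct ht _ _ _ hinv hb' hx hcong

end Points

end Fermat.Agent.TW.W
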