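import Fermat.Agent.TW.W.LevelStar

/-!
# S56 / TW-W (LEVEL), abstract core, part 3: the counting / top-level contradiction (helper57)
-/

set_option autoImplicit false

namespace Fermat.Agent.TW.W

open Polynomial IsLocalRing

section Res
variable {A : Type*} [CommRing A] [IsDomain A] [IsDiscreteValuationRing A] {π : A}

theorem twlv_residue_eq_zero (hπ : Irreducible π) (a : A) : residue A a = 0 ↔ π ∣ a := by
  rw [residue_eq_zero_iff, (IsDiscreteValuationRing.irreducible_iff_uniformizer π).1 hπ,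
    Ideal.mem_span_singleton]

theorem twlv_not_dvd_of_isUnit (hπ : Irreducible π) {a : A} (ha : IsUnit a) : ¬ π ∣ a :=
  fun h => hπ.not_isUnit (isUnit_of_dvd_unit h ha)

theorem twlv_isUnit_of_not_dvd (hπ : Irreducible π) {a : A} (ha : ¬ π ∣ a) : IsUnit a := by
  by_contra h
  apply ha
  have : a ∈ maximalIdeal A := by rwa [mem_maximalIdeal, mem_nonunits_iff]
  rwa [(IsDiscreteValuationRing.irreducible_iff_uniformizer π).1 hπ,
    Ideal.mem_span_singleton] at this

end Res

section Contra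
variable {A : Type*} [CommRing A] [IsDomain A] [IsDiscreteValuationRing A]
variable {B : Type*} [CommRing B] [IsDomain B] [IsDiscreteValuationRing B] [Algebra A B]
variable {p : ℕ} {π : A}

theorem twlv_contra_top (hp : p.Prime) (hπ : Irreducible π) {e₁ : ℕ} (he₁ : 0 < e₁) (ε : A)
    (hpe : (p : A) = ε * π ^ ((p - 1) * e₁))
    [Finite (ResidueField A)]
    (hinj : Function.Injective (algebraMap A B))
    (hπB : algebraMap A B π ∈ maximalIdeal B)
    (hloc : ∀ a : A, algebraMap A B a ∈ maximalIdeal B → π ∣ a)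
    (hres : ∀ b : B, ∃ a : A, b - algebraMap A B a ∈ maximalIdeal B)
    (hν : ∃ ν : A, ¬ π ∣ ν ∧ π ∣ ν ^ (p - 1) + ε)
    (θ : A) (hθ : IsUnit θ)
    (h : ∀ a : A, ∃ (Y : B) (X : A),
      Y ^ p = algebraMap A B (1 + θ * a * π ^ (p * e₁) + π ^ (p * e₁ + 1) * X)) : False := by
  obtain ⟨θ', hθ'⟩ := hθ.exists_right_inv
  have hsurj : Function.Surjective (fun z : ResidueField A => z ^ p + residue A ε * z) := by
    intro cbar
    obtain ⟨c, rfl⟩ := residue_surjective cbar
    obtain ⟨Y, X, hY⟩ := h (θ' * c)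
    have e1 : θ * (θ' * c) = c := by rw [← mul_assoc, hθ', one_mul]
    rw [e1] at hY
    have hY' : Y ^ p = 1 + algebraMap A B (c * π ^ (p * e₁)) +
        algebraMap A B (π ^ (p * e₁ + 1)) * algebraMap A B X := by
      rw [hY]; simp only [map_add, map_mul, map_one]
    obtain ⟨z, hz⟩ := twlv_top hp he₁ ε hpe hinj hπ.ne_zero hπB hloc hres Y c _ hY'
    refine ⟨residue A z, ?_⟩
    have := (twlv_residue_eq_zero hπ _).2 hz
    rw [map_sub, map_add, map_pow, map_mul, sub_eq_zero] at this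
    exact this
  have hinj' := Finite.injective_iff_surjective.2 hsurj
  obtain ⟨ν, hν1, hν2⟩ := hν
  have hp1 : p = (p - 1) + 1 := by have := hp.two_le; omega
  have e2 : (fun z : ResidueField A => z ^ p + residue A ε * z) (residue A ν) =
      (fun z : ResidueField A => z ^ p + residue A ε * z) 0 := by
    simp only
    rw [zero_pow hp.ne_zero, mul_zero, add_zero]
    have := (twlv_residue_eq_zero hπ _).2 hν2
    rw [map_add, map_pow] at this
    have e3 : residue A ν ^ p + residue A ε * residue A ν =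
        residue A ν * (residue A ν ^ (p - 1) + residue A ε) := by
      conv_lhs => rw [hp1, pow_succ]
      ring
    rw [e3, this, mul_zero]
  exact hν1 ((twlv_residue_eq_zero hπ _).1 (hinj' e2))

theorem twlv_contra_count (hp : p.Prime) (hπ : Irreducible π) {e₁ : ℕ}
    (hpe : π ^ ((p - 1) * e₁) ∣ (p : A))
    [Finite (ResidueField A)]
    (bound : ℕ) (hCount : TwlvCount A B p bound) (hbound : bound < Nat.card (ResidueField A))
    (θ : A) (hθ : IsUnit θ) (t : ℕ) (ht1 : 1 ≤ t) (ht : t < p * e₁) (hpt : ¬ p ∣ t)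
    (h : ∀ a : A, ∃ (Y : B) (X : A),
      Y ^ p = algebraMap A B (1 + θ * a * π ^ t + π ^ (t + 1) * X)) : False := by
  classical
  letI : Fintype (ResidueField A) := Fintype.ofFinite _
  choose Y X hYX using h
  set σ : ResidueField A → A := Function.surjInv (residue_surjective (R := A)) with hσ
  have hσr : ∀ κ, residue A (σ κ) = κ := Function.surjInv_eq _
  set w : ResidueField A → A := fun κ => 1 + θ * σ κ * π ^ t + π ^ (t + 1) * X (σ κ) with hw
  obtain ⟨t', rfl⟩ : ∃ t', t = t' + 1 := ⟨t - 1, by omega⟩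
  have hwm : ∀ κ, w κ = 1 + π * (θ * σ κ * π ^ t' + π ^ (t' + 1) * X (σ κ)) := by
    intro κ; rw [hw]; ring
  have hwu : ∀ κ, IsUnit (w κ) := by
    intro κ
    refine twlv_isUnit_of_dvd_sub hπ.not_isUnit isUnit_one ?_
    rw [hwm]; exact ⟨θ * σ κ * π ^ t' + π ^ (t' + 1) * X (σ κ), by ring⟩
  have hkey : ∀ κ κ', (∃ ζ : A, w κ = w κ' * ζ ^ p) → κ = κ' := by
    rintro κ κ' ⟨ζ, hζ⟩
    by_contra hne
    set c : A := θ * (σ κ - σ κ') with hc
    have hcnd : ¬ π ∣ c := by
      intro hd
      rcases hπ.prime.dvd_or_dvd hd with h1 | h1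
      · exact twlv_not_dvd_of_isUnit hπ hθ h1
      · have := (twlv_residue_eq_zero hπ _).2 h1
        rw [map_sub, hσr, hσr, sub_eq_zero] at this
        exact hne this
    set D : A := ζ ^ p - 1 with hD
    have e1 : w κ' * D = c * π ^ (t' + 1) + π ^ (t' + 1 + 1) * (X (σ κ) - X (σ κ')) := by
      have : w κ' * D = w κ - w κ' := by rw [hD, hζ]; ring
      rw [this, hw, hc]; ring
    -- π ^ (t'+1) ∣ D
    obtain ⟨q, hq⟩ := (hwu κ').exists_right_inv
    have e2 : D = q * (w κ' * D) := by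
      calc D = (w κ' * q) * D := by rw [hq, one_mul]
        _ = q * (w κ' * D) := by ring
    have hdD : π ^ (t' + 1) ∣ D := by
      rw [e2, e1]
      refine Dvd.dvd.mul_left (dvd_add (Dvd.dvd.mul_left dvd_rfl _) ?_) _
      exact Dvd.dvd.mul_right (pow_dvd_pow π (by omega)) _
    obtain ⟨D', hD'⟩ := hdD
    have e3 : ζ ^ p - (1 + c * π ^ (t' + 1)) =
        π ^ (t' + 1 + 1) * ((X (σ κ) - X (σ κ')) -
          (θ * σ κ' * π ^ t' + π ^ (t' + 1) * X (σ κ')) * D') := by
      have e4 : ζ ^ p - (1 + c * π ^ (t' + 1)) = D - c * π ^ (t' + 1) := by rw [hD]; ring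
      have e5 : D = w κ' * D - π * (θ * σ κ' * π ^ t' + π ^ (t' + 1) * X (σ κ')) * D := by
        rw [hwm κ']; ring
      rw [e4, e5, e1]
      conv_lhs => rw [hD']
      ring
    exact hpt (twlv_pw hp hπ hpe ζ c (t' + 1) hcnd ht ⟨_, e3⟩)
  have hwinj : Function.Injective w := by
    intro κ κ' hκ
    exact hkey κ κ' ⟨1, by rw [one_pow, mul_one, hκ]⟩
  have hcard := hCount (Finset.univ.image w) (by
      intro z hz
      obtain ⟨κ, -, rfl⟩ := Finset.mem_image.1 hz
      exact ⟨hwu κ, Y (σ κ), hYX (σ κ)⟩) (by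
      intro z hz z' hz' hex
      obtain ⟨κ, -, rfl⟩ := Finset.mem_image.1 hz
      obtain ⟨κ', -, rfl⟩ := Finset.mem_image.1 hz'
      rw [hkey κ κ' hex])
  rw [Finset.card_image_of_injective _ hwinj, Finset.card_univ, ← Nat.card_eq_fintype_card] at hcard
  omega

end Contra

end Fermat.Agent.TW.W
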