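import Mathlib

/-!
# S56 / TW-W, piece W-K in the form (LEVEL): the abstract core (helper57)

`A ⊂ B` discrete valuation rings, `p = ε π ^ ((p-1) e₁)` in `A` (`π` a uniformiser, `ε` a unit),
`B` generated over `A` by a root `x` of an Eisenstein polynomial `F` (universal property `TwlvUP`).
Hypotheses:
* `TwlvTwist`   : the coefficient twists `s : A → A/π^N`, `π ↦ π (1 + a π^j)`, exist;
* `TwlvTransfer`: for every Eisenstein `F'` of the degree of `F` there is an `A`-algebra `C` with a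
  root of `F'` such that, as soon as there is a ring homomorphism `B → C/π^N` (`N > p e₁`), every
  `w ∈ A` which is a `p`-th power in `C` up to `1 + π^(p e₁ + 1) C` is a `p`-th power in `B`
  (this is Fontaine's property `(P_m)` + Hensel, for the field of fractions of `B`);
* `TwlvCount`   : at most `bound < |k|` classes of units of `A` modulo `p`-th powers become
  `p`-th powers in `B` (Kummer theory, `bound = [Frac B : Frac A]`);
* `ν ^ (p-1) = -ε` is solvable in the residue field (`ζ_p ∈ Frac A`).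
Conclusion (`twlv_core`): if `π ^ r * u` (`u` a unit of `A`) is a `p`-th power in `B` then `p ∣ r`
and `u ∈ (1 + p A) · (Aˣ)^p`.
-/

set_option autoImplicit false

namespace Fermat.Agent.TW.W

open Polynomial IsLocalRing

/-- `(1 + x)^p = 1 + x^p + p x (1 + x G)`. -/
theorem twlv_binom (p : ℕ) (hp : p.Prime) {R : Type*} [CommRing R] (x : R) :
    ∃ G : R, (1 + x) ^ p = 1 + x ^ p + (p : R) * x * (1 + x * G) := by
  obtain ⟨r, hr⟩ := exists_add_pow_prime_eq hp (1 : ℤ[X]) X
  have h1 : r.coeff 0 = 1 := by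
    have h := congrArg (fun f => f.coeff 1) hr
    simp only [one_pow, mul_one] at h
    rw [coeff_one_add_X_pow, coeff_add, coeff_add, coeff_one, coeff_X_pow] at h
    have hp1 : (1 : ℕ) ≠ p := hp.one_lt.ne
    have hcoef : ((p : ℤ[X]) * X * r).coeff 1 = (p : ℤ) * r.coeff 0 := by
      rw [mul_assoc, ← C_eq_natCast, coeff_C_mul, coeff_X_mul]
    rw [hcoef] at h
    simp [hp1] at h
    have hp0 : (p : ℤ) ≠ 0 := by exact_mod_cast hp.ne_zero
    have : (p : ℤ) * 1 = p * r.coeff 0 := by simpa using h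
    exact (mul_left_cancel₀ hp0 this).symm
  have hr' : r = 1 + X * r.divX := by
    conv_lhs => rw [← divX_mul_X_add r, h1]
    simp [mul_comm, add_comm]
  refine ⟨(r.divX).eval₂ (Int.castRingHom R) x, ?_⟩
  have h2 := congrArg (fun f => f.eval₂ (Int.castRingHom R) x) hr
  simp only [one_pow, mul_one] at h2
  rw [hr'] at h2
  simpa [eval₂_add, eval₂_mul, eval₂_pow] using h2

/-- `(1 + x)^i = 1 + i x + x^2 G`. -/
theorem twlv_binom2 {R : Type*} [CommRing R] (x : R) (i : ℕ) :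
    ∃ G : R, (1 + x) ^ i = 1 + (i : R) * x + x ^ 2 * G := by
  induction i with
  | zero => exact ⟨0, by simp⟩
  | succ i ih =>
    obtain ⟨G, hG⟩ := ih
    refine ⟨G + x * G + i, ?_⟩
    rw [pow_succ, hG]; push_cast; ring

section DVR
variable {A : Type*} [CommRing A] [IsDomain A]
variable {p : ℕ} {π : A}

/-- cancel a power of `π` in a divisibility. -/
theorem twlv_cancel (hπ : Irreducible π) {a : ℕ} {x : A} (k : ℕ) (h : π ^ (a + k) ∣ π ^ a * x) :
    π ^ k ∣ x := by
  rw [pow_add] at h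
  exact (mul_dvd_mul_iff_left (pow_ne_zero a hπ.ne_zero)).1 h

variable [IsDiscreteValuationRing A]

/-- `p`-th powers of units have level `≡ 0 mod p` below the top level `p e₁`. -/
theorem twlv_pw (hp : p.Prime) (hπ : Irreducible π) {e₁ : ℕ}
    (hpe : π ^ ((p - 1) * e₁) ∣ (p : A)) (z c : A) (t : ℕ) (hc : ¬ π ∣ c)
    (ht : t < p * e₁) (h : π ^ (t + 1) ∣ z ^ p - (1 + c * π ^ t)) : p ∣ t := by
  have hπp : Prime π := hπ.prime
  rcases Nat.eq_zero_or_pos t with rfl | htpos
  · exact dvd_zero p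
  have he₁ : 0 < e₁ := by
    rcases Nat.eq_zero_or_pos e₁ with h0 | h0
    · subst h0; simp at ht
    · exact h0
  have hp1 : 1 ≤ p - 1 := by have := hp.two_le; omega
  obtain ⟨ε, hε⟩ := hpe
  have hπdvdp : π ∣ (p : A) := by
    rw [hε]; exact Dvd.dvd.mul_right (dvd_pow_self π (by positivity)) _
  have h1 : π ∣ z ^ p - 1 := by
    have ha : π ∣ z ^ p - (1 + c * π ^ t) := dvd_trans (dvd_pow_self π (by omega)) h
    have hb : π ∣ c * π ^ t := Dvd.dvd.mul_left (dvd_pow_self π (by omega)) c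
    have : z ^ p - 1 = (z ^ p - (1 + c * π ^ t)) + c * π ^ t := by ring
    rw [this]; exact dvd_add ha hb
  have h2 : π ∣ z - 1 := by
    obtain ⟨r, hr⟩ := exists_add_pow_prime_eq hp (z - 1) 1
    have : (z - 1) ^ p = (z ^ p - 1) - (p : A) * ((z - 1) * r) := by
      have : (z - 1 + 1) ^ p = z ^ p := by ring_nf
      rw [this] at hr; rw [hr]; ring
    have h3 : π ∣ (z - 1) ^ p := by
      rw [this]; exact dvd_sub h1 (Dvd.dvd.mul_right hπdvdp _)
    exact hπp.dvd_of_dvd_pow h3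
  obtain ⟨z₁', hz₁'⟩ := h2
  set z₁ : A := z - 1 with hz₁def
  have hz : z = 1 + z₁ := by rw [hz₁def]; ring
  obtain ⟨r, hr⟩ := exists_add_pow_prime_eq hp (1 : A) z₁
  have hzp : z ^ p - 1 = z₁ ^ p + (p : A) * z₁ * r := by
    rw [hz, hr]; ring
  have hnot : ¬ π ^ (t + 1) ∣ z ^ p - 1 := by
    intro h'
    have : π ^ (t + 1) ∣ c * π ^ t := by
      have e1 : c * π ^ t = (z ^ p - 1) - (z ^ p - (1 + c * π ^ t)) := by ring
      rw [e1]; exact dvd_sub h' h
    rw [mul_comm] at this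
    exact hc (by simpa using twlv_cancel hπ 1 this)
  rcases eq_or_ne z₁ 0 with h0 | h0
  · exfalso; apply hnot
    rw [hzp, h0, zero_pow hp.ne_zero]; simp
  obtain ⟨l, u, hu⟩ := IsDiscreteValuationRing.eq_unit_mul_pow_irreducible h0 hπ
  have hl : 1 ≤ l := by
    rcases Nat.eq_zero_or_pos l with hl0 | hl0
    · exfalso
      subst hl0
      rw [pow_zero, mul_one] at hu
      have : π ∣ (u : A) := by rw [← hu, hz₁']; exact dvd_mul_right _ _
      exact hπ.not_isUnit (isUnit_of_dvd_unit this u.isUnit)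
    · exact hl0
  have hzp2 : z ^ p - 1 =
      (u : A) ^ p * π ^ (p * l) + π ^ ((p - 1) * e₁ + l) * (ε * (u : A) * r) := by
    rw [hzp, hu, hε]; ring
  by_cases hcase : p * l < (p - 1) * e₁ + l
  · obtain ⟨d, hd⟩ := Nat.exists_eq_add_of_lt hcase
    have hU : z ^ p - 1 = π ^ (p * l) * ((u : A) ^ p + π ^ (d + 1) * (ε * (u : A) * r)) := by
      rw [hzp2, hd]; ring
    have hUnot : ¬ π ∣ ((u : A) ^ p + π ^ (d + 1) * (ε * (u : A) * r)) := by
      intro hdiv
      have : π ∣ (u : A) ^ p := by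
        have := dvd_sub hdiv
          (Dvd.dvd.mul_right (dvd_pow_self π (Nat.succ_ne_zero d)) (ε * (u : A) * r))
        simpa using this
      exact hπ.not_isUnit (isUnit_of_dvd_unit (hπp.dvd_of_dvd_pow this) u.isUnit)
    rcases lt_trichotomy (p * l) t with hlt | heq | hgt
    · exfalso
      apply hUnot
      have h4 : π ^ (p * l + 1) ∣ z ^ p - 1 := by
        have e1 : z ^ p - 1 = (z ^ p - (1 + c * π ^ t)) + c * π ^ t := by ring
        rw [e1]
        exact dvd_add (dvd_trans (pow_dvd_pow π (by omega)) h)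
          (Dvd.dvd.mul_left (pow_dvd_pow π (by omega)) c)
      rw [hU] at h4
      simpa using twlv_cancel hπ 1 h4
    · exact ⟨l, heq.symm⟩
    · exfalso; apply hnot
      rw [hU]; exact Dvd.dvd.mul_right (pow_dvd_pow π (by omega)) _
  · exfalso; apply hnot
    have hcase' : (p - 1) * e₁ + l ≤ p * l := Nat.le_of_not_lt hcase
    have hle : e₁ ≤ l := by
      by_contra hcon
      have hcon' : l < e₁ := Nat.lt_of_not_le hcon
      have h5 : (p - 1) * l < (p - 1) * e₁ := Nat.mul_lt_mul_of_pos_left hcon' (by omega)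
      have h6 : p * l = (p - 1) * l + l := by
        conv_lhs => rw [show p = (p - 1) + 1 from by omega]
        ring
      omega
    have h7 : p * e₁ = (p - 1) * e₁ + e₁ := by
      conv_lhs => rw [show p = (p - 1) + 1 from by omega]
      ring
    have h8 : p * e₁ ≤ p * l := Nat.mul_le_mul_left p hle
    rw [hzp2]
    exact dvd_add (Dvd.dvd.mul_left (pow_dvd_pow π (by omega)) _)
      (Dvd.dvd.mul_right (pow_dvd_pow π (by omega)) _)

end DVR

section TOP
variable {A : Type*} [CommRing A]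
variable {B : Type*} [CommRing B] [IsDomain B] [IsDiscreteValuationRing B] [Algebra A B]
variable {p : ℕ} {π : A}

/-- top level: a `p`-th power in `B` of the form `1 + c π^(p e₁) + …` has `c` in the image of
`z ↦ z^p + z` on the residue field. -/
theorem twlv_top (hp : p.Prime) {e₁ : ℕ} (he₁ : 0 < e₁) (ε : A)
    (hpe : (p : A) = ε * π ^ ((p - 1) * e₁))
    (hinj : Function.Injective (algebraMap A B)) (hπ0 : π ≠ 0)
    (hπB : algebraMap A B π ∈ maximalIdeal B)
    (hloc : ∀ a : A, algebraMap A B a ∈ maximalIdeal B → π ∣ a)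
    (hres : ∀ b : B, ∃ a : A, b - algebraMap A B a ∈ maximalIdeal B)
    (Y : B) (c : A) (x' : B)
    (h : Y ^ p = 1 + algebraMap A B (c * π ^ (p * e₁)) + algebraMap A B (π ^ (p * e₁ + 1)) * x') :
    ∃ z : A, π ∣ z ^ p + ε * z - c := by
  set 𝔪 := maximalIdeal B with h𝔪
  set E : B := algebraMap A B ε with hE
  set P : B := algebraMap A B π with hP
  set Λ : B := P ^ e₁ with hΛ
  set c' : B := algebraMap A B c with hc'
  have hp1 : 1 ≤ p - 1 := by have := hp.two_le; omega
  have hpp : p = (p - 1) + 1 := by omega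
  have hΛ0 : Λ ≠ 0 := by
    rw [hΛ, hP]; exact pow_ne_zero _ (fun h0 => hπ0 (hinj (by rw [h0, map_zero])))
  have hΛ𝔪 : Λ ∈ 𝔪 := by
    rw [hΛ]; exact Ideal.pow_mem_of_mem _ hπB _ he₁
  have hpB : (p : B) = E * Λ ^ (p - 1) := by
    have := congrArg (algebraMap A B) hpe
    rw [map_natCast, map_mul, map_pow] at this
    rw [this, hΛ, ← pow_mul, mul_comm e₁ (p - 1)]
  have hY : Y ^ p - 1 = Λ ^ p * (c' + P * x') := by
    rw [h, map_mul, map_pow, map_pow]
    have : P ^ (p * e₁) = Λ ^ p := by rw [hΛ, ← pow_mul, mul_comm]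
    rw [← hP, ← hc', pow_succ, this]; ring
  set Y₁ : B := Y - 1 with hY₁
  have hYY : Y = 1 + Y₁ := by rw [hY₁]; ring
  obtain ⟨G, hG⟩ := twlv_binom p hp Y₁
  have hY2 : Y ^ p - 1 = Y₁ ^ p + (p : B) * Y₁ * (1 + Y₁ * G) := by
    rw [hYY, hG]; ring
  have hdiv : Λ ∣ Y₁ := by
    rcases ValuationRing.dvd_total Λ Y₁ with h1 | ⟨m, hm⟩
    · exact h1
    · by_cases hmu : IsUnit m
      · obtain ⟨u, rfl⟩ := hmu
        exact ⟨(↑u⁻¹ : B), by rw [hm]; simp [mul_assoc]⟩
      · exfalso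
        have hm𝔪 : m ∈ 𝔪 := by rwa [h𝔪, mem_maximalIdeal, mem_nonunits_iff]
        have hY₁0 : Y₁ ≠ 0 := by
          intro h0; apply hΛ0; rw [hm, h0, zero_mul]
        have e1 : Y₁ ^ p * (1 + E * m ^ (p - 1) * (1 + Y₁ * G)) =
            Y₁ ^ p * (m ^ p * (c' + P * x')) := by
          have a1 : Y₁ ^ p * (1 + E * m ^ (p - 1) * (1 + Y₁ * G)) =
              Y₁ ^ p + (p : B) * Y₁ * (1 + Y₁ * G) := by
            rw [hpB, hm, mul_pow]
            have : Y₁ ^ p = Y₁ ^ (p - 1) * Y₁ := by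
              conv_lhs => rw [hpp, pow_succ]
            rw [this]; ring
          rw [a1, ← hY2, hY, hm, mul_pow]; ring
        have e2 := mul_left_cancel₀ (pow_ne_zero p hY₁0) e1
        have : (1 : B) ∈ 𝔪 := by
          have e3 : (1 : B) = m ^ p * (c' + P * x') - m ^ (p - 1) * (E * (1 + Y₁ * G)) := by
            rw [← e2]; ring
          rw [e3]
          exact Ideal.sub_mem _ (Ideal.mul_mem_right _ _ (Ideal.pow_mem_of_mem _ hm𝔪 _ hp.pos))
            (Ideal.mul_mem_right _ _ (Ideal.pow_mem_of_mem _ hm𝔪 _ hp1))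
        exact (Ideal.ne_top_iff_one 𝔪).1 (maximalIdeal.isMaximal B).ne_top this
  obtain ⟨Z, hZ⟩ := hdiv
  have e4 : Λ ^ p * (c' + P * x') = Λ ^ p * (Z ^ p + E * Z + E * Λ * Z ^ 2 * G) := by
    rw [← hY, hY2, hZ, hpB]
    have : Λ ^ p = Λ ^ (p - 1) * Λ := by
      conv_lhs => rw [hpp, pow_succ]
    rw [mul_pow, this]; ring
  have e5 := mul_left_cancel₀ (pow_ne_zero p hΛ0) e4
  have e6 : Z ^ p + E * Z - c' ∈ 𝔪 := by
    have : Z ^ p + E * Z - c' = P * x' - Λ * (E * Z ^ 2 * G) := by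
      have : Z ^ p + E * Z = c' + P * x' - E * Λ * Z ^ 2 * G := by rw [e5]; ring
      rw [this]; ring
    rw [this]
    exact Ideal.sub_mem _ (Ideal.mul_mem_right _ _ hπB) (Ideal.mul_mem_right _ _ hΛ𝔪)
  obtain ⟨z, hz⟩ := hres Z
  refine ⟨z, hloc _ ?_⟩
  have e7 : algebraMap A B (z ^ p + ε * z - c) =
      (Z ^ p + E * Z - c') - ((Z ^ p - (algebraMap A B z) ^ p) + E * (Z - algebraMap A B z)) := by
    rw [map_sub, map_add, map_pow, map_mul]; ring
  rw [e7]
  refine Ideal.sub_mem _ e6 (Ideal.add_mem _ ?_ (Ideal.mul_mem_left _ _ hz))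
  obtain ⟨d, hd⟩ := sub_dvd_pow_sub_pow Z (algebraMap A B z) p
  rw [hd]; exact Ideal.mul_mem_right _ _ hz

end TOP

/-! ### The hypotheses -/

/-- The coefficient twists `s : A → A/π^N`, `π ↦ π(1 + a π^j)`, `s x ≡ x mod a π^(j+1)`. -/
def TwlvTwist {A : Type*} [CommRing A] (π : A) (e : ℕ) : Prop :=
  ∀ (N j : ℕ) (a : A), 1 ≤ j → N ≤ e + j →
    ∃ s : A →+* A ⧸ Ideal.span {π ^ N},
      s π = Ideal.Quotient.mk _ (π * (1 + a * π ^ j)) ∧
      ∀ x : A, ∃ x' : A, s x = Ideal.Quotient.mk _ (x + π * (a * π ^ j) * x')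

/-- Universal property of `B = A[x]/(F)`. -/
def TwlvUP {A B : Type*} [CommRing A] [CommRing B] [Algebra A B] (F : A[X]) (x : B) : Prop :=
  ∀ (R : Type) [CommRing R] (s : A →+* R) (r : R), F.eval₂ s r = 0 →
    ∃ η : B →+* R, (∀ a : A, η (algebraMap A B a) = s a) ∧ η x = r

/-- Transfer of `p`-th roots from the Eisenstein ring of any `F'` of degree `n` to `B`
(Fontaine's property `(P_m)` for `Frac B`, plus Hensel in `C`). -/
def TwlvTransfer (A B : Type*) [CommRing A] [CommRing B] [Algebra A B] (p : ℕ) (π : A)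
    (e₁ n : ℕ) : Prop :=
  ∀ F' : A[X], F'.Monic → F'.natDegree = n → F'.IsEisensteinAt (Ideal.span {π}) →
    ∃ (C : Type) (_ : CommRing C) (_ : Algebra A C) (x' : C), aeval x' F' = 0 ∧
      ∀ N : ℕ, p * e₁ < N → (B →+* C ⧸ Ideal.span {algebraMap A C (π ^ N)}) →
        ∀ w : A, (∃ z c : C,
            z ^ p = algebraMap A C w * (1 + algebraMap A C (π ^ (p * e₁ + 1)) * c)) →
          ∃ y : B, y ^ p = algebraMap A B w

/-- At most `bound` classes of units of `A` modulo `p`-th powers become `p`-th powers in `B`. -/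
def TwlvCount (A B : Type*) [CommRing A] [CommRing B] [Algebra A B] (p : ℕ) (bound : ℕ) : Prop :=
  ∀ S : Finset A, (∀ w ∈ S, IsUnit w ∧ ∃ y : B, y ^ p = algebraMap A B w) →
    (∀ w ∈ S, ∀ w' ∈ S, (∃ ζ : A, w = w' * ζ ^ p) → w = w') → S.card ≤ bound

end Fermat.Agent.TW.W
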