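/-
TW-W chain A (helper57): field-level (LEVEL), part D — the transfer `TwlvTransfer` from
Fontaine's property (P_m): for every Eisenstein polynomial `F'` of degree `[M : T]` over `𝒪_T`,
with `E = T[X]/(F')`: a ring homomorphism `𝒪_M → 𝒪_E/π^N`, `N > p e₁`, forces `M ≅ E` over `T`,
and `p`-th roots transfer (sharp Hensel in `E`).
-/
import Fermat.Agent.TW.W.LevelFieldA

set_option autoImplicit false
set_option linter.unusedSectionVars false
set_option linter.style.haveILetI false

open Polynomial IsLocalRing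

namespace Fermat.Agent.TW.W

open Fermat.Agent.PT.L

section Transfer

variable (q : ℕ) [Fact q.Prime] {K L : Type} [Field K] [Field L] [Algebra ℚ_[q] K]
  [FiniteDimensional ℚ_[q] K] [Algebra K L] [Algebra ℚ_[q] L] [IsScalarTower ℚ_[q] K L]
  [FiniteDimensional K L] [FiniteDimensional ℚ_[q] L]

/-- Fontaine's property (P_m) for the pair `L/K` (threshold `v_p > p/(p-1)`). -/
def TwlfPm : Prop :=
  ∀ (E : Type) [Field E] [Algebra ℚ_[q] E] [FiniteDimensional ℚ_[q] E] [Algebra K E]
    [IsScalarTower ℚ_[q] K E] [FiniteDimensional K E] (k : ℕ),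
    q * Module.finrank ℚ_[q] E < (q - 1) * k →
    (UE.OV q stmtWAdd L →+* UE.OV q stmtWAdd E ⧸ UE.lvl q stmtWAdd k) → Nonempty (L →ₐ[K] E)

variable {πK : K}

theorem twlf_transfer (hK : IsUnif q πK) (e₁ : ℕ)
    (hn : (Module.finrank ℚ_[q] K : ℤ) = (((q - 1) * e₁ : ℕ) : ℤ) * wv q πK)
    (hPm : TwlfPm q (K := K) (L := L)) :
    letI := LU.lu_algOO q K L
    TwlvTransfer (UE.OV q stmtWAdd K) (UE.OV q stmtWAdd L) q (twwPmUnif q hK) e₁
      (Module.finrank K L) := by
  classical
  letI := LU.lu_algOO q K L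
  have hq : q.Prime := Fact.out
  intro F' hmon hdeg hEis
  have hEis' : F'.IsEisensteinAt (maximalIdeal (UE.OV q stmtWAdd K)) := by
    rw [LU.lu_maximalIdeal_eq q hK (wr_unif_mem q hK)]
    exact hEis
  have hdegpos : 0 < F'.natDegree := by rw [hdeg]; exact Module.finrank_pos
  obtain ⟨E, _, _, _, _, _, _, x, hfr, hxU, hxw, hx0⟩ := wr_eis_field q hK F' hmon hEis' hdegpos
  letI algC : Algebra (UE.OV q stmtWAdd K) (UE.OV q stmtWAdd E) := LU.lu_algOO q K E
  refine ⟨UE.OV q stmtWAdd E, inferInstance, algC, ⟨x, wr_unif_mem q hxU⟩, ?_, ?_⟩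
  · apply Subtype.ext
    rw [aeval_def]
    show ((eval₂ (UE.iota q stmtWAdd) (⟨x, wr_unif_mem q hxU⟩ : UE.OV q stmtWAdd E) F' :
      UE.OV q stmtWAdd E) : E) = 0
    rw [wr_coe_eval q hxU]
    exact hx0
  intro N hN η₀ w hw
  obtain ⟨z, c, hz⟩ := hw
  by_cases hw0 : w = 0
  · refine ⟨0, ?_⟩
    rw [hw0, map_zero, zero_pow hq.ne_zero]
  have hw0' : ((w : UE.OV q stmtWAdd K) : K) ≠ 0 := fun h => hw0 (Subtype.ext h)
  have hπ0 : πK ≠ 0 := hK.1
  have hfpos : 0 < wv q πK := hK.2.1
  obtain ⟨f, hf⟩ := Int.eq_ofNat_of_zero_le hfpos.le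
  have hfpos' : 0 < f := by
    have : (0 : ℤ) < (f : ℤ) := by rw [← hf]; exact hfpos
    exact_mod_cast this
  have hnE : 0 < Module.finrank K E := Module.finrank_pos
  -- valuations in `E`
  have hwvπ : wv q (algebraMap K E πK) = ((Module.finrank K E * f : ℕ) : ℤ) := by
    rw [wv_algebraMap_tower, hf]
    push_cast
    ring
  have hπE0 : algebraMap K E πK ≠ 0 := by rwa [Ne, map_eq_zero]
  have hnK : Module.finrank ℚ_[q] K = (q - 1) * e₁ * f := by
    have : (Module.finrank ℚ_[q] K : ℤ) = (((q - 1) * e₁ * f : ℕ) : ℤ) := by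
      rw [hn, hf]
      push_cast
      ring
    exact_mod_cast this
  have hnE' : Module.finrank ℚ_[q] E = (q - 1) * e₁ * f * Module.finrank K E := by
    rw [← Module.finrank_mul_finrank ℚ_[q] K E, hnK]
  -- the level
  set k : ℕ := N * (Module.finrank K E * f) with hk
  have hle : Ideal.span {algebraMap (UE.OV q stmtWAdd K) (UE.OV q stmtWAdd E)
      ((twwPmUnif q hK) ^ N)} ≤ UE.lvl q stmtWAdd (X := E) k := by
    rw [Ideal.span_singleton_le_iff_mem, UE.mem_lvl]
    right
    show (k : ℤ) ≤ wv q (algebraMap K E (πK ^ N))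
    rw [map_pow, l0b_wv_pow, hwvπ, hk]
    push_cast
    ring_nf
    exact le_rfl
  have hkk : q * Module.finrank ℚ_[q] E < (q - 1) * k := by
    rw [hnE', hk]
    have h1 : 0 < (q - 1) * f * Module.finrank K E :=
      Nat.mul_pos (Nat.mul_pos (by have := hq.two_le; omega) hfpos') hnE
    calc q * ((q - 1) * e₁ * f * Module.finrank K E)
        = (q - 1) * f * Module.finrank K E * (q * e₁) := by ring
      _ < (q - 1) * f * Module.finrank K E * N := Nat.mul_lt_mul_of_pos_left hN h1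
      _ = (q - 1) * (N * (Module.finrank K E * f)) := by ring
  obtain ⟨φ⟩ := hPm E k hkk ((Ideal.Quotient.factor hle).comp η₀)
  have hφinj : Function.Injective φ := φ.toRingHom.injective
  have hφsurj : Function.Surjective φ := by
    have h1 : Module.finrank K L = Module.finrank K E := by rw [hfr, hdeg]
    exact (LinearMap.injective_iff_surjective_of_finrank_eq_finrank (f := φ.toLinearMap) h1).1
      hφinj
  -- Hensel in `E`
  have hzE : ((z : UE.OV q stmtWAdd E) : E) ^ q = algebraMap K E (w : K) *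
      (1 + algebraMap K E (πK ^ (q * e₁ + 1)) * (c : E)) := by
    have := congrArg (fun t : UE.OV q stmtWAdd E => (t : E)) hz
    exact this
  set s : E := algebraMap K E (πK ^ (q * e₁ + 1)) * (c : E) with hs
  have hqE0 : ((q : ℕ) : E) ≠ 0 := wgr_natCast_ne_zero q
  have hs1 : geW q (((q * e₁ + 1) * (Module.finrank K E * f) : ℕ) : ℤ) s := by
    have h1 : geW q (((q * e₁ + 1) * (Module.finrank K E * f) : ℕ) : ℤ)
        (algebraMap K E (πK ^ (q * e₁ + 1))) := by
      right
      rw [map_pow, l0b_wv_pow, hwvπ]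
      push_cast
      exact le_rfl
    have h2 := geW_mul q h1 (c.2 : geW q 0 (c : E))
    rw [add_zero] at h2
    exact h2
  have hX₀ : s / ((q : ℕ) : E) = 0 ∨
      (Module.finrank ℚ_[q] E : ℤ) < ((q : ℤ) - 1) * wv q (s / ((q : ℕ) : E)) := by
    rcases eq_or_ne s 0 with h0 | h0
    · left
      rw [h0, zero_div]
    · right
      have h3 := hs1.resolve_left h0
      rw [l0b_wv_div q h0 hqE0, wgr_wv_natCast, hnE']
      have hq1 : (1 : ℤ) ≤ (q : ℤ) - 1 := by
        have := hq.two_le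
        have : (2 : ℤ) ≤ (q : ℤ) := by exact_mod_cast this
        omega
      have hqm1 : ((q - 1 : ℕ) : ℤ) = (q : ℤ) - 1 := by
        have := hq.one_le
        push_cast [Nat.cast_sub this]
        ring
      push_cast [hqm1] at h3 ⊢
      have hP : (0 : ℤ) < (Module.finrank K E : ℤ) * f := by
        have h4 : (0 : ℤ) < (Module.finrank K E : ℤ) := by exact_mod_cast hnE
        have h5 : (0 : ℤ) < (f : ℤ) := by exact_mod_cast hfpos'
        positivity
      nlinarith
  obtain ⟨y₁, -, hy₁⟩ := wgr_root_of_high q hX₀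
  have hy₁' : (1 + s / ((q : ℕ) : E) * y₁) ^ q = 1 + s := by
    rw [hy₁, mul_div_cancel₀ _ hqE0]
  set t : E := 1 + s / ((q : ℕ) : E) * y₁ with ht
  have hs2 : geW q 1 s := by
    refine geW_mono q ?_ hs1
    have h4 : 1 ≤ (q * e₁ + 1) * (Module.finrank K E * f) :=
      Nat.mul_pos (Nat.succ_pos _) (Nat.mul_pos hnE hfpos')
    exact_mod_cast h4
  have htq0 : t ^ q ≠ 0 := by
    rw [hy₁']
    exact (wv_one_add q hs2).1
  have ht0 : t ≠ 0 := fun h => htq0 (by rw [h, zero_pow hq.ne_zero])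
  have hy₀ : ((z : E) / t) ^ q = algebraMap K E (w : K) := by
    rw [div_pow, hzE, hy₁', mul_div_assoc, div_self (by rw [← hy₁']; exact htq0), mul_one]
  obtain ⟨yM, hyM⟩ := hφsurj ((z : E) / t)
  have hyMq : yM ^ q = algebraMap K L (w : K) := by
    apply hφinj
    rw [map_pow, hyM, hy₀, AlgHom.commutes]
  have hyM0 : yM ≠ 0 := by
    intro h
    rw [h, zero_pow hq.ne_zero] at hyMq
    exact hw0' ((map_eq_zero (algebraMap K L)).1 hyMq.symm)
  have hyMint : yM ∈ UE.OV q stmtWAdd L := by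
    right
    have h1 := congrArg (wv q) hyMq
    rw [l0b_wv_pow, wv_algebraMap_tower] at h1
    have h2 : 0 ≤ wv q (w : K) := (w.2).resolve_left hw0'
    have h3 : (0 : ℤ) ≤ (Module.finrank K L : ℤ) := by positivity
    have h4 : (0 : ℤ) < (q : ℤ) := by exact_mod_cast hq.pos
    by_contra hneg
    rw [not_le] at hneg
    nlinarith
  refine ⟨⟨yM, hyMint⟩, Subtype.ext ?_⟩
  exact hyMq

end Transfer

end Fermat.Agent.TW.W
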