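import Fermat.Agent.TW.W.LevelContra

/-!
# S56 / TW-W (LEVEL), abstract core, part 4: the main theorem `twlv_core` (helper57)

Under `TwlvData`: if `π ^ r * u` (`u` a unit of `A`) is a `p`-th power in `B`, then `p ∣ r` and
`u ∈ (1 + p A) · (Aˣ)^p`  (`p = ε π^e`, `ε` a unit).
-/

set_option autoImplicit false

namespace Fermat.Agent.TW.W

open Polynomial IsLocalRing

/-- The hypotheses of the abstract (LEVEL) theorem. -/
structure TwlvData (A B : Type*) [CommRing A] [IsDomain A] [IsDiscreteValuationRing A]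
    [CommRing B] [IsDomain B] [IsDiscreteValuationRing B] [Algebra A B]
    (p : ℕ) (π : A) (ε : A) (e₁ : ℕ) : Prop where
  hp : p.Prime
  hp2 : p ≠ 2
  hπ : Irreducible π
  he₁ : 0 < e₁
  hε : IsUnit ε
  hpe : (p : A) = ε * π ^ ((p - 1) * e₁)
  hfin : Finite (ResidueField A)
  hinj : Function.Injective (algebraMap A B)
  hπB : algebraMap A B π ∈ maximalIdeal B
  hres : ∀ b : B, ∃ a : A, b - algebraMap A B a ∈ maximalIdeal B
  hν : ∃ ν : A, ¬ π ∣ ν ∧ π ∣ ν ^ (p - 1) + ε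
  hF : ∃ (F : A[X]) (x : B) (n : ℕ), F.Monic ∧ F.natDegree = n ∧
    F.IsEisensteinAt (Ideal.span {π}) ∧ TwlvUP F x ∧ TwlvTransfer A B p π e₁ n
  hTw : TwlvTwist π ((p - 1) * e₁)
  hCount : ∃ bound, TwlvCount A B p bound ∧ bound < Nat.card (ResidueField A)

section Main
variable {A : Type*} [CommRing A] [IsDomain A] [IsDiscreteValuationRing A]
variable {B : Type*} [CommRing B] [IsDomain B] [IsDiscreteValuationRing B] [Algebra A B]
variable {p : ℕ} {π : A} {ε : A} {e₁ : ℕ}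

namespace TwlvData

variable (D : TwlvData A B p π ε e₁)
include D

theorem hloc (a : A) (h : algebraMap A B a ∈ maximalIdeal B) : π ∣ a := by
  by_contra hnd
  have hu := twlv_isUnit_of_not_dvd D.hπ hnd
  have := hu.map (algebraMap A B)
  exact (mem_nonunits_iff.1 ((mem_maximalIdeal _).1 h)) this

theorem hpe' : π ^ ((p - 1) * e₁) ∣ (p : A) := ⟨ε, by rw [D.hpe]; ring⟩

theorem three_le : 3 ≤ p := by
  have := D.hp.two_le
  have := D.hp2
  omega

theorem charP : CharP (ResidueField A) p := by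
  rw [CharP.charP_iff_prime_eq_zero D.hp]
  have : π ∣ (p : A) := by
    rw [D.hpe]
    refine Dvd.dvd.mul_left (dvd_pow_self π ?_) _
    have := D.three_le
    have := D.he₁
    exact Nat.mul_ne_zero (by omega) (by omega)
  have h0 := (twlv_residue_eq_zero D.hπ _).2 this
  rwa [map_natCast] at h0

/-- Frobenius is surjective on the residue field: every `b` is `β^p` modulo `π`. -/
theorem exists_pow_sub (b : A) : ∃ β : A, π ∣ β ^ p - b := by
  have := D.hfin
  have := D.charP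
  have : Fact p.Prime := ⟨D.hp⟩
  have hinj : Function.Injective (frobenius (ResidueField A) p) := frobenius_inj _ p
  have hsurj := Finite.injective_iff_surjective.1 hinj
  obtain ⟨βbar, hβ⟩ := hsurj (residue A b)
  obtain ⟨β, rfl⟩ := residue_surjective βbar
  refine ⟨β, (twlv_residue_eq_zero D.hπ _).1 ?_⟩
  rw [map_sub, map_pow, sub_eq_zero]
  exact hβ

theorem natCast_isUnit (i : ℕ) (hi : ¬ p ∣ i) : IsUnit (i : A) := by
  refine twlv_isUnit_of_not_dvd D.hπ (fun h => hi ?_)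
  have := D.charP
  have h0 := (twlv_residue_eq_zero D.hπ _).2 h
  rw [map_natCast] at h0
  exact (CharP.cast_eq_zero_iff (ResidueField A) p i).1 h0

/-- the family of `p`-th powers produced by the twists, unit case. -/
theorem unit_fam (i : ℕ) (hi1 : 1 ≤ i) (b : A) (y : B)
    (hy : y ^ p = algebraMap A B (1 + b * π ^ i)) (j : ℕ) (hj : e₁ + 1 ≤ j) (a : A) :
    ∃ (Y : B) (X : A),
      Y ^ p = algebraMap A B (1 + ((i : A) * b) * a * π ^ (i + j) + π ^ (i + j + 1) * X) := by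
  obtain ⟨F, x, n, hFm, hFn, hFe, hUP, hTr⟩ := D.hF
  have hu : IsUnit (1 + b * π ^ i) := by
    refine twlv_isUnit_of_dvd_sub D.hπ.not_isUnit isUnit_one ?_
    exact ⟨b * π ^ (i - 1), by
      obtain ⟨i', rfl⟩ : ∃ i', i = i' + 1 := ⟨i - 1, by omega⟩
      simp only [Nat.add_sub_cancel]; ring⟩
  have hy' : y ^ p = algebraMap A B (π ^ 0 * (1 + b * π ^ i)) := by rw [pow_zero, one_mul]; exact hy
  obtain ⟨s, hsπ, hsx, hstar⟩ := twlv_star D.hp D.hπ D.hinj F hFm hFn hFe x hUP D.hTw hTr 0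
    (1 + b * π ^ i) hu y hy' j (by omega) a
  obtain ⟨b', hb'⟩ := hsx b
  have hsu : s (1 + b * π ^ i) = Ideal.Quotient.mk _
      (1 + (b + π * (a * π ^ j) * b') * (π * (1 + a * π ^ j)) ^ i) := by
    rw [map_add, map_one, map_mul, map_pow, hsπ, hb']
    simp only [map_add, map_mul, map_pow, map_one]
  obtain ⟨Y, hY⟩ := hstar _ hsu
  obtain ⟨q, hq⟩ := hu.exists_right_inv
  obtain ⟨G, hG⟩ := twlv_binom2 (a * π ^ j) i
  obtain ⟨i', rfl⟩ : ∃ i', i = i' + 1 := ⟨i - 1, by omega⟩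
  obtain ⟨j', rfl⟩ : ∃ j', j = j' + 1 := ⟨j - 1, by omega⟩
  refine ⟨Y, (b * a ^ 2 * π ^ j' * G + a * b' * (1 + a * π ^ (j' + 1)) ^ (i' + 1)) -
    (((i' + 1 : ℕ) : A) * b * a + π * (b * a ^ 2 * π ^ j' * G +
      a * b' * (1 + a * π ^ (j' + 1)) ^ (i' + 1))) * b * π ^ i' * q, ?_⟩
  have e1 : Y ^ p = algebraMap A B
      ((1 + (b + π * (a * π ^ (j' + 1)) * b') * (π * (1 + a * π ^ (j' + 1))) ^ (i' + 1)) * q) := by
    have : Y ^ p = Y ^ p * algebraMap A B (1 + b * π ^ (i' + 1)) * algebraMap A B q := by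
      rw [mul_assoc, ← map_mul, hq, map_one, mul_one]
    rw [this, hY, pow_zero, one_mul, ← map_mul]
  rw [e1]
  congr 1
  rw [mul_pow]
  generalize (1 + a * π ^ (j' + 1)) ^ (i' + 1) = E at hG ⊢
  subst hG
  linear_combination (1 + ((1 + (b + π * (a * π ^ (j' + 1)) * b') * (π ^ (i' + 1) *
    (1 + ((i' + 1 : ℕ) : A) * (a * π ^ (j' + 1)) + (a * π ^ (j' + 1)) ^ 2 * G))) -
    (1 + b * π ^ (i' + 1)))) * hq

/-- the family of `p`-th powers produced by the twists, valuation case. -/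
theorem val_fam (u : A) (hu : IsUnit u) (y : B)
    (hy : y ^ p = algebraMap A B (π * u)) (j : ℕ) (hj : e₁ + 2 ≤ j) (a : A) :
    ∃ (Y : B) (X : A),
      Y ^ p = algebraMap A B (1 + 1 * a * π ^ j + π ^ (j + 1) * X) := by
  obtain ⟨F, x, n, hFm, hFn, hFe, hUP, hTr⟩ := D.hF
  have hy' : y ^ p = algebraMap A B (π ^ 1 * u) := by rw [pow_one]; exact hy
  obtain ⟨s, hsπ, hsx, hstar⟩ := twlv_star D.hp D.hπ D.hinj F hFm hFn hFe x hUP D.hTw hTr 1
    u hu y hy' j (by omega) a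
  obtain ⟨x', hx'⟩ := hsx u
  obtain ⟨Y, hY⟩ := hstar _ hx'
  obtain ⟨q, hq⟩ := hu.exists_right_inv
  refine ⟨Y, (1 + a * π ^ j) * a * x' * q, ?_⟩
  have e1 : Y ^ p = algebraMap A B
      ((1 + a * π ^ j) ^ 1 * (u + π * (a * π ^ j) * x') * q) := by
    have : Y ^ p = Y ^ p * algebraMap A B u * algebraMap A B q := by
      rw [mul_assoc, ← map_mul, hq, map_one, mul_one]
    rw [this, hY, ← map_mul]
  rw [e1]
  congr 1
  linear_combination (1 + a * π ^ j) * hq

/-- No `p`-th power of `B` has the form `1 + θ a π^t + …` for all `a` when `t ≤ p e₁` and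
(`t = p e₁` or `p ∤ t`). -/
theorem no_fam (θ : A) (hθ : IsUnit θ) (t : ℕ) (ht1 : 1 ≤ t) (ht : t ≤ p * e₁)
    (hpt : t = p * e₁ ∨ ¬ p ∣ t)
    (h : ∀ a : A, ∃ (Y : B) (X : A),
      Y ^ p = algebraMap A B (1 + θ * a * π ^ t + π ^ (t + 1) * X)) : False := by
  have := D.hfin
  rcases eq_or_lt_of_le ht with heq | hlt
  · subst heq
    exact twlv_contra_top D.hp D.hπ D.he₁ ε D.hpe D.hinj D.hπB D.hloc D.hres D.hν θ hθ h
  · rcases hpt with h1 | h1
    · omega
    · obtain ⟨bound, hC, hb⟩ := D.hCount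
      exact twlv_contra_count D.hp D.hπ D.hpe' bound hC hb θ hθ t ht1 hlt h1 h

theorem pe₁ : p * e₁ = (p - 1) * e₁ + e₁ := by
  have := D.three_le
  conv_lhs => rw [show p = (p - 1) + 1 from by omega]
  ring

/-- choice of the level `t = i + j`. -/
theorem exists_level (i : ℕ) (j₀ : ℕ) (h : i + j₀ ≤ p * e₁) :
    ∃ j, j₀ ≤ j ∧ i + j ≤ p * e₁ ∧ (i + j = p * e₁ ∨ ¬ p ∣ i + j) := by
  have hp3 := D.three_le
  by_cases h1 : i + j₀ = p * e₁
  · exact ⟨j₀, le_rfl, h, Or.inl h1⟩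
  · by_cases h2 : p ∣ i + j₀
    · refine ⟨j₀ + 1, by omega, by omega, Or.inr ?_⟩
      intro h3
      have : p ∣ (i + (j₀ + 1)) - (i + j₀) := Nat.dvd_sub h3 h2
      have e : (i + (j₀ + 1)) - (i + j₀) = 1 := by omega
      rw [e] at this
      have := Nat.le_of_dvd one_pos this
      omega
    · exact ⟨j₀, le_rfl, h, Or.inr h2⟩

/-- a unit `1 + b π^i` with `π ∤ b`, `p ∤ i`, `i < e` is not a `p`-th power in `B`. -/
theorem no_unit_level (i : ℕ) (hi1 : 1 ≤ i) (hie : i < (p - 1) * e₁) (hpi : ¬ p ∣ i) (b : A)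
    (hb : ¬ π ∣ b) (y : B) (hy : y ^ p = algebraMap A B (1 + b * π ^ i)) : False := by
  have hpe₁ := D.pe₁
  obtain ⟨j, hj0, hj1, hj2⟩ := D.exists_level i (e₁ + 1) (by omega)
  refine D.no_fam ((i : A) * b) ?_ (i + j) (by omega) hj1 hj2 (D.unit_fam i hi1 b y hy j hj0)
  exact (D.natCast_isUnit i hpi).mul (twlv_isUnit_of_not_dvd D.hπ hb)

/-- `π u` is not a `p`-th power in `B`. -/
theorem no_val (u : A) (hu : IsUnit u) (y : B) (hy : y ^ p = algebraMap A B (π * u)) : False := by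
  have hpe₁ := D.pe₁
  have hp3 := D.three_le
  have he₁ := D.he₁
  have h2 : 2 ≤ (p - 1) * e₁ := by
    calc 2 = 2 * 1 := by norm_num
      _ ≤ (p - 1) * e₁ := Nat.mul_le_mul (by omega) (by omega)
  obtain ⟨j, hj0, hj1, hj2⟩ := D.exists_level 0 (e₁ + 2) (by omega)
  rw [zero_add] at hj1 hj2
  exact D.no_fam 1 isUnit_one j (by omega) hj1 hj2 (D.val_fam u hu y hy j hj0)

end TwlvData

end Main

end Fermat.Agent.TW.W
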