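import Fermat.Agent.TW.W.LevelCore

/-!
# S56 / TW-W (LEVEL), abstract core, part 2: the twist step `(★)` (helper57)

If `π^r u` is a `p`-th power in `B`, then for every twist `s` (`π ↦ π(1 + a π^j)`, `j ≥ e₁+1+r`) and
every lift `ũ` of `s u`, the element `(1 + a π^j)^r ũ / u` is a `p`-th power in `B`.
-/

set_option autoImplicit false

namespace Fermat.Agent.TW.W

open Polynomial IsLocalRing

section Aux
variable {A : Type*} [CommRing A] [IsLocalRing A]

theorem twlv_isUnit_of_dvd_sub {π x y : A} (hπ : ¬ IsUnit π) (hx : IsUnit x) (h : π ∣ y - x) :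
    IsUnit y := by
  by_contra hy
  have hy' : y ∈ maximalIdeal A := by rwa [mem_maximalIdeal, mem_nonunits_iff]
  have hπ' : π ∈ maximalIdeal A := by rwa [mem_maximalIdeal, mem_nonunits_iff]
  obtain ⟨m, hm⟩ := h
  have : x ∈ maximalIdeal A := by
    have e : x = y - π * m := by rw [← hm]; ring
    rw [e]; exact Ideal.sub_mem _ hy' (Ideal.mul_mem_right _ _ hπ')
  exact (mem_nonunits_iff.1 ((mem_maximalIdeal x).1 this)) hx

end Aux

section Star
variable {A : Type*} [CommRing A] [IsDomain A] [IsDiscreteValuationRing A]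
variable {B : Type*} [CommRing B] [IsDomain B] [IsDiscreteValuationRing B] [Algebra A B]
variable {p : ℕ} {π : A}

theorem twlv_star (hp : p.Prime) (hπ : Irreducible π) {e₁ n : ℕ}
    (hinj : Function.Injective (algebraMap A B))
    (F : A[X]) (hFm : F.Monic) (hFn : F.natDegree = n) (hFe : F.IsEisensteinAt (Ideal.span {π}))
    (x : B) (hUP : TwlvUP F x)
    (hTw : TwlvTwist π ((p - 1) * e₁))
    (hTr : TwlvTransfer A B p π e₁ n)
    (r : ℕ) (u : A) (hu : IsUnit u) (y : B) (hy : y ^ p = algebraMap A B (π ^ r * u))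
    (j : ℕ) (hj : e₁ + 1 + r ≤ j) (a : A) :
    ∃ s : A →+* A ⧸ Ideal.span {π ^ (p * e₁ + 1 + r)},
      s π = Ideal.Quotient.mk _ (π * (1 + a * π ^ j)) ∧
      (∀ x : A, ∃ x' : A, s x = Ideal.Quotient.mk _ (x + π * (a * π ^ j) * x')) ∧
      ∀ ũ : A, s u = Ideal.Quotient.mk _ ũ →
        ∃ Y : B, Y ^ p * algebraMap A B u = algebraMap A B ((1 + a * π ^ j) ^ r * ũ) := by
  classical
  have hp1 : 1 ≤ p - 1 := by have := hp.two_le; omega
  have hpe₁ : p * e₁ = (p - 1) * e₁ + e₁ := by
    conv_lhs => rw [show p = (p - 1) + 1 from by omega]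
    ring
  have hj1 : 1 ≤ j := by omega
  obtain ⟨s, hsπ, hsx⟩ := hTw (p * e₁ + 1 + r) j a hj1 (by omega)
  refine ⟨s, hsπ, hsx, ?_⟩
  intro ũ hũ
  have hπnu : ¬ IsUnit π := hπ.not_isUnit
  -- `ũ` is a unit
  have hũu : IsUnit ũ := by
    obtain ⟨m, hm⟩ := hsx u
    rw [hũ] at hm
    have h1 : ũ - (u + π * (a * π ^ j) * m) ∈ Ideal.span {π ^ (p * e₁ + 1 + r)} :=
      Ideal.Quotient.eq.1 hm
    rw [Ideal.mem_span_singleton] at h1
    have h2 : π ∣ ũ - (u + π * (a * π ^ j) * m) := dvd_trans (dvd_pow_self π (by omega)) h1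
    have h3 : π ∣ ũ - u := by
      have e : ũ - u = (ũ - (u + π * (a * π ^ j) * m)) + π * ((a * π ^ j) * m) := by ring
      rw [e]; exact dvd_add h2 (dvd_mul_right _ _)
    exact twlv_isUnit_of_dvd_sub hπnu hu h3
  choose xs hxs using hsx
  -- the twisted polynomial
  set g : ℕ → A := fun l => F.coeff l + π * (a * π ^ j) * xs (F.coeff l) with hg
  set Q : A[X] := ∑ l ∈ Finset.range n, C (g l) * X ^ l with hQ
  have hdeg : Q.degree < n := by
    refine lt_of_le_of_lt (degree_sum_le _ _) ?_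
    rw [Finset.sup_lt_iff (by exact WithBot.bot_lt_coe n)]
    intro l hl
    refine lt_of_le_of_lt (degree_C_mul_X_pow_le l (g l)) ?_
    exact_mod_cast Finset.mem_range.1 hl
  set F' : A[X] := X ^ n + Q with hF'
  have hF'm : F'.Monic := monic_X_pow_add hdeg
  have hF'n : F'.natDegree = n := by
    rw [hF', natDegree_add_eq_left_of_degree_lt (by rw [degree_X_pow]; exact hdeg), natDegree_X_pow]
  have hF'c : ∀ l, l < n → F'.coeff l = g l := by
    intro l hl
    rw [hF', coeff_add, coeff_X_pow, if_neg (by omega), zero_add, hQ, finsetSum_coeff]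
    simp only [coeff_C_mul_X_pow]
    rw [Finset.sum_ite_eq]
    simp [hl]
  have hne : Ideal.span ({π} : Set A) ≠ ⊤ := by
    rw [Ne, Ideal.span_singleton_eq_top]; exact hπnu
  have hF'e : F'.IsEisensteinAt (Ideal.span {π}) := by
    refine hF'm.isEisensteinAt_of_mem_of_notMem hne ?_ ?_
    · intro l hl
      rw [hF'n] at hl
      rw [hF'c l hl, hg]
      refine Ideal.add_mem _ (hFe.mem (by rw [hFn]; exact hl)) ?_
      rw [mul_assoc]
      exact Ideal.mul_mem_right _ _ (Ideal.subset_span rfl)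
    · intro hmem
      rcases Nat.eq_zero_or_pos n with hn0 | hn0
      · -- degree 0: coefficient 0 is 1
        have : F'.coeff 0 = 1 := by
          have := hF'm.coeff_natDegree
          rwa [hF'n, hn0] at this
        rw [this] at hmem
        exact hne ((Ideal.eq_top_iff_one _).2 (Ideal.pow_le_self two_ne_zero hmem))
      · rw [hF'c 0 hn0, hg] at hmem
        apply hFe.notMem
        have e : F.coeff 0 = (F.coeff 0 + π * (a * π ^ j) * xs (F.coeff 0)) -
            π * (a * π ^ j) * xs (F.coeff 0) := by ring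
        rw [e]
        refine Ideal.sub_mem _ hmem ?_
        obtain ⟨j', rfl⟩ : ∃ j', j = j' + 1 := ⟨j - 1, by omega⟩
        have e2 : π * (a * π ^ (j' + 1)) * xs (F.coeff 0) =
            (π * π) * (a * π ^ j' * xs (F.coeff 0)) := by ring
        rw [e2, pow_two]
        exact Ideal.mul_mem_right _ _ (Ideal.mul_mem_mul (Ideal.subset_span rfl)
          (Ideal.subset_span rfl))
  obtain ⟨C, instC, instAlg, x', hx', htr⟩ := hTr F' hF'm hF'n hF'e
  set J : Ideal C := Ideal.span {algebraMap A C (π ^ (p * e₁ + 1 + r))} with hJ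
  have hle : Ideal.span {π ^ (p * e₁ + 1 + r)} ≤ Ideal.comap (algebraMap A C) J := by
    rw [Ideal.span_le]
    intro z hz
    rw [Set.mem_singleton_iff] at hz
    subst hz
    exact Ideal.subset_span rfl
  set ι : A ⧸ Ideal.span {π ^ (p * e₁ + 1 + r)} →+* C ⧸ J :=
    Ideal.quotientMap J (algebraMap A C) hle with hι
  set i : A →+* C ⧸ J := ι.comp s with hi
  have hi1 : ∀ z : A, i z =
      Ideal.Quotient.mk J (algebraMap A C (z + π * (a * π ^ j) * xs z)) := by
    intro z
    rw [hi, RingHom.comp_apply, hxs z, hι, Ideal.quotientMap_mk]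
  have heval : F.eval₂ i (Ideal.Quotient.mk J x') = 0 := by
    rw [eval₂_eq_sum_range, hFn, Finset.sum_range_succ]
    have h1 : F.coeff n = 1 := by rw [← hFn]; exact hFm.coeff_natDegree
    rw [h1, map_one, one_mul]
    have h2 : aeval x' F' = x' ^ n + ∑ l ∈ Finset.range n, algebraMap A C (g l) * x' ^ l := by
      rw [hF', hQ, map_add, map_pow, aeval_X, map_sum]
      congr 1
      refine Finset.sum_congr rfl (fun l _ => ?_)
      rw [map_mul, aeval_C, map_pow, aeval_X]
    have h3 : ∑ l ∈ Finset.range n, i (F.coeff l) * (Ideal.Quotient.mk J x') ^ l +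
        (Ideal.Quotient.mk J x') ^ n = Ideal.Quotient.mk J (aeval x' F') := by
      rw [h2, map_add, map_pow, map_sum, add_comm]
      congr 1
      refine Finset.sum_congr rfl (fun l _ => ?_)
      rw [hi1, map_mul, map_pow]
    rw [h3, hx', map_zero]
  obtain ⟨η, hηa, hηx⟩ := hUP (C ⧸ J) i (Ideal.Quotient.mk J x') heval
  -- the twisted element
  obtain ⟨v', hv'⟩ : ∃ v' : A, v' = (1 + a * π ^ j) ^ r * ũ := ⟨_, rfl⟩
  have hv'u : IsUnit v' := by
    rw [hv']
    refine IsUnit.mul (IsUnit.pow _ ?_) hũu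
    refine twlv_isUnit_of_dvd_sub hπnu isUnit_one ?_
    have e : (1 + a * π ^ j) - 1 = π ^ j * a := by ring
    rw [e]; exact Dvd.dvd.mul_right (dvd_pow_self π (by omega)) _
  have hηy : η y ^ p = Ideal.Quotient.mk J (algebraMap A C (π ^ r * v')) := by
    rw [← map_pow, hy, hηa, map_mul, map_pow]
    have e1 : i π = Ideal.Quotient.mk J (algebraMap A C (π * (1 + a * π ^ j))) := by
      rw [hi, RingHom.comp_apply, hsπ, hι, Ideal.quotientMap_mk]
    have e2 : i u = Ideal.Quotient.mk J (algebraMap A C ũ) := by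
      rw [hi, RingHom.comp_apply, hũ, hι, Ideal.quotientMap_mk]
    have e3 : (π * (1 + a * π ^ j)) ^ r * ũ = π ^ r * v' := by rw [hv', mul_pow]; ring
    rw [e1, e2, ← map_pow, ← map_pow, ← map_mul, ← map_mul, e3]
  obtain ⟨yt, hyt⟩ := Ideal.Quotient.mk_surjective (η y)
  have h4 : yt ^ p - algebraMap A C (π ^ r * v') ∈ J := by
    rw [← Ideal.Quotient.eq, map_pow, hyt, hηy]
  rw [hJ, Ideal.mem_span_singleton] at h4
  obtain ⟨c, hc⟩ := h4
  obtain ⟨q, hq⟩ := hv'u.exists_right_inv
  have h5 : ∃ y' : B, y' ^ p = algebraMap A B (π ^ r * v') := by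
    refine htr (p * e₁ + 1 + r) (by omega) η (π ^ r * v') ⟨yt, algebraMap A C q * c, ?_⟩
    have e4 : π ^ r * v' * π ^ (p * e₁ + 1) * q = π ^ (p * e₁ + 1 + r) := by
      rw [pow_add π (p * e₁ + 1) r]
      calc π ^ r * v' * π ^ (p * e₁ + 1) * q = π ^ (p * e₁ + 1) * π ^ r * (v' * q) := by ring
        _ = π ^ (p * e₁ + 1) * π ^ r := by rw [hq, mul_one]
    calc yt ^ p = algebraMap A C (π ^ r * v') + algebraMap A C (π ^ (p * e₁ + 1 + r)) * c := by
          rw [← hc]; ring
      _ = algebraMap A C (π ^ r * v') +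
            algebraMap A C (π ^ r * v' * π ^ (p * e₁ + 1) * q) * c := by rw [e4]
      _ = _ := by simp only [map_mul]; ring
  obtain ⟨y', hy'⟩ := h5
  have hπ0 : π ≠ 0 := hπ.ne_zero
  have hy0 : y ≠ 0 := by
    intro h0
    rw [h0, zero_pow hp.ne_zero] at hy
    have := hinj (by rw [← hy, map_zero] : algebraMap A B (π ^ r * u) = algebraMap A B 0)
    exact (mul_ne_zero (pow_ne_zero r hπ0) hu.ne_zero) this
  have hy'0 : y' ≠ 0 := by
    intro h0
    rw [h0, zero_pow hp.ne_zero] at hy'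
    have := hinj (by rw [← hy', map_zero] : algebraMap A B (π ^ r * v') = algebraMap A B 0)
    exact (mul_ne_zero (pow_ne_zero r hπ0) hv'u.ne_zero) this
  have hkey : y' ^ p * algebraMap A B u = y ^ p * algebraMap A B v' := by
    rw [hy, hy', ← map_mul, ← map_mul]; congr 1; ring
  have hdvd : y ∣ y' := by
    rcases ValuationRing.dvd_total y y' with h1 | ⟨m, hm⟩
    · exact h1
    · have e4 : y' ^ p * algebraMap A B u = y' ^ p * (m ^ p * algebraMap A B v') := by
        rw [hkey, hm, mul_pow]; ring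
      have e5 := mul_left_cancel₀ (pow_ne_zero p hy'0) e4
      have hmu : IsUnit (m ^ p * algebraMap A B v') := by
        rw [← e5]; exact hu.map (algebraMap A B)
      have hm' : IsUnit m := by
        have := isUnit_of_mul_isUnit_left hmu
        exact (isUnit_pow_iff hp.ne_zero).1 this
      obtain ⟨mu, rfl⟩ := hm'
      exact ⟨(↑mu⁻¹ : B), by rw [hm]; simp [mul_assoc]⟩
  obtain ⟨Y, hY⟩ := hdvd
  refine ⟨Y, ?_⟩
  rw [← hv']
  have e6 : y ^ p * (Y ^ p * algebraMap A B u) = y ^ p * algebraMap A B v' := by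
    rw [← hkey, hY, mul_pow]; ring
  exact mul_left_cancel₀ (pow_ne_zero p hy0) e6

end Star

end Fermat.Agent.TW.W
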