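import Mathlib
import Fermat.Agent.TW.W.Inj

/-!
# TW-W (T3): the lifting lemma (Fontaine's lifting step, Cartier-dual form, no exp/log)

`H` a commutative cocommutative `R`-bialgebra killed by `p`, `S` a commutative `R`-algebra which is
`ϖ`-adically separated and complete, `ϖ ^ e = p * w`, `e < (p - 1) * a`.  Every `R`-linear map
`x₀ : H → S` which is an algebra homomorphism modulo `p * ϖ ^ a` is congruent modulo `ϖ ^ a` to a
genuine algebra homomorphism `H → S`.
-/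

set_option linter.style.haveILetI false
set_option linter.unusedSectionVars false

namespace Fermat.Agent.TW.W

/-- `(1 + ϖ^a s)^p = 1 + p ϖ^a s (1 + ϖ c)` when `ϖ ^ e = p w`, `e < (p - 1) a`. -/
theorem tww_lift_binom {B : Type*} [CommRing B] (p : ℕ) (hp : p.Prime) (ϖ w : B) (e a : ℕ)
    (hpw : ϖ ^ e = (p : B) * w) (ha : e < (p - 1) * a) (s : B) :
    ∃ c : B, (1 + ϖ ^ a * s) ^ p = 1 + (p : B) * (ϖ ^ a * s) * (1 + ϖ * c) := by
  obtain ⟨c, hc⟩ := tww_inj_binom p hp (ϖ ^ a * s)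
  have h2 : 2 ≤ p := hp.two_le
  have ha1 : 1 ≤ a := by
    rcases Nat.eq_zero_or_pos a with h0 | h0
    · subst h0; simp at ha
    · omega
  obtain ⟨d, hd⟩ : ∃ d, (p - 1) * a = e + d + 1 := ⟨(p - 1) * a - e - 1, by omega⟩
  obtain ⟨a', rfl⟩ : ∃ a', a = a' + 1 := ⟨a - 1, by omega⟩
  obtain ⟨p', rfl⟩ : ∃ p', p = p' + 1 := ⟨p - 1, by omega⟩
  have hpa : (ϖ ^ (a' + 1)) ^ p' = (((p' + 1 : ℕ) : B) * w) * ϖ ^ (d + 1) := by
    rw [← pow_mul, ← hpw, ← pow_add]
    congr 1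
    simp only [Nat.add_sub_cancel] at hd
    rw [mul_comm]; omega
  refine ⟨ϖ ^ a' * s * c + w * ϖ ^ d * s ^ p', ?_⟩
  rw [hc]
  have : (ϖ ^ (a' + 1) * s) ^ (p' + 1) =
      (ϖ ^ (a' + 1)) ^ p' * (ϖ ^ (a' + 1) * s * s ^ p') := by ring
  rw [this, hpa]
  ring

/-- **Existence of `p`-th roots of unity near an approximate one** (successive approximation):
if `z₀ ^ p ≡ 1 mod p ϖ^a` then there is `z ≡ z₀ mod ϖ^a` with `z ^ p = 1`. -/
theorem tww_lift_root {B : Type*} [CommRing B] (p : ℕ) (hp : p.Prime) (ϖ w : B) (e a : ℕ)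
    (hpw : ϖ ^ e = (p : B) * w) (ha : e < (p - 1) * a)
    (hsep : ∀ z : B, (∀ n, ϖ ^ n ∣ z) → z = 0)
    (hpre : ∀ f : ℕ → B, (∀ n, ϖ ^ n ∣ f (n + 1) - f n) → ∃ L, ∀ n, ϖ ^ n ∣ L - f n)
    (z₀ : B) (hz₀ : (p : B) * ϖ ^ a ∣ z₀ ^ p - 1) :
    ∃ z : B, z ^ p = 1 ∧ ϖ ^ a ∣ z - z₀ := by
  classical
  -- the error term at stage `n`
  let err : ℕ → B → B := fun n u =>
    if h : (p : B) * ϖ ^ a * ϖ ^ n ∣ (z₀ + ϖ ^ a * u) ^ p - 1 then h.choose else 0
  let step : ℕ → B → B := fun n u => u - (z₀ + ϖ ^ a * u) * ϖ ^ n * err n u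
  let u : ℕ → B := fun n => Nat.rec 0 (fun n u => step n u) n
  have hu0 : u 0 = 0 := rfl
  have husucc : ∀ n, u (n + 1) = u n - (z₀ + ϖ ^ a * u n) * ϖ ^ n * err n (u n) := fun n => rfl
  have ha1 : 1 ≤ a := by
    rcases Nat.eq_zero_or_pos a with h0 | h0
    · subst h0; simp at ha
    · omega
  obtain ⟨a', ha'⟩ : ∃ a', a = a' + 1 := ⟨a - 1, by omega⟩
  have hdiv : ∀ n, (p : B) * ϖ ^ a * ϖ ^ n ∣ (z₀ + ϖ ^ a * u n) ^ p - 1 := by
    intro n
    induction n with
    | zero => simpa [hu0] using hz₀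
    | succ n ih =>
      have herr : (z₀ + ϖ ^ a * u n) ^ p - 1 = (p : B) * ϖ ^ a * ϖ ^ n * err n (u n) := by
        simp only [err, dif_pos ih]
        exact ih.choose_spec
      set ε := err n (u n) with hε
      set z := z₀ + ϖ ^ a * u n with hz
      obtain ⟨c, hc⟩ := tww_lift_binom p hp ϖ w e a hpw ha (-(ϖ ^ n * ε))
      have hz' : z₀ + ϖ ^ a * u (n + 1) = z * (1 + ϖ ^ a * (-(ϖ ^ n * ε))) := by
        rw [husucc]; ring
      rw [hz', mul_pow, hc]
      refine ⟨ε * (-c - (p : B) * ϖ ^ a' * ϖ ^ n * ε * (1 + ϖ * c)), ?_⟩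
      have hzp : z ^ p = 1 + (p : B) * ϖ ^ a * ϖ ^ n * ε := by
        rw [← herr]; ring
      rw [hzp, ha']
      ring
  have hcauchy : ∀ n, ϖ ^ n ∣ u (n + 1) - u n := by
    intro n
    rw [husucc]
    exact ⟨-((z₀ + ϖ ^ a * u n) * err n (u n)), by ring⟩
  obtain ⟨L, hL⟩ := hpre u hcauchy
  refine ⟨z₀ + ϖ ^ a * L, ?_, ⟨L, by ring⟩⟩
  have h0 : (z₀ + ϖ ^ a * L) ^ p - 1 = 0 := by
    apply hsep
    intro n
    have h1 : ϖ ^ n ∣ (z₀ + ϖ ^ a * L) ^ p - (z₀ + ϖ ^ a * u n) ^ p := by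
      refine Dvd.dvd.trans ?_ (sub_dvd_pow_sub_pow _ _ p)
      obtain ⟨k, hk⟩ := hL n
      exact ⟨ϖ ^ a * k, by linear_combination (ϖ ^ a) * hk⟩
    have h2 : ϖ ^ n ∣ (z₀ + ϖ ^ a * u n) ^ p - 1 :=
      Dvd.dvd.trans ⟨(p : B) * ϖ ^ a, by ring⟩ (hdiv n)
    have := dvd_add h1 h2
    simpa using this
  exact sub_eq_zero.mp h0

section Conv

open WithConv

variable {R C S : Type*} [CommRing R] [AddCommGroup C] [Module R C] [Coalgebra R C]
  [CommRing S] [Algebra R S] [Coalgebra.IsCocomm R C]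

theorem tww_lift_algebraMap_pow (ϖ : S) (n : ℕ) :
    (algebraMap S (WithConv (C →ₗ[R] S)) ϖ) ^ n = algebraMap S (WithConv (C →ₗ[R] S)) (ϖ ^ n) :=
  (map_pow _ _ _).symm

/-- The convolution ring is `ϖ`-adically separated if `S` is. -/
theorem tww_lift_conv_sep (ϖ : S) (hsep : ∀ z : S, (∀ n, ϖ ^ n ∣ z) → z = 0)
    (z : WithConv (C →ₗ[R] S))
    (hz : ∀ n, (algebraMap S (WithConv (C →ₗ[R] S)) ϖ) ^ n ∣ z) : z = 0 := by
  ext h
  apply hsep
  intro n
  have := hz n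
  rw [tww_lift_algebraMap_pow] at this
  exact tww_inj_pointwise_of_dvd _ z this h

/-- The convolution ring is `ϖ`-adically complete if `S` is (pointwise limits). -/
theorem tww_lift_conv_pre (ϖ : S) (hϖ : ϖ ∈ nonZeroDivisors S)
    (hsep : ∀ z : S, (∀ n, ϖ ^ n ∣ z) → z = 0)
    (hpre : ∀ f : ℕ → S, (∀ n, ϖ ^ n ∣ f (n + 1) - f n) → ∃ L, ∀ n, ϖ ^ n ∣ L - f n)
    (f : ℕ → WithConv (C →ₗ[R] S))
    (hf : ∀ n, (algebraMap S (WithConv (C →ₗ[R] S)) ϖ) ^ n ∣ f (n + 1) - f n) :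
    ∃ L : WithConv (C →ₗ[R] S), ∀ n, (algebraMap S (WithConv (C →ₗ[R] S)) ϖ) ^ n ∣ L - f n := by
  classical
  have hpt : ∀ c : C, ∀ n, ϖ ^ n ∣ f (n + 1) c - f n c := by
    intro c n
    have := hf n
    rw [tww_lift_algebraMap_pow] at this
    exact tww_inj_pointwise_of_dvd _ _ this c
  have hex : ∀ c : C, ∃ L : S, ∀ n, ϖ ^ n ∣ L - f n c := fun c => hpre (fun n => f n c) (hpt c)
  choose g hg using hex
  let gl : C →ₗ[R] S :=
    { toFun := g
      map_add' := by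
        intro h h'
        have : g (h + h') - (g h + g h') = 0 := by
          apply hsep
          intro n
          have e1 : g (h + h') - (g h + g h') =
              (g (h + h') - f n (h + h')) - (g h - f n h) - (g h' - f n h') := by
            have : f n (h + h') = f n h + f n h' := map_add (f n).ofConv h h'
            rw [this]; ring
          rw [e1]
          exact dvd_sub (dvd_sub (hg _ n) (hg _ n)) (hg _ n)
        exact sub_eq_zero.mp this
      map_smul' := by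
        intro r h
        have : g (r • h) - r • g h = 0 := by
          apply hsep
          intro n
          have e1 : g (r • h) - r • g h =
              (g (r • h) - f n (r • h)) - algebraMap R S r * (g h - f n h) := by
            have : f n (r • h) = r • f n h := map_smul (f n).ofConv r h
            rw [this, Algebra.smul_def, Algebra.smul_def]; ring
          rw [e1]
          exact dvd_sub (hg _ n) (Dvd.dvd.mul_left (hg _ n) _)
        simpa using sub_eq_zero.mp this }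
  refine ⟨toConv gl, fun n => ?_⟩
  rw [tww_lift_algebraMap_pow]
  refine tww_inj_dvd_of_pointwise _ (pow_mem hϖ n) _ (fun c => ?_)
  exact hg c n

/-- Composition with an algebra map commutes with convolution powers. -/
theorem tww_lift_comp_pow {T : Type*} [CommRing T] [Algebra R T] (q : S →ₐ[R] T)
    (f : WithConv (C →ₗ[R] S)) (n : ℕ) :
    toConv (q.toLinearMap ∘ₗ (f ^ n).ofConv) = (toConv (q.toLinearMap ∘ₗ f.ofConv)) ^ n := by
  induction n with
  | zero =>
    rw [pow_zero, pow_zero]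
    ext c
    simp
  | succ n ih =>
    rw [pow_succ, pow_succ, ← ih]
    apply ofConv_injective
    rw [ofConv_toConv]
    exact LinearMap.algHom_comp_convMul_distrib q (f ^ n) f

end Conv

section Main

open WithConv TensorProduct

variable {R H S : Type*} [CommRing R] [CommRing H] [Bialgebra R H] [Coalgebra.IsCocomm R H]
  [CommRing S] [Algebra R S]

/-- Pull-back along the multiplication `H ⊗ H → H`. -/
noncomputable def twwLiftM (f : WithConv (H →ₗ[R] S)) : WithConv (H ⊗[R] H →ₗ[R] S) :=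
  toConv (f.ofConv ∘ₗ LinearMap.mul' R H)

/-- The external square `h ⊗ h' ↦ f h * f h'`. -/
noncomputable def twwLiftE (f : WithConv (H →ₗ[R] S)) : WithConv (H ⊗[R] H →ₗ[R] S) :=
  toConv (LinearMap.mul' R S ∘ₗ TensorProduct.map f.ofConv f.ofConv)

omit [Coalgebra.IsCocomm R H] in
theorem twwLiftM_apply (f : WithConv (H →ₗ[R] S)) (h h' : H) :
    twwLiftM f (h ⊗ₜ[R] h') = f (h * h') := rfl

omit [Coalgebra.IsCocomm R H] in
theorem twwLiftE_apply (f : WithConv (H →ₗ[R] S)) (h h' : H) :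
    twwLiftE f (h ⊗ₜ[R] h') = f h * f h' := rfl

omit [Coalgebra.IsCocomm R H] in
theorem twwLiftM_one : twwLiftM (1 : WithConv (H →ₗ[R] S)) = 1 := by
  apply ofConv_injective
  apply TensorProduct.ext'
  intro h h'
  change (1 : WithConv (H →ₗ[R] S)) (h * h') = (1 : WithConv (H ⊗[R] H →ₗ[R] S)) (h ⊗ₜ[R] h')
  simp [mul_comm]

omit [Coalgebra.IsCocomm R H] in
theorem twwLiftM_mul (f g : WithConv (H →ₗ[R] S)) :
    twwLiftM (f * g) = twwLiftM f * twwLiftM g := by
  apply ofConv_injective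
  exact LinearMap.convMul_comp_coalgHom_distrib f g (Bialgebra.mulCoalgHom R H)

omit [Coalgebra.IsCocomm R H] in
theorem twwLiftM_pow (f : WithConv (H →ₗ[R] S)) (n : ℕ) :
    twwLiftM (f ^ n) = twwLiftM f ^ n := by
  induction n with
  | zero => rw [pow_zero, pow_zero, twwLiftM_one]
  | succ n ih => rw [pow_succ, pow_succ, twwLiftM_mul, ih]

omit [Coalgebra.IsCocomm R H] in
theorem twwLiftE_one : twwLiftE (1 : WithConv (H →ₗ[R] S)) = 1 := by
  apply ofConv_injective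
  apply TensorProduct.ext'
  intro h h'
  change (1 : WithConv (H →ₗ[R] S)) h * (1 : WithConv (H →ₗ[R] S)) h' =
    (1 : WithConv (H ⊗[R] H →ₗ[R] S)) (h ⊗ₜ[R] h')
  simp [mul_comm]

omit [Coalgebra.IsCocomm R H] in
theorem twwLiftE_mul (f g : WithConv (H →ₗ[R] S)) :
    twwLiftE (f * g) = twwLiftE f * twwLiftE g := by
  have h1 := TensorProduct.map_convMul_map (R := R) (f := f) (h := g) (g := f) (k := g)
  have h2 := LinearMap.algHom_comp_convMul_distrib (Algebra.TensorProduct.lmul' R (S := S))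
    (toConv (TensorProduct.map f.ofConv f.ofConv)) (toConv (TensorProduct.map g.ofConv g.ofConv))
  apply ofConv_injective
  rw [h1] at h2
  exact h2

omit [Coalgebra.IsCocomm R H] in
theorem twwLiftE_pow (f : WithConv (H →ₗ[R] S)) (n : ℕ) :
    twwLiftE (f ^ n) = twwLiftE f ^ n := by
  induction n with
  | zero => rw [pow_zero, pow_zero, twwLiftE_one]
  | succ n ih => rw [pow_succ, pow_succ, twwLiftE_mul, ih]

/-- Convolution powers of a point are the point composed with `[n]`. -/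
theorem tww_lift_algHom_pow {T : Type*} [CommRing T] [Algebra R T] (φ : H →ₐ[R] T) (n : ℕ) :
    (toConv φ : WithConv (H →ₐ[R] T)) ^ n =
      toConv (φ.comp ((toConv (AlgHom.id R H) : WithConv (H →ₐ[R] H)) ^ n).ofConv) := by
  induction n with
  | zero =>
    rw [pow_zero, pow_zero]
    apply ofConv_injective
    ext h
    simp [AlgHom.convOne_def]
  | succ n ih =>
    rw [pow_succ, pow_succ, AlgHom.comp_convMul_distrib, ← ih]
    simp

/-- A point of a bialgebra killed by `p` is killed by `p`. -/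
theorem tww_lift_algHom_pow_eq_one {T : Type*} [CommRing T] [Algebra R T] (p : ℕ)
    (hkill : (toConv (AlgHom.id R H) : WithConv (H →ₐ[R] H)) ^ p = 1) (φ : H →ₐ[R] T) :
    (toConv φ : WithConv (H →ₐ[R] T)) ^ p = 1 := by
  rw [tww_lift_algHom_pow, hkill]
  apply ofConv_injective
  ext h
  simp [AlgHom.convOne_def]

/-- Evaluation at `1` is multiplicative on the convolution ring. -/
theorem tww_lift_pow_apply_one (f : WithConv (H →ₗ[R] S)) (n : ℕ) :
    (f ^ n) (1 : H) = (f (1 : H)) ^ n := by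
  induction n with
  | zero => simp
  | succ n ih =>
    rw [pow_succ, pow_succ, ← ih, LinearMap.convMul_apply, Bialgebra.comul_one,
      Algebra.TensorProduct.one_def]
    simp

/-- **(T3), abstract form: the lifting lemma.**  `H` a commutative cocommutative bialgebra over
`R` killed by `p`; `S` a commutative `R`-algebra, `ϖ`-adically separated and complete, with
`ϖ ^ e = p * w` and `e < (p - 1) * a` (i.e. `v(ϖ ^ a) > v(p) / (p - 1)`).  Every `R`-linear map
`x₀ : H → S` which is unital and multiplicative modulo `p * ϖ ^ a` is congruent modulo `ϖ ^ a`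
to an `R`-algebra homomorphism `H → S`. -/
theorem tww_lift (p : ℕ) (hp : p.Prime)
    (hkill : (toConv (AlgHom.id R H) : WithConv (H →ₐ[R] H)) ^ p = 1)
    (ϖ w : S) (e a : ℕ) (hϖ : ϖ ∈ nonZeroDivisors S) (hpw : ϖ ^ e = (p : S) * w)
    (ha : e < (p - 1) * a)
    (hsep : ∀ z : S, (∀ n, ϖ ^ n ∣ z) → z = 0)
    (hpre : ∀ f : ℕ → S, (∀ n, ϖ ^ n ∣ f (n + 1) - f n) → ∃ L, ∀ n, ϖ ^ n ∣ L - f n)
    (x₀ : H →ₗ[R] S) (h1 : (p : S) * ϖ ^ a ∣ x₀ 1 - 1)
    (hmul : ∀ h h' : H, (p : S) * ϖ ^ a ∣ x₀ (h * h') - x₀ h * x₀ h') :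
    ∃ x : H →ₐ[R] S, ∀ h : H, ϖ ^ a ∣ x h - x₀ h := by
  classical
  -- Step 1: `x₀ ^ p ≡ 1` pointwise modulo `p ϖ^a`
  have hstep1 : ∀ h : H,
      (p : S) * ϖ ^ a ∣ ((toConv x₀ : WithConv (H →ₗ[R] S)) ^ p - 1) h := by
    let I : Ideal S := Ideal.span {(p : S) * ϖ ^ a}
    let q : S →ₐ[R] S ⧸ I := Ideal.Quotient.mkₐ R I
    have hq : ∀ s : S, q s = 0 ↔ (p : S) * ϖ ^ a ∣ s := by
      intro s
      change Ideal.Quotient.mk I s = 0 ↔ _
      rw [Ideal.Quotient.eq_zero_iff_mem, Ideal.mem_span_singleton]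
    let φ : H →ₐ[R] S ⧸ I := AlgHom.ofLinearMap (q.toLinearMap ∘ₗ x₀)
      (by
        change q (x₀ 1) = 1
        have := (hq (x₀ 1 - 1)).mpr h1
        rw [map_sub q, map_one q, sub_eq_zero] at this
        exact this)
      (by
        intro h h'
        change q (x₀ (h * h')) = q (x₀ h) * q (x₀ h')
        have := (hq _).mpr (hmul h h')
        rw [map_sub q, map_mul q, sub_eq_zero] at this
        exact this)
    have hφ : (toConv φ : WithConv (H →ₐ[R] S ⧸ I)) ^ p = 1 :=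
      tww_lift_algHom_pow_eq_one p hkill φ
    have hφ' : (toConv (q.toLinearMap ∘ₗ x₀) : WithConv (H →ₗ[R] S ⧸ I)) ^ p = 1 := by
      have := congrArg twwInjLin hφ
      rw [twwInjLin_pow, twwInjLin_one] at this
      exact this
    have h3 := tww_lift_comp_pow q (toConv x₀ : WithConv (H →ₗ[R] S)) p
    rw [ofConv_toConv, hφ'] at h3
    intro h
    rw [← hq]
    have h4 : q (((toConv x₀ : WithConv (H →ₗ[R] S)) ^ p) h) =
        (1 : WithConv (H →ₗ[R] S ⧸ I)) h := by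
      rw [← h3]; rfl
    have h5 : ((toConv x₀ : WithConv (H →ₗ[R] S)) ^ p - 1) h =
        ((toConv x₀ : WithConv (H →ₗ[R] S)) ^ p) h - (1 : WithConv (H →ₗ[R] S)) h := rfl
    rw [h5, map_sub, h4]
    simp
  -- Step 2: pass to the convolution ring and extract the root
  have hpnzd : (p : S) * ϖ ^ a ∈ nonZeroDivisors S := by
    have hp' : (p : S) ∈ nonZeroDivisors S := by
      have : (p : S) * w ∈ nonZeroDivisors S := hpw ▸ pow_mem hϖ e
      exact (mul_mem_nonZeroDivisors.mp this).1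
    exact mul_mem hp' (pow_mem hϖ a)
  have hz₀ : (p : WithConv (H →ₗ[R] S)) * (algebraMap S (WithConv (H →ₗ[R] S)) ϖ) ^ a ∣
      (toConv x₀ : WithConv (H →ₗ[R] S)) ^ p - 1 := by
    have : (p : WithConv (H →ₗ[R] S)) * (algebraMap S (WithConv (H →ₗ[R] S)) ϖ) ^ a =
        algebraMap S (WithConv (H →ₗ[R] S)) ((p : S) * ϖ ^ a) := by
      rw [map_mul, map_pow, map_natCast]
    rw [this]
    exact tww_inj_dvd_of_pointwise _ hpnzd _ hstep1
  have hpwB : (algebraMap S (WithConv (H →ₗ[R] S)) ϖ) ^ e =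
      (p : WithConv (H →ₗ[R] S)) * algebraMap S (WithConv (H →ₗ[R] S)) w := by
    rw [← map_pow, hpw, map_mul, map_natCast]
  obtain ⟨x, hxp, hxd⟩ := tww_lift_root p hp (algebraMap S (WithConv (H →ₗ[R] S)) ϖ)
    (algebraMap S (WithConv (H →ₗ[R] S)) w) e a hpwB ha
    (tww_lift_conv_sep ϖ hsep) (tww_lift_conv_pre ϖ hϖ hsep hpre) (toConv x₀) hz₀
  have hxpt : ∀ h, ϖ ^ a ∣ x h - x₀ h := by
    intro h
    rw [tww_lift_algebraMap_pow] at hxd
    exact tww_inj_pointwise_of_dvd _ _ hxd h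
  -- Step 3: `x 1 = 1`
  have hx1 : x (1 : H) = 1 := by
    have hp1 : (x (1 : H)) ^ p = (1 : S) ^ p := by
      rw [← tww_lift_pow_apply_one, hxp, one_pow]
      simp
    refine tww_inj_eq_of_pow_eq p hp ϖ w e a hϖ hpw ha hsep _ _ isUnit_one hp1 ?_
    have : x 1 - 1 = (x 1 - x₀ 1) + (x₀ 1 - 1) := by ring
    rw [this]
    exact dvd_add (hxpt 1) (Dvd.dvd.trans ⟨(p : S), by ring⟩ h1)
  -- Step 4: multiplicativity, by uniqueness of `p`-th roots of unity in `Hom(H ⊗ H, S)`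
  have hME : twwLiftM x = twwLiftE x := by
    have hEp : twwLiftE x ^ p = 1 := by rw [← twwLiftE_pow, hxp, twwLiftE_one]
    have hMp : twwLiftM x ^ p = 1 := by rw [← twwLiftM_pow, hxp, twwLiftM_one]
    have hu : IsUnit (twwLiftE x) := by
      have h2p : 2 ≤ p := hp.two_le
      refine IsUnit.of_mul_eq_one (twwLiftE x ^ (p - 1)) ?_
      rw [← pow_succ', show p - 1 + 1 = p by omega, hEp]
    refine tww_inj_conv p hp ϖ w e a hϖ hpw ha hsep _ _ hu (hMp.trans hEp.symm) ?_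
    intro t
    induction t using TensorProduct.induction_on with
    | zero => simp
    | tmul h h' =>
      rw [twwLiftM_apply, twwLiftE_apply]
      obtain ⟨d1, hd1⟩ := hxpt (h * h')
      obtain ⟨d2, hd2⟩ := hxpt h
      obtain ⟨d3, hd3⟩ := hxpt h'
      obtain ⟨d4, hd4⟩ := hmul h h'
      refine ⟨d1 + (p : S) * d4 - x h' * d2 - x₀ h * d3, ?_⟩
      linear_combination hd1 + hd4 - x h' * hd2 - x₀ h * hd3
    | add t t' ht ht' =>
      have e1 : twwLiftM x (t + t') - twwLiftE x (t + t') =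
          (twwLiftM x t - twwLiftE x t) + (twwLiftM x t' - twwLiftE x t') := by
        have h1 : twwLiftM x (t + t') = twwLiftM x t + twwLiftM x t' :=
          map_add (twwLiftM x).ofConv t t'
        have h2 : twwLiftE x (t + t') = twwLiftE x t + twwLiftE x t' :=
          map_add (twwLiftE x).ofConv t t'
        rw [h1, h2]; ring
      rw [e1]
      exact dvd_add ht ht'
  refine ⟨AlgHom.ofLinearMap x.ofConv hx1 (fun h h' => ?_), fun h => hxpt h⟩
  have := congrArg (fun g : WithConv (H ⊗[R] H →ₗ[R] S) => g (h ⊗ₜ[R] h')) hME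
  simpa [twwLiftM_apply, twwLiftE_apply] using this

/-- Separatedness in divisibility form, from Mathlib's `IsHausdorff`. -/
theorem tww_lift_sep_of_isHausdorff (ϖ : S) [hH : IsHausdorff (Ideal.span {ϖ}) S] :
    ∀ z : S, (∀ n, ϖ ^ n ∣ z) → z = 0 := by
  intro z hz
  apply hH.haus z
  intro n
  rw [SModEq.zero, smul_eq_mul, Ideal.mul_top, Ideal.span_singleton_pow,
    Ideal.mem_span_singleton]
  exact hz n

/-- Completeness in divisibility form, from Mathlib's `IsPrecomplete`. -/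
theorem tww_lift_pre_of_isPrecomplete (ϖ : S) [hP : IsPrecomplete (Ideal.span {ϖ}) S] :
    ∀ f : ℕ → S, (∀ n, ϖ ^ n ∣ f (n + 1) - f n) → ∃ L, ∀ n, ϖ ^ n ∣ L - f n := by
  intro f hf
  have hmn : ∀ m n, m ≤ n → ϖ ^ m ∣ f n - f m := by
    intro m n hmn
    induction n, hmn using Nat.le_induction with
    | base => simp
    | succ n hmn ih =>
      have : f (n + 1) - f m = (f (n + 1) - f n) + (f n - f m) := by ring
      rw [this]
      exact dvd_add ((pow_dvd_pow ϖ hmn).trans (hf n)) ih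
  obtain ⟨L, hL⟩ := hP.prec (f := f) (by
    intro m n hmn'
    rw [SModEq.sub_mem, smul_eq_mul, Ideal.mul_top, Ideal.span_singleton_pow,
      Ideal.mem_span_singleton]
    have := hmn m n hmn'
    rwa [← dvd_neg, neg_sub] at this)
  refine ⟨L, fun n => ?_⟩
  have := hL n
  rw [SModEq.sub_mem, smul_eq_mul, Ideal.mul_top, Ideal.span_singleton_pow,
    Ideal.mem_span_singleton] at this
  rwa [← dvd_neg, neg_sub] at this

/-- **(T3)** for a `ϖ`-adically complete ring in Mathlib's sense. -/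
theorem tww_lift_of_isAdicComplete (p : ℕ) (hp : p.Prime)
    (hkill : (toConv (AlgHom.id R H) : WithConv (H →ₐ[R] H)) ^ p = 1)
    (ϖ w : S) (e a : ℕ) (hϖ : ϖ ∈ nonZeroDivisors S) (hpw : ϖ ^ e = (p : S) * w)
    (ha : e < (p - 1) * a) [IsAdicComplete (Ideal.span {ϖ}) S]
    (x₀ : H →ₗ[R] S) (h1 : (p : S) * ϖ ^ a ∣ x₀ 1 - 1)
    (hmul : ∀ h h' : H, (p : S) * ϖ ^ a ∣ x₀ (h * h') - x₀ h * x₀ h') :
    ∃ x : H →ₐ[R] S, ∀ h : H, ϖ ^ a ∣ x h - x₀ h :=
  tww_lift p hp hkill ϖ w e a hϖ hpw ha (tww_lift_sep_of_isHausdorff ϖ)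
    (tww_lift_pre_of_isPrecomplete ϖ) x₀ h1 hmul

/-- **(T3), quotient form**: an `R`-algebra homomorphism `H → S ⧸ (p ϖ^a)` which has an
`R`-linear lift (automatic if `H` is projective over `R`) is congruent modulo `ϖ ^ a` to an
`R`-algebra homomorphism `H → S`. -/
theorem tww_lift_quot (p : ℕ) (hp : p.Prime)
    (hkill : (toConv (AlgHom.id R H) : WithConv (H →ₐ[R] H)) ^ p = 1)
    (ϖ w : S) (e a : ℕ) (hϖ : ϖ ∈ nonZeroDivisors S) (hpw : ϖ ^ e = (p : S) * w)
    (ha : e < (p - 1) * a)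
    (hsep : ∀ z : S, (∀ n, ϖ ^ n ∣ z) → z = 0)
    (hpre : ∀ f : ℕ → S, (∀ n, ϖ ^ n ∣ f (n + 1) - f n) → ∃ L, ∀ n, ϖ ^ n ∣ L - f n)
    (ξ : H →ₐ[R] S ⧸ Ideal.span {(p : S) * ϖ ^ a}) (x₀ : H →ₗ[R] S)
    (hx₀ : ∀ h, Ideal.Quotient.mk (Ideal.span {(p : S) * ϖ ^ a}) (x₀ h) = ξ h) :
    ∃ x : H →ₐ[R] S, ∀ h : H,
      Ideal.Quotient.mk (Ideal.span {ϖ ^ a}) (x h) =
        Ideal.Quotient.factor (Ideal.span_singleton_le_span_singleton.mpr
          (Dvd.intro_left (p : S) rfl)) (ξ h) := by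
  have hq : ∀ s : S, Ideal.Quotient.mk (Ideal.span {(p : S) * ϖ ^ a}) s = 0 ↔
      (p : S) * ϖ ^ a ∣ s := by
    intro s
    rw [Ideal.Quotient.eq_zero_iff_mem, Ideal.mem_span_singleton]
  have h1 : (p : S) * ϖ ^ a ∣ x₀ 1 - 1 := by
    rw [← hq, map_sub, hx₀, map_one, map_one, sub_self]
  have hmul : ∀ h h' : H, (p : S) * ϖ ^ a ∣ x₀ (h * h') - x₀ h * x₀ h' := by
    intro h h'
    rw [← hq, map_sub, hx₀, map_mul (Ideal.Quotient.mk _), hx₀, hx₀, map_mul ξ, sub_self]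
  obtain ⟨x, hx⟩ := tww_lift p hp hkill ϖ w e a hϖ hpw ha hsep hpre x₀ h1 hmul
  refine ⟨x, fun h => ?_⟩
  rw [← hx₀, Ideal.Quotient.factor_mk, Ideal.Quotient.eq, Ideal.mem_span_singleton]
  exact hx h

end Main

end Fermat.Agent.TW.W
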