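import Fermat.Agent.TW.W.InjVal
import Fermat.Agent.W1.HopfOfLattice

/-!
# TW-W (T2): no small torsion on a Hopf lattice

`H ⊂ Map(M, ℚ̄)` a Hopf lattice over `R ⊂ ℚ` (`W1.IsHopfLattice`), `A ⊂ ℚ̄` a valuation subring
containing `R`, `v = A.valuation`, `c ^ (p - 1) = p * t` with `t` a non-unit of `A`
(additively: `v(c) > v(p) / (p - 1)`).

* `tww_t2_eq`   : `p • m = 0`, `p • m' = 0` and `v (h m - h m') ≤ v c` for all `h ∈ H` ⇒ `m = m'`;
* `tww_t2_zero` : `p • m = 0` and `v (h m) ≤ v c` for all `h ∈ H` with `h 0 = 0` ⇒ `m = 0`;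
* `tww_t2_val_mem` : the values of a Hopf lattice lie in `A`.
-/

set_option autoImplicit false
set_option linter.unusedSectionVars false
set_option linter.style.haveILetI false

namespace Fermat.Agent.TW.W

open Fermat.Agent.W1 WithConv

local notation "Qb" => AlgebraicClosure ℚ

section T2

variable {R : Subring ℚ} [IsPrincipalIdealRing R] [IsFractionRing R ℚ]
  {M : Type} [AddCommGroup M] [Finite M]
  {act : (Qb ≃ₐ[ℚ] Qb) → M → M} {H : Subalgebra R (M → Qb)}

/-- The points of a Hopf lattice add up. -/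
theorem tww_t2_pointsEquiv_mul (hH : IsHopfLattice R act H) :
    letI := hopfAlgebraOfLattice hH
    ∀ f g : WithConv (H →ₐ[R] Qb),
      pointsEquiv hH (f * g) = pointsEquiv hH f + pointsEquiv hH g := by
  letI := hopfAlgebraOfLattice hH
  intro f g
  rw [pointsEquiv_eq_iff]
  intro h
  rw [AlgHom.convMul_apply]
  have hf := (pointsEquiv_eq_iff hH f _).1 rfl
  have hg := (pointsEquiv_eq_iff hH g _).1 rfl
  have hf' : f.ofConv = evPt H (pointsEquiv hH f) := AlgHom.ext hf
  have hg' : g.ofConv = evPt H (pointsEquiv hH g) := AlgHom.ext hg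
  have h1 : Algebra.TensorProduct.lift f.ofConv g.ofConv (fun _ _ => Commute.all _ _)
      (Coalgebra.comul (R := R) h) =
      Algebra.TensorProduct.lift (evPt H (pointsEquiv hH f)) (evPt H (pointsEquiv hH g))
        (fun _ _ => Commute.all _ _) (comulAlg hH h) := by
    congr 1
    · congr 1
  rw [h1, lift_ofConv, mu2_comulAlg_apply]

theorem tww_t2_pointsEquiv_one (hH : IsHopfLattice R act H) :
    letI := hopfAlgebraOfLattice hH
    pointsEquiv hH (1 : WithConv (H →ₐ[R] Qb)) = 0 := by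
  letI := hopfAlgebraOfLattice hH
  have h1 := tww_t2_pointsEquiv_mul hH 1 1
  rw [mul_one] at h1
  exact (add_eq_left.1 h1.symm)

theorem tww_t2_pointsEquiv_pow (hH : IsHopfLattice R act H) :
    letI := hopfAlgebraOfLattice hH
    ∀ (f : WithConv (H →ₐ[R] Qb)) (n : ℕ),
      pointsEquiv hH (f ^ n) = n • pointsEquiv hH f := by
  letI := hopfAlgebraOfLattice hH
  intro f n
  induction n with
  | zero => rw [pow_zero, zero_smul]; exact tww_t2_pointsEquiv_one hH
  | succ n ih => rw [pow_succ, tww_t2_pointsEquiv_mul hH, ih, add_smul, one_smul]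

theorem tww_t2_pointsEquiv_evPt (hH : IsHopfLattice R act H) (m : M) :
    pointsEquiv hH (toConv (evPt H m)) = m := by
  rw [pointsEquiv_eq_iff]
  intro h
  rfl

/-- A point killed by `p` gives a convolution `p`-torsion element. -/
theorem tww_t2_evPt_pow (hH : IsHopfLattice R act H) (p : ℕ) (m : M) (hpm : p • m = 0) :
    letI := hopfAlgebraOfLattice hH
    (toConv (evPt H m) : WithConv (H →ₐ[R] Qb)) ^ p = 1 := by
  letI := hopfAlgebraOfLattice hH
  apply (pointsEquiv hH).injective
  rw [tww_t2_pointsEquiv_pow hH, tww_t2_pointsEquiv_evPt, hpm, tww_t2_pointsEquiv_one hH]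

omit [IsPrincipalIdealRing R] [IsFractionRing R ℚ] [Finite M] in
/-- The values of a Hopf lattice are integral, hence lie in every valuation subring over `R`. -/
theorem tww_t2_val_mem (hH : IsHopfLattice R act H) (A : ValuationSubring Qb)
    (hRA : ∀ r : R, algebraMap R Qb r ∈ A) (h : M → Qb) (hh : h ∈ H) (m : M) : h m ∈ A := by
  haveI : Module.Finite R H := Module.Finite.iff_fg.2 hH.fg
  have hint : IsIntegral R (⟨h, hh⟩ : H) := Algebra.IsIntegral.isIntegral _
  have hint0 : IsIntegral R (h m) :=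
    hint.map ((Pi.evalAlgHom R (fun _ : M => Qb) m).comp H.val)
  obtain ⟨P, hP, hPx⟩ := hint0
  let φ : R →+* A := (algebraMap R Qb).codRestrict A.toSubring hRA
  have h1 : IsIntegral A (h m) := by
    refine ⟨P.map φ, hP.map _, ?_⟩
    rw [Polynomial.eval₂_map]
    have : (algebraMap A Qb).comp φ = algebraMap R Qb := by
      ext z; rfl
    rw [this]; exact hPx
  obtain ⟨y, hy⟩ := IsIntegrallyClosed.isIntegral_iff.mp h1
  rw [← hy]
  exact y.2

/-- **(T2), two points.** -/
theorem tww_t2_eq (hH : IsHopfLattice R act H) (A : ValuationSubring Qb)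
    (hRA : ∀ r : R, algebraMap R Qb r ∈ A)
    (p : ℕ) (hp : p.Prime) (c t : Qb) (hct : c ^ (p - 1) = (p : Qb) * t) (ht : t ∈ A.nonunits)
    (m m' : M) (hpm : p • m = 0) (hpm' : p • m' = 0)
    (hm : ∀ h ∈ H, A.valuation (h m - h m') ≤ A.valuation c) : m = m' := by
  letI := hopfAlgebraOfLattice hH
  haveI : Coalgebra.IsCocomm R H := isCocomm_hopfAlgebraOfLattice hH
  haveI : Module.Finite R H := Module.Finite.iff_fg.2 hH.fg
  have hpK : (p : Qb) ≠ 0 := by exact_mod_cast hp.ne_zero
  have key := tww_injv_algHom A hRA p hp hpK c t hct ht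
    (toConv (evPt H m)) (toConv (evPt H m')) (tww_t2_evPt_pow hH p m hpm)
    (tww_t2_evPt_pow hH p m' hpm')
    (fun h => tww_t2_val_mem hH A hRA h.1 h.2 m')
    (fun h => hm h.1 h.2)
  exact evPt_injective hH (toConv_injective key)

/-- **(T2)**: no small torsion. -/
theorem tww_t2_zero (hH : IsHopfLattice R act H) (A : ValuationSubring Qb)
    (hRA : ∀ r : R, algebraMap R Qb r ∈ A)
    (p : ℕ) (hp : p.Prime) (c t : Qb) (hct : c ^ (p - 1) = (p : Qb) * t) (ht : t ∈ A.nonunits)
    (m : M) (hpm : p • m = 0)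
    (hm : ∀ h ∈ H, h 0 = 0 → A.valuation (h m) ≤ A.valuation c) : m = 0 := by
  refine tww_t2_eq hH A hRA p hp c t hct ht m 0 hpm (smul_zero _) ?_
  intro h hh
  obtain ⟨r, hr⟩ := hH.counit_mem h hh
  have h1 : h - algebraMap R (M → Qb) r ∈ H := H.sub_mem hh (H.algebraMap_mem r)
  have h2 : (h - algebraMap R (M → Qb) r) 0 = 0 := by
    rw [Pi.sub_apply, hr]
    simp [Pi.algebraMap_apply]
  have h3 := hm _ h1 h2
  have h4 : (h - algebraMap R (M → Qb) r) m = h m - h 0 := by
    rw [Pi.sub_apply, hr]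
    simp [Pi.algebraMap_apply]
  rwa [h4] at h3

end T2

end Fermat.Agent.TW.W
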