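import Fermat.Agent.TW.W.Lift
import Fermat.Agent.TW.W.T2

/-!
# TW-W (T3) on a Hopf lattice

`H ⊂ Map(M, ℚ̄)` a Hopf lattice over `R ⊂ ℚ` (`W1.IsHopfLattice`), `p • M = 0`.

* `tww_liftlat_kill`   : the Hopf algebra of the lattice is killed by `p` (`[p] = unit ∘ counit`);
* `tww_liftlat_points` : for every field `F` with an embedding `ι : ℚ̄ → F`, the `F`-points of `H`
  are the `ι ∘ ev_m`, `m ∈ M`;
* `tww_liftlat`        : **(T3)**: an `R`-linear map `x₀ : H → S` (`S ⊂ F` complete) which is
  multiplicative modulo `p ϖ^a` is congruent modulo `ϖ^a` to `ι ∘ ev_m` for some `m ∈ M`, all of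
  whose coordinates `ι (h m)` lie in `S`.
-/

set_option autoImplicit false
set_option linter.unusedSectionVars false
set_option linter.style.haveILetI false

namespace Fermat.Agent.TW.W

open Fermat.Agent.W1 WithConv

local notation "Qb" => AlgebraicClosure ℚ

section LiftLat

variable {R : Subring ℚ} [IsPrincipalIdealRing R] [IsFractionRing R ℚ]
  {M : Type} [AddCommGroup M] [Finite M]
  {act : (Qb ≃ₐ[ℚ] Qb) → M → M} {H : Subalgebra R (M → Qb)}

/-- A Hopf lattice on a group killed by `p` is killed by `p`. -/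
theorem tww_liftlat_kill (hH : IsHopfLattice R act H) (p : ℕ) (hpM : ∀ m : M, p • m = 0) :
    letI := hopfAlgebraOfLattice hH
    (toConv (AlgHom.id R H) : WithConv (H →ₐ[R] H)) ^ p = 1 := by
  letI := hopfAlgebraOfLattice hH
  haveI : Coalgebra.IsCocomm R H := isCocomm_hopfAlgebraOfLattice hH
  apply ofConv_injective
  apply AlgHom.ext
  intro h
  apply Subtype.ext
  funext m
  have h1 := tww_lift_algHom_pow (R := R) (H := H) (evPt H m) p
  have h2 := tww_t2_evPt_pow hH p m (hpM m)
  rw [h1] at h2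
  have h3 := congrArg (fun f : WithConv (H →ₐ[R] Qb) => f.ofConv h) h2
  have h4 : ((1 : WithConv (H →ₐ[R] H)).ofConv h : M → Qb) m =
      (1 : WithConv (H →ₐ[R] Qb)).ofConv h := by
    change ((algebraMap R H (Coalgebra.counit (R := R) h) : H) : M → Qb) m =
      algebraMap R Qb (Coalgebra.counit (R := R) h)
    rfl
  rw [h4]
  exact h3

/-- The rank of a Hopf lattice is at most the order of the group. -/
theorem tww_liftlat_finrank_le (hH : IsHopfLattice R act H) :
    Module.finrank R H ≤ Nat.card M := by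
  classical
  haveI : Fintype M := Fintype.ofFinite M
  haveI : Module.Finite R H := Module.Finite.iff_fg.2 hH.fg
  haveI : Module.IsTorsionFree R H := isTorsionFree_lattice H
  haveI : Module.Free R H := Module.free_of_finite_type_torsion_free'
  have h1 : LinearIndependent (AlgebraicClosure ℚ)
      (fun i => ((Module.finBasis R H i : H) : M → AlgebraicClosure ℚ)) := by
    have h2 : LinearIndependent R
        (fun i => ((Module.finBasis R H i : H) : M → AlgebraicClosure ℚ)) :=
      (Module.finBasis R H).linearIndependent.map' (Subalgebra.toSubmodule H).subtype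
        (Submodule.ker_subtype _)
    have h3 : LinearIndependent ℚ
        (fun i => ((Module.finBasis R H i : H) : M → AlgebraicClosure ℚ)) :=
      (LinearIndependent.iff_fractionRing R ℚ).1 h2
    exact linearIndependent_qbar_of_rat act _
      (fun i σ x => hH.equivariant _ (Module.finBasis R H i).2 σ x) h3
  have h4 := h1.fintype_card_le_finrank
  simpa [Nat.card_eq_fintype_card] using h4

/-- The points of a Hopf lattice with values in a field `F ⊇ ℚ̄` are the evaluations at the
elements of `M`. -/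
theorem tww_liftlat_points (hH : IsHopfLattice R act H) {F : Type*} [Field F] [Algebra R F]
    (ι : Qb →ₐ[R] F) (y : H →ₐ[R] F) : ∃ m : M, ∀ h : H, y h = ι ((h : M → Qb) m) := by
  classical
  haveI : Module.Finite R H := Module.Finite.iff_fg.2 hH.fg
  haveI : Module.IsTorsionFree R H := isTorsionFree_lattice H
  haveI : Module.Free R H := Module.free_of_finite_type_torsion_free'
  haveI : Finite (H →ₐ[R] F) := Finite.algHom R H F
  let Φ : M → (H →ₐ[R] F) := fun m => ι.comp (evPt H m)
  have hΦ : Function.Injective Φ := by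
    intro m m' hmm
    apply evPt_injective hH
    apply AlgHom.ext
    intro h
    have := congrArg (fun f : H →ₐ[R] F => f h) hmm
    exact ι.toRingHom.injective this
  have hbij : Function.Bijective Φ :=
    Function.Injective.bijective_of_nat_card_le hΦ
      ((card_algHom_le_finrank R H F).trans (tww_liftlat_finrank_le hH))
  obtain ⟨m, hm⟩ := hbij.2 y
  exact ⟨m, fun h => by rw [← hm]; rfl⟩

/-- **(T3) on a Hopf lattice.** -/
theorem tww_liftlat (hH : IsHopfLattice R act H) (p : ℕ) (hp : p.Prime)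
    (hpM : ∀ m : M, p • m = 0)
    {F : Type*} [Field F] [Algebra R F] (ι : Qb →ₐ[R] F)
    {S : Type*} [CommRing S] [Algebra R S] [Algebra S F] [IsScalarTower R S F]
    (ϖ w : S) (e a : ℕ) (hϖ : ϖ ∈ nonZeroDivisors S) (hpw : ϖ ^ e = (p : S) * w)
    (ha : e < (p - 1) * a)
    (hsep : ∀ z : S, (∀ n, ϖ ^ n ∣ z) → z = 0)
    (hpre : ∀ f : ℕ → S, (∀ n, ϖ ^ n ∣ f (n + 1) - f n) → ∃ L, ∀ n, ϖ ^ n ∣ L - f n)
    (x₀ : H →ₗ[R] S) (h1 : (p : S) * ϖ ^ a ∣ x₀ 1 - 1)
    (hmul : ∀ h h' : H, (p : S) * ϖ ^ a ∣ x₀ (h * h') - x₀ h * x₀ h') :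
    ∃ m : M, ∀ h : H, ∃ s : S, algebraMap S F s = ι ((h : M → Qb) m) ∧ ϖ ^ a ∣ s - x₀ h := by
  letI := hopfAlgebraOfLattice hH
  haveI : Coalgebra.IsCocomm R H := isCocomm_hopfAlgebraOfLattice hH
  obtain ⟨x, hx⟩ := tww_lift p hp (tww_liftlat_kill hH p hpM) ϖ w e a hϖ hpw ha hsep hpre
    x₀ h1 hmul
  obtain ⟨m, hm⟩ := tww_liftlat_points hH ι ((IsScalarTower.toAlgHom R S F).comp x)
  exact ⟨m, fun h => ⟨x h, by rw [← hm]; rfl, hx h⟩⟩

end LiftLat

end Fermat.Agent.TW.W
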