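import Mathlib

/-!
# TW-W (W-et), local lattices 1: linear algebra over a local base

`W1-SQ` (sub-quotients of Hopf lattices) works over the base `(G_ℚ, R ⊂ ℚ)`.  The étale quotient of
a finite flat group scheme is only stable under the decomposition group, so `W-et` needs the same
theory over the base `(Γ, R₀)`, `Γ ⊂ G_ℚ` a subgroup (the inertia group) and `R₀ ⊂ ℚ̄^Γ` a principal
ideal domain with fraction field `ℚ̄^Γ`.

* `TwwLocBase Γ R₀`     : the hypotheses on the base (`R₀ → ℚ̄` injective, `Γ` fixes `R₀`, every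
  `Γ`-fixed element is a fraction of elements of `R₀`);
* `TwwLocLattice Γ act L` : `L ⊂ Map(M, ℚ̄)` is a finitely generated `R₀`-subalgebra of
  `Γ`-equivariant functions, separating the points, closed under the comultiplication;
* `twwloc_artin`        : Artin's lemma: `Γ`-equivariant functions which are linearly independent
  over `R₀` are linearly independent over `ℚ̄`;
* `twwloc_span_top`, `twwloc_exists_basis`, `twwloc_basis_span_top`, `twwloc_exists_smul_mem`.
-/

set_option autoImplicit false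
set_option linter.unusedSectionVars false
set_option linter.unusedSimpArgs false
set_option linter.style.haveILetI false

namespace Fermat.Agent.TW.W

local notation "Qb" => AlgebraicClosure ℚ

/-- The hypotheses on a local base `(Γ, R₀)`. -/
structure TwwLocBase (Γ : Subgroup (Qb ≃ₐ[ℚ] Qb)) (R₀ : Type) [CommRing R₀] [Algebra R₀ Qb] :
    Prop where
  inj : Function.Injective (algebraMap R₀ Qb)
  fixes : ∀ (r : R₀), ∀ σ ∈ Γ, σ (algebraMap R₀ Qb r) = algebraMap R₀ Qb r
  frac : ∀ x : Qb, (∀ σ ∈ Γ, σ x = x) →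
    ∃ a b : R₀, b ≠ 0 ∧ algebraMap R₀ Qb b * x = algebraMap R₀ Qb a

/-- A local Hopf lattice: a finitely generated `R₀`-algebra of `Γ`-equivariant functions on the
group `M`, separating the points and closed under the comultiplication. -/
structure TwwLocLattice (Γ : Subgroup (Qb ≃ₐ[ℚ] Qb)) {R₀ : Type} [CommRing R₀] [Algebra R₀ Qb]
    {M : Type} [AddCommGroup M] (act : (Qb ≃ₐ[ℚ] Qb) → M → M)
    (L : Subalgebra R₀ (M → Qb)) : Prop where
  fg : (Subalgebra.toSubmodule L).FG
  equivariant : ∀ h ∈ L, ∀ σ ∈ Γ, ∀ P : M, h (act σ P) = σ (h P)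
  separates : ∀ P Q : M, (∀ h ∈ L, h P = h Q) → P = Q
  comul_mem : ∀ h ∈ L, (fun PQ : M × M => h (PQ.1 + PQ.2)) ∈
    Submodule.span R₀ {F : M × M → Qb | ∃ a ∈ L, ∃ b ∈ L, F = fun PQ => a PQ.1 * b PQ.2}

/-- Pull-back of functions along a map, as an `R₀`-algebra homomorphism. -/
noncomputable def twwlocPull (R₀ : Type) [CommRing R₀] [Algebra R₀ Qb] {X Y : Type} (p : Y → X) :
    (X → Qb) →ₐ[R₀] (Y → Qb) :=
  AlgHom.pi (fun y => Pi.evalAlgHom R₀ (fun _ : X => Qb) (p y))

@[simp] theorem twwlocPull_apply (R₀ : Type) [CommRing R₀] [Algebra R₀ Qb] {X Y : Type}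
    (p : Y → X) (f : X → Qb) (y : Y) : twwlocPull R₀ p f y = f (p y) := rfl

theorem twwloc_apply_inv_apply (σ : Qb ≃ₐ[ℚ] Qb) (x : Qb) : σ (σ⁻¹ x) = x := by
  show (σ * σ⁻¹) x = x
  rw [mul_inv_cancel]; rfl

theorem twwloc_inv_apply_apply (σ : Qb ≃ₐ[ℚ] Qb) (x : Qb) : σ⁻¹ (σ x) = x := by
  show (σ⁻¹ * σ) x = x
  rw [inv_mul_cancel]; rfl

section Artin

variable {Γ : Subgroup (Qb ≃ₐ[ℚ] Qb)} {R₀ : Type} [CommRing R₀] [IsDomain R₀] [Algebra R₀ Qb]

/-- **Artin's lemma** over a local base: `Γ`-equivariant functions which are linearly independent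
over `R₀` are linearly independent over `ℚ̄`. -/
theorem twwloc_artin (hB : TwwLocBase Γ R₀) {X ι : Type*} (act : (Qb ≃ₐ[ℚ] Qb) → X → X)
    (h : ι → X → Qb) (hequiv : ∀ i, ∀ σ ∈ Γ, ∀ x : X, h i (act σ x) = σ (h i x))
    (hR : LinearIndependent R₀ h) : LinearIndependent Qb h := by
  classical
  rw [linearIndependent_iff']
  intro s
  induction s using Finset.induction_on with
  | empty => intro g _ i hi; simp at hi
  | insert a s has ih =>
    intro g hg
    -- twisting a relation by `σ`
    have twist : ∀ (t : Finset ι) (c : ι → Qb), ∑ i ∈ t, c i • h i = 0 →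
        ∀ σ ∈ Γ, ∑ i ∈ t, (σ (c i)) • h i = 0 := by
      intro t c hc σ hσ
      funext x
      have hσ' : σ⁻¹ ∈ Γ := Γ.inv_mem hσ
      have h1 := congrFun hc (act σ⁻¹ x)
      simp only [Finset.sum_apply, Pi.smul_apply, smul_eq_mul, Pi.zero_apply] at h1 ⊢
      have h2 := congrArg σ h1
      simp only [map_sum, map_mul, map_zero] at h2
      rw [← h2]
      refine Finset.sum_congr rfl fun i _ => ?_
      rw [hequiv i σ⁻¹ hσ' x, twwloc_apply_inv_apply]
    by_cases hga : g a = 0
    · have hs : ∑ i ∈ s, g i • h i = 0 := by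
        rw [Finset.sum_insert has, hga, zero_smul, zero_add] at hg
        exact hg
      intro i hi
      rcases Finset.mem_insert.1 hi with rfl | hi
      · exact hga
      · exact ih g hs i hi
    · exfalso
      set c : ι → Qb := fun i => (g a)⁻¹ * g i with hc
      have hca : c a = 1 := by simp [hc, hga]
      have hcrel : ∑ i ∈ insert a s, c i • h i = 0 := by
        have : ∑ i ∈ insert a s, c i • h i = (g a)⁻¹ • ∑ i ∈ insert a s, g i • h i := by
          rw [Finset.smul_sum]
          refine Finset.sum_congr rfl fun i _ => ?_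
          simp [hc, mul_smul]
        rw [this, hg, smul_zero]
      have hfix : ∀ i ∈ insert a s, ∀ σ ∈ Γ, σ (c i) = c i := by
        intro i hi σ hσ
        have h1 := twist _ c hcrel σ hσ
        have h2 : ∑ i ∈ s, (σ (c i) - c i) • h i = 0 := by
          have h3 : ∑ i ∈ insert a s, (σ (c i) - c i) • h i = 0 := by
            simp only [sub_smul, Finset.sum_sub_distrib, h1, hcrel, sub_zero]
          rw [Finset.sum_insert has, hca, map_one, sub_self, zero_smul, zero_add] at h3
          exact h3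
        rcases Finset.mem_insert.1 hi with rfl | hi
        · rw [hca, map_one]
        · exact sub_eq_zero.1 (ih _ h2 i hi)
      choose! na nb hnb hnab using fun i (hi : i ∈ insert a s) => hB.frac (c i) (hfix i hi)
      set t := insert a s with ht
      set q : ι → R₀ := fun i => (∏ j ∈ t.erase i, nb j) * na i with hq
      have hqc : ∀ i ∈ t, algebraMap R₀ Qb (q i) = algebraMap R₀ Qb (∏ j ∈ t, nb j) * c i := by
        intro i hi
        rw [← Finset.mul_prod_erase t nb hi]
        simp only [hq, map_mul]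
        rw [← hnab i hi]
        ring
      have hqrel : ∑ i ∈ t, q i • h i = 0 := by
        have h1 : ∑ i ∈ t, q i • h i =
            algebraMap R₀ Qb (∏ j ∈ t, nb j) • ∑ i ∈ t, c i • h i := by
          rw [Finset.smul_sum]
          refine Finset.sum_congr rfl fun i hi => ?_
          funext x
          have e1 : (q i • h i) x = algebraMap R₀ Qb (q i) * h i x := by
            rw [Pi.smul_apply, Algebra.smul_def]
          have e2 : (algebraMap R₀ Qb (∏ j ∈ t, nb j) • c i • h i) x =
              algebraMap R₀ Qb (∏ j ∈ t, nb j) * (c i * h i x) := by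
            simp only [Pi.smul_apply, smul_eq_mul]
          rw [e1, e2, hqc i hi, mul_assoc]
        rw [h1, hcrel, smul_zero]
      have h0 := linearIndependent_iff'.1 hR t q hqrel a (Finset.mem_insert_self a s)
      have h1 := hqc a (Finset.mem_insert_self a s)
      rw [h0, map_zero, hca, mul_one] at h1
      have h2 : (∏ j ∈ t, nb j) = 0 := hB.inj (by rw [← h1, map_zero])
      obtain ⟨j, hj, hj0⟩ := Finset.prod_eq_zero_iff.1 h2
      exact hnb j hj hj0

end Artin

section SpanTop

variable {R₀ : Type} [CommRing R₀] [Algebra R₀ Qb] {M : Type}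

/-- The `ℚ̄`-span of a subalgebra is a `ℚ̄`-subalgebra. -/
theorem twwloc_span_eq_adjoin (L : Subalgebra R₀ (M → Qb)) :
    Submodule.span Qb (L : Set (M → Qb)) =
      Subalgebra.toSubmodule (Algebra.adjoin Qb (L : Set (M → Qb))) := by
  rw [Algebra.adjoin_eq_span]
  congr 1
  have h1 : ((L.toSubsemiring.toSubmonoid : Submonoid (M → Qb)) : Set (M → Qb)) =
      (L : Set (M → Qb)) := rfl
  rw [← h1, Submonoid.closure_eq]

/-- Over a finite set, the `ℚ̄`-span of a separating subalgebra is everything. -/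
theorem twwloc_span_top [Finite M] (L : Subalgebra R₀ (M → Qb))
    (hsep : ∀ P Q : M, (∀ h ∈ L, h P = h Q) → P = Q) :
    Submodule.span Qb (L : Set (M → Qb)) = ⊤ := by
  classical
  haveI : Fintype M := Fintype.ofFinite M
  rw [twwloc_span_eq_adjoin]
  set A := Algebra.adjoin Qb (L : Set (M → Qb)) with hA
  have hex : ∀ P Q : M, P ≠ Q → ∃ h ∈ L, h P ≠ h Q := by
    intro P Q hPQ
    by_contra hcon
    refine hPQ (hsep P Q fun h hh => ?_)
    by_contra hne
    exact hcon ⟨h, hh, hne⟩
  have hind : ∀ P : M, (fun x => if x = P then (1 : Qb) else 0) ∈ A := by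
    intro P
    have hfac : ∀ Q : M, ∃ g ∈ A, g P = 1 ∧ (Q ≠ P → g Q = 0) := by
      intro Q
      by_cases hQ : Q = P
      · exact ⟨1, A.one_mem, rfl, fun h => absurd hQ h⟩
      · obtain ⟨h, hh, hne⟩ := hex P Q (Ne.symm hQ)
        have hne' : h P - h Q ≠ 0 := sub_ne_zero.2 hne
        refine ⟨(h P - h Q)⁻¹ • (h - algebraMap Qb _ (h Q)),
          A.smul_mem (A.sub_mem (Algebra.subset_adjoin hh) (A.algebraMap_mem _)) _, ?_, ?_⟩
        · simp [Pi.algebraMap_apply, hne']
        · intro _
          simp [Pi.algebraMap_apply]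
    choose g hgA hgP hgQ using hfac
    have h1 : (∏ Q ∈ Finset.univ.erase P, g Q) ∈ A := A.prod_mem fun Q _ => hgA Q
    convert h1 using 1
    funext x
    rw [Finset.prod_apply]
    by_cases hx : x = P
    · subst hx
      rw [if_pos rfl]
      symm
      refine Finset.prod_eq_one fun Q hQ => ?_
      exact hgP Q
    · rw [if_neg hx]
      symm
      refine Finset.prod_eq_zero (Finset.mem_erase.2 ⟨hx, Finset.mem_univ x⟩) ?_
      exact hgQ x hx
  rw [eq_top_iff]
  intro f _
  have hf : f = ∑ P : M, f P • (fun x => if x = P then (1 : Qb) else 0) := by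
    funext x
    simp [Finset.sum_apply]
  rw [hf]
  exact (Subalgebra.mem_toSubmodule A).2 (A.sum_mem fun P _ => A.smul_mem (hind P) _)

end SpanTop

section Basis

variable {Γ : Subgroup (Qb ≃ₐ[ℚ] Qb)} {R₀ : Type} [CommRing R₀] [IsDomain R₀] [Algebra R₀ Qb]
  {M : Type} {act : (Qb ≃ₐ[ℚ] Qb) → M → M} {L : Subalgebra R₀ (M → Qb)}

/-- Evaluation of a scalar multiple in a lattice. -/
theorem twwloc_coe_smul_apply (L : Subalgebra R₀ (M → Qb)) (r : R₀) (h : L) (Q : M) :
    ((r • h : L) : M → Qb) Q = algebraMap R₀ Qb r * (h : M → Qb) Q := by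
  show (r • (h : M → Qb)) Q = _
  rw [Pi.smul_apply, Algebra.smul_def]

/-- A lattice of functions is torsion free. -/
theorem twwloc_isTorsionFree (hB : TwwLocBase Γ R₀) (L : Subalgebra R₀ (M → Qb)) :
    Module.IsTorsionFree R₀ L := by
  refine Module.IsTorsionFree.of_smul_eq_zero fun r h hrh => ?_
  by_cases hr : r = 0
  · exact Or.inl hr
  · right
    apply Subtype.ext
    funext P
    have h1 : r • ((h : M → Qb) P) = 0 :=
      congrArg (fun x : L => (x : M → Qb) P) hrh
    rw [Algebra.smul_def] at h1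
    rcases mul_eq_zero.1 h1 with h2 | h2
    · exact absurd (hB.inj (by rw [h2, map_zero])) hr
    · simpa using h2

variable [IsPrincipalIdealRing R₀]

/-- A finitely generated lattice of `Γ`-equivariant functions has an `R₀`-basis which is linearly
independent over `ℚ̄`. -/
theorem twwloc_exists_basis (hB : TwwLocBase Γ R₀) (hfg : (Subalgebra.toSubmodule L).FG)
    (hequiv : ∀ h ∈ L, ∀ σ ∈ Γ, ∀ P : M, h (act σ P) = σ (h P)) :
    ∃ (n : ℕ) (b : Module.Basis (Fin n) R₀ L),
      LinearIndependent Qb (fun i => ((b i : L) : M → Qb)) := by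
  haveI : Module.Finite R₀ L := Module.Finite.iff_fg.2 hfg
  haveI : Module.IsTorsionFree R₀ L := twwloc_isTorsionFree hB L
  haveI : Module.Free R₀ L := Module.free_of_finite_type_torsion_free'
  refine ⟨_, Module.finBasis R₀ L, ?_⟩
  set b := Module.finBasis R₀ L
  have h1 : LinearIndependent R₀ (fun i => ((b i : L) : M → Qb)) := by
    have := b.linearIndependent.map' (Subalgebra.toSubmodule L).subtype
      (Submodule.ker_subtype _)
    exact this
  exact twwloc_artin hB act _ (fun i σ hσ x => hequiv _ (b i).2 σ hσ x) h1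

omit [IsDomain R₀] [IsPrincipalIdealRing R₀] in
/-- An `R₀`-basis of a separating lattice spans all functions over `ℚ̄`. -/
theorem twwloc_basis_span_top [Finite M] (hsep : ∀ P Q : M, (∀ h ∈ L, h P = h Q) → P = Q)
    {n : ℕ} (b : Module.Basis (Fin n) R₀ L) :
    Submodule.span Qb (Set.range fun i => ((b i : L) : M → Qb)) = ⊤ := by
  rw [eq_top_iff, ← twwloc_span_top L hsep, Submodule.span_le]
  intro h hh
  have h1 : (⟨h, hh⟩ : L) = ∑ i, b.repr ⟨h, hh⟩ i • b i := (b.sum_repr _).symm
  have h2 : h = ∑ i, (algebraMap R₀ Qb (b.repr ⟨h, hh⟩ i)) • ((b i : L) : M → Qb) := by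
    have h3 := congrArg (fun x : L => (x : M → Qb)) h1
    simp only [AddSubmonoidClass.coe_finsetSum] at h3
    refine h3.trans ?_
    refine Finset.sum_congr rfl fun i _ => ?_
    funext x
    simp [Algebra.smul_def]
  rw [h2]
  exact Submodule.sum_mem _ fun i _ =>
    Submodule.smul_mem _ _ (Submodule.subset_span ⟨i, rfl⟩)

/-- **`Frac(R₀) L = Map_Γ(M, ℚ̄)`**: every `Γ`-equivariant function has a non-zero multiple in a
separating lattice `L`. -/
theorem twwloc_exists_smul_mem [Finite M] (hB : TwwLocBase Γ R₀)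
    (hfg : (Subalgebra.toSubmodule L).FG)
    (hequiv : ∀ h ∈ L, ∀ σ ∈ Γ, ∀ P : M, h (act σ P) = σ (h P))
    (hsep : ∀ P Q : M, (∀ h ∈ L, h P = h Q) → P = Q)
    (f : M → Qb) (hf : ∀ σ ∈ Γ, ∀ P : M, f (act σ P) = σ (f P)) :
    ∃ d : R₀, d ≠ 0 ∧ d • f ∈ L := by
  classical
  obtain ⟨n, b, hli⟩ := twwloc_exists_basis hB hfg hequiv
  have hspan := twwloc_basis_span_top hsep b
  set v : Fin n → M → Qb := fun i => ((b i : L) : M → Qb) with hv
  have hfmem : f ∈ Submodule.span Qb (Set.range v) := by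
    rw [hspan]; trivial
  obtain ⟨c, hc⟩ := (Submodule.mem_span_range_iff_exists_fun Qb).1 hfmem
  -- the coefficients are `Γ`-invariant
  have hfix : ∀ σ ∈ Γ, ∀ i : Fin n, σ (c i) = c i := by
    intro σ hσ
    have hσ' : σ⁻¹ ∈ Γ := Γ.inv_mem hσ
    have h1 : ∑ i, σ (c i) • v i = f := by
      funext x
      have h2 := congrFun hc (act σ⁻¹ x)
      simp only [Finset.sum_apply, Pi.smul_apply, smul_eq_mul] at h2 ⊢
      have h3 := congrArg σ h2
      rw [hf σ⁻¹ hσ' x, twwloc_apply_inv_apply] at h3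
      simp only [map_sum, map_mul] at h3
      rw [← h3]
      refine Finset.sum_congr rfl fun i _ => ?_
      have h5 : v i (act σ⁻¹ x) = σ⁻¹ (v i x) := hequiv _ (b i).2 σ⁻¹ hσ' x
      rw [h5, twwloc_apply_inv_apply]
    have h4 : ∑ i, (σ (c i) - c i) • v i = 0 := by
      simp only [sub_smul, Finset.sum_sub_distrib, h1, hc, sub_self]
    intro i
    exact sub_eq_zero.1 (Fintype.linearIndependent_iff.1 hli _ h4 i)
  choose na nb hnb hnab using fun i => hB.frac (c i) (fun σ hσ => hfix σ hσ i)
  refine ⟨∏ i, nb i, Finset.prod_ne_zero_iff.2 fun i _ => hnb i, ?_⟩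
  set q : Fin n → R₀ := fun i => (∏ j ∈ Finset.univ.erase i, nb j) * na i with hq
  have hqc : ∀ i, algebraMap R₀ Qb (q i) = algebraMap R₀ Qb (∏ j, nb j) * c i := by
    intro i
    rw [← Finset.mul_prod_erase Finset.univ nb (Finset.mem_univ i)]
    simp only [hq, map_mul]
    rw [← hnab i]
    ring
  have h5 : (∏ i, nb i) • f = ∑ i, q i • v i := by
    rw [← hc, Finset.smul_sum]
    refine Finset.sum_congr rfl fun i _ => ?_
    funext x
    have e1 : (q i • v i) x = algebraMap R₀ Qb (q i) * v i x := by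
      rw [Pi.smul_apply, Algebra.smul_def]
    have e2 : ((∏ i, nb i) • c i • v i) x =
        algebraMap R₀ Qb (∏ j, nb j) * (c i * v i x) := by
      rw [Pi.smul_apply, Algebra.smul_def, Pi.smul_apply, smul_eq_mul]
    rw [e1, e2, hqc i, mul_assoc]
  rw [h5]
  exact L.sum_mem fun i _ => L.smul_mem (b i).2 _

end Basis

end Fermat.Agent.TW.W
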