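import Fermat.Agent.TW.W.LiftLat
import Fermat.Agent.TW.W.T2Loc

/-!
# TW-W (P_m), abstract core

`H ⊂ Map(M, ℚ̄)` a Hopf lattice over `ℤ_(p)`, `p • M = 0`; `S` ("`𝒪_E`") a complete ring inside a
field `F ⊇ ℚ̄`; for every `m ∈ M` a ring homomorphism `g m : H → S ⧸ (p ϖ^a)` ("`η ∘ ev_m`") such
that `g m₁ h ≡ g m₂ h mod ϖ^a` forces `h m₁ - h m₂ ∈ c A` (`v(c) > 1/(p-1)`).  Then all the
coordinates `ι (h m)` lie in `S`.
-/

set_option autoImplicit false
set_option linter.unusedSectionVars false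
set_option linter.style.haveILetI false

namespace Fermat.Agent.TW.W

open Fermat.Agent.W1 GaloisRep WithConv

local notation "Qb" => AlgebraicClosure ℚ

/-- Ring homomorphisms out of `ℤ_(p)` are unique. -/
theorem tww_pm_ratLoc_hom_ext {p : ℕ} {Q : Type*} [Ring Q] (φ ψ : ratLocalizedAt p →+* Q) :
    φ = ψ := by
  ext r
  have hden : ((r : ℚ).den : ℚ) ≠ 0 := by exact_mod_cast (r : ℚ).den_nz
  let d : ratLocalizedAt p := ((r : ℚ).den : ratLocalizedAt p)
  have hdinv_mem : (((r : ℚ).den : ℚ)⁻¹) ∈ ratLocalizedAt p := by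
    change ((((r : ℚ).den : ℚ)⁻¹).den).Coprime p
    have h1 : (((r : ℚ).den : ℚ)⁻¹).den = (r : ℚ).den := by
      rw [Rat.inv_natCast_den]
      simp [(r : ℚ).den_nz]
    rw [h1]
    exact r.2
  let dinv : ratLocalizedAt p := ⟨_, hdinv_mem⟩
  have h1 : d * dinv = 1 := by
    apply Subtype.ext
    change (((r : ℚ).den : ratLocalizedAt p) : ℚ) * (((r : ℚ).den : ℚ)⁻¹) = 1
    rw [show (((r : ℚ).den : ratLocalizedAt p) : ℚ) = ((r : ℚ).den : ℚ) from rfl]
    exact mul_inv_cancel₀ hden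
  have h2 : r * d = ((r : ℚ).num : ratLocalizedAt p) := by
    apply Subtype.ext
    change (r : ℚ) * (((r : ℚ).den : ratLocalizedAt p) : ℚ) =
      (((r : ℚ).num : ratLocalizedAt p) : ℚ)
    rw [show (((r : ℚ).den : ratLocalizedAt p) : ℚ) = ((r : ℚ).den : ℚ) from rfl,
      show (((r : ℚ).num : ratLocalizedAt p) : ℚ) = ((r : ℚ).num : ℚ) from rfl]
    exact Rat.mul_den_eq_num (r : ℚ)
  have h3 : φ r * φ d = ψ r * ψ d := by
    rw [← map_mul, ← map_mul, h2, map_intCast, map_intCast]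
  have h4 : φ d = ψ d := by
    rw [map_natCast, map_natCast]
  have h5 : ψ d * ψ dinv = 1 := by rw [← map_mul, h1, map_one]
  calc φ r = φ r * (ψ d * ψ dinv) := by rw [h5, mul_one]
    _ = (φ r * φ d) * ψ dinv := by rw [h4, mul_assoc]
    _ = (ψ r * ψ d) * ψ dinv := by rw [h3]
    _ = ψ r := by rw [mul_assoc, h5, mul_one]

section Core

variable {p : ℕ} {M : Type} [AddCommGroup M] [Finite M]
  {act : (Qb ≃ₐ[ℚ] Qb) → M → M} {H : Subalgebra (ratLocalizedAt p) (M → Qb)}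

/-- A ring homomorphism from a Hopf lattice to a quotient of an `ℤ_(p)`-algebra has an
`ℤ_(p)`-linear lift. -/
theorem tww_pm_linear_lift [Fact p.Prime] (hH : IsHopfLattice (ratLocalizedAt p) act H)
    {S : Type*} [CommRing S] [Algebra (ratLocalizedAt p) S] (I : Ideal S)
    (g : H →+* S ⧸ I) :
    ∃ x₀ : H →ₗ[ratLocalizedAt p] S, ∀ h : H, Ideal.Quotient.mk I (x₀ h) = g h := by
  classical
  haveI : Module.Finite (ratLocalizedAt p) H := Module.Finite.iff_fg.2 hH.fg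
  haveI : Module.IsTorsionFree (ratLocalizedAt p) H := isTorsionFree_lattice H
  haveI : Module.Free (ratLocalizedAt p) H := Module.free_of_finite_type_torsion_free'
  have hg : ∀ r : ratLocalizedAt p,
      g (algebraMap (ratLocalizedAt p) H r) = algebraMap (ratLocalizedAt p) (S ⧸ I) r := by
    intro r
    have := tww_pm_ratLoc_hom_ext (g.comp (algebraMap (ratLocalizedAt p) H))
      (algebraMap (ratLocalizedAt p) (S ⧸ I))
    exact congrArg (fun f : ratLocalizedAt p →+* S ⧸ I => f r) this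
  let g' : H →ₗ[ratLocalizedAt p] S ⧸ I :=
    { toFun := g
      map_add' := map_add g
      map_smul' := by
        intro r h
        rw [Algebra.smul_def, map_mul, hg, RingHom.id_apply, Algebra.smul_def] }
  obtain ⟨x₀, hx₀⟩ := Module.projective_lifting_property
    (Ideal.Quotient.mkₐ (ratLocalizedAt p) I).toLinearMap g'
    (Ideal.Quotient.mkₐ_surjective (ratLocalizedAt p) I)
  refine ⟨x₀, fun h => ?_⟩
  have := congrArg (fun f : H →ₗ[ratLocalizedAt p] S ⧸ I => f h) hx₀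
  exact this

/-- **(P_m), abstract core.** -/
theorem tww_pm_core [Fact p.Prime] (hH : IsHopfLattice (ratLocalizedAt p) act H)
    (hpM : ∀ m : M, p • m = 0)
    (A : ValuationSubring Qb) (hA : A.LiesOverPrime p)
    (c t : Qb) (hct : c ^ (p - 1) = (p : Qb) * t) (ht : t ∈ A.nonunits)
    {F : Type*} [Field F] [Algebra (ratLocalizedAt p) F] (ι : Qb →ₐ[ratLocalizedAt p] F)
    {S : Type*} [CommRing S] [Algebra (ratLocalizedAt p) S] [Algebra S F]
    [IsScalarTower (ratLocalizedAt p) S F]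
    (hSF : Function.Injective (algebraMap S F))
    (ϖ w : S) (e a : ℕ) (hϖ : ϖ ∈ nonZeroDivisors S) (hpw : ϖ ^ e = (p : S) * w)
    (ha : e < (p - 1) * a)
    (hsep : ∀ z : S, (∀ n, ϖ ^ n ∣ z) → z = 0)
    (hpre : ∀ f : ℕ → S, (∀ n, ϖ ^ n ∣ f (n + 1) - f n) → ∃ L, ∀ n, ϖ ^ n ∣ L - f n)
    (g : M → H →+* S ⧸ Ideal.span {(p : S) * ϖ ^ a})
    (hval : ∀ (m₁ m₂ : M) (h : H) (s : S),
      g m₁ h - g m₂ h = Ideal.Quotient.mk (Ideal.span {(p : S) * ϖ ^ a}) (ϖ ^ a * s) →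
        ∃ z ∈ A, (h : M → Qb) m₁ - (h : M → Qb) m₂ = c * z) :
    ∀ (m : M) (h : H), ∃ s : S, algebraMap S F s = ι ((h : M → Qb) m) := by
  classical
  have hq : ∀ s : S, Ideal.Quotient.mk (Ideal.span {(p : S) * ϖ ^ a}) s = 0 ↔
      (p : S) * ϖ ^ a ∣ s := by
    intro s
    rw [Ideal.Quotient.eq_zero_iff_mem, Ideal.mem_span_singleton]
  -- linear lifts
  have hlift := fun m => tww_pm_linear_lift hH (Ideal.span {(p : S) * ϖ ^ a}) (g m)
  choose x₀ hx₀ using hlift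
  -- the lifted points
  have hT3 : ∀ m : M, ∃ m' : M, ∀ h : H, ∃ s : S,
      algebraMap S F s = ι ((h : M → Qb) m') ∧ ϖ ^ a ∣ s - x₀ m h := by
    intro m
    refine tww_liftlat hH p Fact.out hpM ι ϖ w e a hϖ hpw ha hsep hpre (x₀ m) ?_ ?_
    · rw [← hq, map_sub, hx₀, map_one, map_one, sub_self]
    · intro h h'
      rw [← hq, map_sub, hx₀, map_mul (Ideal.Quotient.mk _), hx₀, hx₀, map_mul (g m), sub_self]
  choose τ hτ using hT3
  have hτinj : Function.Injective τ := by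
    intro m₁ m₂ h12
    refine tww_t2_eq_loc hH A hA c t hct ht m₁ m₂ (hpM _) (hpM _) ?_
    intro h hh
    obtain ⟨s₁, hs₁, hd₁⟩ := hτ m₁ ⟨h, hh⟩
    obtain ⟨s₂, hs₂, hd₂⟩ := hτ m₂ ⟨h, hh⟩
    have hs : s₁ = s₂ := by
      apply hSF
      rw [hs₁, hs₂, h12]
    subst hs
    obtain ⟨d₁, hd₁⟩ := hd₁
    obtain ⟨d₂, hd₂⟩ := hd₂
    refine hval m₁ m₂ ⟨h, hh⟩ (d₂ - d₁) ?_
    rw [← hx₀, ← hx₀, ← map_sub]
    congr 1
    linear_combination hd₂ - hd₁
  have hτsurj : Function.Surjective τ := Finite.injective_iff_surjective.mp hτinj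
  intro m h
  obtain ⟨m₀, rfl⟩ := hτsurj m
  obtain ⟨s, hs, -⟩ := hτ m₀ h
  exact ⟨s, hs⟩

end Core

end Fermat.Agent.TW.W
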